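/-
S55 / CFT (P0.1) — helper9.
Smooth representations of a group `Γ` with respect to an "open basis" `𝒰`
(a directed family of normal subgroups of finite index): the full subcategory
`SmRep k 𝒰` of Mathlib's `Rep k Γ` of representations with `𝒰`-open stabilisers.
It is abelian, has enough injectives and `HasExt`.
-/
import Mathlib

set_option autoImplicit false

open CategoryTheory CategoryTheory.Limits

namespace Fermat.Agent.CFT.Sm

/-- A directed family of normal finite-index subgroups of `Γ` ("basis of open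
neighbourhoods of `1`" of a profinite-like topology). -/
structure OpenBasis (Γ : Type) [Group Γ] where
  /-- the basic open subgroups -/
  sets : Set (Subgroup Γ)
  nonempty : sets.Nonempty
  normal : ∀ U ∈ sets, U.Normal
  finiteIndex : ∀ U ∈ sets, U.FiniteIndex
  directed : ∀ U ∈ sets, ∀ V ∈ sets, ∃ W ∈ sets, W ≤ U ⊓ V

namespace OpenBasis

variable {Γ : Type} [Group Γ] (𝒰 : OpenBasis Γ)

/-- A subgroup is open if it contains a basic open subgroup. -/
def IsOpen (H : Subgroup Γ) : Prop := ∃ U ∈ 𝒰.sets, U ≤ H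

lemma isOpen_of_mem {U : Subgroup Γ} (hU : U ∈ 𝒰.sets) : 𝒰.IsOpen U := ⟨U, hU, le_rfl⟩

lemma IsOpen.mono {H H' : Subgroup Γ} (h : 𝒰.IsOpen H) (hle : H ≤ H') : 𝒰.IsOpen H' := by
  obtain ⟨U, hU, hUH⟩ := h
  exact ⟨U, hU, hUH.trans hle⟩

lemma isOpen_top : 𝒰.IsOpen ⊤ := by
  obtain ⟨U, hU⟩ := 𝒰.nonempty
  exact ⟨U, hU, le_top⟩

lemma IsOpen.inf {H H' : Subgroup Γ} (h : 𝒰.IsOpen H) (h' : 𝒰.IsOpen H') : 𝒰.IsOpen (H ⊓ H') := by
  obtain ⟨U, hU, hUH⟩ := h
  obtain ⟨V, hV, hVH⟩ := h'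
  obtain ⟨W, hW, hWUV⟩ := 𝒰.directed U hU V hV
  exact ⟨W, hW, hWUV.trans (inf_le_inf hUH hVH)⟩

lemma IsOpen.finiteIndex {H : Subgroup Γ} (h : 𝒰.IsOpen H) : H.FiniteIndex := by
  obtain ⟨U, hU, hUH⟩ := h
  have := 𝒰.finiteIndex U hU
  exact Subgroup.finiteIndex_of_le hUH

/-- Finitely many open subgroups contain a common basic open subgroup. -/
lemma exists_mem_le_of_finite {ι : Type*} [Finite ι] (H : ι → Subgroup Γ)
    (hH : ∀ i, 𝒰.IsOpen (H i)) : ∃ U ∈ 𝒰.sets, ∀ i, U ≤ H i := by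
  classical
  induction ι using Finite.induction_empty_option with
  | of_equiv e ih =>
    obtain ⟨U, hU, h⟩ := ih (fun i => H (e i)) (fun i => hH _)
    exact ⟨U, hU, fun i => by simpa using h (e.symm i)⟩
  | h_empty =>
    obtain ⟨U, hU⟩ := 𝒰.nonempty
    exact ⟨U, hU, fun i => i.elim⟩
  | h_option ih =>
    obtain ⟨U, hU, h⟩ := ih (fun i => H (some i)) (fun i => hH _)
    obtain ⟨V, hV, hVH⟩ := hH none
    obtain ⟨W, hW, hWUV⟩ := 𝒰.directed U hU V hV
    refine ⟨W, hW, fun i => ?_⟩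
    cases i with
    | none => exact (hWUV.trans inf_le_right).trans hVH
    | some i => exact (hWUV.trans inf_le_left).trans (h i)

/-- The pulled-back basis along a group homomorphism. -/
def comap {Γ' : Type} [Group Γ'] (φ : Γ' →* Γ) : OpenBasis Γ' where
  sets := (fun U => U.comap φ) '' 𝒰.sets
  nonempty := 𝒰.nonempty.image _
  normal := by
    rintro _ ⟨U, hU, rfl⟩
    have := 𝒰.normal U hU
    change (U.comap φ).Normal
    infer_instance
  finiteIndex := by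
    rintro _ ⟨U, hU, rfl⟩
    have h1 := 𝒰.finiteIndex U hU
    have h2 := 𝒰.normal U hU
    change (U.comap φ).FiniteIndex
    refine ⟨?_⟩
    rw [Subgroup.index_comap]
    exact fun h0 => h1.index_ne_zero (Nat.eq_zero_of_zero_dvd
      (h0 ▸ Subgroup.relIndex_dvd_index_of_normal U φ.range))
  directed := by
    rintro _ ⟨U, hU, rfl⟩ _ ⟨V, hV, rfl⟩
    obtain ⟨W, hW, hWUV⟩ := 𝒰.directed U hU V hV
    refine ⟨W.comap φ, ⟨W, hW, rfl⟩, ?_⟩
    rw [← Subgroup.comap_inf]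
    exact Subgroup.comap_mono hWUV

lemma mem_comap_sets {Γ' : Type} [Group Γ'] (φ : Γ' →* Γ) {V : Subgroup Γ'} :
    V ∈ (𝒰.comap φ).sets ↔ ∃ U ∈ 𝒰.sets, U.comap φ = V := Iff.rfl

lemma isOpen_comap {Γ' : Type} [Group Γ'] (φ : Γ' →* Γ) {H : Subgroup Γ} (h : 𝒰.IsOpen H) :
    (𝒰.comap φ).IsOpen (H.comap φ) := by
  obtain ⟨U, hU, hUH⟩ := h
  exact ⟨U.comap φ, ⟨U, hU, rfl⟩, Subgroup.comap_mono hUH⟩

/-- `𝒱` is finer than `𝒰` if every `𝒰`-open subgroup is `𝒱`-open. -/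
def Finer (𝒱 𝒰 : OpenBasis Γ) : Prop := ∀ U ∈ 𝒰.sets, 𝒱.IsOpen U

lemma Finer.isOpen {𝒱 𝒰 : OpenBasis Γ} (h : 𝒱.Finer 𝒰) {H : Subgroup Γ} (hH : 𝒰.IsOpen H) :
    𝒱.IsOpen H := by
  obtain ⟨U, hU, hUH⟩ := hH
  exact (h U hU).mono _ hUH

lemma Finer.refl : 𝒰.Finer 𝒰 := fun _ hU => 𝒰.isOpen_of_mem hU

end OpenBasis

variable {k Γ : Type} [CommRing k] [Group Γ]

/-- A representation is smooth (discrete) if every vector has an open stabiliser. -/
def IsSmooth (𝒰 : OpenBasis Γ) (A : Rep.{0} k Γ) : Prop :=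
  ∀ a : A.V, ∃ U ∈ 𝒰.sets, ∀ g ∈ U, A.ρ g a = a

namespace IsSmooth

variable {𝒰 : OpenBasis Γ} {A B : Rep.{0} k Γ}

/-- Finitely many vectors of a smooth representation are fixed by a common basic open subgroup. -/
lemma exists_mem_forall_fixed (hA : IsSmooth 𝒰 A) {ι : Type*} [Finite ι] (a : ι → A.V) :
    ∃ U ∈ 𝒰.sets, ∀ i, ∀ g ∈ U, A.ρ g (a i) = a i := by
  choose U hU hfix using fun i => hA (a i)
  obtain ⟨W, hW, hWU⟩ := 𝒰.exists_mem_le_of_finite U (fun i => 𝒰.isOpen_of_mem (hU i))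
  exact ⟨W, hW, fun i g hg => hfix i g (hWU i hg)⟩

lemma of_injective (hB : IsSmooth 𝒰 B) (f : A ⟶ B) (hf : Function.Injective f.hom) :
    IsSmooth 𝒰 A := by
  intro a
  obtain ⟨U, hU, h⟩ := hB (f.hom a)
  refine ⟨U, hU, fun g hg => hf ?_⟩
  rw [Rep.hom_comm_apply, h g hg]

lemma of_surjective (hA : IsSmooth 𝒰 A) (f : A ⟶ B) (hf : Function.Surjective f.hom) :
    IsSmooth 𝒰 B := by
  intro b
  obtain ⟨a, rfl⟩ := hf b
  obtain ⟨U, hU, h⟩ := hA a
  refine ⟨U, hU, fun g hg => ?_⟩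
  rw [← Rep.hom_comm_apply, h g hg]

lemma of_finer {𝒱 : OpenBasis Γ} (h : 𝒱.Finer 𝒰) (hA : IsSmooth 𝒰 A) : IsSmooth 𝒱 A := by
  intro a
  obtain ⟨U, hU, hfix⟩ := hA a
  obtain ⟨V, hV, hVU⟩ := h U hU
  exact ⟨V, hV, fun g hg => hfix g (hVU hg)⟩

end IsSmooth

variable (k) in
/-- The object property of smooth representations. -/
def smoothProp (𝒰 : OpenBasis Γ) : ObjectProperty (Rep.{0} k Γ) := fun A => IsSmooth 𝒰 A

lemma smoothProp_iff (𝒰 : OpenBasis Γ) (A : Rep.{0} k Γ) : smoothProp k 𝒰 A ↔ IsSmooth 𝒰 A :=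
  Iff.rfl

instance (𝒰 : OpenBasis Γ) : (smoothProp k 𝒰).IsClosedUnderSubobjects where
  prop_of_mono f _ hY := IsSmooth.of_injective hY f ((Rep.mono_iff_injective f).1 inferInstance)

instance (𝒰 : OpenBasis Γ) : (smoothProp k 𝒰).IsClosedUnderQuotients where
  prop_of_epi f _ hX := IsSmooth.of_surjective hX f ((Rep.epi_iff_surjective f).1 inferInstance)

instance (𝒰 : OpenBasis Γ) : (smoothProp k 𝒰).ContainsZero where
  exists_zero := ⟨Rep.trivial k Γ PUnit, (Rep.isZero_iff _ _ _).2 (inferInstanceAs (Subsingleton PUnit)),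
    fun a => by
      obtain ⟨U, hU⟩ := 𝒰.nonempty
      exact ⟨U, hU, fun g _ => Subsingleton.elim (α := PUnit) _ _⟩⟩

lemma isSmooth_prod (𝒰 : OpenBasis Γ) {A B : Rep.{0} k Γ} (hA : IsSmooth 𝒰 A)
    (hB : IsSmooth 𝒰 B) : IsSmooth 𝒰 (Rep.of (X := A.V × B.V) (A.ρ.prod B.ρ)) := by
  rintro ⟨a, b⟩
  obtain ⟨U, hU, hUa⟩ := hA a
  obtain ⟨V, hV, hVb⟩ := hB b
  obtain ⟨W, hW, hWUV⟩ := 𝒰.directed U hU V hV
  refine ⟨W, hW, fun g hg => ?_⟩
  have h1 := hUa g (hWUV hg).1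
  have h2 := hVb g (hWUV hg).2
  exact Prod.ext h1 h2

instance (𝒰 : OpenBasis Γ) : (smoothProp k 𝒰).IsClosedUnderBinaryProducts :=
  ObjectProperty.IsClosedUnderLimitsOfShape.mk' (by
    rintro _ ⟨F, hF⟩
    let A := F.obj ⟨WalkingPair.left⟩
    let B := F.obj ⟨WalkingPair.right⟩
    let φ : limit F ⟶ Rep.of (X := A.V × B.V) (A.ρ.prod B.ρ) :=
      Rep.ofHom ⟨LinearMap.prod (limit.π F ⟨WalkingPair.left⟩).hom.toLinearMap
        (limit.π F ⟨WalkingPair.right⟩).hom.toLinearMap, fun g => by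
          ext x
          · exact Rep.hom_comm_apply (limit.π F ⟨WalkingPair.left⟩) g x
          · exact Rep.hom_comm_apply (limit.π F ⟨WalkingPair.right⟩) g x⟩
    have hφ : Function.Injective φ.hom := by
      rw [← Rep.mono_iff_injective]
      refine Preadditive.mono_of_cancel_zero _ (fun {Z} h hh => ?_)
      refine limit.hom_ext (fun j => ?_)
      rw [zero_comp]
      ext z
      have hz : φ.hom (h.hom z) = 0 := by
        have := congrArg (fun t => t.hom z) hh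
        simpa using this
      rcases j with ⟨_ | _⟩
      · exact congrArg Prod.fst hz
      · exact congrArg Prod.snd hz
    exact IsSmooth.of_injective (isSmooth_prod 𝒰 (hF _) (hF _)) φ hφ)

instance (𝒰 : OpenBasis Γ) : (smoothProp k 𝒰).IsClosedUnderFiniteProducts :=
  ObjectProperty.IsClosedUnderFiniteProducts.mk'

variable (k) in
/-- The category of smooth `k`-linear representations of `(Γ, 𝒰)`. -/
abbrev SmRep (𝒰 : OpenBasis Γ) : Type 1 := (smoothProp k 𝒰).FullSubcategory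

noncomputable example (𝒰 : OpenBasis Γ) : Abelian (SmRep k 𝒰) := inferInstance

end Fermat.Agent.CFT.Sm
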