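/-
S55 / CFT (PT0) — helper9.
Level-constant inhomogeneous cochains of a smooth representation: the subcomplex
`lcComplex 𝒰 A` of Mathlib's `inhomogeneousCochains A`, functoriality (change of group and of
coefficients), and the cohomology groups `smH 𝒰 A n`.
-/
import Fermat.Agent.CFT.Sm.Basic_helper9

set_option autoImplicit false

open CategoryTheory CategoryTheory.Limits groupCohomology

namespace Fermat.Agent.CFT.Sm

variable {k Γ : Type} [CommRing k] [Group Γ]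

/-- A function of `n` group variables is level-constant if it only depends on the classes of its
arguments modulo some basic open (normal) subgroup. -/
def IsLevelConstant (𝒰 : OpenBasis Γ) {n : ℕ} {X : Type*} (f : (Fin n → Γ) → X) : Prop :=
  ∃ U ∈ 𝒰.sets, ∀ g g' : Fin n → Γ, (∀ i, (g i)⁻¹ * g' i ∈ U) → f g = f g'

namespace IsLevelConstant

variable {𝒰 : OpenBasis Γ} {n : ℕ} {X Y : Type*}

lemma const (𝒰 : OpenBasis Γ) (n : ℕ) (x : X) : IsLevelConstant 𝒰 (fun _ : Fin n → Γ => x) := by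
  obtain ⟨U, hU⟩ := 𝒰.nonempty
  exact ⟨U, hU, fun _ _ _ => rfl⟩

lemma comp {f : (Fin n → Γ) → X} (hf : IsLevelConstant 𝒰 f) (φ : X → Y) :
    IsLevelConstant 𝒰 (φ ∘ f) := by
  obtain ⟨U, hU, h⟩ := hf
  exact ⟨U, hU, fun g g' hgg' => congrArg φ (h g g' hgg')⟩

/-- Two level-constant functions have a common level. -/
lemma exists_common {f : (Fin n → Γ) → X} {f' : (Fin n → Γ) → Y}
    (hf : IsLevelConstant 𝒰 f) (hf' : IsLevelConstant 𝒰 f') :
    ∃ U ∈ 𝒰.sets, (∀ g g' : Fin n → Γ, (∀ i, (g i)⁻¹ * g' i ∈ U) → f g = f g') ∧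
      (∀ g g' : Fin n → Γ, (∀ i, (g i)⁻¹ * g' i ∈ U) → f' g = f' g') := by
  obtain ⟨U, hU, h⟩ := hf
  obtain ⟨V, hV, h'⟩ := hf'
  obtain ⟨W, hW, hWUV⟩ := 𝒰.directed U hU V hV
  exact ⟨W, hW, fun g g' hgg' => h g g' (fun i => (hWUV (hgg' i)).1),
    fun g g' hgg' => h' g g' (fun i => (hWUV (hgg' i)).2)⟩

lemma map₂ {Z : Type*} {f : (Fin n → Γ) → X} {f' : (Fin n → Γ) → Y}
    (hf : IsLevelConstant 𝒰 f) (hf' : IsLevelConstant 𝒰 f') (φ : X → Y → Z) :
    IsLevelConstant 𝒰 (fun g => φ (f g) (f' g)) := by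
  obtain ⟨U, hU, h, h'⟩ := hf.exists_common hf'
  exact ⟨U, hU, fun g g' hgg' => by simp only [h g g' hgg', h' g g' hgg']⟩

/-- A level-constant function has finite range. -/
lemma finite_range {f : (Fin n → Γ) → X} (hf : IsLevelConstant 𝒰 f) : (Set.range f).Finite := by
  obtain ⟨U, hU, h⟩ := hf
  have := 𝒰.finiteIndex U hU
  have hfin : Finite (Γ ⧸ U) := Subgroup.finite_quotient_of_finiteIndex
  let F : (Fin n → Γ ⧸ U) → X := fun q => f (fun i => (q i).out)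
  have : Set.range f ⊆ Set.range F := by
    rintro _ ⟨g, rfl⟩
    refine ⟨fun i => (g i : Γ ⧸ U), ?_⟩
    refine (h g _ (fun i => ?_)).symm
    have : ((g i : Γ ⧸ U).out : Γ ⧸ U) = (g i : Γ ⧸ U) := QuotientGroup.out_eq' _
    exact QuotientGroup.eq.1 this.symm
  exact (Set.finite_range F).subset this

/-- Precomposition with a group homomorphism along which the basis pulls back to open
subgroups. -/
lemma precomp {Γ' : Type} [Group Γ'] {𝒰' : OpenBasis Γ'} (ψ : Γ' →* Γ)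
    (hψ : 𝒰'.Finer (𝒰.comap ψ)) {f : (Fin n → Γ) → X} (hf : IsLevelConstant 𝒰 f) :
    IsLevelConstant 𝒰' (fun g : Fin n → Γ' => f (ψ ∘ g)) := by
  obtain ⟨U, hU, h⟩ := hf
  obtain ⟨V, hV, hVU⟩ := hψ (U.comap ψ) ⟨U, hU, rfl⟩
  refine ⟨V, hV, fun g g' hgg' => h _ _ (fun i => ?_)⟩
  have := hVU (hgg' i)
  simpa [Subgroup.mem_comap] using this

end IsLevelConstant

/-- The submodule of level-constant `n`-cochains. -/
def lcCochains (𝒰 : OpenBasis Γ) (A : Rep.{0} k Γ) (n : ℕ) :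
    Submodule k ((Fin n → Γ) → A.V) where
  carrier := {f | IsLevelConstant 𝒰 f}
  add_mem' hf hf' := hf.map₂ hf' (· + ·)
  zero_mem' := IsLevelConstant.const 𝒰 _ (0 : A.V)
  smul_mem' c _ hf := hf.comp (c • ·)

lemma mem_lcCochains_iff (𝒰 : OpenBasis Γ) (A : Rep.{0} k Γ) (n : ℕ)
    (f : (Fin n → Γ) → A.V) : f ∈ lcCochains 𝒰 A n ↔ IsLevelConstant 𝒰 f := Iff.rfl

/-- For a normal subgroup, congruence modulo `U` is compatible with `Fin.contractNth`. -/
lemma contractNth_rel {U : Subgroup Γ} [U.Normal] {n : ℕ} (j : Fin (n + 1))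
    {g g' : Fin (n + 1) → Γ} (h : ∀ i, (g i)⁻¹ * g' i ∈ U) (i : Fin n) :
    (Fin.contractNth j (· * ·) g i)⁻¹ * Fin.contractNth j (· * ·) g' i ∈ U := by
  rcases lt_trichotomy (i : ℕ) j with hlt | heq | hgt
  · rw [Fin.contractNth_apply_of_lt _ _ _ _ hlt, Fin.contractNth_apply_of_lt _ _ _ _ hlt]
    exact h _
  · rw [Fin.contractNth_apply_of_eq _ _ _ _ heq, Fin.contractNth_apply_of_eq _ _ _ _ heq]
    have h1 := h (Fin.castSucc i)
    have h2 := h i.succ
    have : (g (Fin.castSucc i) * g i.succ)⁻¹ * (g' (Fin.castSucc i) * g' i.succ) =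
        ((g i.succ)⁻¹ * ((g (Fin.castSucc i))⁻¹ * g' (Fin.castSucc i)) * (g i.succ)⁻¹⁻¹) *
          ((g i.succ)⁻¹ * g' i.succ) := by group
    rw [this]
    exact U.mul_mem (Subgroup.Normal.conj_mem inferInstance _ h1 _) h2
  · rw [Fin.contractNth_apply_of_gt _ _ _ _ hgt, Fin.contractNth_apply_of_gt _ _ _ _ hgt]
    exact h _

/-- The differential preserves level-constant cochains of a smooth representation. -/
lemma d_mem_lcCochains (𝒰 : OpenBasis Γ) {A : Rep.{0} k Γ} (hA : IsSmooth 𝒰 A) (n : ℕ)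
    {f : (Fin n → Γ) → A.V} (hf : f ∈ lcCochains 𝒰 A n) :
    (inhomogeneousCochains.d A n).hom f ∈ lcCochains 𝒰 A (n + 1) := by
  obtain ⟨U, hU, h⟩ := hf
  -- a basic open subgroup fixing all the (finitely many) values of `f`
  have hfin := IsLevelConstant.finite_range ⟨U, hU, h⟩
  have := hfin.to_subtype
  obtain ⟨V, hV, hVfix⟩ := hA.exists_mem_forall_fixed (fun x : Set.range f => (x : A.V))
  obtain ⟨W, hW, hWUV⟩ := 𝒰.directed U hU V hV
  have hUn := 𝒰.normal U hU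
  refine ⟨W, hW, fun g g' hgg' => ?_⟩
  rw [inhomogeneousCochains.d_hom_apply, inhomogeneousCochains.d_hom_apply]
  have h0 : A.ρ (g 0) (f fun i => g i.succ) = A.ρ (g' 0) (f fun i => g' i.succ) := by
    have e1 : f (fun i => g i.succ) = f (fun i => g' i.succ) :=
      h _ _ (fun i => (hWUV (hgg' i.succ)).1)
    have e2 : g' 0 = g 0 * ((g 0)⁻¹ * g' 0) := by group
    rw [e1, e2, map_mul, Module.End.mul_apply,
      hVfix ⟨_, Set.mem_range_self _⟩ _ (hWUV (hgg' 0)).2]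
  rw [h0]
  congr 1
  refine Finset.sum_congr rfl (fun j _ => ?_)
  rw [h _ _ (contractNth_rel j (fun i => (hWUV (hgg' i)).1))]


/-- The differential on level-constant cochains. -/
noncomputable def lcD (𝒰 : OpenBasis Γ) (A : SmRep k 𝒰) (n : ℕ) :
    ModuleCat.of k (lcCochains 𝒰 A.obj n) ⟶ ModuleCat.of k (lcCochains 𝒰 A.obj (n + 1)) :=
  ModuleCat.ofHom ((inhomogeneousCochains.d A.obj n).hom.restrict
    (fun _ hf => d_mem_lcCochains 𝒰 A.property n hf))

lemma lcD_apply_coe (𝒰 : OpenBasis Γ) (A : SmRep k 𝒰) (n : ℕ) (f : lcCochains 𝒰 A.obj n) :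
    ((lcD 𝒰 A n).hom f : (Fin (n + 1) → Γ) → A.obj.V) =
      (inhomogeneousCochains.d A.obj n).hom (f : (Fin n → Γ) → A.obj.V) := rfl

lemma lcD_comp_lcD (𝒰 : OpenBasis Γ) (A : SmRep k 𝒰) (n : ℕ) :
    lcD 𝒰 A n ≫ lcD 𝒰 A (n + 1) = 0 := by
  apply ModuleCat.hom_ext
  apply LinearMap.ext
  intro f
  apply Subtype.ext
  have := congrArg (fun t => t.hom (f : (Fin n → Γ) → A.obj.V))
    (inhomogeneousCochains.d_comp_d (A := A.obj) (n := n))
  exact this

/-- The complex of level-constant inhomogeneous cochains of a smooth representation. -/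
noncomputable abbrev lcComplex (𝒰 : OpenBasis Γ) (A : SmRep k 𝒰) :
    CochainComplex (ModuleCat k) ℕ :=
  CochainComplex.of (fun n => ModuleCat.of k (lcCochains 𝒰 A.obj n)) (lcD 𝒰 A) (lcD_comp_lcD 𝒰 A)

@[simp]
lemma lcComplex_d (𝒰 : OpenBasis Γ) (A : SmRep k 𝒰) (n : ℕ) :
    (lcComplex 𝒰 A).d n (n + 1) = lcD 𝒰 A n :=
  CochainComplex.of_d (V := ModuleCat k) (α := ℕ)
    (fun n => ModuleCat.of k (lcCochains 𝒰 A.obj n)) (lcD 𝒰 A) n

/-- The inclusion of the level-constant cochains into all inhomogeneous cochains. -/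
noncomputable def lcι (𝒰 : OpenBasis Γ) (A : SmRep k 𝒰) :
    lcComplex 𝒰 A ⟶ inhomogeneousCochains A.obj :=
  CochainComplex.ofHom (fun n => ModuleCat.ofHom (lcCochains 𝒰 A.obj n).subtype)
    (fun n => by
      rw [lcComplex_d, inhomogeneousCochains.d_def]
      rfl)

/-- Smooth cohomology: the cohomology of the complex of level-constant cochains. -/
noncomputable def smH (𝒰 : OpenBasis Γ) (A : SmRep k 𝒰) (n : ℕ) : ModuleCat k :=
  (lcComplex 𝒰 A).homology n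

section Functoriality

variable {Γ' : Type} [Group Γ'] {𝒰 : OpenBasis Γ} {𝒰' : OpenBasis Γ'}

/-- Change of group and coefficients preserves level-constant cochains. -/
lemma cochainsMap_mem_lcCochains (ψ : Γ' →* Γ) (hψ : 𝒰'.Finer (𝒰.comap ψ))
    {A : Rep.{0} k Γ} {B : Rep.{0} k Γ'} (φ : Rep.res ψ A ⟶ B) (n : ℕ)
    {f : (Fin n → Γ) → A.V} (hf : f ∈ lcCochains 𝒰 A n) :
    ((cochainsMap ψ φ).f n).hom f ∈ lcCochains 𝒰' B n :=
  ((IsLevelConstant.precomp ψ hψ hf).comp φ.hom :)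

/-- The map on level-constant cochains induced by `ψ : Γ' →* Γ` (continuous) and
`φ : Res(ψ)(A) ⟶ B`. -/
noncomputable def lcMap (ψ : Γ' →* Γ) (hψ : 𝒰'.Finer (𝒰.comap ψ))
    {A : SmRep k 𝒰} {B : SmRep k 𝒰'} (φ : Rep.res ψ A.obj ⟶ B.obj) :
    lcComplex 𝒰 A ⟶ lcComplex 𝒰' B :=
  CochainComplex.ofHom
    (fun n => ModuleCat.ofHom (((cochainsMap ψ φ).f n).hom.restrict
      (fun _ hf => cochainsMap_mem_lcCochains ψ hψ φ n hf)))
    (fun n => by
      rw [lcComplex_d, lcComplex_d]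
      apply ModuleCat.hom_ext
      apply LinearMap.ext
      intro f
      apply Subtype.ext
      have := congrArg (fun t => t.hom ((show lcCochains 𝒰 A.obj n from f) :
        (Fin n → Γ) → A.obj.V)) ((cochainsMap ψ φ).comm n (n + 1))
      rw [inhomogeneousCochains.d_def, inhomogeneousCochains.d_def] at this
      exact this)

lemma lcMap_f_apply_coe (ψ : Γ' →* Γ) (hψ : 𝒰'.Finer (𝒰.comap ψ))
    {A : SmRep k 𝒰} {B : SmRep k 𝒰'} (φ : Rep.res ψ A.obj ⟶ B.obj) (n : ℕ)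
    (f : lcCochains 𝒰 A.obj n) (g : Fin n → Γ') :
    ((show lcCochains 𝒰' B.obj n from ((lcMap ψ hψ φ).f n).hom f) : (Fin n → Γ') → B.obj.V) g =
      φ.hom ((f : (Fin n → Γ) → A.obj.V) (ψ ∘ g)) := rfl

/-- The induced map on smooth cohomology. -/
noncomputable def smHMap (ψ : Γ' →* Γ) (hψ : 𝒰'.Finer (𝒰.comap ψ))
    {A : SmRep k 𝒰} {B : SmRep k 𝒰'} (φ : Rep.res ψ A.obj ⟶ B.obj) (n : ℕ) :
    smH 𝒰 A n ⟶ smH 𝒰' B n :=
  HomologicalComplex.homologyMap (lcMap ψ hψ φ) n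

end Functoriality

end Fermat.Agent.CFT.Sm
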