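/-
S55 / CFT (PT0) — helper9.
Exactness in `SmRep k 𝒰` is detected on underlying functions; the long exact sequence of smooth
cohomology.
-/
import Fermat.Agent.CFT.Sm.Cochains_helper9

set_option autoImplicit false

open CategoryTheory CategoryTheory.Limits groupCohomology

namespace Fermat.Agent.CFT.Sm

variable {k Γ : Type} [CommRing k] [Group Γ] (𝒰 : OpenBasis Γ)

instance : (smoothProp k 𝒰).ι.Additive where

instance : PreservesFiniteLimits (smoothProp k 𝒰).ι :=
  have : ∀ {X Y : SmRep k 𝒰} (f : X ⟶ Y), PreservesLimit (parallelPair f 0) (smoothProp k 𝒰).ι :=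
    fun f => (smoothProp k 𝒰).preservesKernels_ι f
  Functor.preservesFiniteLimits_of_preservesKernels _

instance : PreservesFiniteColimits (smoothProp k 𝒰).ι :=
  have : ∀ {X Y : SmRep k 𝒰} (f : X ⟶ Y),
      PreservesColimit (parallelPair f 0) (smoothProp k 𝒰).ι :=
    fun f => (smoothProp k 𝒰).preservesCokernels_ι f
  Functor.preservesFiniteColimits_of_preservesCokernels _

variable {𝒰}

lemma mono_iff_injective {A B : SmRep k 𝒰} (f : A ⟶ B) :
    Mono f ↔ Function.Injective f.hom.hom := by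
  rw [← Rep.mono_iff_injective]
  constructor
  · intro h
    exact inferInstanceAs (Mono ((smoothProp k 𝒰).ι.map f))
  · intro h
    exact (smoothProp k 𝒰).ι.mono_of_mono_map (f := f) h

lemma epi_iff_surjective {A B : SmRep k 𝒰} (f : A ⟶ B) :
    Epi f ↔ Function.Surjective f.hom.hom := by
  rw [← Rep.epi_iff_surjective]
  constructor
  · intro h
    exact inferInstanceAs (Epi ((smoothProp k 𝒰).ι.map f))
  · intro h
    exact (smoothProp k 𝒰).ι.epi_of_epi_map (f := f) h

/-- Exactness of a short complex of smooth representations is exactness of the underlying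
functions. -/
lemma exact_iff (X : ShortComplex (SmRep k 𝒰)) :
    X.Exact ↔ ∀ b : X.X₂.obj.V, X.g.hom.hom b = 0 → ∃ a : X.X₁.obj.V, X.f.hom.hom a = b := by
  rw [← ShortComplex.exact_map_iff_of_faithful X (smoothProp k 𝒰).ι,
    ← ShortComplex.exact_map_iff_of_faithful _ (forget₂ (Rep.{0} k Γ) (ModuleCat.{0} k)),
    ShortComplex.moduleCat_exact_iff]
  rfl

lemma shortExact_iff (X : ShortComplex (SmRep k 𝒰)) :
    X.ShortExact ↔ Function.Injective X.f.hom.hom ∧
      (∀ b : X.X₂.obj.V, X.g.hom.hom b = 0 → ∃ a : X.X₁.obj.V, X.f.hom.hom a = b) ∧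
      Function.Surjective X.g.hom.hom := by
  constructor
  · intro h
    exact ⟨(mono_iff_injective _).1 h.mono_f, (exact_iff X).1 h.exact,
      (epi_iff_surjective _).1 h.epi_g⟩
  · rintro ⟨h1, h2, h3⟩
    exact { exact := (exact_iff X).2 h2
            mono_f := (mono_iff_injective _).2 h1
            epi_g := (epi_iff_surjective _).2 h3 }


lemma OpenBasis.finer_comap_id (𝒰 : OpenBasis Γ) : 𝒰.Finer (𝒰.comap (MonoidHom.id Γ)) := by
  rintro _ ⟨U, hU, rfl⟩
  change 𝒰.IsOpen (U.comap (MonoidHom.id Γ))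
  rw [Subgroup.comap_id]
  exact 𝒰.isOpen_of_mem hU

variable (k 𝒰) in
/-- The level-constant cochain complex as a functor on smooth representations. -/
noncomputable def lcFunctor : SmRep k 𝒰 ⥤ CochainComplex (ModuleCat.{0} k) ℕ where
  obj A := lcComplex 𝒰 A
  map {A B} φ := lcMap (MonoidHom.id Γ) 𝒰.finer_comap_id (A := A) (B := B) φ.hom
  map_id A := by
    ext n f
    rfl
  map_comp {A B C} φ ψ := by
    ext n f
    rfl

instance : (lcFunctor k 𝒰).Additive where
  map_add := by
    intros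
    ext n f
    rfl

/-- Smooth cohomology as a functor. -/
noncomputable def smHFunctor (k : Type) [CommRing k] (𝒰 : OpenBasis Γ) (n : ℕ) :
    SmRep k 𝒰 ⥤ ModuleCat.{0} k :=
  lcFunctor k 𝒰 ⋙ HomologicalComplex.homologyFunctor _ _ n

instance (k : Type) [CommRing k] (𝒰 : OpenBasis Γ) (n : ℕ) : (smHFunctor k 𝒰 n).Additive := by
  unfold smHFunctor
  infer_instance

section LES

variable {X : ShortComplex (SmRep k 𝒰)} (hX : X.ShortExact)

include hX

/-- A short exact sequence of smooth representations induces a short exact sequence of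
level-constant cochain complexes. -/
lemma map_lcFunctor_shortExact : (X.map (lcFunctor k 𝒰)).ShortExact := by
  obtain ⟨hinj, hex, hsurj⟩ := (shortExact_iff X).1 hX
  refine HomologicalComplex.shortExact_of_degreewise_shortExact _ fun n => ?_
  have hmono : Function.Injective
      ((((X.map (lcFunctor k 𝒰)).map (HomologicalComplex.eval _ _ n)).f).hom) := by
    intro f f' hff'
    apply Subtype.ext
    funext g
    apply hinj
    exact congrFun (congrArg Subtype.val hff') g
  have hepi : Function.Surjective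
      ((((X.map (lcFunctor k 𝒰)).map (HomologicalComplex.eval _ _ n)).g).hom) := by
    intro f
    let f0 : lcCochains 𝒰 X.X₃.obj n := f
    refine ⟨(⟨Function.surjInv hsurj ∘ (f0 : (Fin n → Γ) → X.X₃.obj.V),
      (IsLevelConstant.comp f0.2 _ :)⟩ : lcCochains 𝒰 X.X₂.obj n), ?_⟩
    apply Subtype.ext
    funext g
    exact Function.surjInv_eq hsurj _
  refine { exact := ?_, mono_f := (ModuleCat.mono_iff_injective _).2 hmono,
           epi_g := (ModuleCat.epi_iff_surjective _).2 hepi }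
  rw [ShortComplex.moduleCat_exact_iff]
  intro f hf
  let f0 : lcCochains 𝒰 X.X₂.obj n := f
  have hf0 : ∀ g, X.g.hom.hom ((f0 : (Fin n → Γ) → X.X₂.obj.V) g) = 0 := fun g =>
    congrFun (congrArg Subtype.val hf) g
  classical
  let s : X.X₂.obj.V → X.X₁.obj.V := fun b =>
    if h : ∃ a, X.f.hom.hom a = b then h.choose else 0
  have hs : ∀ g, X.f.hom.hom (s ((f0 : (Fin n → Γ) → X.X₂.obj.V) g)) =
      (f0 : (Fin n → Γ) → X.X₂.obj.V) g := fun g => by
    have h := hex _ (hf0 g)
    simp only [s, dif_pos h]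
    exact h.choose_spec
  refine ⟨(⟨s ∘ (f0 : (Fin n → Γ) → X.X₂.obj.V), (IsLevelConstant.comp f0.2 _ :)⟩ :
    lcCochains 𝒰 X.X₁.obj n), ?_⟩
  apply Subtype.ext
  funext g
  exact hs g

/-- The connecting homomorphism of smooth cohomology. -/
noncomputable def smδ (i j : ℕ) (hij : i + 1 = j) : smH 𝒰 X.X₃ i ⟶ smH 𝒰 X.X₁ j :=
  (map_lcFunctor_shortExact hX).δ i j hij

/-- Exactness of `Hⁱ(X₃) ⟶ Hʲ(X₁) ⟶ Hʲ(X₂)`. -/
lemma smH_exact₁ (i j : ℕ) (hij : i + 1 = j) :
    (ShortComplex.mk (smδ hX i j hij) ((smHFunctor k 𝒰 j).map X.f)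
      ((map_lcFunctor_shortExact hX).δ_comp i j hij)).Exact :=
  (map_lcFunctor_shortExact hX).homology_exact₁ i j hij

/-- Exactness of `Hⁱ(X₁) ⟶ Hⁱ(X₂) ⟶ Hⁱ(X₃)`. -/
lemma smH_exact₂ (i : ℕ) : (X.map (smHFunctor k 𝒰 i)).Exact :=
  (map_lcFunctor_shortExact hX).homology_exact₂ i

/-- Exactness of `Hⁱ(X₂) ⟶ Hⁱ(X₃) ⟶ Hʲ(X₁)`. -/
lemma smH_exact₃ (i j : ℕ) (hij : i + 1 = j) :
    (ShortComplex.mk ((smHFunctor k 𝒰 i).map X.g) (smδ hX i j hij)
      ((map_lcFunctor_shortExact hX).comp_δ i j hij)).Exact :=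
  (map_lcFunctor_shortExact hX).homology_exact₃ i j hij

end LES

end Fermat.Agent.CFT.Sm
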