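/-
S55 / CFT (PT0) — helper9.
Element-level API for the homology of an `ℕ`-indexed cochain complex of modules:
cocycles as a submodule, the class map, its surjectivity and kernel, functoriality and the
connecting homomorphism on representatives.
-/
import Mathlib

set_option autoImplicit false

open CategoryTheory CategoryTheory.Limits

namespace Fermat.Agent.CFT.Sm

namespace CC

variable {k : Type} [CommRing k] (K L : CochainComplex (ModuleCat.{0} k) ℕ)

/-- The cocycles of degree `n`, as a submodule. -/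
def Z (n : ℕ) : Submodule k (K.X n) := LinearMap.ker (K.d n (n + 1)).hom

lemma mem_Z_iff (n : ℕ) (x : K.X n) : x ∈ Z K n ↔ (K.d n (n + 1)).hom x = 0 := Iff.rfl

/-- The categorical cycles are the kernel of the differential. -/
noncomputable def cyclesIso (n : ℕ) : K.cycles n ≅ ModuleCat.of k (Z K n) :=
  IsLimit.conePointUniqueUpToIso (K.cyclesIsKernel n (n + 1) (by simp))
    (ModuleCat.kernelIsLimit (K.d n (n + 1)))

@[reassoc (attr := simp)]
lemma cyclesIso_hom_subtype (n : ℕ) :
    (cyclesIso K n).hom ≫ ModuleCat.ofHom (Z K n).subtype = K.iCycles n :=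
  IsLimit.conePointUniqueUpToIso_hom_comp (K.cyclesIsKernel n (n + 1) (by simp))
    (ModuleCat.kernelIsLimit (K.d n (n + 1))) WalkingParallelPair.zero

@[reassoc (attr := simp)]
lemma cyclesIso_inv_iCycles (n : ℕ) :
    (cyclesIso K n).inv ≫ K.iCycles n = ModuleCat.ofHom (Z K n).subtype := by
  rw [← cyclesIso_hom_subtype, Iso.inv_hom_id_assoc]

lemma iCycles_cyclesIso_inv_apply (n : ℕ) (x : Z K n) :
    (K.iCycles n).hom ((cyclesIso K n).inv.hom x) = (x : K.X n) := by
  have := congrArg (fun t => t.hom x) (cyclesIso_inv_iCycles K n)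
  exact this

lemma iCycles_injective (n : ℕ) : Function.Injective (K.iCycles n).hom :=
  (ModuleCat.mono_iff_injective _).1 inferInstance

/-- The class of a cocycle. -/
noncomputable def mk (n : ℕ) : Z K n →ₗ[k] K.homology n :=
  (K.homologyπ n).hom ∘ₗ (cyclesIso K n).inv.hom

lemma mk_surjective (n : ℕ) : Function.Surjective (mk K n) := by
  have h1 : Function.Surjective (K.homologyπ n).hom :=
    (ModuleCat.epi_iff_surjective _).1 inferInstance
  have h2 : Function.Surjective (cyclesIso K n).inv.hom :=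
    (ModuleCat.epi_iff_surjective _).1 inferInstance
  exact h1.comp h2

lemma toCycles_apply (n : ℕ) (y : K.X n) :
    (K.toCycles n (n + 1)).hom y =
      (cyclesIso K (n + 1)).inv.hom ⟨(K.d n (n + 1)).hom y, by
        rw [mem_Z_iff, ← LinearMap.comp_apply, ← ModuleCat.hom_comp, K.d_comp_d]; rfl⟩ := by
  apply iCycles_injective K (n + 1)
  rw [iCycles_cyclesIso_inv_apply]
  have := congrArg (fun t => t.hom y) (K.toCycles_i n (n + 1))
  exact this

lemma mk_succ_eq_zero_iff (n : ℕ) (x : Z K (n + 1)) :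
    mk K (n + 1) x = 0 ↔ ∃ y : K.X n, (K.d n (n + 1)).hom y = (x : K.X (n + 1)) := by
  have hex : (ShortComplex.mk (K.toCycles n (n + 1)) (K.homologyπ (n + 1))
      (K.toCycles_comp_homologyπ n (n + 1))).Exact :=
    ShortComplex.exact_of_g_is_cokernel _ (K.homologyIsCokernel n (n + 1) (by simp))
  rw [ShortComplex.moduleCat_exact_iff] at hex
  constructor
  · intro h
    obtain ⟨y, hy⟩ := hex ((cyclesIso K (n + 1)).inv.hom x) h
    refine ⟨y, ?_⟩
    have h2 := congrArg (K.iCycles (n + 1)).hom hy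
    rw [iCycles_cyclesIso_inv_apply] at h2
    rw [← h2]
    have := congrArg (fun t => t.hom y) (K.toCycles_i n (n + 1))
    exact this.symm
  · rintro ⟨y, hy⟩
    have : (cyclesIso K (n + 1)).inv.hom x = (K.toCycles n (n + 1)).hom y := by
      rw [toCycles_apply]
      congr 1
      exact Subtype.ext hy.symm
    change (K.homologyπ (n + 1)).hom ((cyclesIso K (n + 1)).inv.hom x) = 0
    rw [this, ← LinearMap.comp_apply, ← ModuleCat.hom_comp, K.toCycles_comp_homologyπ]
    rfl

lemma mk_zero_injective : Function.Injective (mk K 0) := by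
  have : IsIso (K.homologyπ 0) := by
    have h0 : K.toCycles ((ComplexShape.up ℕ).prev 0) 0 = 0 := by
      apply K.toCycles_eq_zero
      simp
    exact (ShortComplex.isIso_homologyπ (K.sc 0) (by
      have := K.shape ((ComplexShape.up ℕ).prev 0) 0 (by simp)
      exact this))
  have h1 : Function.Injective (K.homologyπ 0).hom :=
    (ModuleCat.mono_iff_injective _).1 inferInstance
  have h2 : Function.Injective (cyclesIso K 0).inv.hom :=
    (ModuleCat.mono_iff_injective _).1 inferInstance
  exact h1.comp h2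

variable {K L}

/-- A chain map sends cocycles to cocycles. -/
lemma map_mem_Z (φ : K ⟶ L) (n : ℕ) {x : K.X n} (hx : x ∈ Z K n) : (φ.f n).hom x ∈ Z L n := by
  rw [mem_Z_iff] at hx ⊢
  have := congrArg (fun t => t.hom x) (φ.comm n (n + 1))
  simp only [ModuleCat.hom_comp, LinearMap.comp_apply] at this
  rw [this, hx, map_zero]

/-- The induced map on cocycles. -/
def mapZ (φ : K ⟶ L) (n : ℕ) : Z K n →ₗ[k] Z L n :=
  (φ.f n).hom.restrict (fun _ hx => map_mem_Z φ n hx)

@[simp]
lemma mapZ_coe (φ : K ⟶ L) (n : ℕ) (x : Z K n) : (mapZ φ n x : L.X n) = (φ.f n).hom x := rfl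

lemma homologyMap_mk (φ : K ⟶ L) (n : ℕ) (x : Z K n) :
    (HomologicalComplex.homologyMap φ n).hom (mk K n x) = mk L n (mapZ φ n x) := by
  change (HomologicalComplex.homologyMap φ n).hom
    ((K.homologyπ n).hom ((cyclesIso K n).inv.hom x)) =
      (L.homologyπ n).hom ((cyclesIso L n).inv.hom (mapZ φ n x))
  rw [← LinearMap.comp_apply, ← ModuleCat.hom_comp, HomologicalComplex.homologyπ_naturality,
    ModuleCat.hom_comp, LinearMap.comp_apply]
  congr 1
  apply iCycles_injective L n
  rw [iCycles_cyclesIso_inv_apply, ← LinearMap.comp_apply, ← ModuleCat.hom_comp,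
    HomologicalComplex.cyclesMap_i, ModuleCat.hom_comp, LinearMap.comp_apply,
    iCycles_cyclesIso_inv_apply]
  rfl

/-- `cyclesMk` in terms of `cyclesIso`. -/
lemma cyclesMk_eq (K : CochainComplex (ModuleCat.{0} k) ℕ) (n : ℕ) (x : K.X n)
    (hx : (K.d n (n + 1)).hom x = 0) :
    K.cyclesMk x (n + 1) (by simp) hx = (cyclesIso K n).inv.hom ⟨x, hx⟩ := by
  apply iCycles_injective K n
  rw [iCycles_cyclesIso_inv_apply]
  exact K.i_cyclesMk x (n + 1) (by simp) hx

section Delta

variable {S : ShortComplex (CochainComplex (ModuleCat.{0} k) ℕ)} (hS : S.ShortExact)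

include hS in
/-- If `f x = d y` then `x` is a cocycle. -/
lemma mem_Z_of_f_eq_d (i : ℕ) (y : S.X₂.X i) (x : S.X₁.X (i + 1))
    (hx : (S.f.f (i + 1)).hom x = (S.X₂.d i (i + 1)).hom y) : x ∈ Z S.X₁ (i + 1) :=
  hS.d_eq_zero_of_f_eq_d_apply i (i + 1) y x hx (i + 1 + 1)

/-- The connecting homomorphism on representatives. -/
lemma δ_mk (i : ℕ) (z : Z S.X₃ i) (y : S.X₂.X i) (hy : (S.g.f i).hom y = (z : S.X₃.X i))
    (x : S.X₁.X (i + 1)) (hx : (S.f.f (i + 1)).hom x = (S.X₂.d i (i + 1)).hom y) :
    (hS.δ i (i + 1) rfl).hom (mk S.X₃ i z) =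
      mk S.X₁ (i + 1) ⟨x, mem_Z_of_f_eq_d hS i y x hx⟩ := by
  have := hS.δ_apply i (i + 1) rfl (z : S.X₃.X i) z.2 y hy x hx (i + 1 + 1) (by simp)
  rw [cyclesMk_eq, cyclesMk_eq] at this
  exact this

end Delta

end CC

end Fermat.Agent.CFT.Sm
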