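/-
S55 / CFT (PT0) — helper9.
Smooth cohomology `smH 𝒰 A n` on representatives: level-constant cocycles, the class map `smHmk`,
its kernel, functoriality and the connecting homomorphism.
-/
import Fermat.Agent.CFT.Sm.Exact_helper9
import Fermat.Agent.CFT.Sm.HomologyElts_helper9

set_option autoImplicit false

open CategoryTheory CategoryTheory.Limits groupCohomology

namespace Fermat.Agent.CFT.Sm

variable {k Γ : Type} [CommRing k] [Group Γ] (𝒰 : OpenBasis Γ)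

/-- Level-constant `n`-cocycles, as a submodule of the level-constant cochains. -/
noncomputable def lcCocycles (A : SmRep k 𝒰) (n : ℕ) : Submodule k (lcCochains 𝒰 A.obj n) :=
  CC.Z (lcComplex 𝒰 A) n

variable {𝒰}

lemma mem_lcCocycles_iff' {A : SmRep k 𝒰} {n : ℕ} (f : lcCochains 𝒰 A.obj n) :
    f ∈ lcCocycles 𝒰 A n ↔ (lcD 𝒰 A n).hom f = 0 := by
  unfold lcCocycles
  rw [CC.mem_Z_iff, lcComplex_d]

lemma mem_lcCocycles_iff {A : SmRep k 𝒰} {n : ℕ} (f : lcCochains 𝒰 A.obj n) :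
    f ∈ lcCocycles 𝒰 A n ↔
      (inhomogeneousCochains.d A.obj n).hom (f : (Fin n → Γ) → A.obj.V) = 0 := by
  rw [mem_lcCocycles_iff', Subtype.ext_iff]
  rfl

/-- The cohomology class of a level-constant cocycle. -/
noncomputable def smHmk (A : SmRep k 𝒰) (n : ℕ) : lcCocycles 𝒰 A n →ₗ[k] smH 𝒰 A n :=
  CC.mk (lcComplex 𝒰 A) n

lemma smHmk_surjective (A : SmRep k 𝒰) (n : ℕ) : Function.Surjective (smHmk A n) :=
  CC.mk_surjective _ n

/-- Every class is represented by a level-constant cocycle. -/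
lemma exists_smHmk_eq {A : SmRep k 𝒰} {n : ℕ} (x : smH 𝒰 A n) :
    ∃ f : lcCocycles 𝒰 A n, smHmk A n f = x := smHmk_surjective A n x

/-- A class of positive degree vanishes iff the cocycle is the coboundary of a level-constant
cochain. -/
lemma smHmk_succ_eq_zero_iff {A : SmRep k 𝒰} {n : ℕ} (f : lcCocycles 𝒰 A (n + 1)) :
    smHmk A (n + 1) f = 0 ↔ ∃ y : lcCochains 𝒰 A.obj n, (lcD 𝒰 A n).hom y = f.1 := by
  have := CC.mk_succ_eq_zero_iff (lcComplex 𝒰 A) n f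
  rw [lcComplex_d] at this
  exact this

lemma smHmk_zero_injective (A : SmRep k 𝒰) : Function.Injective (smHmk A 0) :=
  CC.mk_zero_injective _

section Functoriality

variable {Γ' : Type} [Group Γ'] {𝒰' : OpenBasis Γ'}

/-- The induced map on level-constant cocycles. -/
noncomputable def lcCocyclesMap (ψ : Γ' →* Γ) (hψ : 𝒰'.Finer (𝒰.comap ψ))
    {A : SmRep k 𝒰} {B : SmRep k 𝒰'} (φ : Rep.res ψ A.obj ⟶ B.obj) (n : ℕ) :
    lcCocycles 𝒰 A n →ₗ[k] lcCocycles 𝒰' B n :=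
  CC.mapZ (lcMap ψ hψ φ) n

lemma lcCocyclesMap_apply (ψ : Γ' →* Γ) (hψ : 𝒰'.Finer (𝒰.comap ψ))
    {A : SmRep k 𝒰} {B : SmRep k 𝒰'} (φ : Rep.res ψ A.obj ⟶ B.obj) (n : ℕ)
    (f : lcCocycles 𝒰 A n) (g : Fin n → Γ') :
    ((lcCocyclesMap ψ hψ φ n f : lcCochains 𝒰' B.obj n) : (Fin n → Γ') → B.obj.V) g =
      φ.hom ((f.1 : (Fin n → Γ) → A.obj.V) (ψ ∘ g)) := rfl

lemma smHMap_smHmk (ψ : Γ' →* Γ) (hψ : 𝒰'.Finer (𝒰.comap ψ))
    {A : SmRep k 𝒰} {B : SmRep k 𝒰'} (φ : Rep.res ψ A.obj ⟶ B.obj) (n : ℕ)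
    (f : lcCocycles 𝒰 A n) :
    (smHMap ψ hψ φ n).hom (smHmk A n f) = smHmk B n (lcCocyclesMap ψ hψ φ n f) :=
  CC.homologyMap_mk (lcMap ψ hψ φ) n f

end Functoriality

section Delta

variable {X : ShortComplex (SmRep k 𝒰)} (hX : X.ShortExact)

include hX in
/-- If `f ∘ x = d y` for level-constant cochains `y` of `X₂` and `x` of `X₁`, then `x` is a
cocycle. -/
lemma mem_lcCocycles_of_comp_eq_d {n : ℕ} (y : lcCochains 𝒰 X.X₂.obj n)
    (x : lcCochains 𝒰 X.X₁.obj (n + 1))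
    (hx : ∀ g, X.f.hom.hom ((x : (Fin (n + 1) → Γ) → X.X₁.obj.V) g) =
      (inhomogeneousCochains.d X.X₂.obj n).hom (y : (Fin n → Γ) → X.X₂.obj.V) g) :
    x ∈ lcCocycles 𝒰 X.X₁ (n + 1) := by
  refine CC.mem_Z_of_f_eq_d (map_lcFunctor_shortExact hX) n y x ?_
  have hd : ((X.map (lcFunctor k 𝒰)).X₂.d n (n + 1)) = lcD 𝒰 X.X₂ n := lcComplex_d 𝒰 X.X₂ n
  rw [hd]
  apply Subtype.ext
  funext g
  exact hx g

/-- The connecting homomorphism of smooth cohomology on representatives: if `z` is a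
level-constant cocycle of `X₃`, `y` a level-constant cochain of `X₂` lifting it and `x` a
level-constant cochain of `X₁` with `f ∘ x = d y`, then `δ [z] = [x]`. -/
lemma smδ_smHmk {n : ℕ} (z : lcCocycles 𝒰 X.X₃ n) (y : lcCochains 𝒰 X.X₂.obj n)
    (hy : ∀ g, X.g.hom.hom ((y : (Fin n → Γ) → X.X₂.obj.V) g) =
      (z.1 : (Fin n → Γ) → X.X₃.obj.V) g)
    (x : lcCochains 𝒰 X.X₁.obj (n + 1))
    (hx : ∀ g, X.f.hom.hom ((x : (Fin (n + 1) → Γ) → X.X₁.obj.V) g) =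
      (inhomogeneousCochains.d X.X₂.obj n).hom (y : (Fin n → Γ) → X.X₂.obj.V) g) :
    (smδ hX n (n + 1) rfl).hom (smHmk X.X₃ n z) =
      smHmk X.X₁ (n + 1) ⟨x, mem_lcCocycles_of_comp_eq_d hX y x hx⟩ := by
  have hd : ((X.map (lcFunctor k 𝒰)).X₂.d n (n + 1)) = lcD 𝒰 X.X₂ n := lcComplex_d 𝒰 X.X₂ n
  refine CC.δ_mk (map_lcFunctor_shortExact hX) n z y ?_ x ?_
  · apply Subtype.ext
    funext g
    exact hy g
  · rw [hd]
    apply Subtype.ext
    funext g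
    exact hx g

end Delta

end Fermat.Agent.CFT.Sm
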