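/-
S55 / CFT (P0.1b) — helper9.
The smooth part of a representation (right adjoint of the inclusion `SmRep k 𝒰 ⥤ Rep k Γ`),
enough injectives and `HasExt` for `SmRep k 𝒰`.
-/
import Fermat.Agent.CFT.Sm.Basic_helper9

set_option autoImplicit false

open CategoryTheory CategoryTheory.Limits

namespace Fermat.Agent.CFT.Sm

variable {k Γ : Type} [CommRing k] [Group Γ]

/-- The submodule of smooth vectors. -/
def smoothSub (𝒰 : OpenBasis Γ) (A : Rep.{0} k Γ) : Submodule k A.V where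
  carrier := {a | ∃ U ∈ 𝒰.sets, ∀ g ∈ U, A.ρ g a = a}
  add_mem' := by
    rintro a b ⟨U, hU, ha⟩ ⟨V, hV, hb⟩
    obtain ⟨W, hW, hWUV⟩ := 𝒰.directed U hU V hV
    exact ⟨W, hW, fun g hg => by rw [map_add, ha g (hWUV hg).1, hb g (hWUV hg).2]⟩
  zero_mem' := by
    obtain ⟨U, hU⟩ := 𝒰.nonempty
    exact ⟨U, hU, fun g _ => map_zero _⟩
  smul_mem' := by
    rintro c a ⟨U, hU, ha⟩
    exact ⟨U, hU, fun g hg => by rw [map_smul, ha g hg]⟩

lemma mem_smoothSub_iff (𝒰 : OpenBasis Γ) (A : Rep.{0} k Γ) (a : A.V) :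
    a ∈ smoothSub 𝒰 A ↔ ∃ U ∈ 𝒰.sets, ∀ g ∈ U, A.ρ g a = a := Iff.rfl

lemma smoothSub_le_comap (𝒰 : OpenBasis Γ) (A : Rep.{0} k Γ) (g : Γ) :
    smoothSub 𝒰 A ≤ (smoothSub 𝒰 A).comap (A.ρ g) := by
  rintro a ⟨U, hU, ha⟩
  refine ⟨U, hU, fun u hu => ?_⟩
  have hN := 𝒰.normal U hU
  have hmem : g⁻¹ * u * g ∈ U := by
    have := hN.conj_mem u hu g⁻¹
    simpa using this
  have := ha _ hmem
  calc A.ρ u (A.ρ g a) = A.ρ g (A.ρ (g⁻¹ * u * g) a) := by
        rw [← Module.End.mul_apply, ← Module.End.mul_apply, ← map_mul, ← map_mul]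
        congr 2
        group
    _ = A.ρ g a := by rw [this]

/-- The smooth part of a representation, as a representation. -/
noncomputable def smoothPart (𝒰 : OpenBasis Γ) (A : Rep.{0} k Γ) : Rep.{0} k Γ :=
  Rep.subrepresentation A (smoothSub 𝒰 A) (smoothSub_le_comap 𝒰 A)

/-- The inclusion of the smooth part. -/
noncomputable def smoothPartι (𝒰 : OpenBasis Γ) (A : Rep.{0} k Γ) : smoothPart 𝒰 A ⟶ A :=
  Rep.subtype A (smoothSub 𝒰 A) (smoothSub_le_comap 𝒰 A)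

lemma smoothPartι_injective (𝒰 : OpenBasis Γ) (A : Rep.{0} k Γ) :
    Function.Injective (smoothPartι 𝒰 A).hom :=
  Subtype.val_injective

lemma smoothPartι_apply (𝒰 : OpenBasis Γ) (A : Rep.{0} k Γ) (x : (smoothPart 𝒰 A).V) :
    (smoothPartι 𝒰 A).hom x = (show ↥(smoothSub 𝒰 A) from x).1 := rfl

lemma smoothPartι_mem (𝒰 : OpenBasis Γ) (A : Rep.{0} k Γ) (x : (smoothPart 𝒰 A).V) :
    (smoothPartι 𝒰 A).hom x ∈ smoothSub 𝒰 A := (show ↥(smoothSub 𝒰 A) from x).2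

lemma isSmooth_smoothPart (𝒰 : OpenBasis Γ) (A : Rep.{0} k Γ) : IsSmooth 𝒰 (smoothPart 𝒰 A) := by
  rintro ⟨a, U, hU, ha⟩
  exact ⟨U, hU, fun g hg => Subtype.ext (ha g hg)⟩

/-- A morphism from a smooth representation factors through the smooth part. -/
noncomputable def smoothLift (𝒰 : OpenBasis Γ) {X A : Rep.{0} k Γ} (hX : IsSmooth 𝒰 X)
    (f : X ⟶ A) : X ⟶ smoothPart 𝒰 A :=
  Rep.ofHom ⟨LinearMap.codRestrict (smoothSub 𝒰 A) f.hom.toLinearMap (fun x => by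
      obtain ⟨U, hU, hx⟩ := hX x
      exact ⟨U, hU, fun g hg => by
        change A.ρ g (f.hom x) = f.hom x
        rw [← Rep.hom_comm_apply, hx g hg]⟩),
    fun g => by
      ext x
      exact Rep.hom_comm_apply f g x⟩

@[reassoc (attr := simp)]
lemma smoothLift_comp_ι (𝒰 : OpenBasis Γ) {X A : Rep.{0} k Γ} (hX : IsSmooth 𝒰 X)
    (f : X ⟶ A) : smoothLift 𝒰 hX f ≫ smoothPartι 𝒰 A = f := by
  ext x
  rfl

lemma smoothLift_unique (𝒰 : OpenBasis Γ) {X A : Rep.{0} k Γ} (hX : IsSmooth 𝒰 X)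
    (f : X ⟶ A) (g : X ⟶ smoothPart 𝒰 A) (hg : g ≫ smoothPartι 𝒰 A = f) :
    g = smoothLift 𝒰 hX f := by
  ext x
  apply smoothPartι_injective 𝒰 A
  have h1 : (smoothPartι 𝒰 A).hom (g.hom x) = f.hom x := by rw [← hg]; rfl
  exact h1

variable (k) in
/-- The smooth part functor `Rep k Γ ⥤ SmRep k 𝒰`. -/
noncomputable def smoothPartFunctor (𝒰 : OpenBasis Γ) : Rep.{0} k Γ ⥤ SmRep k 𝒰 where
  obj A := ⟨smoothPart 𝒰 A, isSmooth_smoothPart 𝒰 A⟩
  map {A B} f := ObjectProperty.homMk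
    (smoothLift 𝒰 (isSmooth_smoothPart 𝒰 A) (smoothPartι 𝒰 A ≫ f))
  map_id A := by
    apply ObjectProperty.hom_ext
    exact (smoothLift_unique 𝒰 (isSmooth_smoothPart 𝒰 A) _ (𝟙 _) (by simp)).symm
  map_comp {A B C} f g := by
    apply ObjectProperty.hom_ext
    refine (smoothLift_unique 𝒰 (isSmooth_smoothPart 𝒰 A) _
      (smoothLift 𝒰 (isSmooth_smoothPart 𝒰 A) (smoothPartι 𝒰 A ≫ f) ≫
        smoothLift 𝒰 (isSmooth_smoothPart 𝒰 B) (smoothPartι 𝒰 B ≫ g)) ?_).symm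
    simp [Category.assoc]

variable (k) in
/-- The hom-set bijection of the adjunction `ι ⊣ smoothPart`. -/
noncomputable def smoothHomEquiv (𝒰 : OpenBasis Γ) (X : SmRep k 𝒰) (A : Rep.{0} k Γ) :
    ((smoothProp k 𝒰).ι.obj X ⟶ A) ≃ (X ⟶ (smoothPartFunctor k 𝒰).obj A) where
  toFun f := ObjectProperty.homMk (smoothLift 𝒰 X.property f)
  invFun g := g.hom ≫ smoothPartι 𝒰 A
  left_inv f := smoothLift_comp_ι 𝒰 X.property f
  right_inv g := by
    apply ObjectProperty.hom_ext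
    exact (smoothLift_unique 𝒰 X.property _ g.hom rfl).symm

variable (k) in
/-- The inclusion `SmRep k 𝒰 ⥤ Rep k Γ` is left adjoint to the smooth part functor. -/
noncomputable def smoothAdjunction (𝒰 : OpenBasis Γ) :
    (smoothProp k 𝒰).ι ⊣ smoothPartFunctor k 𝒰 :=
  Adjunction.mkOfHomEquiv
    { homEquiv := smoothHomEquiv k 𝒰
      homEquiv_naturality_left_symm := fun {X' X A} f g => by
        change (f ≫ g).hom ≫ smoothPartι 𝒰 A = f.hom ≫ g.hom ≫ smoothPartι 𝒰 A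
        rw [ObjectProperty.FullSubcategory.comp_hom, Category.assoc]
      homEquiv_naturality_right := fun {X A A'} f g => by
        apply ObjectProperty.hom_ext
        change smoothLift 𝒰 X.property (f ≫ g) = smoothLift 𝒰 X.property f ≫
          smoothLift 𝒰 (isSmooth_smoothPart 𝒰 A) (smoothPartι 𝒰 A ≫ g)
        refine (smoothLift_unique 𝒰 X.property _ _ ?_).symm
        rw [Category.assoc, smoothLift_comp_ι, smoothLift_comp_ι_assoc] }

noncomputable instance : EnoughInjectives (Rep.{0} k Γ) :=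
  EnoughInjectives.of_equivalence (Rep.equivalenceModuleMonoidAlgebra (k := k) (G := Γ)).functor

instance (𝒰 : OpenBasis Γ) : (smoothProp k 𝒰).ι.PreservesMonomorphisms :=
  (smoothProp k 𝒰).preservesMonomorphisms_ι_of_isNormalEpiCategory

instance (𝒰 : OpenBasis Γ) : EnoughInjectives (SmRep k 𝒰) :=
  EnoughInjectives.of_adjunction (adj := smoothAdjunction k 𝒰)

instance (𝒰 : OpenBasis Γ) : HasExt.{0} (SmRep k 𝒰) :=
  hasExt_of_enoughInjectives _

end Fermat.Agent.CFT.Sm
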