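/-
S55 / CFT (P0.2) — helper9.
Functors between categories of smooth representations: restriction `resSm` along a continuous
homomorphism, smooth coinduction `coindSm` (right adjoint of restriction), exactness of both
(for `coindSm` when the source carries the pulled-back basis), and for an open subgroup the
second adjunction `coindSm ⊣ resSm`.
-/
import Fermat.Agent.CFT.Sm.Exact_helper9
import Fermat.Agent.CFT.Sm.Injectives_helper9

set_option autoImplicit false

open CategoryTheory CategoryTheory.Limits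

namespace Fermat.Agent.CFT.Sm

/-- Lifting equivariant, right-`V`-invariant functions along an equivariant surjection. -/
lemma exists_equivariant_lift {Γ Γ' B C : Type*} [Group Γ] [Group Γ'] [MulAction Γ' B]
    [MulAction Γ' C] (ψ : Γ' →* Γ) (V : Subgroup Γ) [hV : V.Normal] (π : B → C)
    (hπ : ∀ (a : Γ') (b : B), π (a • b) = a • π b)
    (f : Γ → C) (hf : ∀ (a : Γ') (h : Γ), f (ψ a * h) = a • f h)
    (hfV : ∀ (h : Γ), ∀ v ∈ V, f (h * v) = f h)
    (s : C → B) (hs : ∀ h, π (s (f h)) = f h)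
    (hsV : ∀ (h : Γ) (a : Γ'), ψ a ∈ V → a • s (f h) = s (f h)) :
    ∃ F : Γ → B, (∀ h, π (F h) = f h) ∧ (∀ (a : Γ') (h : Γ), F (ψ a * h) = a • F h) ∧
      ∀ (h : Γ), ∀ v ∈ V, F (h * v) = F h := by
  classical
  set H : Subgroup Γ := ψ.range ⊔ V with hH
  let r : Γ → Γ := fun h => (Quotient.mk (QuotientGroup.rightRel H) h).out
  have hr : ∀ h, h * (r h)⁻¹ ∈ H := fun h => by
    have := Quotient.mk_out (s := QuotientGroup.rightRel H) h
    exact QuotientGroup.rightRel_apply.1 this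
  have hr_eq : ∀ (x h : Γ), x ∈ H → r (x * h) = r h := fun x h hx => by
    have : (Quotient.mk (QuotientGroup.rightRel H) (x * h)) =
        Quotient.mk (QuotientGroup.rightRel H) h := by
      apply Quotient.sound
      apply QuotientGroup.rightRel_apply.2
      have : h * (x * h)⁻¹ = x⁻¹ := by group
      rw [this]
      exact H.inv_mem hx
    change (Quotient.mk (QuotientGroup.rightRel H) (x * h)).out = _
    rw [this]
  -- decomposition
  have hdec : ∀ h, ∃ a : Γ', ∃ v ∈ V, h = ψ a * v * r h := fun h => by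
    obtain ⟨y, ⟨a, rfl⟩, v, hv, hyv⟩ := Subgroup.mem_sup_of_normal_right.1 (hr h)
    refine ⟨a, v, hv, ?_⟩
    rw [hyv]; group
  choose a v hv hav using hdec
  -- key lemma
  have key : ∀ (h : Γ) (a₁ a₂ : Γ') (v₁ v₂ : Γ), v₁ ∈ V → v₂ ∈ V →
      ψ a₁ * v₁ * h = ψ a₂ * v₂ * h → ∀ c : Γ, a₁ • s (f c) = a₂ • s (f c) := by
    intro h a₁ a₂ v₁ v₂ hv₁ hv₂ heq c
    have h1 : ψ (a₂⁻¹ * a₁) = v₂ * v₁⁻¹ := by
      have h2 : ψ a₁ * v₁ = ψ a₂ * v₂ := mul_right_cancel heq
      rw [map_mul, map_inv]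
      calc (ψ a₂)⁻¹ * ψ a₁ = (ψ a₂)⁻¹ * (ψ a₁ * v₁) * v₁⁻¹ := by group
        _ = (ψ a₂)⁻¹ * (ψ a₂ * v₂) * v₁⁻¹ := by rw [h2]
        _ = v₂ * v₁⁻¹ := by group
    have h3 : (a₂⁻¹ * a₁) • s (f c) = s (f c) :=
      hsV c _ (h1 ▸ V.mul_mem hv₂ (V.inv_mem hv₁))
    calc a₁ • s (f c) = a₂ • ((a₂⁻¹ * a₁) • s (f c)) := by
          rw [smul_smul]; congr 1; group
      _ = a₂ • s (f c) := by rw [h3]
  refine ⟨fun h => a h • s (f (r h)), ?_, ?_, ?_⟩
  · intro h
    rw [hπ, hs, ← hf]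
    conv_rhs => rw [hav h]
    have : ψ (a h) * v h * r h = ψ (a h) * r h * ((r h)⁻¹ * v h * r h) := by group
    rw [this, hfV _ _ (hV.conj_mem' _ (hv h) _)]
  · intro a' h
    have h1 : r (ψ a' * h) = r h :=
      hr_eq _ _ (Subgroup.mem_sup_left ⟨a', rfl⟩)
    change a (ψ a' * h) • s (f (r (ψ a' * h))) = a' • (a h • s (f (r h)))
    rw [h1, smul_smul]
    refine key (r h) _ _ (v (ψ a' * h)) (v h) (hv _) (hv _) ?_ _
    have e1 := hav (ψ a' * h)
    rw [h1] at e1
    rw [← e1, map_mul]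
    conv_lhs => rw [hav h]
    group
  · intro h w hw
    have h0 : h * w = (h * w * h⁻¹) * h := by group
    have h1 : r (h * w) = r h := by
      rw [h0]
      exact hr_eq _ _ (Subgroup.mem_sup_right (hV.conj_mem _ hw _))
    change a (h * w) • s (f (r (h * w))) = a h • s (f (r h))
    rw [h1]
    refine key (r h) _ _ (v (h * w)) (v h * (r h * w * (r h)⁻¹)) (hv _)
      (V.mul_mem (hv _) (hV.conj_mem _ hw _)) ?_ _
    have e1 := hav (h * w)
    rw [h1] at e1
    rw [← e1]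
    conv_lhs => rw [hav h]
    group


variable {k Γ Γ' : Type} [CommRing k] [Group Γ] [Group Γ']
  {𝒰 : OpenBasis Γ} {𝒰' : OpenBasis Γ'}

lemma isSmooth_res (ψ : Γ' →* Γ) (hψ : 𝒰'.Finer (𝒰.comap ψ)) {A : Rep.{0} k Γ}
    (hA : IsSmooth 𝒰 A) : IsSmooth 𝒰' (Rep.res ψ A) := by
  intro a
  obtain ⟨U, hU, hfix⟩ := hA a
  obtain ⟨V, hV, hVU⟩ := hψ (U.comap ψ) ⟨U, hU, rfl⟩
  exact ⟨V, hV, fun g hg => hfix (ψ g) (hVU hg)⟩

variable (k) in
/-- Restriction of smooth representations along a continuous homomorphism. -/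
noncomputable def resSm (ψ : Γ' →* Γ) (hψ : 𝒰'.Finer (𝒰.comap ψ)) : SmRep k 𝒰 ⥤ SmRep k 𝒰' :=
  ObjectProperty.lift _ ((smoothProp k 𝒰).ι ⋙ Rep.resFunctor ψ)
    (fun A => isSmooth_res ψ hψ A.property)

variable (k 𝒰 𝒰') in
/-- Smooth coinduction. -/
noncomputable def coindSm (ψ : Γ' →* Γ) : SmRep k 𝒰' ⥤ SmRep k 𝒰 :=
  (smoothProp k 𝒰').ι ⋙ Rep.coindFunctor k ψ ⋙ smoothPartFunctor k 𝒰

section Res

variable (ψ : Γ' →* Γ) (hψ : 𝒰'.Finer (𝒰.comap ψ))

instance : (resSm k ψ hψ).Faithful := by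
  unfold resSm; infer_instance

instance : (resSm k ψ hψ).Additive where
  map_add {X Y f g} := by
    apply ObjectProperty.hom_ext
    rfl

lemma resSm_map_hom_hom {A B : SmRep k 𝒰} (f : A ⟶ B) (a : A.obj.V) :
    ((resSm k ψ hψ).map f).hom.hom a = f.hom.hom a := rfl

lemma resSm_shortExact {X : ShortComplex (SmRep k 𝒰)} (hX : X.ShortExact) :
    (X.map (resSm k ψ hψ)).ShortExact := by
  rw [shortExact_iff] at hX ⊢
  exact hX

instance : PreservesFiniteLimits (resSm k ψ hψ) := by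
  have := ((Functor.preservesFiniteLimits_tfae (resSm k ψ hψ)).out 0 3 rfl rfl).1
  apply this
  intro S hS
  have := resSm_shortExact ψ hψ hS
  exact ⟨this.exact, this.mono_f⟩

instance : PreservesFiniteColimits (resSm k ψ hψ) := by
  have := ((Functor.preservesFiniteColimits_tfae (resSm k ψ hψ)).out 0 3 rfl rfl).1
  apply this
  intro S hS
  have := resSm_shortExact ψ hψ hS
  exact ⟨this.exact, this.epi_g⟩


end Res

section Adjunction

variable (ψ : Γ' →* Γ) (hψ : 𝒰'.Finer (𝒰.comap ψ))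

variable (k) in
/-- `resSm ⊣ coindSm`. -/
noncomputable def resCoindSmAdjunction : resSm k ψ hψ ⊣ coindSm k 𝒰 𝒰' ψ :=
  Adjunction.restrictFullyFaithful
    (iC := 𝟭 (SmRep k 𝒰)) (iD := (smoothProp k 𝒰').ι)
    ((smoothAdjunction k 𝒰).comp (Rep.resCoindAdjunction k ψ))
    (Functor.FullyFaithful.id _) (ObjectProperty.fullyFaithfulι _)
    (Iso.refl _) (Iso.refl _)

end Adjunction

section Coind

variable (ψ : Γ' →* Γ)

/-- The underlying function of an element of the smooth coinduction. -/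
def coindSmFun {B : SmRep k 𝒰'} (f : ((coindSm k 𝒰 𝒰' ψ).obj B).obj.V) : Γ → B.obj.V :=
  ((show ↥(smoothSub 𝒰 (Rep.coind ψ B.obj)) from f).1).1

lemma coindSmFun_injective {B : SmRep k 𝒰'} :
    Function.Injective (coindSmFun ψ (𝒰 := 𝒰) (B := B)) := by
  intro f g h
  exact Subtype.ext (Subtype.ext h)

lemma coindSmFun_equivariant {B : SmRep k 𝒰'} (f : ((coindSm k 𝒰 𝒰' ψ).obj B).obj.V)
    (a : Γ') (h : Γ) : coindSmFun ψ f (ψ a * h) = B.obj.ρ a (coindSmFun ψ f h) :=
  ((show ↥(smoothSub 𝒰 (Rep.coind ψ B.obj)) from f).1).2 a h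

lemma coindSmFun_smooth {B : SmRep k 𝒰'} (f : ((coindSm k 𝒰 𝒰' ψ).obj B).obj.V) :
    ∃ U ∈ 𝒰.sets, ∀ (h : Γ), ∀ u ∈ U, coindSmFun ψ f (h * u) = coindSmFun ψ f h := by
  obtain ⟨U, hU, hfix⟩ := (show ↥(smoothSub 𝒰 (Rep.coind ψ B.obj)) from f).2
  refine ⟨U, hU, fun h u hu => ?_⟩
  have := congrArg (fun t => t.1 h) (hfix u hu)
  exact this

lemma coindSmFun_action {B : SmRep k 𝒰'} (f : ((coindSm k 𝒰 𝒰' ψ).obj B).obj.V) (g h : Γ) :
    coindSmFun ψ (((coindSm k 𝒰 𝒰' ψ).obj B).obj.ρ g f) h = coindSmFun ψ f (h * g) := rfl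

/-- Constructor for elements of the smooth coinduction. -/
def coindSmMk {B : SmRep k 𝒰'} (F : Γ → B.obj.V)
    (h1 : ∀ (a : Γ') (h : Γ), F (ψ a * h) = B.obj.ρ a (F h))
    (h2 : ∃ U ∈ 𝒰.sets, ∀ (h : Γ), ∀ u ∈ U, F (h * u) = F h) :
    ((coindSm k 𝒰 𝒰' ψ).obj B).obj.V :=
  (show ↥(smoothSub 𝒰 (Rep.coind ψ B.obj)) from ⟨⟨F, h1⟩, by
    obtain ⟨U, hU, h⟩ := h2
    exact ⟨U, hU, fun u hu => Subtype.ext (funext fun x => h x u hu)⟩⟩)

@[simp] lemma coindSmFun_coindSmMk {B : SmRep k 𝒰'} (F : Γ → B.obj.V)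
    (h1 : ∀ (a : Γ') (h : Γ), F (ψ a * h) = B.obj.ρ a (F h))
    (h2 : ∃ U ∈ 𝒰.sets, ∀ (h : Γ), ∀ u ∈ U, F (h * u) = F h) :
    coindSmFun ψ (coindSmMk ψ F h1 h2) = F := rfl

lemma coindSmFun_map {B C : SmRep k 𝒰'} (π : B ⟶ C) (f : ((coindSm k 𝒰 𝒰' ψ).obj B).obj.V)
    (h : Γ) : coindSmFun ψ (((coindSm k 𝒰 𝒰' ψ).map π).hom.hom f) h =
      π.hom.hom (coindSmFun ψ f h) := rfl

lemma coindSmFun_add {B : SmRep k 𝒰'} (f g : ((coindSm k 𝒰 𝒰' ψ).obj B).obj.V) (h : Γ) :
    coindSmFun ψ (f + g) h = coindSmFun ψ f h + coindSmFun ψ g h := rfl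

lemma coindSmFun_zero {B : SmRep k 𝒰'} (h : Γ) :
    coindSmFun ψ (0 : ((coindSm k 𝒰 𝒰' ψ).obj B).obj.V) h = 0 := rfl

lemma coindSmFun_smul {B : SmRep k 𝒰'} (c : k) (f : ((coindSm k 𝒰 𝒰' ψ).obj B).obj.V) (h : Γ) :
    coindSmFun ψ (c • f) h = c • coindSmFun ψ f h := rfl

lemma finite_range_coindSmFun {B : SmRep k 𝒰'} (f : ((coindSm k 𝒰 𝒰' ψ).obj B).obj.V) :
    (Set.range (coindSmFun ψ f)).Finite := by
  obtain ⟨U, hU, hfix⟩ := coindSmFun_smooth ψ f
  have := 𝒰.finiteIndex U hU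
  have hfin : Finite (Γ ⧸ U) := Subgroup.finite_quotient_of_finiteIndex
  let f' : Γ ⧸ U → B.obj.V := Quotient.lift (coindSmFun ψ f) (fun a b hab => by
    have hab' : a⁻¹ * b ∈ U := QuotientGroup.leftRel_apply.1 hab
    have := hfix a _ hab'
    rw [← this]; congr 1; group)
  have : Set.range (coindSmFun ψ f) ⊆ Set.range f' := by
    rintro _ ⟨g, rfl⟩
    exact ⟨QuotientGroup.mk g, rfl⟩
  exact (Set.finite_range f').subset this

/-- Smooth coinduction along `ψ` (with the pulled-back basis) preserves surjections. -/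
lemma coindSm_map_surjective {B C : SmRep k (𝒰.comap ψ)} (π : B ⟶ C)
    (hπ : Function.Surjective π.hom.hom) :
    Function.Surjective ((coindSm k 𝒰 (𝒰.comap ψ) ψ).map π).hom.hom := by
  classical
  intro f
  obtain ⟨U, hU, hfU⟩ := coindSmFun_smooth ψ f
  have hfin := finite_range_coindSmFun ψ f
  let s : C.obj.V → B.obj.V := Function.surjInv hπ
  have hs : ∀ c, π.hom.hom (s c) = c := Function.surjInv_eq hπ
  have : Finite ↥(Set.range (coindSmFun ψ f)) := hfin
  obtain ⟨W, ⟨V₀, hV₀, rfl⟩, hW⟩ := B.property.exists_mem_forall_fixed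
    (fun c : ↥(Set.range (coindSmFun ψ f)) => s c.1)
  obtain ⟨V, hV, hVle⟩ := 𝒰.directed U hU V₀ hV₀
  have hVn := 𝒰.normal V hV
  letI : MulAction Γ' B.obj.V :=
    { smul := fun g b => B.obj.ρ g b
      one_smul := fun b => by change B.obj.ρ 1 b = b; simp
      mul_smul := fun g h b => by change B.obj.ρ (g * h) b = B.obj.ρ g (B.obj.ρ h b); simp }
  letI : MulAction Γ' C.obj.V :=
    { smul := fun g b => C.obj.ρ g b
      one_smul := fun b => by change C.obj.ρ 1 b = b; simp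
      mul_smul := fun g h b => by change C.obj.ρ (g * h) b = C.obj.ρ g (C.obj.ρ h b); simp }
  obtain ⟨F, hF1, hF2, hF3⟩ := exists_equivariant_lift ψ V π.hom.hom
    (fun a b => Rep.hom_comm_apply π.hom a b) (coindSmFun ψ f)
    (coindSmFun_equivariant ψ f) (fun h v hv => hfU h v (hVle hv).1) s (fun h => hs _)
    (fun h a ha => hW ⟨_, ⟨h, rfl⟩⟩ a (hVle ha).2)
  refine ⟨coindSmMk ψ F hF2 ⟨V, hV, hF3⟩, ?_⟩
  apply coindSmFun_injective
  funext h
  rw [coindSmFun_map, coindSmFun_coindSmMk, hF1]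


lemma resCoindSm_unit_apply (hψ : 𝒰'.Finer (𝒰.comap ψ)) (A : SmRep k 𝒰) (a : A.obj.V) (g : Γ) :
    coindSmFun ψ (((resCoindSmAdjunction k ψ hψ).unit.app A).hom.hom a) g = A.obj.ρ g a := rfl

lemma resCoindSm_counit_apply (hψ : 𝒰'.Finer (𝒰.comap ψ)) (B : SmRep k 𝒰')
    (f : ((coindSm k 𝒰 𝒰' ψ).obj B).obj.V) :
    ((resCoindSmAdjunction k ψ hψ).counit.app B).hom.hom f = coindSmFun ψ f 1 := rfl

instance : (coindSm k 𝒰 𝒰' ψ).Additive where
  map_add {X Y f g} := by
    apply ObjectProperty.hom_ext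
    ext x
    apply coindSmFun_injective
    funext h
    rfl

lemma preservesFiniteLimits_coindSm (hψ : 𝒰'.Finer (𝒰.comap ψ)) :
    PreservesFiniteLimits (coindSm k 𝒰 𝒰' ψ) := by
  have := (resCoindSmAdjunction k ψ hψ).rightAdjoint_preservesLimits
  infer_instance

instance : PreservesFiniteLimits (coindSm k 𝒰 (𝒰.comap ψ) ψ) :=
  preservesFiniteLimits_coindSm ψ (OpenBasis.Finer.refl _)

instance : PreservesFiniteColimits (coindSm k 𝒰 (𝒰.comap ψ) ψ) := by
  have h0 := ((Functor.preservesFiniteLimits_tfae (coindSm k 𝒰 (𝒰.comap ψ) ψ)).out 3 0 rfl rfl).1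
    inferInstance
  have := ((Functor.preservesFiniteColimits_tfae (coindSm k 𝒰 (𝒰.comap ψ) ψ)).out 0 3 rfl rfl).1
  apply this
  intro S hS
  refine ⟨(h0 S hS).1, ?_⟩
  rw [epi_iff_surjective]
  exact coindSm_map_surjective ψ S.g ((epi_iff_surjective _).1 hS.epi_g)

end Coind

section OpenSubgroup

variable {k Γ : Type} [CommRing k] [Group Γ] {𝒰 : OpenBasis Γ}

/-- For a smooth representation the smooth part is everything. -/
noncomputable def smoothPartIso {A : Rep.{0} k Γ} (hA : IsSmooth 𝒰 A) : smoothPart 𝒰 A ≅ A where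
  hom := smoothPartι 𝒰 A
  inv := smoothLift 𝒰 hA (𝟙 A)
  hom_inv_id := by
    ext x
    apply smoothPartι_injective 𝒰 A
    rfl
  inv_hom_id := smoothLift_comp_ι 𝒰 hA (𝟙 A)

/-- Coinduction from an open subgroup preserves smoothness. -/
lemma isSmooth_coind_of_isOpen (H : Subgroup Γ) (hH : 𝒰.IsOpen H) {B : Rep.{0} k H}
    (hB : IsSmooth (𝒰.comap H.subtype) B) : IsSmooth 𝒰 (Rep.coind H.subtype B) := by
  classical
  rintro ⟨f, hf⟩
  have hfi := hH.finiteIndex
  have : Finite (Quotient (QuotientGroup.rightRel H)) :=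
    Finite.of_equiv _ (QuotientGroup.quotientRightRelEquivQuotientLeftRel H).symm
  -- for each coset choose a basic open subgroup fixing the value at the representative
  have hq : ∀ q : Quotient (QuotientGroup.rightRel H), ∃ V ∈ 𝒰.sets,
      ∀ g : H, (g : Γ) ∈ V → B.ρ g (f q.out) = f q.out := fun q => by
    obtain ⟨W, ⟨V, hV, rfl⟩, hW⟩ := hB (f q.out)
    exact ⟨V, hV, fun g hg => hW g hg⟩
  choose V hV hVfix using hq
  obtain ⟨U₀, hU₀, hU₀H⟩ := hH
  obtain ⟨U, hU, hUle⟩ := 𝒰.exists_mem_le_of_finite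
    (fun o : Option (Quotient (QuotientGroup.rightRel H)) => o.elim U₀ V)
    (fun o => by
      cases o with
      | none => exact 𝒰.isOpen_of_mem hU₀
      | some q => exact 𝒰.isOpen_of_mem (hV q))
  have hUn := 𝒰.normal U hU
  refine ⟨U, hU, fun u hu => Subtype.ext (funext fun g => ?_)⟩
  change f (g * u) = f g
  -- write g = h * r
  set q : Quotient (QuotientGroup.rightRel H) := Quotient.mk _ g with hqdef
  have hr : g * q.out⁻¹ ∈ H := QuotientGroup.rightRel_apply.1 (Quotient.mk_out (s := QuotientGroup.rightRel H) g)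
  set h : H := ⟨g * q.out⁻¹, hr⟩ with hh
  have hg : g = (h : Γ) * q.out := by simp [hh]
  have hconj : q.out * u * q.out⁻¹ ∈ U := hUn.conj_mem u hu _
  have hcH : q.out * u * q.out⁻¹ ∈ H := hU₀H (hUle none hconj)
  have e1 : g * u = ((h * ⟨_, hcH⟩ : H) : Γ) * q.out := by
    rw [hg]; simp only [Subgroup.coe_mul]; group
  have e2 : f (g * u) = B.ρ (h * ⟨_, hcH⟩) (f q.out) := by
    rw [e1]; exact hf (h * ⟨_, hcH⟩) q.out
  have e3 : f g = B.ρ h (f q.out) := by
    conv_lhs => rw [hg]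
    exact hf h q.out
  rw [e2, e3, map_mul, Module.End.mul_apply, hVfix q ⟨_, hcH⟩ (hUle (some q) hconj)]


/-- For an open subgroup, plain coinduction agrees with smooth coinduction. -/
noncomputable def coindSmIso (H : Subgroup Γ) (hH : 𝒰.IsOpen H) :
    (smoothProp k (𝒰.comap H.subtype)).ι ⋙ Rep.coindFunctor k H.subtype ≅
      coindSm k 𝒰 (𝒰.comap H.subtype) H.subtype ⋙ (smoothProp k 𝒰).ι :=
  NatIso.ofComponents
    (fun B => (smoothPartIso (isSmooth_coind_of_isOpen H hH B.property)).symm)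
    (fun {B C} f => by
      ext x
      apply smoothPartι_injective 𝒰
      rfl)

variable (k) in
/-- For an open subgroup `H`, smooth coinduction is also LEFT adjoint to restriction. -/
noncomputable def coindResSmAdjunction (H : Subgroup Γ) (hH : 𝒰.IsOpen H) :
    coindSm k 𝒰 (𝒰.comap H.subtype) H.subtype ⊣
      resSm k H.subtype (OpenBasis.Finer.refl (𝒰.comap H.subtype)) := by
  classical
  haveI := hH.finiteIndex
  exact Adjunction.restrictFullyFaithful
    (iC := (smoothProp k (𝒰.comap H.subtype)).ι) (iD := (smoothProp k 𝒰).ι)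
    (Rep.coindResAdjunction k H)
    (ObjectProperty.fullyFaithfulι _) (ObjectProperty.fullyFaithfulι _)
    (coindSmIso H hH) (Iso.refl _)


open Classical in
lemma coindResSm_unit_apply (H : Subgroup Γ) (hH : 𝒰.IsOpen H) (B : SmRep k (𝒰.comap H.subtype))
    (b : B.obj.V) (g : Γ) :
    coindSmFun H.subtype (((coindResSmAdjunction k H hH).unit.app B).hom.hom b) g =
      if hg : g ∈ H then B.obj.ρ ⟨g, hg⟩ b else 0 := by
  haveI := hH.finiteIndex
  have h1 := Adjunction.map_restrictFullyFaithful_unit_app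
    (iC := (smoothProp k (𝒰.comap H.subtype)).ι) (iD := (smoothProp k 𝒰).ι)
    (Rep.coindResAdjunction k H)
    (ObjectProperty.fullyFaithfulι _) (ObjectProperty.fullyFaithfulι _)
    (R := resSm k H.subtype (OpenBasis.Finer.refl _))
    (coindSmIso H hH) (Iso.refl _) B
  have h2 := congrArg (fun t => coindSmFun H.subtype (t.hom b) g) h1
  refine h2.trans ?_
  rw [Rep.coindResAdjunction_unit_app]
  change ((B.obj.indCoindIso.hom.hom
    (Representation.IndV.mk H.subtype B.obj.ρ 1 b)).1) g = _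
  have : B.obj.indCoindIso.hom.hom (Representation.IndV.mk H.subtype B.obj.ρ 1 b) =
      B.obj.indToCoind (Representation.IndV.mk H.subtype B.obj.ρ 1 b) := rfl
  rw [this]
  simp only [Rep.indToCoind, Rep.indToCoindAux, Representation.IndV.mk, LinearMap.coe_comp,
    Function.comp_apply, TensorProduct.mk_apply, Representation.Coinvariants.lift_mk,
    TensorProduct.lift.tmul, LinearMap.coe_comp, Function.comp_apply]
  simp
  have hiff : (QuotientGroup.rightRel H) g 1 ↔ g ∈ H := by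
    rw [QuotientGroup.rightRel_apply, one_mul, inv_mem_iff]
  by_cases hg : g ∈ H
  · rw [dif_pos (hiff.2 hg), dif_pos hg]
  · rw [dif_neg (fun h => hg (hiff.1 h)), dif_neg hg]; rfl


attribute [local instance] Subgroup.fintypeQuotientOfFiniteIndex in
lemma coindResSm_counit_apply (H : Subgroup Γ) (hH : 𝒰.IsOpen H) (A : SmRep k 𝒰)
    (f : ((coindSm k 𝒰 (𝒰.comap H.subtype) H.subtype).obj
      ((resSm k H.subtype (OpenBasis.Finer.refl _)).obj A)).obj.V) :
    ((coindResSmAdjunction k H hH).counit.app A).hom.hom f =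
      ∑ᶠ q : Quotient (QuotientGroup.rightRel H),
        A.obj.ρ (q.out)⁻¹ (show A.obj.V from coindSmFun H.subtype f q.out) := by
  classical
  haveI := hH.finiteIndex
  have h1 := Adjunction.map_restrictFullyFaithful_counit_app
    (iC := (smoothProp k (𝒰.comap H.subtype)).ι) (iD := (smoothProp k 𝒰).ι)
    (Rep.coindResAdjunction k H)
    (ObjectProperty.fullyFaithfulι _) (ObjectProperty.fullyFaithfulι _)
    (R := resSm k H.subtype (OpenBasis.Finer.refl _))
    (coindSmIso H hH) (Iso.refl _) A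
  have h2 := congrArg (fun t => t.hom f) h1
  refine h2.trans ?_
  rw [Rep.coindResAdjunction_counit_app]
  set F₀ : ↥(Representation.coindV H.subtype (Rep.res H.subtype A.obj).ρ) :=
    (show ↥(smoothSub 𝒰 (Rep.coind H.subtype (Rep.res H.subtype A.obj))) from f).1 with hF₀
  change ((Rep.indResAdjunction k H.subtype).counit.app A.obj).hom
    (Rep.coindToInd (Rep.res H.subtype A.obj) F₀) = _
  rw [Rep.coindToInd_apply, map_sum, finsum_eq_sum_of_fintype]
  refine Finset.sum_congr rfl (fun q _ => ?_)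
  conv_lhs => rw [← Quotient.out_eq q]
  rw [Quotient.liftOn_mk]
  change ((Rep.indResHomEquiv H.subtype _ A.obj).symm (𝟙 _)).hom _ = _
  simp [Rep.indResHomEquiv, Representation.IndV.mk]
  rfl


/-- `A → coInd Res A → A` is multiplication by the index. -/
lemma resCoindSm_unit_comp_coindResSm_counit (H : Subgroup Γ) (hH : 𝒰.IsOpen H) (A : SmRep k 𝒰) :
    (resCoindSmAdjunction k H.subtype (OpenBasis.Finer.refl _)).unit.app A ≫
      (coindResSmAdjunction k H hH).counit.app A = (H.index : k) • 𝟙 A := by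
  classical
  haveI := hH.finiteIndex
  letI := Subgroup.fintypeQuotientOfFiniteIndex (H := H)
  apply ObjectProperty.hom_ext
  ext a
  change ((coindResSmAdjunction k H hH).counit.app A).hom.hom
    (((resCoindSmAdjunction k H.subtype (OpenBasis.Finer.refl _)).unit.app A).hom.hom a) = _
  rw [coindResSm_counit_apply, finsum_eq_sum_of_fintype]
  have : ∀ q : Quotient (QuotientGroup.rightRel H), A.obj.ρ (q.out)⁻¹
      (show A.obj.V from coindSmFun H.subtype
        (((resCoindSmAdjunction k H.subtype (OpenBasis.Finer.refl _)).unit.app A).hom.hom a)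
          q.out) = a := fun q => by
    change A.obj.ρ (q.out)⁻¹ (A.obj.ρ q.out a) = a
    rw [← Module.End.mul_apply, ← map_mul, inv_mul_cancel, map_one, Module.End.one_apply]
  rw [Finset.sum_congr rfl (fun q _ => this q), Finset.sum_const, Finset.card_univ,
    QuotientGroup.card_quotient_rightRel, ← Nat.card_eq_fintype_card]
  change (H.index : ℕ) • a = (H.index : k) • a
  rw [Nat.cast_smul_eq_nsmul]

/-- `B → Res coInd B → B` is the identity. -/
lemma coindResSm_unit_comp_resCoindSm_counit (H : Subgroup Γ) (hH : 𝒰.IsOpen H)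
    (B : SmRep k (𝒰.comap H.subtype)) :
    (coindResSmAdjunction k H hH).unit.app B ≫
      (resCoindSmAdjunction k H.subtype (OpenBasis.Finer.refl _)).counit.app B = 𝟙 B := by
  classical
  apply ObjectProperty.hom_ext
  ext b
  change ((resCoindSmAdjunction k H.subtype (OpenBasis.Finer.refl _)).counit.app B).hom.hom
    (((coindResSmAdjunction k H hH).unit.app B).hom.hom b) = b
  rw [resCoindSm_counit_apply, coindResSm_unit_apply, dif_pos H.one_mem]
  change B.obj.ρ 1 b = b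
  simp

end OpenSubgroup

end Fermat.Agent.CFT.Sm
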