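/-
S55 / CFT (interface) — helper9.
Trivial smooth representations, the Bockstein sequence, the reciprocity pairing
`c ↦ (χ ↦ inv (c_* δχ))`, and the abstract notion of a (local / global) `p`-class formation
`(Γ, 𝒰, C)` in terms of smooth cohomology. This is the interface between the arithmetic packages
(PT4 global, PT5 local) and the abstract duality engine.
-/
import Fermat.Agent.CFT.Sm.Functors_helper9
import Fermat.Agent.CFT.Sm.Cohomology_helper9

set_option autoImplicit false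

open CategoryTheory CategoryTheory.Limits

namespace Fermat.Agent.CFT.Sm

variable {k Γ : Type} [CommRing k] [Group Γ]

section Trivial

variable (k) (𝒰 : OpenBasis Γ)

/-- The trivial smooth representation on a `k`-module. -/
noncomputable def trivSm (M : Type) [AddCommGroup M] [Module k M] : SmRep k 𝒰 :=
  ⟨Rep.trivial k Γ M, fun _ => by
    obtain ⟨U, hU⟩ := 𝒰.nonempty
    exact ⟨U, hU, fun _ _ => rfl⟩⟩

variable {k 𝒰}

/-- A linear map induces a morphism of trivial representations. -/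
noncomputable def trivSmMap {M N : Type} [AddCommGroup M] [Module k M] [AddCommGroup N]
    [Module k N] (f : M →ₗ[k] N) : trivSm k 𝒰 M ⟶ trivSm k 𝒰 N :=
  ObjectProperty.homMk (Rep.ofHom ⟨f, fun _ => rfl⟩)

@[simp] lemma trivSmMap_apply {M N : Type} [AddCommGroup M] [Module k M] [AddCommGroup N]
    [Module k N] (f : M →ₗ[k] N) (m : M) :
    (trivSmMap (𝒰 := 𝒰) f).hom.hom m = f m := rfl

/-- The morphism `k ⟶ A` attached to an invariant vector of `A`. -/
noncomputable def ofInvariant (A : SmRep k 𝒰) (a : A.obj.V) (ha : ∀ g, A.obj.ρ g a = a) :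
    trivSm k 𝒰 k ⟶ A :=
  ObjectProperty.homMk (Rep.ofHom ⟨LinearMap.toSpanSingleton k A.obj.V a, fun g => by
    ext
    simp [ha g]⟩)

@[simp] lemma ofInvariant_apply (A : SmRep k 𝒰) (a : A.obj.V) (ha : ∀ g, A.obj.ρ g a = a) (c : k) :
    (ofInvariant A a ha).hom.hom c = c • a := rfl

end Trivial

section Bockstein

variable (𝒰 : OpenBasis Γ) (p : ℕ)

/-- The Bockstein sequence `0 → ℤ → ℤ → ℤ/p → 0` of trivial smooth representations. -/
noncomputable def bockstein : ShortComplex (SmRep ℤ 𝒰) :=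
  ShortComplex.mk (trivSmMap (𝒰 := 𝒰) ((p : ℤ) • (LinearMap.id : ℤ →ₗ[ℤ] ℤ)))
    (trivSmMap (𝒰 := 𝒰) (Int.castAddHom (ZMod p)).toIntLinearMap) (by
      apply ObjectProperty.hom_ext
      apply Rep.hom_ext
      apply Representation.IntertwiningMap.ext
      apply LinearMap.ext
      intro x
      change ((Int.castAddHom (ZMod p)) ((p : ℤ) • (show ℤ from x)) : ZMod p) = 0
      simp)

lemma bockstein_shortExact (hp : p ≠ 0) : (bockstein 𝒰 p).ShortExact := by
  rw [shortExact_iff]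
  refine ⟨?_, ?_, ?_⟩
  · intro x y h
    have h' : (p : ℤ) • (show ℤ from x) = (p : ℤ) • (show ℤ from y) := h
    have hp' : (p : ℤ) ≠ 0 := by exact_mod_cast hp
    exact smul_right_injective ℤ hp' h'
  · intro b hb
    have hb' : (((show ℤ from b) : ℤ) : ZMod p) = 0 := hb
    rw [ZMod.intCast_zmod_eq_zero_iff_dvd] at hb'
    obtain ⟨c, hc⟩ := hb'
    exact ⟨c, hc.symm⟩
  · intro y
    obtain ⟨x, hx⟩ := ZMod.intCast_surjective (show ZMod p from y)
    exact ⟨x, hx⟩

end Bockstein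


section Rec

variable (𝒰 : OpenBasis Γ) (p : ℕ) [hp : Fact p.Prime] (C : SmRep ℤ 𝒰)
  (inv : smH 𝒰 C 2 →+ AddCircle (1 : ℚ))

/-- The "reciprocity pairing" of a `Γ`-invariant element `c` of `C`:
`χ ↦ inv (c_* (δ χ))` for `χ ∈ H¹(Γ, ℤ/p)`, `δ` the Bockstein. -/
noncomputable def recMap (c : C.obj.V) (hc : ∀ g, C.obj.ρ g c = c) :
    CharacterModule (smH 𝒰 (trivSm ℤ 𝒰 (ZMod p)) 1) :=
  inv.comp (((smHFunctor ℤ 𝒰 2).map (ofInvariant C c hc)).hom.toAddMonoidHom.comp
    (smδ (bockstein_shortExact 𝒰 p hp.out.ne_zero) 1 2 rfl).hom.toAddMonoidHom)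

/-- The axioms of a `p`-class formation at the base level `(Γ, 𝒰, C, inv)`
(no hypothesis on `H³`, reciprocity only surjective: this is what the LOCAL theory provides). -/
structure IsBaseCF : Prop where
  /-- (CF1) `H¹(Γ, C)` has trivial `p`-primary part. -/
  h1_bij : Function.Bijective (fun x : smH 𝒰 C 1 => p • x)
  /-- (CF2a) `inv` is injective on `H²(Γ, C)[p]`. -/
  inv_inj : ∀ x : smH 𝒰 C 2, p • x = 0 → inv x = 0 → x = 0
  /-- (CF2b) `1/p` is an invariant. -/
  inv_surj : ∃ x : smH 𝒰 C 2, p • x = 0 ∧ inv x = (((p : ℚ)⁻¹ : ℚ) : AddCircle (1 : ℚ))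
  /-- (CF2c) `H²(Γ, C)` is `p`-divisible. -/
  h2_div : ∀ x : smH 𝒰 C 2, ∃ y : smH 𝒰 C 2, p • y = x
  /-- (CF4s) reciprocity is surjective mod `p`. -/
  rec_surj : ∀ φ : CharacterModule (smH 𝒰 (trivSm ℤ 𝒰 (ZMod p)) 1),
    ∃ (c : C.obj.V) (hc : ∀ g, C.obj.ρ g c = c), recMap 𝒰 p C inv c hc = φ

/-- The additional axioms of a GLOBAL `p`-class formation at the base level. -/
structure IsBaseCF.IsGlobal : Prop where
  /-- (CF3) `H³(Γ, C)[p] = 0`. -/
  h3 : ∀ x : smH 𝒰 C 3, p • x = 0 → x = 0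
  /-- (CF4i) existence theorem mod `p`: the kernel of reciprocity is `p C^Γ`. -/
  rec_ker : ∀ (c : C.obj.V) (hc : ∀ g, C.obj.ρ g c = c), recMap 𝒰 p C inv c hc = 0 →
    ∃ c' : C.obj.V, (∀ g, C.obj.ρ g c' = c') ∧ p • c' = c

end Rec

section Formation

variable (𝒰 : OpenBasis Γ) (p : ℕ) [hp : Fact p.Prime] (C : SmRep ℤ 𝒰)

/-- The basis induced on a subgroup. -/
abbrev OpenBasis.sub (𝒰 : OpenBasis Γ) (U : Subgroup Γ) : OpenBasis U := 𝒰.comap U.subtype

/-- Restriction of a smooth representation to a subgroup. -/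
noncomputable abbrev resSub {𝒰 : OpenBasis Γ} (C : SmRep k 𝒰) (U : Subgroup Γ) : SmRep k (𝒰.sub U) :=
  (resSm k U.subtype (OpenBasis.Finer.refl _)).obj C

/-- Restriction in smooth cohomology from `Γ` to a subgroup `U`. -/
noncomputable def smRes {𝒰 : OpenBasis Γ} (C : SmRep k 𝒰) (U : Subgroup Γ) (n : ℕ) :
    smH 𝒰 C n ⟶ smH (𝒰.sub U) (resSub C U) n :=
  smHMap U.subtype (OpenBasis.Finer.refl _) (𝟙 _) n

/-- A `p`-class formation `(Γ, 𝒰, C)`: invariant maps on `H²(U, C)` for all open subgroups `U`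
(and for `Γ` itself), each satisfying the base axioms, compatible with restriction. -/
structure PClassFormation where
  /-- the invariant map of `Γ` -/
  inv : smH 𝒰 C 2 →+ AddCircle (1 : ℚ)
  /-- the invariant maps of the open subgroups -/
  invU : ∀ U : Subgroup Γ, 𝒰.IsOpen U → (smH (𝒰.sub U) (resSub C U) 2 →+ AddCircle (1 : ℚ))
  base : IsBaseCF 𝒰 p C inv
  baseU : ∀ (U : Subgroup Γ) (hU : 𝒰.IsOpen U), IsBaseCF (𝒰.sub U) p (resSub C U) (invU U hU)
  /-- `inv_U ∘ res = [Γ : U] inv_Γ` -/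
  inv_res : ∀ (U : Subgroup Γ) (hU : 𝒰.IsOpen U) (y : smH 𝒰 C 2),
    invU U hU ((smRes C U 2).hom y) = U.index • inv y
  /-- restriction is surjective onto the `p`-torsion of `H²(U, C)` -/
  res_surj : ∀ (U : Subgroup Γ) (hU : 𝒰.IsOpen U) (x : smH (𝒰.sub U) (resSub C U) 2),
    p • x = 0 → ∃ y : smH 𝒰 C 2, (smRes C U 2).hom y = x

/-- A global `p`-class formation: in addition `H³(U, C)[p] = 0` and the existence theorem
mod `p` for `Γ` and all open subgroups. -/
structure PClassFormation.IsGlobal (F : PClassFormation 𝒰 p C) : Prop where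
  base : IsBaseCF.IsGlobal 𝒰 p C F.inv
  baseU : ∀ (U : Subgroup Γ) (hU : 𝒰.IsOpen U),
    IsBaseCF.IsGlobal (𝒰.sub U) p (resSub C U) (F.invU U hU)

end Formation

end Fermat.Agent.CFT.Sm
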