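/-
S55 / CFT (FL0) — helper4.
Finite levels of smooth cohomology: the inflation maps
`inflLevel A U hU n : Hⁿ(Γ ⧸ U, A^U) ⟶ smH 𝒰 A n` from Mathlib's group cohomology of the finite
quotients, and the transition maps `inflTrans A V U hVU n : Hⁿ(Γ ⧸ U, A^U) ⟶ Hⁿ(Γ ⧸ V, A^V)`
for `V ≤ U`.
-/
import Fermat.Agent.CFT.Sm.Cohomology_helper9

set_option autoImplicit false
set_option linter.unusedSectionVars false
set_option linter.style.haveILetI false

open CategoryTheory CategoryTheory.Limits groupCohomology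

namespace Fermat.Agent.CFT.Sm

variable {k Γ : Type} [CommRing k] [Group Γ] {𝒰 : OpenBasis Γ}

/-- The `Γ ⧸ U`-representation on the `U`-invariants of a smooth representation. -/
noncomputable abbrev levelRep (A : SmRep k 𝒰) (U : Subgroup Γ) [U.Normal] : Rep.{0} k (Γ ⧸ U) :=
  A.obj.quotientToInvariants U

/-- The inclusion `A^U ⟶ A`, as a morphism of `Γ`-representations. -/
noncomputable abbrev levelLift (A : SmRep k 𝒰) (U : Subgroup Γ) [U.Normal] :
    Rep.res (QuotientGroup.mk' U) (levelRep A U) ⟶ A.obj :=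
  Rep.ofHom (A.obj.ρ.quotientToInvariants_lift U)

lemma levelLift_apply (A : SmRep k 𝒰) (U : Subgroup Γ) [U.Normal] (a : (levelRep A U).V) :
    (levelLift A U).hom a = (a : A.obj.V) := rfl

lemma levelRep_ρ_mk_coe (A : SmRep k 𝒰) (U : Subgroup Γ) [U.Normal] (g : Γ)
    (a : (levelRep A U).V) :
    (((levelRep A U).ρ (g : Γ ⧸ U) a : (levelRep A U).V) : A.obj.V) = A.obj.ρ g (a : A.obj.V) :=
  rfl

lemma levelRep_fixed (A : SmRep k 𝒰) (U : Subgroup Γ) [U.Normal] (a : (levelRep A U).V)
    (u : Γ) (hu : u ∈ U) : A.obj.ρ u (a : A.obj.V) = (a : A.obj.V) :=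
  a.2 ⟨u, hu⟩

/-- The inflation of a cochain on `Γ ⧸ U` with values in `A^U`, as a function. -/
lemma cochainsMap_levelLift_apply (A : SmRep k 𝒰) (U : Subgroup Γ) [U.Normal] (n : ℕ)
    (f : (Fin n → Γ ⧸ U) → (levelRep A U).V) (g : Fin n → Γ) :
    ((cochainsMap (QuotientGroup.mk' U) (levelLift A U)).f n).hom f g =
      ((f (fun i => (g i : Γ ⧸ U)) : (levelRep A U).V) : A.obj.V) := rfl

lemma infl_mem_lcCochains (A : SmRep k 𝒰) (U : Subgroup Γ) [U.Normal] (hU : 𝒰.IsOpen U) (n : ℕ)
    (f : (Fin n → Γ ⧸ U) → (levelRep A U).V) :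
    ((cochainsMap (QuotientGroup.mk' U) (levelLift A U)).f n).hom f ∈ lcCochains 𝒰 A.obj n := by
  obtain ⟨U', hU', hle⟩ := hU
  refine ⟨U', hU', fun g g' h => ?_⟩
  rw [cochainsMap_levelLift_apply, cochainsMap_levelLift_apply]
  have : (fun i => (g i : Γ ⧸ U)) = (fun i => (g' i : Γ ⧸ U)) :=
    funext fun i => QuotientGroup.eq.2 (hle (h i))
  rw [this]

/-- The inflation cochain map from the level `U`. -/
noncomputable def inflCochains (A : SmRep k 𝒰) (U : Subgroup Γ) [U.Normal] (hU : 𝒰.IsOpen U) :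
    inhomogeneousCochains (levelRep A U) ⟶ lcComplex 𝒰 A where
  f n := ModuleCat.ofHom
    (((cochainsMap (QuotientGroup.mk' U) (levelLift A U)).f n).hom.codRestrict
      (lcCochains 𝒰 A.obj n) (infl_mem_lcCochains A U hU n))
  comm' i j hij := by
    have hij' : i + 1 = j := hij
    subst hij'
    rw [lcComplex_d]
    apply ModuleCat.hom_ext
    apply LinearMap.ext
    intro f
    apply Subtype.ext
    have := congrArg (fun t => t.hom f)
      ((cochainsMap (QuotientGroup.mk' U) (levelLift A U)).comm i (i + 1))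
    rw [inhomogeneousCochains.d_def] at this
    exact this

lemma inflCochains_f_apply_coe (A : SmRep k 𝒰) (U : Subgroup Γ) [U.Normal] (hU : 𝒰.IsOpen U)
    (n : ℕ) (f : (Fin n → Γ ⧸ U) → (levelRep A U).V) (g : Fin n → Γ) :
    ((show lcCochains 𝒰 A.obj n from ((inflCochains A U hU).f n).hom f) :
      (Fin n → Γ) → A.obj.V) g = ((f (fun i => (g i : Γ ⧸ U)) : (levelRep A U).V) : A.obj.V) :=
  rfl

/-- The inflation cochain map commutes with the differentials (elementwise form). -/
lemma lcD_inflCochains (A : SmRep k 𝒰) (U : Subgroup Γ) [U.Normal] (hU : 𝒰.IsOpen U)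
    (n : ℕ) (f : (Fin n → Γ ⧸ U) → (levelRep A U).V) :
    (lcD 𝒰 A n).hom (((inflCochains A U hU).f n).hom f) =
      ((inflCochains A U hU).f (n + 1)).hom ((inhomogeneousCochains.d (levelRep A U) n).hom f) := by
  have hc := congrArg (fun t => t.hom f) ((inflCochains A U hU).comm n (n + 1))
  rw [lcComplex_d, inhomogeneousCochains.d_def] at hc
  exact hc

/-- The inflation cochain map is injective in each degree. -/
lemma inflCochains_f_injective (A : SmRep k 𝒰) (U : Subgroup Γ) [U.Normal] (hU : 𝒰.IsOpen U)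
    (n : ℕ) : Function.Injective ((inflCochains A U hU).f n).hom := by
  intro f f' h
  funext q
  apply Subtype.ext
  have h1 := inflCochains_f_apply_coe A U hU n f (fun i => (q i).out)
  have h2 := inflCochains_f_apply_coe A U hU n f' (fun i => (q i).out)
  have hq : (fun i => (((q i).out : Γ) : Γ ⧸ U)) = q := funext fun i => QuotientGroup.out_eq' _
  rw [hq] at h1 h2
  rw [← h1, ← h2, h]

/-- The inflation map `Hⁿ(Γ ⧸ U, A^U) ⟶ Hⁿ(Γ, A)` from the finite level `U` to smooth
cohomology. -/
noncomputable def inflLevel (A : SmRep k 𝒰) (U : Subgroup Γ) [U.Normal] (hU : 𝒰.IsOpen U)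
    (n : ℕ) : groupCohomology (levelRep A U) n ⟶ smH 𝒰 A n :=
  HomologicalComplex.homologyMap (inflCochains A U hU) n

/-- The cocycles of the finite level `U`. -/
noncomputable abbrev levelCocycles (A : SmRep k 𝒰) (U : Subgroup Γ) [U.Normal] (n : ℕ) :
    Submodule k ((Fin n → Γ ⧸ U) → (levelRep A U).V) :=
  CC.Z (inhomogeneousCochains (levelRep A U)) n

lemma mem_levelCocycles_iff (A : SmRep k 𝒰) (U : Subgroup Γ) [U.Normal] (n : ℕ)
    (f : (Fin n → Γ ⧸ U) → (levelRep A U).V) :
    f ∈ levelCocycles A U n ↔ (inhomogeneousCochains.d (levelRep A U) n).hom f = 0 := by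
  unfold levelCocycles
  rw [CC.mem_Z_iff, inhomogeneousCochains.d_def]

/-- The class of a cocycle at the finite level `U`. -/
noncomputable def levelMk (A : SmRep k 𝒰) (U : Subgroup Γ) [U.Normal] (n : ℕ) :
    levelCocycles A U n →ₗ[k] groupCohomology (levelRep A U) n :=
  CC.mk (inhomogeneousCochains (levelRep A U)) n

lemma levelMk_surjective (A : SmRep k 𝒰) (U : Subgroup Γ) [U.Normal] (n : ℕ) :
    Function.Surjective (levelMk A U n) :=
  CC.mk_surjective _ n

/-- The inflation of cocycles. -/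
noncomputable def inflCocycles (A : SmRep k 𝒰) (U : Subgroup Γ) [U.Normal] (hU : 𝒰.IsOpen U)
    (n : ℕ) : levelCocycles A U n →ₗ[k] lcCocycles 𝒰 A n :=
  CC.mapZ (inflCochains A U hU) n

lemma inflCocycles_apply (A : SmRep k 𝒰) (U : Subgroup Γ) [U.Normal] (hU : 𝒰.IsOpen U)
    (n : ℕ) (f : levelCocycles A U n) (g : Fin n → Γ) :
    ((inflCocycles A U hU n f : lcCochains 𝒰 A.obj n) : (Fin n → Γ) → A.obj.V) g =
      (((f : (Fin n → Γ ⧸ U) → (levelRep A U).V) (fun i => (g i : Γ ⧸ U)) :
        (levelRep A U).V) : A.obj.V) := rfl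

/-- Inflation on representatives. -/
lemma inflLevel_levelMk (A : SmRep k 𝒰) (U : Subgroup Γ) [U.Normal] (hU : 𝒰.IsOpen U)
    (n : ℕ) (f : levelCocycles A U n) :
    (inflLevel A U hU n).hom (levelMk A U n f) = smHmk A n (inflCocycles A U hU n f) :=
  CC.homologyMap_mk (inflCochains A U hU) n f

section Trans

variable (A : SmRep k 𝒰) (V U : Subgroup Γ) [V.Normal] [U.Normal] (hVU : V ≤ U)

/-- The projection `Γ ⧸ V →* Γ ⧸ U` for `V ≤ U`. -/
noncomputable abbrev levelProjHom : Γ ⧸ V →* Γ ⧸ U :=
  QuotientGroup.map V U (MonoidHom.id Γ) hVU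

lemma levelProjHom_mk (g : Γ) : levelProjHom V U hVU (g : Γ ⧸ V) = (g : Γ ⧸ U) := rfl

include hVU in
lemma levelInvariants_le :
    Representation.invariants (A.obj.ρ.comp U.subtype) ≤
      Representation.invariants (A.obj.ρ.comp V.subtype) :=
  fun _ ha v => ha ⟨v.1, hVU v.2⟩

/-- The inclusion `A^U ⟶ A^V` for `V ≤ U`, as a morphism of `Γ ⧸ V`-representations. -/
noncomputable def levelIncl :
    Rep.res (levelProjHom V U hVU) (levelRep A U) ⟶ levelRep A V :=
  Rep.ofHom ⟨Submodule.inclusion (levelInvariants_le A V U hVU), fun q => by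
    induction q using QuotientGroup.induction_on with
    | H g => rfl⟩

lemma levelIncl_apply_coe (a : (levelRep A U).V) :
    (((levelIncl A V U hVU).hom a : (levelRep A V).V) : A.obj.V) = (a : A.obj.V) := rfl

/-- The transition (inflation) map `Hⁿ(Γ ⧸ U, A^U) ⟶ Hⁿ(Γ ⧸ V, A^V)` for `V ≤ U`. -/
noncomputable def inflTrans (n : ℕ) :
    groupCohomology (levelRep A U) n ⟶ groupCohomology (levelRep A V) n :=
  groupCohomology.map (levelProjHom V U hVU) (levelIncl A V U hVU) n

lemma cochainsMap_levelIncl_comp_inflCochains (hV : 𝒰.IsOpen V) (hU : 𝒰.IsOpen U) :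
    cochainsMap (levelProjHom V U hVU) (levelIncl A V U hVU) ≫ inflCochains A V hV =
      inflCochains A U hU := by
  ext n f
  rfl

/-- Inflating to a deeper level and then to `Γ` is inflating to `Γ`. -/
lemma inflTrans_comp_inflLevel (hV : 𝒰.IsOpen V) (hU : 𝒰.IsOpen U) (n : ℕ) :
    inflTrans A V U hVU n ≫ inflLevel A V hV n = inflLevel A U hU n := by
  have := HomologicalComplex.homologyMap_comp
    (cochainsMap (levelProjHom V U hVU) (levelIncl A V U hVU)) (inflCochains A V hV) n
  rw [cochainsMap_levelIncl_comp_inflCochains A V U hVU hV hU] at this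
  exact this.symm

lemma inflLevel_inflTrans_apply (hV : 𝒰.IsOpen V) (hU : 𝒰.IsOpen U) (n : ℕ)
    (y : groupCohomology (levelRep A U) n) :
    (inflLevel A V hV n).hom ((inflTrans A V U hVU n).hom y) = (inflLevel A U hU n).hom y := by
  rw [← inflTrans_comp_inflLevel A V U hVU hV hU n]
  rfl

/-- The transition map on cocycles. -/
noncomputable def transCocycles (n : ℕ) : levelCocycles A U n →ₗ[k] levelCocycles A V n :=
  CC.mapZ (cochainsMap (levelProjHom V U hVU) (levelIncl A V U hVU)) n

lemma transCocycles_apply (n : ℕ) (f : levelCocycles A U n) (q : Fin n → Γ ⧸ V) :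
    (((transCocycles A V U hVU n f : levelCocycles A V n) :
      (Fin n → Γ ⧸ V) → (levelRep A V).V) q : A.obj.V) =
      (((f : (Fin n → Γ ⧸ U) → (levelRep A U).V) (fun i => levelProjHom V U hVU (q i)) :
        (levelRep A U).V) : A.obj.V) := rfl

lemma inflTrans_levelMk (n : ℕ) (f : levelCocycles A U n) :
    (inflTrans A V U hVU n).hom (levelMk A U n f) = levelMk A V n (transCocycles A V U hVU n f) :=
  CC.homologyMap_mk (cochainsMap (levelProjHom V U hVU) (levelIncl A V U hVU)) n f

end Trans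

section TransComp

variable (A : SmRep k 𝒰) (W V U : Subgroup Γ) [W.Normal] [V.Normal] [U.Normal]
  (hWV : W ≤ V) (hVU : V ≤ U)

lemma cochainsMap_levelIncl_comp :
    cochainsMap (levelProjHom V U hVU) (levelIncl A V U hVU) ≫
      cochainsMap (levelProjHom W V hWV) (levelIncl A W V hWV) =
      cochainsMap (levelProjHom W U (hWV.trans hVU)) (levelIncl A W U (hWV.trans hVU)) := by
  ext n f q
  change ((f (fun i => levelProjHom V U hVU (levelProjHom W V hWV (q i))) :
    (levelRep A U).V) : A.obj.V) = ((f (fun i => levelProjHom W U (hWV.trans hVU) (q i)) :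
    (levelRep A U).V) : A.obj.V)
  have : (fun i => levelProjHom V U hVU (levelProjHom W V hWV (q i))) =
      (fun i => levelProjHom W U (hWV.trans hVU) (q i)) := by
    funext i
    induction q i using QuotientGroup.induction_on with
    | H g => rfl
  rw [this]

/-- Transitivity of the transition maps. -/
lemma inflTrans_comp (n : ℕ) :
    inflTrans A V U hVU n ≫ inflTrans A W V hWV n = inflTrans A W U (hWV.trans hVU) n := by
  have := HomologicalComplex.homologyMap_comp
    (cochainsMap (levelProjHom V U hVU) (levelIncl A V U hVU))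
    (cochainsMap (levelProjHom W V hWV) (levelIncl A W V hWV)) n
  rw [cochainsMap_levelIncl_comp A W V U hWV hVU] at this
  exact this.symm

lemma inflTrans_inflTrans_apply (n : ℕ) (y : groupCohomology (levelRep A U) n) :
    (inflTrans A W V hWV n).hom ((inflTrans A V U hVU n).hom y) =
      (inflTrans A W U (hWV.trans hVU) n).hom y := by
  rw [← inflTrans_comp A W V U hWV hVU n]
  rfl

lemma cochainsMap_levelIncl_self :
    cochainsMap (levelProjHom U U le_rfl) (levelIncl A U U le_rfl) =
      𝟙 (inhomogeneousCochains (levelRep A U)) := by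
  ext n f q
  change ((f (fun i => levelProjHom U U le_rfl (q i)) : (levelRep A U).V) : A.obj.V) =
    ((f q : (levelRep A U).V) : A.obj.V)
  have : (fun i => levelProjHom U U le_rfl (q i)) = q := by
    funext i
    induction q i using QuotientGroup.induction_on with
    | H g => rfl
  rw [this]

lemma inflTrans_self (n : ℕ) : inflTrans A U U le_rfl n = 𝟙 _ := by
  have := HomologicalComplex.homologyMap_id (inhomogeneousCochains (levelRep A U)) n
  rw [← cochainsMap_levelIncl_self A U] at this
  exact this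

end TransComp

end Fermat.Agent.CFT.Sm
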