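/-
S55 / CFT (FL3) — helper4.
Naturality of the inflation maps from the finite levels: in the coefficients, with respect to
connecting homomorphisms, and with respect to restriction to an open subgroup.
-/
import Fermat.Agent.CFT.Sm.FL_helper4_Infl
import Fermat.Agent.CFT.Sm.ClassFormation_helper9

set_option autoImplicit false
set_option linter.unusedSectionVars false
set_option linter.style.haveILetI false

open CategoryTheory CategoryTheory.Limits groupCohomology

namespace Fermat.Agent.CFT.Sm

variable {k Γ : Type} [CommRing k] [Group Γ] {𝒰 : OpenBasis Γ}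

section Coeff

variable {A B : SmRep k 𝒰} (φ : A ⟶ B) (U : Subgroup Γ) [U.Normal]

/-- The map `A^U ⟶ B^U` induced by a morphism of smooth representations. -/
noncomputable def levelMap : levelRep A U ⟶ levelRep B U :=
  (Rep.quotientToInvariantsFunctor k U).map φ.hom

lemma levelMap_apply_coe (a : (levelRep A U).V) :
    (((levelMap φ U).hom a : (levelRep B U).V) : B.obj.V) = φ.hom.hom (a : A.obj.V) := rfl

lemma levelMap_id (A : SmRep k 𝒰) : levelMap (𝟙 A) U = 𝟙 (levelRep A U) :=
  (Rep.quotientToInvariantsFunctor k U).map_id A.obj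

lemma levelMap_comp {C : SmRep k 𝒰} (ψ : B ⟶ C) :
    levelMap (φ ≫ ψ) U = levelMap φ U ≫ levelMap ψ U :=
  (Rep.quotientToInvariantsFunctor k U).map_comp φ.hom ψ.hom

/-- The induced map on the cohomology of the finite level `U`. -/
noncomputable def levelHMap (n : ℕ) :
    groupCohomology (levelRep A U) n ⟶ groupCohomology (levelRep B U) n :=
  groupCohomology.map (A := levelRep A U) (MonoidHom.id (Γ ⧸ U)) (levelMap φ U) n

variable (hU : 𝒰.IsOpen U)

lemma cochainsMap_levelMap_comp_inflCochains :
    cochainsMap (A := levelRep A U) (MonoidHom.id (Γ ⧸ U)) (levelMap φ U) ≫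
        inflCochains B U hU =
      inflCochains A U hU ≫ (lcFunctor k 𝒰).map φ := by
  ext n f
  rfl

/-- (FL3a) Inflation from a finite level is natural in the coefficients. -/
theorem levelHMap_comp_inflLevel (n : ℕ) :
    levelHMap φ U n ≫ inflLevel B U hU n = inflLevel A U hU n ≫ (smHFunctor k 𝒰 n).map φ := by
  have h1 := HomologicalComplex.homologyMap_comp
    (cochainsMap (A := levelRep A U) (MonoidHom.id (Γ ⧸ U)) (levelMap φ U))
    (inflCochains B U hU) n
  have h2 := HomologicalComplex.homologyMap_comp
    (inflCochains A U hU) ((lcFunctor k 𝒰).map φ) n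
  rw [cochainsMap_levelMap_comp_inflCochains φ U hU] at h1
  exact h1.symm.trans h2

lemma inflLevel_levelHMap_apply (n : ℕ) (y : groupCohomology (levelRep A U) n) :
    (inflLevel B U hU n).hom ((levelHMap φ U n).hom y) =
      ((smHFunctor k 𝒰 n).map φ).hom ((inflLevel A U hU n).hom y) := by
  have := congrArg (fun t => t.hom y) (levelHMap_comp_inflLevel φ U hU n)
  exact this

end Coeff

section Delta

variable (X : ShortComplex (SmRep k 𝒰)) (U : Subgroup Γ) [U.Normal]

/-- The short complex of `U`-invariants of a short complex of smooth representations. -/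
lemma levelMap_zero (A B : SmRep k 𝒰) : levelMap (0 : A ⟶ B) U = 0 := rfl

noncomputable def levelShortComplex : ShortComplex (Rep.{0} k (Γ ⧸ U)) :=
  ShortComplex.mk (levelMap X.f U) (levelMap X.g U) (by
    rw [← levelMap_comp, X.zero, levelMap_zero])

variable (hU : 𝒰.IsOpen U)

/-- The morphism of short complexes of cochain complexes given by inflation. -/
noncomputable def inflShortComplexHom :
    (levelShortComplex X U).map (cochainsFunctor k (Γ ⧸ U)) ⟶ X.map (lcFunctor k 𝒰) where
  τ₁ := inflCochains X.X₁ U hU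
  τ₂ := inflCochains X.X₂ U hU
  τ₃ := inflCochains X.X₃ U hU
  comm₁₂ := cochainsMap_levelMap_comp_inflCochains X.f U hU
  comm₂₃ := cochainsMap_levelMap_comp_inflCochains X.g U hU

variable {X}

/-- (FL3b) Inflation from a finite level commutes with the connecting homomorphisms, when the
sequence of `U`-invariants stays exact. -/
theorem δ_comp_inflLevel (hX : X.ShortExact) (hXU : (levelShortComplex X U).ShortExact)
    (i j : ℕ) (hij : i + 1 = j) :
    groupCohomology.δ hXU i j hij ≫ inflLevel X.X₁ U hU j =
      inflLevel X.X₃ U hU i ≫ smδ hX i j hij :=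
  HomologicalComplex.HomologySequence.δ_naturality (inflShortComplexHom X U hU)
    (map_cochainsFunctor_shortExact hXU) (map_lcFunctor_shortExact hX) i j hij

lemma inflLevel_δ_apply (hX : X.ShortExact) (hXU : (levelShortComplex X U).ShortExact)
    (i j : ℕ) (hij : i + 1 = j) (y : groupCohomology (levelRep X.X₃ U) i) :
    (inflLevel X.X₁ U hU j).hom ((groupCohomology.δ hXU i j hij).hom y) =
      (smδ hX i j hij).hom ((inflLevel X.X₃ U hU i).hom y) := by
  have := congrArg (fun t => t.hom y) (δ_comp_inflLevel U hU hX hXU i j hij)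
  exact this

/-- The sequence of `U`-invariants of a short exact sequence is short exact as soon as
`X₂^U → X₃^U` is surjective. -/
lemma levelShortComplex_shortExact (hX : X.ShortExact)
    (hsurj : ∀ c : X.X₃.obj.V, (∀ u ∈ U, X.X₃.obj.ρ u c = c) →
      ∃ b : X.X₂.obj.V, (∀ u ∈ U, X.X₂.obj.ρ u b = b) ∧ X.g.hom.hom b = c) :
    (levelShortComplex X U).ShortExact := by
  obtain ⟨hinj, hex, -⟩ := (shortExact_iff X).1 hX
  have hmono : Function.Injective (levelShortComplex X U).f.hom := by
    intro a a' h
    apply Subtype.ext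
    apply hinj
    exact congrArg Subtype.val h
  have hepi : Function.Surjective (levelShortComplex X U).g.hom := by
    intro c
    obtain ⟨b, hb, hbc⟩ := hsurj c.1 (fun u hu => c.2 ⟨u, hu⟩)
    exact ⟨⟨b, fun u => hb u.1 u.2⟩, Subtype.ext hbc⟩
  refine { exact := ?_, mono_f := (Rep.mono_iff_injective _).2 hmono,
           epi_g := (Rep.epi_iff_surjective _).2 hepi }
  rw [← ShortComplex.exact_map_iff_of_faithful _ (forget₂ (Rep.{0} k (Γ ⧸ U)) (ModuleCat.{0} k)),
    ShortComplex.moduleCat_exact_iff]
  intro b hb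
  obtain ⟨a, ha⟩ := hex b.1 (congrArg Subtype.val hb)
  refine ⟨⟨a, fun u => ?_⟩, Subtype.ext ha⟩
  apply hinj
  change X.f.hom.hom (X.X₁.obj.ρ u.1 a) = X.f.hom.hom a
  rw [Rep.hom_comm_apply, ha]
  exact b.2 u

end Delta

section Res

variable (A : SmRep k 𝒰) (H : Subgroup Γ)

/- We use helper9's `resSub A H : SmRep k (𝒰.sub H)` (restriction to a subgroup, basis
`𝒰.sub H = 𝒰.comap H.subtype`) and `smRes A H n : smH 𝒰 A n ⟶ smH (𝒰.sub H) (resSub A H) n`. -/

lemma resSub_obj_ρ_apply (h : H) (a : A.obj.V) :
    (resSub A H).obj.ρ h a = A.obj.ρ (h : Γ) a := rfl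

variable (U : Subgroup Γ) [U.Normal]

/-- The injection `H ⧸ (U ∩ H) →* Γ ⧸ U`. -/
noncomputable abbrev levelResHom : H ⧸ U.subgroupOf H →* Γ ⧸ U :=
  QuotientGroup.map (U.subgroupOf H) U H.subtype le_rfl

lemma levelResHom_mk (h : H) : levelResHom H U (h : H ⧸ U.subgroupOf H) = ((h : Γ) : Γ ⧸ U) := rfl

/-- The identification `A^U ⟶ (A|_H)^{U ∩ H}` (identity on vectors). -/
noncomputable def levelResLift :
    Rep.res (levelResHom H U) (levelRep A U) ⟶ levelRep (resSub A H) (U.subgroupOf H) :=
  Rep.ofHom ⟨
    { toFun := fun a => ⟨(a : A.obj.V), fun u => a.2 ⟨u.1.1, u.2⟩⟩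
      map_add' := fun _ _ => rfl
      map_smul' := fun _ _ => rfl }, fun q => by
    induction q using QuotientGroup.induction_on with
    | H g => rfl⟩

lemma levelResLift_apply_coe (a : (levelRep A U).V) :
    (show A.obj.V from
      ((levelResLift A H U).hom a : (levelRep (resSub A H) (U.subgroupOf H)).V).1) =
      (a : A.obj.V) := rfl

/-- Restriction at the finite level `U`: `Hⁿ(Γ ⧸ U, A^U) ⟶ Hⁿ(H ⧸ (U ∩ H), A^{U ∩ H})`. -/
noncomputable def levelRes (n : ℕ) :
    groupCohomology (levelRep A U) n ⟶
      groupCohomology (levelRep (resSub A H) (U.subgroupOf H)) n :=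
  groupCohomology.map (levelResHom H U) (levelResLift A H U) n

variable (hU : 𝒰.IsOpen U)

lemma cochainsMap_levelResLift_comp_inflCochains :
    cochainsMap (levelResHom H U) (levelResLift A H U) ≫
        inflCochains (resSub A H) (U.subgroupOf H) (𝒰.isOpen_comap H.subtype hU) =
      inflCochains A U hU ≫
        lcMap (A := A) (B := resSub A H) H.subtype (OpenBasis.Finer.refl _) (𝟙 _) := by
  ext n f
  rfl

/-- (FL3c) Inflation from a finite level commutes with restriction to a subgroup. -/
theorem levelRes_comp_inflLevel (n : ℕ) :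
    levelRes A H U n ≫
        inflLevel (resSub A H) (U.subgroupOf H) (𝒰.isOpen_comap H.subtype hU) n =
      inflLevel A U hU n ≫ smRes A H n := by
  have h1 := HomologicalComplex.homologyMap_comp
    (cochainsMap (levelResHom H U) (levelResLift A H U))
    (inflCochains (resSub A H) (U.subgroupOf H) (𝒰.isOpen_comap H.subtype hU)) n
  have h2 := HomologicalComplex.homologyMap_comp (inflCochains A U hU)
    (lcMap (A := A) (B := resSub A H) H.subtype (OpenBasis.Finer.refl _) (𝟙 _)) n
  rw [cochainsMap_levelResLift_comp_inflCochains A H U hU] at h1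
  exact h1.symm.trans h2

lemma inflLevel_levelRes_apply (n : ℕ) (y : groupCohomology (levelRep A U) n) :
    (inflLevel (resSub A H) (U.subgroupOf H) (𝒰.isOpen_comap H.subtype hU) n).hom
        ((levelRes A H U n).hom y) =
      (smRes A H n).hom ((inflLevel A U hU n).hom y) := by
  have := congrArg (fun t => t.hom y) (levelRes_comp_inflLevel A H U hU n)
  exact this

end Res

end Fermat.Agent.CFT.Sm
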