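/-
S55 / CFT (FL4) — helper4.
Low degrees of smooth cohomology: explicit differentials, `smH 𝒰 A 0 ≃ invariants`,
injectivity of the inflation from a finite level in degree `1`, and in degree `2` when
`H¹(U, A) = 0`.
-/
import Fermat.Agent.CFT.Sm.FL_helper4_Nat

set_option autoImplicit false
set_option linter.unusedSectionVars false
set_option linter.style.haveILetI false

open CategoryTheory CategoryTheory.Limits groupCohomology

namespace Fermat.Agent.CFT.Sm

variable {k Γ : Type} [CommRing k] [Group Γ] {𝒰 : OpenBasis Γ}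

section Differentials

lemma d_zero_apply (A : Rep.{0} k Γ) (f : (Fin 0 → Γ) → A.V) (g : Fin 1 → Γ) :
    (inhomogeneousCochains.d A 0).hom f g = A.ρ (g 0) (f default) - f default := by
  rw [inhomogeneousCochains.d_hom_apply, Fin.sum_univ_one]
  have h1 : (fun i : Fin 0 => g i.succ) = default := Subsingleton.elim _ _
  have h2 : Fin.contractNth 0 (fun x1 x2 => x1 * x2) g = default := Subsingleton.elim _ _
  rw [h1, h2]
  simp only [Fin.val_zero, zero_add, pow_one, neg_smul, one_smul, sub_eq_add_neg]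

lemma d_one_apply (A : Rep.{0} k Γ) (f : (Fin 1 → Γ) → A.V) (g : Fin 2 → Γ) :
    (inhomogeneousCochains.d A 1).hom f g =
      A.ρ (g 0) (f (fun _ => g 1)) - f (fun _ => g 0 * g 1) + f (fun _ => g 0) := by
  rw [inhomogeneousCochains.d_hom_apply, Fin.sum_univ_two]
  have h1 : (fun i : Fin 1 => g i.succ) = fun _ => g 1 := by
    funext i; rw [Subsingleton.elim i 0]; rfl
  have h2 : Fin.contractNth 0 (fun x1 x2 => x1 * x2) g = fun _ => g 0 * g 1 := by
    funext i; rw [Subsingleton.elim i 0]; rfl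
  have h3 : Fin.contractNth 1 (fun x1 x2 => x1 * x2) g = fun _ => g 0 := by
    funext i; rw [Subsingleton.elim i 0]; rfl
  rw [h1, h2, h3]
  simp only [Fin.val_zero, zero_add, pow_one, neg_smul, one_smul, Fin.val_one,
    Nat.one_add, neg_one_sq, sub_eq_add_neg, add_assoc]

lemma d_two_apply (A : Rep.{0} k Γ) (f : (Fin 2 → Γ) → A.V) (g : Fin 3 → Γ) :
    (inhomogeneousCochains.d A 2).hom f g =
      A.ρ (g 0) (f ![g 1, g 2]) - f ![g 0 * g 1, g 2] + f ![g 0, g 1 * g 2] - f ![g 0, g 1] := by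
  rw [inhomogeneousCochains.d_hom_apply, Fin.sum_univ_three]
  have h1 : (fun i : Fin 2 => g i.succ) = ![g 1, g 2] := by
    funext i; fin_cases i <;> rfl
  have h2 : Fin.contractNth 0 (fun x1 x2 => x1 * x2) g = ![g 0 * g 1, g 2] := by
    funext i; fin_cases i <;> rfl
  have h3 : Fin.contractNth 1 (fun x1 x2 => x1 * x2) g = ![g 0, g 1 * g 2] := by
    funext i; fin_cases i <;> rfl
  have h4 : Fin.contractNth 2 (fun x1 x2 => x1 * x2) g = ![g 0, g 1] := by
    funext i; fin_cases i <;> rfl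
  rw [h1, h2, h3, h4]
  simp only [sub_eq_add_neg, add_assoc, Fin.val_zero, zero_add, pow_one, neg_smul,
    one_smul, Fin.val_one, Fin.val_two, pow_succ' (-1 : k) 2, neg_sq, Nat.one_add, one_pow, mul_one]

end Differentials

section Zero

/-- Level-constant `0`-cocycles are the invariants. -/
noncomputable def lcCocyclesZeroEquiv (A : SmRep k 𝒰) :
    lcCocycles 𝒰 A 0 ≃ₗ[k] A.obj.ρ.invariants where
  toFun f := ⟨(f.1 : (Fin 0 → Γ) → A.obj.V) default, fun g => by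
    have h := congrFun ((mem_lcCocycles_iff f.1).1 f.2) (fun _ => g)
    rw [d_zero_apply] at h
    exact sub_eq_zero.1 h⟩
  map_add' _ _ := rfl
  map_smul' _ _ := rfl
  invFun a := ⟨⟨fun _ => a.1, IsLevelConstant.const 𝒰 0 a.1⟩, by
    rw [mem_lcCocycles_iff]
    funext g
    rw [d_zero_apply]
    exact sub_eq_zero.2 (a.2 (g 0))⟩
  left_inv f := by
    apply Subtype.ext
    apply Subtype.ext
    funext x
    exact congrArg (f.1 : (Fin 0 → Γ) → A.obj.V) (Subsingleton.elim default x)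
  right_inv a := rfl

lemma lcCocyclesZeroEquiv_apply_coe (A : SmRep k 𝒰) (f : lcCocycles 𝒰 A 0) :
    ((lcCocyclesZeroEquiv A f : A.obj.ρ.invariants) : A.obj.V) =
      (f.1 : (Fin 0 → Γ) → A.obj.V) default := rfl

/-- `H⁰` of smooth cohomology is the module of invariants. -/
noncomputable def smHZeroEquiv (A : SmRep k 𝒰) : smH 𝒰 A 0 ≃ₗ[k] A.obj.ρ.invariants :=
  (LinearEquiv.ofBijective (smHmk A 0) ⟨smHmk_zero_injective A, smHmk_surjective A 0⟩).symm ≪≫ₗ
    lcCocyclesZeroEquiv A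

lemma smHZeroEquiv_smHmk (A : SmRep k 𝒰) (f : lcCocycles 𝒰 A 0) :
    smHZeroEquiv A (smHmk A 0 f) = lcCocyclesZeroEquiv A f := by
  unfold smHZeroEquiv
  rw [LinearEquiv.trans_apply]
  congr 1
  exact (LinearEquiv.ofBijective (smHmk A 0)
    ⟨smHmk_zero_injective A, smHmk_surjective A 0⟩).symm_apply_apply f

lemma smHZeroEquiv_symm_apply (A : SmRep k 𝒰) (a : A.obj.ρ.invariants) :
    (smHZeroEquiv A).symm a = smHmk A 0 ((lcCocyclesZeroEquiv A).symm a) := by
  rw [LinearEquiv.symm_apply_eq, smHZeroEquiv_smHmk, LinearEquiv.apply_symm_apply]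

end Zero

section One

variable (A : SmRep k 𝒰) (U : Subgroup Γ) [U.Normal] (hU : 𝒰.IsOpen U)

/-- (FL4) Inflation from a finite level is injective in degree `1`. -/
theorem inflLevel_one_injective : Function.Injective (inflLevel A U hU 1).hom := by
  rw [injective_iff_map_eq_zero]
  intro y hy
  obtain ⟨z, rfl⟩ := levelMk_surjective A U 1 y
  rw [inflLevel_levelMk, smHmk_succ_eq_zero_iff] at hy
  obtain ⟨a, ha⟩ := hy
  -- the element `a₀` with `g a₀ - a₀ = z(ḡ)`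
  set a₀ : A.obj.V := (a : (Fin 0 → Γ) → A.obj.V) default with ha₀
  have key : ∀ g : Γ, A.obj.ρ g a₀ - a₀ =
      (((z : (Fin 1 → Γ ⧸ U) → (levelRep A U).V) (fun _ => (g : Γ ⧸ U)) :
        (levelRep A U).V) : A.obj.V) := by
    intro g
    have h := congrFun (congrArg Subtype.val ha) (fun _ => g)
    rw [lcD_apply_coe, d_zero_apply] at h
    exact h
  have hfix : ∀ u : U, (A.obj.ρ.comp U.subtype) u a₀ = a₀ := by
    intro u
    have h1 := key u.1
    have h2 := key 1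
    have h3 : ((u.1 : Γ) : Γ ⧸ U) = ((1 : Γ) : Γ ⧸ U) :=
      (QuotientGroup.eq_one_iff _).2 u.2
    rw [h3, ← h2, map_one] at h1
    have : A.obj.ρ u.1 a₀ = a₀ := by
      have h4 : A.obj.ρ u.1 a₀ - a₀ = 0 := by rw [h1]; simp
      exact sub_eq_zero.1 h4
    exact this
  rw [levelMk]
  refine (CC.mk_succ_eq_zero_iff _ 0 _).2 ⟨fun _ => ⟨a₀, hfix⟩, ?_⟩
  rw [inhomogeneousCochains.d_def]
  apply inflCochains_f_injective A U hU 1
  rw [← lcD_inflCochains]
  have h5 : ((inflCochains A U hU).f 0).hom (fun _ => (⟨a₀, hfix⟩ : (levelRep A U).V)) = a := by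
    apply Subtype.ext
    funext x
    change a₀ = _
    rw [ha₀]
    exact congrArg (a : (Fin 0 → Γ) → A.obj.V) (Subsingleton.elim default x)
  rw [h5, ha]
  rfl

end One

section Two

variable (A : SmRep k 𝒰) (U : Subgroup Γ) [U.Normal] (hU : 𝒰.IsOpen U)

/-- (FL4) Inflation from a finite level `U` is injective in degree `2` as soon as
`H¹(U, A) = 0`. -/
theorem inflLevel_two_injective
    (hH1 : IsZero (smH (𝒰.comap U.subtype) (resSub A U) 1)) :
    Function.Injective (inflLevel A U hU 2).hom := by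
  rw [injective_iff_map_eq_zero]
  intro y hy
  obtain ⟨z, rfl⟩ := levelMk_surjective A U 2 y
  rw [inflLevel_levelMk, smHmk_succ_eq_zero_iff] at hy
  obtain ⟨h, hh⟩ := hy
  -- notation
  set ĥ : Γ → A.obj.V := fun g => (h : (Fin 1 → Γ) → A.obj.V) (fun _ => g) with hĥ
  set Z : Γ ⧸ U → Γ ⧸ U → A.obj.V := fun q₀ q₁ =>
    (((z : (Fin 2 → Γ ⧸ U) → (levelRep A U).V) ![q₀, q₁] : (levelRep A U).V) : A.obj.V) with hZ
  have hZfix : ∀ q₀ q₁ (u : Γ), u ∈ U → A.obj.ρ u (Z q₀ q₁) = Z q₀ q₁ :=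
    fun q₀ q₁ u hu => levelRep_fixed A U _ u hu
  have hmk1 : ∀ u : Γ, u ∈ U → ((u : Γ) : Γ ⧸ U) = 1 :=
    fun u hu => (QuotientGroup.eq_one_iff _).2 hu
  -- (E1) the coboundary equation
  have E1 : ∀ g₀ g₁ : Γ, Z g₀ g₁ = A.obj.ρ g₀ (ĥ g₁) - ĥ (g₀ * g₁) + ĥ g₀ := by
    intro g₀ g₁
    have e := congrFun (congrArg Subtype.val hh) ![g₀, g₁]
    rw [lcD_apply_coe, d_one_apply] at e
    rw [inflCocycles_apply] at e
    have e2 : (fun i => ((![g₀, g₁] i : Γ) : Γ ⧸ U)) = ![(g₀ : Γ ⧸ U), (g₁ : Γ ⧸ U)] := by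
      funext i; fin_cases i <;> rfl
    rw [e2] at e
    exact e.symm
  -- the cocycle identity of `z`
  have hcoc : ∀ (g₀ : Γ) (q₁ q₂ : Γ ⧸ U),
      A.obj.ρ g₀ (Z q₁ q₂) - Z ((g₀ : Γ ⧸ U) * q₁) q₂ + Z g₀ (q₁ * q₂) - Z g₀ q₁ = 0 := by
    intro g₀ q₁ q₂
    have e := congrFun ((mem_levelCocycles_iff A U 2 z.1).1 z.2) ![(g₀ : Γ ⧸ U), q₁, q₂]
    rw [d_two_apply] at e
    have e' := congrArg (Subtype.val : (levelRep A U).V → A.obj.V) e
    exact e'
  set c : A.obj.V := Z 1 1 with hc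
  have C1 : ∀ q, Z 1 q = c := by
    intro q
    have e := hcoc 1 1 q
    rw [map_one, QuotientGroup.mk_one, one_mul, one_mul] at e
    have : Z 1 q - c = 0 := by
      rw [← e]
      simp only [Module.End.one_apply]
      abel
    exact sub_eq_zero.1 this
  have C2 : ∀ g : Γ, Z g 1 = A.obj.ρ g c := by
    intro g
    have e := hcoc g 1 1
    rw [mul_one, mul_one] at e
    have : A.obj.ρ g c - Z g 1 = 0 := by
      rw [← e]
      abel
    exact (sub_eq_zero.1 this).symm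
  have hcfix : ∀ u : Γ, u ∈ U → A.obj.ρ u c = c := fun u hu => hZfix 1 1 u hu
  -- the restriction of `ĥ - c` to `U` is a level-constant cocycle
  let fU : (Fin 1 → U) → A.obj.V := fun x => (h : (Fin 1 → Γ) → A.obj.V) (U.subtype ∘ x) - c
  have hfU_lc : fU ∈ lcCochains (𝒰.comap U.subtype) (resSub A U).obj 1 :=
    ((IsLevelConstant.precomp U.subtype (OpenBasis.Finer.refl _) h.2).comp (· - c) :)
  have hfU_apply : ∀ x : Fin 1 → U, fU x = ĥ (x 0 : Γ) - c := by
    intro x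
    have : (U.subtype ∘ x) = fun _ => ((x 0 : U) : Γ) := by
      funext i; rw [Subsingleton.elim i 0]; rfl
    change (h : (Fin 1 → Γ) → A.obj.V) (U.subtype ∘ x) - c = _
    rw [this]
  have hfU_coc : (⟨fU, hfU_lc⟩ : lcCochains (𝒰.comap U.subtype) (resSub A U).obj 1) ∈
      lcCocycles (𝒰.comap U.subtype) (resSub A U) 1 := by
    rw [mem_lcCocycles_iff]
    funext x
    rw [d_one_apply]
    change A.obj.ρ (x 0 : Γ) (fU _) - fU _ + fU _ = 0
    rw [hfU_apply, hfU_apply, hfU_apply]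
    have e := E1 (x 0 : Γ) (x 1 : Γ)
    rw [hmk1 _ (x 0).2, hmk1 _ (x 1).2] at e
    have e3 : (((x 0 * x 1 : U) : U) : Γ) = (x 0 : Γ) * (x 1 : Γ) := rfl
    rw [map_sub, hcfix _ (x 0).2, e3]
    have : A.obj.ρ (x 0 : Γ) (ĥ (x 1 : Γ)) - c - (ĥ ((x 0 : Γ) * (x 1 : Γ)) - c) +
        (ĥ (x 0 : Γ) - c) =
        (A.obj.ρ (x 0 : Γ) (ĥ (x 1 : Γ)) - ĥ ((x 0 : Γ) * (x 1 : Γ)) + ĥ (x 0 : Γ)) - c := by
      abel
    rw [this, ← e, hc, sub_self]
  -- use `H¹(U, A) = 0`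
  have hzero : smHmk (resSub A U) 1 ⟨⟨fU, hfU_lc⟩, hfU_coc⟩ = 0 :=
    (ModuleCat.isZero_iff_subsingleton.1 hH1).elim _ _
  rw [smHmk_succ_eq_zero_iff] at hzero
  obtain ⟨y, hy⟩ := hzero
  set a : A.obj.V := y.1 default with ha
  have hya : ∀ u : Γ, u ∈ U → ĥ u - c = A.obj.ρ u a - a := by
    intro u hu
    have e := congrFun (congrArg Subtype.val hy) (fun _ => (⟨u, hu⟩ : U))
    rw [lcD_apply_coe, d_zero_apply] at e
    have e' : A.obj.ρ u a - a = fU (fun _ => (⟨u, hu⟩ : U)) := e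
    rw [hfU_apply] at e'
    exact e'.symm
  -- the corrected cochain
  set κ : Γ → A.obj.V := fun g => ĥ g - (A.obj.ρ g a - a) with hκ
  have K0 : ∀ u : Γ, u ∈ U → κ u = c := by
    intro u hu
    have := hya u hu
    change ĥ u - (A.obj.ρ u a - a) = c
    rw [← this]
    abel
  have K1 : ∀ g₀ g₁ : Γ, Z g₀ g₁ = A.obj.ρ g₀ (κ g₁) - κ (g₀ * g₁) + κ g₀ := by
    intro g₀ g₁
    rw [E1]
    change _ = A.obj.ρ g₀ (ĥ g₁ - (A.obj.ρ g₁ a - a)) - (ĥ (g₀ * g₁) - (A.obj.ρ (g₀ * g₁) a - a)) +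
      (ĥ g₀ - (A.obj.ρ g₀ a - a))
    rw [map_sub, map_sub, map_mul, Module.End.mul_apply]
    abel
  have K2 : ∀ (g u : Γ), u ∈ U → κ (g * u) = κ g := by
    intro g u hu
    have e := K1 g u
    rw [hmk1 u hu, C2, K0 u hu] at e
    have : κ g - κ (g * u) = 0 := by
      have e' : A.obj.ρ g c - κ (g * u) + κ g = A.obj.ρ g c := e.symm
      have : κ g - κ (g * u) = (A.obj.ρ g c - κ (g * u) + κ g) - A.obj.ρ g c := by abel
      rw [this, e', sub_self]
    exact (sub_eq_zero.1 this).symm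
  have K3 : ∀ (g u : Γ), u ∈ U → A.obj.ρ u (κ g) = κ (u * g) := by
    intro g u hu
    have e := K1 u g
    rw [hmk1 u hu, C1, K0 u hu] at e
    have : A.obj.ρ u (κ g) - κ (u * g) = 0 := by
      have e' : A.obj.ρ u (κ g) - κ (u * g) + c = c := e.symm
      have : A.obj.ρ u (κ g) - κ (u * g) = (A.obj.ρ u (κ g) - κ (u * g) + c) - c := by abel
      rw [this, e', sub_self]
    exact sub_eq_zero.1 this
  have K4 : ∀ (g u : Γ), u ∈ U → A.obj.ρ u (κ g) = κ g := by
    intro g u hu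
    rw [K3 g u hu]
    have : u * g = g * (g⁻¹ * u * g) := by group
    rw [this]
    refine K2 g _ ?_
    have := Subgroup.Normal.conj_mem (inferInstance : U.Normal) u hu g⁻¹
    simpa using this
  have K5 : ∀ g : Γ, κ ((g : Γ ⧸ U).out) = κ g := by
    intro g
    have h1 : (((g : Γ ⧸ U).out : Γ) : Γ ⧸ U) = (g : Γ ⧸ U) := QuotientGroup.out_eq' _
    have h2 : g⁻¹ * (g : Γ ⧸ U).out ∈ U := QuotientGroup.eq.1 h1.symm
    have h3 : (g : Γ ⧸ U).out = g * (g⁻¹ * (g : Γ ⧸ U).out) := by group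
    rw [h3]
    exact K2 g _ h2
  -- the descended cochain
  let κ' : (Fin 1 → Γ ⧸ U) → (levelRep A U).V := fun q =>
    ⟨κ (q 0).out, fun u => K4 _ u.1 u.2⟩
  rw [levelMk]
  refine (CC.mk_succ_eq_zero_iff _ 1 _).2 ⟨κ', ?_⟩
  rw [inhomogeneousCochains.d_def]
  apply inflCochains_f_injective A U hU 2
  rw [← lcD_inflCochains]
  apply Subtype.ext
  funext g
  rw [lcD_apply_coe, d_one_apply]
  rw [inflCochains_f_apply_coe, inflCochains_f_apply_coe, inflCochains_f_apply_coe,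
    inflCochains_f_apply_coe]
  change A.obj.ρ (g 0) (κ ((g 1 : Γ ⧸ U)).out) - κ (((g 0 * g 1 : Γ) : Γ ⧸ U)).out +
    κ ((g 0 : Γ ⧸ U)).out = _
  rw [K5, K5, K5, ← K1]
  have e2 : (fun i => ((g i : Γ) : Γ ⧸ U)) = ![(g 0 : Γ ⧸ U), (g 1 : Γ ⧸ U)] := by
    funext i; fin_cases i <;> rfl
  rw [e2]

end Two

end Fermat.Agent.CFT.Sm
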