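/-
S55 / CFT (PT6, step 3) — helper1.
`H¹` of a trivial smooth representation: the class of a homomorphism `Γ → M` which is trivial on a
basic open subgroup, and its injectivity.
-/
import Fermat.Agent.CFT.Sm.ClassFormation_helper9
import Fermat.Agent.CFT.Sm.FL_helper4_Low

set_option autoImplicit false

open CategoryTheory

namespace Fermat.Agent.CFT.Sm

variable {Γ : Type} [Group Γ] (𝒰 : OpenBasis Γ) (M : Type) [AddCommGroup M]

/-- the level-constant `1`-cochain of a homomorphism `Γ → M` trivial on a basic open subgroup. -/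
noncomputable def homCochain (f : Γ →* Multiplicative M) (hf : ∃ V ∈ 𝒰.sets, V ≤ f.ker) :
    lcCochains 𝒰 (trivSm ℤ 𝒰 M).obj 1 :=
  ⟨fun g => Multiplicative.toAdd (f (g 0)), by
    obtain ⟨V, hV, hVf⟩ := hf
    refine ⟨V, hV, fun g g' h => ?_⟩
    have h1 : f ((g 0)⁻¹ * g' 0) = 1 := hVf (h 0)
    rw [map_mul, map_inv, inv_mul_eq_one] at h1
    change Multiplicative.toAdd (f (g 0)) = Multiplicative.toAdd (f (g' 0))
    rw [h1]⟩

lemma homCochain_apply (f : Γ →* Multiplicative M) (hf : ∃ V ∈ 𝒰.sets, V ≤ f.ker)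
    (g : Fin 1 → Γ) :
    ((homCochain 𝒰 M f hf : lcCochains 𝒰 (trivSm ℤ 𝒰 M).obj 1) :
      (Fin 1 → Γ) → (trivSm ℤ 𝒰 M).obj.V) g = Multiplicative.toAdd (f (g 0)) := rfl

lemma homCochain_mem (f : Γ →* Multiplicative M) (hf : ∃ V ∈ 𝒰.sets, V ≤ f.ker) :
    homCochain 𝒰 M f hf ∈ lcCocycles 𝒰 (trivSm ℤ 𝒰 M) 1 := by
  rw [mem_lcCocycles_iff]
  funext g
  rw [d_one_apply]
  change Multiplicative.toAdd (f (g 1)) - Multiplicative.toAdd (f (g 0 * g 1)) +
    Multiplicative.toAdd (f (g 0)) = 0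
  rw [map_mul, toAdd_mul]
  abel

/-- the class in `H¹(Γ, M)` of a homomorphism `Γ → M` trivial on a basic open subgroup. -/
noncomputable def homClass (f : Γ →* Multiplicative M) (hf : ∃ V ∈ 𝒰.sets, V ≤ f.ker) :
    smH 𝒰 (trivSm ℤ 𝒰 M) 1 :=
  smHmk (trivSm ℤ 𝒰 M) 1 ⟨homCochain 𝒰 M f hf, homCochain_mem 𝒰 M f hf⟩

variable {𝒰 M}

lemma homClass_eq_iff (f f' : Γ →* Multiplicative M) (hf : ∃ V ∈ 𝒰.sets, V ≤ f.ker)
    (hf' : ∃ V ∈ 𝒰.sets, V ≤ f'.ker) :
    homClass 𝒰 M f hf = homClass 𝒰 M f' hf' ↔ f = f' := by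
  constructor
  · intro h
    unfold homClass at h
    rw [← sub_eq_zero, ← map_sub, smHmk_succ_eq_zero_iff] at h
    obtain ⟨y, hy⟩ := h
    ext g
    have h1 := congrArg (fun t : lcCochains 𝒰 (trivSm ℤ 𝒰 M).obj 1 =>
      (t : (Fin 1 → Γ) → (trivSm ℤ 𝒰 M).obj.V) (fun _ => g)) hy
    simp only at h1
    rw [lcD_apply_coe, d_zero_apply] at h1
    have h2 : (trivSm ℤ 𝒰 M).obj.ρ g ((y : (Fin 0 → Γ) → (trivSm ℤ 𝒰 M).obj.V) default) =
        (y : (Fin 0 → Γ) → (trivSm ℤ 𝒰 M).obj.V) default := rfl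
    rw [h2, sub_self] at h1
    have h3 : Multiplicative.toAdd (f g) - Multiplicative.toAdd (f' g) = 0 := h1.symm
    rw [sub_eq_zero] at h3
    exact congrArg Multiplicative.ofAdd h3
  · rintro rfl
    rfl

/-- **`H¹` with trivial coefficients**: every class is the class of a (unique) homomorphism
trivial on a basic open subgroup. -/
lemma exists_homClass_eq (x : smH 𝒰 (trivSm ℤ 𝒰 M) 1) :
    ∃ (f : Γ →* Multiplicative M) (hf : ∃ V ∈ 𝒰.sets, V ≤ f.ker), homClass 𝒰 M f hf = x := by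
  obtain ⟨c, rfl⟩ := exists_smHmk_eq x
  have hc := (mem_lcCocycles_iff c.1).mp c.2
  have hmul : ∀ g g' : Γ, (c.1 : (Fin 1 → Γ) → (trivSm ℤ 𝒰 M).obj.V) (fun _ => g * g') =
      (c.1 : (Fin 1 → Γ) → (trivSm ℤ 𝒰 M).obj.V) (fun _ => g) +
        (c.1 : (Fin 1 → Γ) → (trivSm ℤ 𝒰 M).obj.V) (fun _ => g') := by
    intro g g'
    have h1 := congrFun hc ![g, g']
    rw [d_one_apply] at h1
    have h2 : (trivSm ℤ 𝒰 M).obj.ρ (![g, g'] 0)
        ((c.1 : (Fin 1 → Γ) → (trivSm ℤ 𝒰 M).obj.V) (fun _ => ![g, g'] 1)) =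
        (c.1 : (Fin 1 → Γ) → (trivSm ℤ 𝒰 M).obj.V) (fun _ => ![g, g'] 1) := rfl
    rw [h2] at h1
    simp only [Matrix.cons_val_zero, Matrix.cons_val_one] at h1
    have h3 : (0 : (Fin 2 → Γ) → (trivSm ℤ 𝒰 M).obj.V) ![g, g'] = 0 := rfl
    rw [h3] at h1
    rw [sub_add_eq_add_sub, sub_eq_zero] at h1
    rw [← h1, add_comm]
  let f : Γ →* Multiplicative M :=
    { toFun := fun g => Multiplicative.ofAdd
        ((c.1 : (Fin 1 → Γ) → (trivSm ℤ 𝒰 M).obj.V) (fun _ => g))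
      map_one' := by
        have h1 := hmul 1 1
        rw [mul_one] at h1
        have h2 : (c.1 : (Fin 1 → Γ) → (trivSm ℤ 𝒰 M).obj.V) (fun _ => (1 : Γ)) = 0 := by
          have := congrArg (fun t => t - (c.1 : (Fin 1 → Γ) → (trivSm ℤ 𝒰 M).obj.V)
            (fun _ => (1 : Γ))) h1
          simp only [sub_self, add_sub_cancel_right] at this
          exact this.symm
        rw [h2]
        rfl
      map_mul' := fun g g' => by
        rw [hmul g g']
        rfl }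
  have hfk : ∃ V ∈ 𝒰.sets, V ≤ f.ker := by
    obtain ⟨V, hV, hVc⟩ := c.1.2
    refine ⟨V, hV, fun g hg => ?_⟩
    rw [MonoidHom.mem_ker]
    have h1 := hVc (fun _ => 1) (fun _ => g) (fun _ => by rw [inv_one, one_mul]; exact hg)
    have h2 : f g = f 1 := congrArg Multiplicative.ofAdd h1.symm
    rw [h2, map_one]
  refine ⟨f, hfk, ?_⟩
  unfold homClass
  congr 1
  apply Subtype.ext
  apply Subtype.ext
  funext g
  have hg : g = fun _ => g 0 := by
    funext i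
    rw [Subsingleton.elim i 0]
  rw [homCochain_apply]
  conv_rhs => rw [hg]
  rfl

end Fermat.Agent.CFT.Sm
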