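/-
S55 / CFT (P0.4 (f),(g)) — helper5.
Naturality of the connecting homomorphism `smδ` of smooth cohomology with respect to morphisms of
short exact sequences, restriction `smHRes` along a continuous homomorphism, its naturality and
its compatibility with `smδ`.
-/
import Fermat.Agent.CFT.Sm.Cohomology_helper9
import Fermat.Agent.CFT.Sm.Functors_helper9

set_option autoImplicit false

open CategoryTheory CategoryTheory.Limits groupCohomology

namespace Fermat.Agent.CFT.Sm

variable {k Γ : Type} [CommRing k] [Group Γ] {𝒰 : OpenBasis Γ}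

/-- (f) Naturality of the connecting homomorphism of smooth cohomology with respect to
morphisms of short exact sequences. -/
theorem smδ_naturality {S S' : ShortComplex (SmRep k 𝒰)} (hS : S.ShortExact)
    (hS' : S'.ShortExact) (φ : S ⟶ S') (i j : ℕ) (hij : i + 1 = j) :
    smδ hS i j hij ≫ (smHFunctor k 𝒰 j).map φ.τ₁ =
      (smHFunctor k 𝒰 i).map φ.τ₃ ≫ smδ hS' i j hij :=
  HomologicalComplex.HomologySequence.δ_naturality
    ((lcFunctor k 𝒰).mapShortComplex.map φ) (map_lcFunctor_shortExact hS)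
    (map_lcFunctor_shortExact hS') i j hij

section Res

variable {Γ' : Type} [Group Γ'] {𝒰' : OpenBasis Γ'} (ψ : Γ' →* Γ) (hψ : 𝒰'.Finer (𝒰.comap ψ))

/-- The restriction chain map `lcComplex 𝒰 A ⟶ lcComplex 𝒰' (res A)`. -/
noncomputable def lcRes (A : SmRep k 𝒰) :
    (lcFunctor k 𝒰).obj A ⟶ (lcFunctor k 𝒰').obj ((resSm k ψ hψ).obj A) :=
  lcMap ψ hψ (A := A) (B := (resSm k ψ hψ).obj A) (𝟙 (Rep.res ψ A.obj))

/-- Restriction on smooth cohomology. -/
noncomputable def smHRes (A : SmRep k 𝒰) (n : ℕ) :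
    smH 𝒰 A n ⟶ smH 𝒰' ((resSm k ψ hψ).obj A) n :=
  smHMap ψ hψ (A := A) (B := (resSm k ψ hψ).obj A) (𝟙 (Rep.res ψ A.obj)) n

lemma lcRes_naturality {A B : SmRep k 𝒰} (f : A ⟶ B) :
    lcRes ψ hψ A ≫ (lcFunctor k 𝒰').map ((resSm k ψ hψ).map f) =
      (lcFunctor k 𝒰).map f ≫ lcRes ψ hψ B := by
  ext n c
  rfl

/-- Restriction is natural in the coefficients. -/
theorem smHRes_naturality {A B : SmRep k 𝒰} (f : A ⟶ B) (n : ℕ) :
    smHRes ψ hψ A n ≫ (smHFunctor k 𝒰' n).map ((resSm k ψ hψ).map f) =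
      (smHFunctor k 𝒰 n).map f ≫ smHRes ψ hψ B n := by
  change HomologicalComplex.homologyMap (lcRes ψ hψ A) n ≫
      HomologicalComplex.homologyMap ((lcFunctor k 𝒰').map ((resSm k ψ hψ).map f)) n =
    HomologicalComplex.homologyMap ((lcFunctor k 𝒰).map f) n ≫
      HomologicalComplex.homologyMap (lcRes ψ hψ B) n
  rw [← HomologicalComplex.homologyMap_comp, ← HomologicalComplex.homologyMap_comp,
    lcRes_naturality]

/-- Restriction on smooth cohomology as a natural transformation. -/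
noncomputable def smHResNat (n : ℕ) : smHFunctor k 𝒰 n ⟶ resSm k ψ hψ ⋙ smHFunctor k 𝒰' n where
  app A := smHRes ψ hψ A n
  naturality _ _ f := (smHRes_naturality ψ hψ f n).symm

/-- The morphism of short complexes of cochain complexes given by restriction. -/
noncomputable def lcResShortComplex (S : ShortComplex (SmRep k 𝒰)) :
    S.map (lcFunctor k 𝒰) ⟶ (S.map (resSm k ψ hψ)).map (lcFunctor k 𝒰') where
  τ₁ := lcRes ψ hψ S.X₁
  τ₂ := lcRes ψ hψ S.X₂
  τ₃ := lcRes ψ hψ S.X₃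
  comm₁₂ := lcRes_naturality ψ hψ S.f
  comm₂₃ := lcRes_naturality ψ hψ S.g

/-- (g) Restriction commutes with the connecting homomorphisms. -/
theorem smδ_smHRes {S : ShortComplex (SmRep k 𝒰)} (hS : S.ShortExact) (i j : ℕ)
    (hij : i + 1 = j) :
    smδ hS i j hij ≫ smHRes ψ hψ S.X₁ j =
      smHRes ψ hψ S.X₃ i ≫ smδ (resSm_shortExact ψ hψ hS) i j hij :=
  HomologicalComplex.HomologySequence.δ_naturality
    (lcResShortComplex ψ hψ S) (map_lcFunctor_shortExact hS)
    (map_lcFunctor_shortExact (resSm_shortExact ψ hψ hS)) i j hij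

lemma smHRes_smHmk (A : SmRep k 𝒰) (n : ℕ) (f : lcCocycles 𝒰 A n) :
    (smHRes ψ hψ A n).hom (smHmk A n f) =
      smHmk ((resSm k ψ hψ).obj A) n
        (lcCocyclesMap ψ hψ (A := A) (B := (resSm k ψ hψ).obj A) (𝟙 (Rep.res ψ A.obj)) n f) :=
  smHMap_smHmk ψ hψ (A := A) (B := (resSm k ψ hψ).obj A) (𝟙 (Rep.res ψ A.obj)) n f

end Res

end Fermat.Agent.CFT.Sm
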