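/-
S55 / CFT (PT6, step 3) — helper1.
Additivity of the reciprocity pairing `recMap` in the invariant element, and finiteness of
`H¹(Γ, ℤ/p)` from surjectivity of reciprocity together with finiteness of `C^Γ / p`.
-/
import Fermat.Agent.CFT.Sm.TrivH1_helper1

set_option autoImplicit false
set_option linter.style.haveILetI false

open CategoryTheory

namespace Fermat.Agent.CFT.Sm

variable {Γ : Type} [Group Γ] (𝒰 : OpenBasis Γ)

section OfInvariant

variable {k : Type} [CommRing k] {𝒰}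

lemma smRep_add_hom_apply {X Y : SmRep k 𝒰} (f g : X ⟶ Y) (x : X.obj.V) :
    (f + g).hom.hom x = f.hom.hom x + g.hom.hom x := rfl

lemma smRep_hom_ext_apply {X Y : SmRep k 𝒰} (f g : X ⟶ Y)
    (h : ∀ x : X.obj.V, f.hom.hom x = g.hom.hom x) : f = g := by
  apply ObjectProperty.hom_ext
  apply Rep.hom_ext
  apply Representation.IntertwiningMap.ext
  apply LinearMap.ext
  exact h

variable (A : SmRep k 𝒰)

lemma ofInvariant_add (a b : A.obj.V) (ha : ∀ g, A.obj.ρ g a = a) (hb : ∀ g, A.obj.ρ g b = b)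
    (hab : ∀ g, A.obj.ρ g (a + b) = a + b) :
    ofInvariant A (a + b) hab = ofInvariant A a ha + ofInvariant A b hb := by
  apply smRep_hom_ext_apply
  intro c
  rw [smRep_add_hom_apply, ofInvariant_apply, ofInvariant_apply, ofInvariant_apply, smul_add]

lemma ofInvariant_zero (h0 : ∀ g, A.obj.ρ g 0 = 0) : ofInvariant A 0 h0 = 0 := by
  apply smRep_hom_ext_apply
  intro c
  rw [ofInvariant_apply, smul_zero]
  rfl

/-- the map induced on `Hⁿ` by the morphism attached to an invariant vector is additive in the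
vector. -/
lemma smH_ofInvariant_add (n : ℕ) (a b : A.obj.V) (ha : ∀ g, A.obj.ρ g a = a)
    (hb : ∀ g, A.obj.ρ g b = b) (hab : ∀ g, A.obj.ρ g (a + b) = a + b)
    (y : smH 𝒰 (trivSm k 𝒰 k) n) :
    ((smHFunctor k 𝒰 n).map (ofInvariant A (a + b) hab)).hom y =
      ((smHFunctor k 𝒰 n).map (ofInvariant A a ha)).hom y +
        ((smHFunctor k 𝒰 n).map (ofInvariant A b hb)).hom y := by
  rw [ofInvariant_add A a b ha hb hab, Functor.map_add]
  rfl

lemma smH_ofInvariant_zero (n : ℕ) (h0 : ∀ g, A.obj.ρ g 0 = 0) (y : smH 𝒰 (trivSm k 𝒰 k) n) :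
    ((smHFunctor k 𝒰 n).map (ofInvariant A 0 h0)).hom y = 0 := by
  rw [ofInvariant_zero A h0, Functor.map_zero]
  rfl

end OfInvariant

section Rec

variable (p : ℕ) [hp : Fact p.Prime] (C : SmRep ℤ 𝒰) (inv : smH 𝒰 C 2 →+ AddCircle (1 : ℚ))

lemma recMap_apply (c : C.obj.V) (hc : ∀ g, C.obj.ρ g c = c)
    (x : smH 𝒰 (trivSm ℤ 𝒰 (ZMod p)) 1) :
    recMap 𝒰 p C inv c hc x = inv (((smHFunctor ℤ 𝒰 2).map (ofInvariant C c hc)).hom
      ((smδ (bockstein_shortExact 𝒰 p hp.out.ne_zero) 1 2 rfl).hom x)) := rfl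

lemma recMap_add (c c' : C.obj.V) (hc : ∀ g, C.obj.ρ g c = c) (hc' : ∀ g, C.obj.ρ g c' = c')
    (hcc' : ∀ g, C.obj.ρ g (c + c') = c + c') :
    recMap 𝒰 p C inv (c + c') hcc' = recMap 𝒰 p C inv c hc + recMap 𝒰 p C inv c' hc' := by
  apply CharacterModule.ext
  intro x
  exact (congrArg inv (smH_ofInvariant_add C 2 c c' hc hc' hcc'
    ((smδ (bockstein_shortExact 𝒰 p hp.out.ne_zero) 1 2 rfl).hom x))).trans (map_add inv _ _)

lemma recMap_zero (h0 : ∀ g, C.obj.ρ g 0 = 0) : recMap 𝒰 p C inv 0 h0 = 0 := by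
  apply CharacterModule.ext
  intro x
  exact (congrArg inv (smH_ofInvariant_zero C 2 h0
    ((smδ (bockstein_shortExact 𝒰 p hp.out.ne_zero) 1 2 rfl).hom x))).trans (map_zero inv)

lemma recMap_congr' (c c' : C.obj.V) (h : c = c') (hc : ∀ g, C.obj.ρ g c = c)
    (hc' : ∀ g, C.obj.ρ g c' = c') : recMap 𝒰 p C inv c hc = recMap 𝒰 p C inv c' hc' := by
  subst h
  rfl

lemma recMap_nsmul (n : ℕ) (c : C.obj.V) (hc : ∀ g, C.obj.ρ g c = c)
    (hnc : ∀ g, C.obj.ρ g (n • c) = n • c) :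
    recMap 𝒰 p C inv (n • c) hnc = n • recMap 𝒰 p C inv c hc := by
  induction n with
  | zero =>
    have h0 : ∀ g, C.obj.ρ g 0 = 0 := fun g => map_zero _
    rw [recMap_congr' 𝒰 p C inv ((0 : ℕ) • c) 0 (zero_smul ℕ c) hnc h0, zero_smul]
    exact recMap_zero 𝒰 p C inv h0
  | succ n ih =>
    have hn : ∀ g, C.obj.ρ g (n • c) = n • c := fun g => by rw [map_nsmul, hc g]
    have h1 : ∀ g, C.obj.ρ g (n • c + c) = n • c + c := fun g => by rw [map_add, hn g, hc g]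
    rw [recMap_congr' 𝒰 p C inv ((n + 1) • c) (n • c + c) (succ_nsmul c n) hnc h1,
      recMap_add 𝒰 p C inv _ _ hn hc, ih hn, succ_nsmul]

variable {𝒰}

/-- `Hⁿ(Γ, ℤ/p)` is killed by `p`. -/
lemma nsmul_smH_trivSm_zmod (n : ℕ) (x : smH 𝒰 (trivSm ℤ 𝒰 (ZMod p)) n) : p • x = 0 := by
  obtain ⟨c, rfl⟩ := exists_smHmk_eq x
  rw [← map_nsmul]
  have h : p • c = 0 := by
    apply Subtype.ext
    apply Subtype.ext
    funext g
    change p • ((c.1 : (Fin n → Γ) → (trivSm ℤ 𝒰 (ZMod p)).obj.V) g) = 0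
    have h1 : ∀ z : ZMod p, p • z = 0 := fun z => by
      rw [nsmul_eq_mul, CharP.cast_eq_zero, zero_mul]
    exact h1 _
  rw [h, map_zero]

variable (𝒰)

lemma recMap_nsmul_self (c : C.obj.V) (hc : ∀ g, C.obj.ρ g c = c)
    (hnc : ∀ g, C.obj.ρ g (p • c) = p • c) :
    recMap 𝒰 p C inv (p • c) hnc = 0 := by
  rw [recMap_nsmul 𝒰 p C inv p c hc hnc]
  apply CharacterModule.ext
  intro x
  have h : (p • recMap 𝒰 p C inv c hc) x = recMap 𝒰 p C inv c hc (p • x) := by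
    change p • recMap 𝒰 p C inv c hc x = _
    rw [map_nsmul]
  rw [h, nsmul_smH_trivSm_zmod, map_zero]
  rfl

/-- **Finiteness of `H¹(Γ, ℤ/p)`** from surjectivity of reciprocity and finiteness of
`C^Γ / p C^Γ`. -/
theorem finite_smH1_of_rec_surj
    (hsurj : ∀ φ : CharacterModule (smH 𝒰 (trivSm ℤ 𝒰 (ZMod p)) 1),
      ∃ (c : C.obj.V) (hc : ∀ g, C.obj.ρ g c = c), recMap 𝒰 p C inv c hc = φ)
    (hfin : ∃ T : Finset C.obj.V, ∀ c : C.obj.V, (∀ g, C.obj.ρ g c = c) →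
      ∃ t ∈ T, ∃ c' : C.obj.V, (∀ g, C.obj.ρ g c' = c') ∧ c = t + p • c') :
    Finite (smH 𝒰 (trivSm ℤ 𝒰 (ZMod p)) 1) := by
  classical
  obtain ⟨T, hT⟩ := hfin
  -- the character module is finite
  let T' := {t : C.obj.V // t ∈ T ∧ ∀ g, C.obj.ρ g t = t}
  haveI : Finite T' := Finite.of_injective (fun t : T' => (⟨t.1, t.2.1⟩ : T))
    (fun a b h => Subtype.ext (congrArg (fun z : T => (z : C.obj.V)) h))
  have hD : Finite (CharacterModule (smH 𝒰 (trivSm ℤ 𝒰 (ZMod p)) 1)) := by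
    refine Finite.of_surjective (fun t : T' => recMap 𝒰 p C inv t.1 t.2.2) (fun φ => ?_)
    obtain ⟨c, hc, rfl⟩ := hsurj φ
    obtain ⟨t, ht, c', hc', hct⟩ := hT c hc
    have htinv : ∀ g, C.obj.ρ g t = t := by
      intro g
      have h1 : t = c - p • c' := by rw [hct, add_sub_cancel_right]
      rw [h1, map_sub, map_nsmul, hc g, hc' g]
    have hpc' : ∀ g, C.obj.ρ g (p • c') = p • c' := fun g => by rw [map_nsmul, hc' g]
    have hsum : ∀ g, C.obj.ρ g (t + p • c') = t + p • c' := fun g => by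
      rw [map_add, htinv g, hpc' g]
    refine ⟨⟨t, ht, htinv⟩, ?_⟩
    change recMap 𝒰 p C inv t htinv = recMap 𝒰 p C inv c hc
    rw [recMap_congr' 𝒰 p C inv c (t + p • c') hct hc hsum,
      recMap_add 𝒰 p C inv t (p • c') htinv hpc', recMap_nsmul_self 𝒰 p C inv c' hc' hpc',
      add_zero]
  -- evaluation embeds `H¹` into functions with values in the `p`-torsion of the circle
  have hpt : {u : AddCircle (1 : ℚ) | p • u = 0}.Finite := AddCircle.finite_torsion 1 hp.out.pos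
  haveI : Finite {u : AddCircle (1 : ℚ) | p • u = 0} := hpt.to_subtype
  let ev : smH 𝒰 (trivSm ℤ 𝒰 (ZMod p)) 1 →
      (CharacterModule (smH 𝒰 (trivSm ℤ 𝒰 (ZMod p)) 1) → {u : AddCircle (1 : ℚ) | p • u = 0}) :=
    fun x φ => ⟨φ x, by
      change p • φ x = 0
      rw [← map_nsmul, nsmul_smH_trivSm_zmod, map_zero]⟩
  refine Finite.of_injective ev (fun x y hxy => ?_)
  rw [← sub_eq_zero]
  apply CharacterModule.eq_zero_of_character_apply
  intro φ
  have h1 : φ x = φ y := congrArg (fun t => ((t φ : {u : AddCircle (1 : ℚ) | p • u = 0}) :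
    AddCircle (1 : ℚ))) hxy
  rw [map_sub, h1, sub_self]

/-- Variant with the class formation axioms as hypothesis. -/
theorem finite_smH1_of_isBaseCF (hb : IsBaseCF 𝒰 p C inv)
    (hfin : ∃ T : Finset C.obj.V, ∀ c : C.obj.V, (∀ g, C.obj.ρ g c = c) →
      ∃ t ∈ T, ∃ c' : C.obj.V, (∀ g, C.obj.ρ g c' = c') ∧ c = t + p • c') :
    Finite (smH 𝒰 (trivSm ℤ 𝒰 (ZMod p)) 1) :=
  finite_smH1_of_rec_surj 𝒰 p C inv hb.rec_surj hfin

end Rec

end Fermat.Agent.CFT.Sm
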