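/-
S55 / CFT (PT6, step 3) — helper1.
The existence theorem mod `p` in kernel form (`rec_ker`) from surjectivity of reciprocity and a
counting inequality `|C^Γ / p| ≤ |H¹(Γ, ℤ/p)|` (Tate's route).
-/
import Fermat.Agent.CFT.Sm.RecFinite_helper1
import Fermat.Agent.CFT.Bridge.Glue_helper6

set_option autoImplicit false
set_option linter.style.haveILetI false

open CategoryTheory

namespace Fermat.Agent.CFT.Sm

section Card

theorem card_addMonoidHom_zmod_of_module' {V : Type*} [AddCommGroup V] {p : ℕ}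
    [hp : Fact p.Prime] [Module (ZMod p) V] [Finite V] :
    Nat.card (V →+ ZMod p) = Nat.card V := by
  haveI : Module.Finite (ZMod p) V := Module.Finite.of_finite
  have h := Subspace.dual_finrank_eq (K := ZMod p) (V := V)
  have e : (V →+ ZMod p) ≃ (V →ₗ[ZMod p] ZMod p) :=
    { toFun := AddMonoidHom.toZModLinearMap p
      invFun := fun f => f.toAddMonoidHom
      left_inv := fun f => by
        ext v
        rfl
      right_inv := fun f => by
        ext v
        rfl }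
  rw [Nat.card_congr e, Module.natCard_eq_pow_finrank (K := ZMod p) (V := V →ₗ[ZMod p] ZMod p),
      Module.natCard_eq_pow_finrank (K := ZMod p) (V := V)]
  exact congrArg _ h

/-- a finite abelian group killed by `p` has as many characters as elements. -/
theorem card_characterModule_of_nsmul_eq_zero {V : Type*} [AddCommGroup V] {p : ℕ}
    [hp : Fact p.Prime] [Finite V] (h : ∀ v : V, p • v = 0) :
    Nat.card (CharacterModule V) = Nat.card V := by
  letI : Module (ZMod p) V := AddCommGroup.zmodModule h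
  rw [← Nat.card_congr (Bridge.characterEquiv p h).toEquiv]
  exact card_addMonoidHom_zmod_of_module'

end Card

variable {Γ : Type} [Group Γ] (𝒰 : OpenBasis Γ)

/-- the invariants of a smooth representation, as an additive subgroup (avoids the `ℤ`-module
diamond of `Representation.invariants` for `k = ℤ`). -/
def smInvariants {k : Type} [CommRing k] {𝒰 : OpenBasis Γ} (C : SmRep k 𝒰) :
    AddSubgroup C.obj.V where
  carrier := {c | ∀ g, C.obj.ρ g c = c}
  zero_mem' := fun g => map_zero _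
  add_mem' := fun {a b} ha hb g => by rw [map_add, ha g, hb g]
  neg_mem' := fun {a} ha g => by rw [map_neg, ha g]

lemma mem_smInvariants {k : Type} [CommRing k] {𝒰 : OpenBasis Γ} (C : SmRep k 𝒰) (c : C.obj.V) :
    c ∈ smInvariants C ↔ ∀ g, C.obj.ρ g c = c := Iff.rfl

variable (p : ℕ) [hp : Fact p.Prime] (C : SmRep ℤ 𝒰) (inv : smH 𝒰 C 2 →+ AddCircle (1 : ℚ))

/-- **Existence theorem mod `p`, kernel form, by counting.** If reciprocity mod `p` is surjective
(`rec_surj`), `q : C^Γ → Q` is a map to a finite set separating the classes of `C^Γ` modulo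
`p C^Γ`, and `H¹(Γ, ℤ/p)` contains at least `|Q|` elements, then the kernel of reciprocity is
`p C^Γ`. -/
theorem rec_ker_of_card
    (hsurj : ∀ φ : CharacterModule (smH 𝒰 (trivSm ℤ 𝒰 (ZMod p)) 1),
      ∃ (c : C.obj.V) (hc : ∀ g, C.obj.ρ g c = c), recMap 𝒰 p C inv c hc = φ)
    {Q X : Type} [Finite Q] [Finite X]
    (q : {c : C.obj.V // ∀ g, C.obj.ρ g c = c} → Q)
    (hq : ∀ c c' : {c : C.obj.V // ∀ g, C.obj.ρ g c = c}, q c = q c' →
      ∃ d : C.obj.V, (∀ g, C.obj.ρ g d = d) ∧ c.1 - c'.1 = p • d)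
    (f : X → smH 𝒰 (trivSm ℤ 𝒰 (ZMod p)) 1) (hf : Function.Injective f)
    (hcard : Nat.card Q ≤ Nat.card X) :
    ∀ (c : C.obj.V) (hc : ∀ g, C.obj.ρ g c = c), recMap 𝒰 p C inv c hc = 0 →
      ∃ c' : C.obj.V, (∀ g, C.obj.ρ g c' = c') ∧ p • c' = c := by
  classical
  -- finiteness of `C^Γ / p`
  have hfin : ∃ T : Finset C.obj.V, ∀ c : C.obj.V, (∀ g, C.obj.ρ g c = c) →
      ∃ t ∈ T, ∃ c' : C.obj.V, (∀ g, C.obj.ρ g c' = c') ∧ c = t + p • c' := by
    haveI : Fintype Q := Fintype.ofFinite Q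
    have hch : ∀ y : Q, ∃ t : C.obj.V, ∀ c : {c : C.obj.V // ∀ g, C.obj.ρ g c = c}, q c = y →
        ∃ d : C.obj.V, (∀ g, C.obj.ρ g d = d) ∧ c.1 = t + p • d := by
      intro y
      by_cases hy : ∃ c₀, q c₀ = y
      · obtain ⟨c₀, hc₀⟩ := hy
        refine ⟨c₀.1, fun c hcy => ?_⟩
        obtain ⟨d, hd, hcd⟩ := hq c c₀ (hcy.trans hc₀.symm)
        exact ⟨d, hd, by rw [← hcd]; abel⟩
      · exact ⟨0, fun c hcy => (hy ⟨c, hcy⟩).elim⟩
    choose t ht using hch
    refine ⟨Finset.univ.image t, fun c hc => ?_⟩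
    obtain ⟨d, hd, hcd⟩ := ht (q ⟨c, hc⟩) ⟨c, hc⟩ rfl
    exact ⟨t (q ⟨c, hc⟩), Finset.mem_image.mpr ⟨_, Finset.mem_univ _, rfl⟩, d, hd, hcd⟩
  haveI hH1 : Finite (smH 𝒰 (trivSm ℤ 𝒰 (ZMod p)) 1) :=
    finite_smH1_of_rec_surj 𝒰 p C inv hsurj hfin
  have hD : Nat.card (CharacterModule (smH 𝒰 (trivSm ℤ 𝒰 (ZMod p)) 1)) =
      Nat.card (smH 𝒰 (trivSm ℤ 𝒰 (ZMod p)) 1) :=
    card_characterModule_of_nsmul_eq_zero (nsmul_smH_trivSm_zmod p 1)
  -- the invariants as a group, and reciprocity as a homomorphism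
  let I : AddSubgroup C.obj.V :=
    { carrier := {c | ∀ g, C.obj.ρ g c = c}
      zero_mem' := fun g => map_zero _
      add_mem' := fun {a b} ha hb g => by rw [map_add, ha g, hb g]
      neg_mem' := fun {a} ha g => by rw [map_neg, ha g] }
  let R : ↥I →+ CharacterModule (smH 𝒰 (trivSm ℤ 𝒰 (ZMod p)) 1) :=
    AddMonoidHom.mk' (fun c => recMap 𝒰 p C inv c.1 c.2)
      (fun a b => recMap_add 𝒰 p C inv a.1 b.1 a.2 b.2 (a + b).2)
  let P : AddSubgroup ↥I := (nsmulAddMonoidHom p : ↥I →+ ↥I).range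
  have hPR : P ≤ R.ker := by
    rintro _ ⟨d, rfl⟩
    rw [AddMonoidHom.mem_ker]
    exact recMap_nsmul_self 𝒰 p C inv d.1 d.2 (p • d).2
  let Rbar : ↥I ⧸ P →+ CharacterModule (smH 𝒰 (trivSm ℤ 𝒰 (ZMod p)) 1) :=
    QuotientAddGroup.lift P R hPR
  have hRsurj : Function.Surjective Rbar := by
    intro φ
    obtain ⟨c, hc, rfl⟩ := hsurj φ
    exact ⟨QuotientAddGroup.mk (⟨c, hc⟩ : ↥I), rfl⟩
  -- the quotient injects into `Q`
  let s : ↥I ⧸ P → Q := fun a => q ⟨(Quotient.out a : ↥I).1, (Quotient.out a : ↥I).2⟩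
  have hs : Function.Injective s := by
    intro a b hab
    obtain ⟨d, hd, hdab⟩ := hq _ _ hab
    rw [← QuotientAddGroup.out_eq' a, ← QuotientAddGroup.out_eq' b, QuotientAddGroup.eq]
    refine ⟨-(⟨d, hd⟩ : ↥I), ?_⟩
    apply Subtype.ext
    change p • (-d) = -(Quotient.out a : ↥I).1 + (Quotient.out b : ↥I).1
    rw [smul_neg, ← hdab]
    abel
  haveI : Finite (↥I ⧸ P) := Finite.of_injective s hs
  have hbij : Function.Bijective Rbar := by
    refine hRsurj.bijective_of_nat_card_le ?_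
    calc Nat.card (↥I ⧸ P) ≤ Nat.card Q := Nat.card_le_card_of_injective s hs
      _ ≤ Nat.card X := hcard
      _ ≤ Nat.card (smH 𝒰 (trivSm ℤ 𝒰 (ZMod p)) 1) := Nat.card_le_card_of_injective f hf
      _ = Nat.card (CharacterModule (smH 𝒰 (trivSm ℤ 𝒰 (ZMod p)) 1)) := hD.symm
  intro c hc hrec
  have h0 : Rbar (QuotientAddGroup.mk (⟨c, hc⟩ : ↥I)) = Rbar 0 := by
    rw [map_zero]
    exact hrec
  have h1 := hbij.1 h0
  rw [QuotientAddGroup.eq_zero_iff] at h1
  obtain ⟨d, hd⟩ := h1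
  exact ⟨d.1, d.2, congrArg Subtype.val hd⟩

/-- Variant: the class formation axioms as hypothesis. -/
theorem IsBaseCF.rec_ker_of_card (hb : IsBaseCF 𝒰 p C inv)
    {Q X : Type} [Finite Q] [Finite X]
    (q : {c : C.obj.V // ∀ g, C.obj.ρ g c = c} → Q)
    (hq : ∀ c c' : {c : C.obj.V // ∀ g, C.obj.ρ g c = c}, q c = q c' →
      ∃ d : C.obj.V, (∀ g, C.obj.ρ g d = d) ∧ c.1 - c'.1 = p • d)
    (f : X → smH 𝒰 (trivSm ℤ 𝒰 (ZMod p)) 1) (hf : Function.Injective f)
    (hcard : Nat.card Q ≤ Nat.card X) :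
    ∀ (c : C.obj.V) (hc : ∀ g, C.obj.ρ g c = c), recMap 𝒰 p C inv c hc = 0 →
      ∃ c' : C.obj.V, (∀ g, C.obj.ρ g c' = c') ∧ p • c' = c :=
  Sm.rec_ker_of_card 𝒰 p C inv hb.rec_surj q hq f hf hcard

end Fermat.Agent.CFT.Sm
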