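/-
S55 / CFT (P0.4 (a),(b)) — helper5.
The internal Hom functor `homSm X : SmRep k 𝒰 ⥤ SmRep k 𝒰`, `A ↦ Hom_k(X, A)`, for a smooth
representation `X` finitely generated over `k`; its exactness (for `X` projective over `k`, and
for `k = ℤ`, `X` killed by a prime `p`, on sequences with `p`-divisible kernel); the unit object
and `homSm 𝟙 ≅ 𝟭`; degree `0`: `smH 𝒰 (Hom_k(X, A)) 0 ≃ (X ⟶ A)` (on top of helper4's
`smHZeroEquiv`), naturality.
-/
import Fermat.Agent.CFT.Sm.Cohomology_helper9
import Fermat.Agent.CFT.Sm.Functors_helper9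
import Fermat.Agent.CFT.Sm.ClassFormation_helper9
import Fermat.Agent.CFT.Sm.FL_helper4_Low

set_option autoImplicit false

open CategoryTheory CategoryTheory.Limits groupCohomology

namespace Fermat.Agent.CFT.Sm

/-- Lifting lemma: if `X` is killed by the prime `p` and `A → B → C` is exact with `B → C`
surjective and `A` `p`-divisible, then every additive map `X → C` lifts to `B`. -/
lemma exists_lift_of_torsion_of_divisible (p : ℕ) [Fact p.Prime] {X A B C : Type*}
    [AddCommGroup X] [AddCommGroup A] [AddCommGroup B] [AddCommGroup C]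
    (f : A →+ B) (g : B →+ C) (hgf : ∀ a, g (f a) = 0) (hex : ∀ b, g b = 0 → ∃ a, f a = b)
    (hsurj : Function.Surjective g) (hX : ∀ x : X, p • x = 0) (hdiv : ∀ a : A, ∃ a', p • a' = a)
    (φ : X →+ C) : ∃ φ' : X →+ B, ∀ x, g (φ' x) = φ x := by
  -- the `p`-torsion subgroups
  let TB : AddSubgroup B := (zsmulAddGroupHom (α := B) (p : ℤ)).ker
  let TC : AddSubgroup C := (zsmulAddGroupHom (α := C) (p : ℤ)).ker
  have hTB : ∀ b : B, b ∈ TB ↔ p • b = 0 := fun b => by
    change (p : ℤ) • b = 0 ↔ _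
    rw [natCast_zsmul]
  have hTC : ∀ c : C, c ∈ TC ↔ p • c = 0 := fun c => by
    change (p : ℤ) • c = 0 ↔ _
    rw [natCast_zsmul]
  have : Module (ZMod p) X := AddCommGroup.zmodModule hX
  have : Module (ZMod p) TB := AddCommGroup.zmodModule (fun b => by
    apply Subtype.ext
    change p • (b : B) = 0
    exact (hTB _).1 b.2)
  have : Module (ZMod p) TC := AddCommGroup.zmodModule (fun c => by
    apply Subtype.ext
    change p • (c : C) = 0
    exact (hTC _).1 c.2)
  let gT : TB →+ TC :=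
    { toFun := fun b => ⟨g (b : B), (hTC _).2 (by rw [← map_nsmul, (hTB _).1 b.2, map_zero])⟩
      map_zero' := Subtype.ext (map_zero g)
      map_add' := fun b b' => Subtype.ext (map_add g (b : B) (b' : B)) }
  let φT : X →+ TC :=
    { toFun := fun x => ⟨φ x, (hTC _).2 (by rw [← map_nsmul, hX, map_zero])⟩
      map_zero' := Subtype.ext (map_zero φ)
      map_add' := fun x x' => Subtype.ext (map_add φ x x') }
  let gL : TB →ₗ[ZMod p] TC := AddMonoidHom.toZModLinearMap p gT
  have hgT : Function.Surjective gL := by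
    rintro ⟨c, hc⟩
    obtain ⟨b, rfl⟩ := hsurj c
    have h1 : g (p • b) = 0 := by rw [map_nsmul]; exact (hTC _).1 hc
    obtain ⟨a, ha⟩ := hex _ h1
    obtain ⟨a', rfl⟩ := hdiv a
    refine ⟨⟨b - f a', (hTB _).2 ?_⟩, ?_⟩
    · rw [smul_sub, ← map_nsmul, ha, sub_self]
    · apply Subtype.ext
      change g (b - f a') = g b
      rw [map_sub, hgf, sub_zero]
  obtain ⟨h, hh⟩ := Module.projective_lifting_property gL
    (AddMonoidHom.toZModLinearMap p φT) hgT
  refine ⟨TB.subtype.comp h.toAddMonoidHom, fun x => ?_⟩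
  have := congrArg (fun t => ((t x : TC) : C)) hh
  exact this


variable {k Γ : Type} [CommRing k] [Group Γ] {𝒰 : OpenBasis Γ}

/-- `Hom_k(X, A)` is smooth if `X` is smooth and finitely generated and `A` is smooth. -/
lemma isSmooth_ihom (X A : SmRep k 𝒰) [Module.Finite k X.obj.V] :
    IsSmooth 𝒰 ((Rep.ihom X.obj).obj A.obj) := by
  intro f
  let f' : X.obj.V →ₗ[k] A.obj.V := f
  obtain ⟨s, hs⟩ := (Module.finite_def (R := k) (M := X.obj.V)).1 inferInstance
  obtain ⟨U, hU, hUx⟩ := X.property.exists_mem_forall_fixed (fun x : s => (x : X.obj.V))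
  obtain ⟨V, hV, hVa⟩ := A.property.exists_mem_forall_fixed (fun x : s => f' (x : X.obj.V))
  obtain ⟨W, hW, hWUV⟩ := 𝒰.directed U hU V hV
  refine ⟨W, hW, fun g hg => ?_⟩
  change (A.obj.ρ g ∘ₗ f' ∘ₗ X.obj.ρ g⁻¹ : X.obj.V →ₗ[k] A.obj.V) = f'
  apply LinearMap.ext_on hs
  intro x hx
  have h1 : X.obj.ρ g⁻¹ x = x := hUx ⟨x, hx⟩ g⁻¹ (U.inv_mem (hWUV hg).1)
  have h2 : A.obj.ρ g (f' x) = f' x := hVa ⟨x, hx⟩ g (hWUV hg).2
  simp only [LinearMap.coe_comp, Function.comp_apply, h1, h2]

/-- (a) The internal Hom functor `A ↦ Hom_k(X, A)` on smooth representations, for a smooth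
representation `X` which is finitely generated as a `k`-module. -/
noncomputable def homSm (X : SmRep k 𝒰) [Module.Finite k X.obj.V] : SmRep k 𝒰 ⥤ SmRep k 𝒰 :=
  ObjectProperty.lift _ ((smoothProp k 𝒰).ι ⋙ Rep.ihom X.obj) (fun A => isSmooth_ihom X A)

variable (X : SmRep k 𝒰) [Module.Finite k X.obj.V]

/-- Elements of `Hom_k(X, A)` as linear maps. -/
def homSmFun {A : SmRep k 𝒰} (f : ((homSm X).obj A).obj.V) : X.obj.V →ₗ[k] A.obj.V := f

/-- Constructor. -/
def homSmMk {A : SmRep k 𝒰} (f : X.obj.V →ₗ[k] A.obj.V) : ((homSm X).obj A).obj.V := f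

@[simp] lemma homSmFun_homSmMk {A : SmRep k 𝒰} (f : X.obj.V →ₗ[k] A.obj.V) :
    homSmFun X (homSmMk X f) = f := rfl

@[simp] lemma homSmMk_homSmFun {A : SmRep k 𝒰} (f : ((homSm X).obj A).obj.V) :
    homSmMk X (homSmFun X f) = f := rfl

lemma homSmFun_injective {A : SmRep k 𝒰} : Function.Injective (homSmFun X (A := A)) :=
  fun _ _ h => h

lemma homSmFun_action {A : SmRep k 𝒰} (g : Γ) (f : ((homSm X).obj A).obj.V) (x : X.obj.V) :
    homSmFun X (((homSm X).obj A).obj.ρ g f) x = A.obj.ρ g (homSmFun X f (X.obj.ρ g⁻¹ x)) := rfl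

lemma homSmFun_map {A B : SmRep k 𝒰} (π : A ⟶ B) (f : ((homSm X).obj A).obj.V) (x : X.obj.V) :
    homSmFun X (((homSm X).map π).hom.hom f) x = π.hom.hom (homSmFun X f x) := rfl

lemma homSmFun_add {A : SmRep k 𝒰} (f g : ((homSm X).obj A).obj.V) :
    homSmFun X (f + g) = homSmFun X f + homSmFun X g := rfl

lemma homSmFun_smul {A : SmRep k 𝒰} (c : k) (f : ((homSm X).obj A).obj.V) :
    homSmFun X (c • f) = c • homSmFun X f := rfl

lemma homSmFun_zero {A : SmRep k 𝒰} : homSmFun X (0 : ((homSm X).obj A).obj.V) = 0 := rfl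

instance : (homSm X).Additive where
  map_add {A B f g} := by
    apply ObjectProperty.hom_ext
    ext φ
    apply homSmFun_injective
    ext x
    rfl

section Exact

variable {S : ShortComplex (SmRep k 𝒰)} (hS : S.ShortExact)

include hS in
/-- `homSm X` is exact on a short exact sequence as soon as linear maps `X → S.X₃` lift to
`S.X₂`. -/
theorem homSm_shortExact_of_lifting
    (hlift : ∀ φ : X.obj.V →ₗ[k] S.X₃.obj.V, ∃ φ' : X.obj.V →ₗ[k] S.X₂.obj.V,
      ∀ x, S.g.hom.hom (φ' x) = φ x) :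
    (S.map (homSm X)).ShortExact := by
  obtain ⟨hinj, hex, hsurj⟩ := (shortExact_iff S).1 hS
  rw [shortExact_iff]
  refine ⟨?_, ?_, ?_⟩
  · intro f f' h
    apply homSmFun_injective
    ext x
    apply hinj
    exact congrArg (fun t => homSmFun X t x) h
  · intro b hb
    have hb' : ∀ x, S.g.hom.hom (homSmFun X b x) = 0 := fun x =>
      congrArg (fun t => homSmFun X t x) hb
    let fL : S.X₁.obj.V →ₗ[k] S.X₂.obj.V := S.f.hom.hom.toLinearMap
    have hfL : Function.Injective fL := hinj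
    have hrange : ∀ x, homSmFun X b x ∈ LinearMap.range fL := fun x => by
      obtain ⟨a, ha⟩ := hex _ (hb' x)
      exact ⟨a, ha⟩
    let a : X.obj.V →ₗ[k] S.X₁.obj.V :=
      (LinearEquiv.ofInjective fL hfL).symm.toLinearMap ∘ₗ
        (homSmFun X b).codRestrict (LinearMap.range fL) hrange
    refine ⟨homSmMk X a, ?_⟩
    apply homSmFun_injective
    ext x
    change fL (a x) = homSmFun X b x
    have := (LinearEquiv.ofInjective fL hfL).apply_symm_apply
      ((homSmFun X b).codRestrict (LinearMap.range fL) hrange x)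
    exact congrArg Subtype.val this
  · intro c
    obtain ⟨φ', hφ'⟩ := hlift (homSmFun X c)
    refine ⟨homSmMk X φ', ?_⟩
    apply homSmFun_injective
    ext x
    exact hφ' x

include hS in
/-- (a) `homSm X` is exact if `X` is projective over `k`. -/
theorem homSm_shortExact [Module.Projective k X.obj.V] : (S.map (homSm X)).ShortExact := by
  apply homSm_shortExact_of_lifting X hS
  intro φ
  obtain ⟨hinj, hex, hsurj⟩ := (shortExact_iff S).1 hS
  obtain ⟨h, hh⟩ := Module.projective_lifting_property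
    (S.g.hom.hom.toLinearMap : S.X₂.obj.V →ₗ[k] S.X₃.obj.V) φ hsurj
  exact ⟨h, fun x => congrArg (fun t => t x) hh⟩

end Exact

section Torsion

/-- (a), variant: for `k` a quotient of `ℤ` (e.g. `k = ℤ`) and `X` killed by the prime `p`,
`homSm X` is exact on short exact sequences whose kernel is `p`-divisible. -/
theorem homSm_shortExact_of_torsion_of_divisible (hk : Function.Surjective (Int.cast : ℤ → k))
    (p : ℕ) [Fact p.Prime] (hX : ∀ x : X.obj.V, p • x = 0)
    {S : ShortComplex (SmRep k 𝒰)} (hS : S.ShortExact)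
    (hdiv : ∀ a : S.X₁.obj.V, ∃ b : S.X₁.obj.V, p • b = a) :
    (S.map (homSm X)).ShortExact := by
  apply homSm_shortExact_of_lifting X hS
  intro φ
  obtain ⟨hinj, hex, hsurj⟩ := (shortExact_iff S).1 hS
  have hgf : ∀ a, S.g.hom.hom (S.f.hom.hom a) = 0 := fun a => by
    have := congrArg (fun t => t.hom.hom a) S.zero
    exact this
  obtain ⟨φ', hφ'⟩ := exists_lift_of_torsion_of_divisible p
    (S.f.hom.hom.toLinearMap.toAddMonoidHom) (S.g.hom.hom.toLinearMap.toAddMonoidHom)
    hgf hex hsurj hX hdiv φ.toAddMonoidHom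
  refine ⟨{ toFun := φ', map_add' := map_add φ', map_smul' := fun c x => ?_ }, hφ'⟩
  obtain ⟨n, rfl⟩ := hk c
  rw [RingHom.id_apply, Int.cast_smul_eq_zsmul, Int.cast_smul_eq_zsmul, map_zsmul]

end Torsion

section Unit

variable (k 𝒰) in
/-- The unit object: the trivial representation `k`. -/
noncomputable abbrev smUnit : SmRep k 𝒰 := trivSm k 𝒰 k

instance : Module.Finite k (smUnit k 𝒰).obj.V := inferInstanceAs (Module.Finite k k)

instance : Module.Projective k (smUnit k 𝒰).obj.V := inferInstanceAs (Module.Projective k k)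

/-- evaluation at `1`: `Hom_k(k, A) ⟶ A` -/
noncomputable def homSmUnitHom (A : SmRep k 𝒰) : (homSm (smUnit k 𝒰)).obj A ⟶ A :=
  ObjectProperty.homMk (Rep.ofHom (ρ := ((homSm (smUnit k 𝒰)).obj A).obj.ρ) (σ := A.obj.ρ)
    ⟨{ toFun := fun f => homSmFun (smUnit k 𝒰) f (1 : k)
       map_add' := fun _ _ => rfl
       map_smul' := fun _ _ => rfl }, fun g => by
      ext f
      rfl⟩)

lemma homSmUnitHom_apply (A : SmRep k 𝒰) (f : ((homSm (smUnit k 𝒰)).obj A).obj.V) :
    (homSmUnitHom A).hom.hom f = homSmFun (smUnit k 𝒰) f (1 : k) := rfl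

/-- `a ↦ (c ↦ c • a)`: `A ⟶ Hom_k(k, A)` -/
noncomputable def homSmUnitInv (A : SmRep k 𝒰) : A ⟶ (homSm (smUnit k 𝒰)).obj A :=
  ObjectProperty.homMk (Rep.ofHom (ρ := A.obj.ρ) (σ := ((homSm (smUnit k 𝒰)).obj A).obj.ρ)
    ⟨{ toFun := fun a => homSmMk (smUnit k 𝒰) (LinearMap.toSpanSingleton k A.obj.V a)
       map_add' := fun a b => by
        apply homSmFun_injective
        apply LinearMap.ext
        intro (c : k)
        exact smul_add c a b
       map_smul' := fun r a => by
        apply homSmFun_injective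
        apply LinearMap.ext
        intro (c : k)
        exact smul_comm c r a }, fun g => by
      ext a
      apply homSmFun_injective
      apply LinearMap.ext
      intro (c : k)
      exact (map_smul (A.obj.ρ g) c a).symm⟩)

lemma homSmUnitInv_apply (A : SmRep k 𝒰) (a : A.obj.V) (c : k) :
    homSmFun (smUnit k 𝒰) ((homSmUnitInv A).hom.hom a) c = c • a := rfl

/-- (a) `Hom_k(k, −)` is the identity functor. -/
noncomputable def homSmUnitIso : homSm (smUnit k 𝒰) ≅ 𝟭 (SmRep k 𝒰) :=
  NatIso.ofComponents (fun A =>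
    { hom := homSmUnitHom A
      inv := homSmUnitInv A
      hom_inv_id := by
        apply ObjectProperty.hom_ext
        ext f
        apply homSmFun_injective
        apply LinearMap.ext
        intro (c : k)
        exact ((homSmFun (smUnit k 𝒰) f).map_smul c (1 : k)).symm.trans
          (congrArg (homSmFun (smUnit k 𝒰) f) (mul_one c))
      inv_hom_id := by
        apply ObjectProperty.hom_ext
        ext a
        change (1 : k) • a = a
        rw [one_smul] })
    (fun {A B} π => by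
      apply ObjectProperty.hom_ext
      ext f
      rfl)

end Unit

section Zero

/-- Naturality of `smHZeroEquiv`. -/
lemma smHZeroEquiv_naturality {B C : SmRep k 𝒰} (π : B ⟶ C) (x : smH 𝒰 B 0) :
    ((smHZeroEquiv C (((smHFunctor k 𝒰 0).map π).hom x) : C.obj.ρ.invariants) : C.obj.V) =
      π.hom.hom ((smHZeroEquiv B x : B.obj.ρ.invariants) : B.obj.V) := by
  obtain ⟨f, rfl⟩ := exists_smHmk_eq x
  have h1 : ((smHFunctor k 𝒰 0).map π).hom (smHmk B 0 f) =
      smHmk C 0 (lcCocyclesMap (MonoidHom.id Γ) 𝒰.finer_comap_id (A := B) (B := C) π.hom 0 f) :=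
    smHMap_smHmk (MonoidHom.id Γ) 𝒰.finer_comap_id (A := B) (B := C) π.hom 0 f
  rw [h1, smHZeroEquiv_smHmk, smHZeroEquiv_smHmk]
  rfl


/-- (b) `H⁰(Γ, Hom_k(X, A)) ≃ Hom_Γ(X, A)` (morphisms of the underlying representations). -/
noncomputable def smHZeroHomEquiv (A : SmRep k 𝒰) :
    smH 𝒰 ((homSm X).obj A) 0 ≃ₗ[k] (X.obj ⟶ A.obj) :=
  smHZeroEquiv ((homSm X).obj A) ≪≫ₗ Representation.linHom.invariantsEquivRepHom X.obj A.obj

lemma smHZeroHomEquiv_hom_apply (A : SmRep k 𝒰) (x : smH 𝒰 ((homSm X).obj A) 0) (v : X.obj.V) :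
    (smHZeroHomEquiv X A x).hom v =
      homSmFun X ((smHZeroEquiv ((homSm X).obj A) x :
        ((homSm X).obj A).obj.ρ.invariants) : ((homSm X).obj A).obj.V) v := rfl

/-- Naturality of `smHZeroHomEquiv` in the second variable. -/
lemma smHZeroHomEquiv_naturality {A B : SmRep k 𝒰} (π : A ⟶ B)
    (x : smH 𝒰 ((homSm X).obj A) 0) :
    smHZeroHomEquiv X B (((smHFunctor k 𝒰 0).map ((homSm X).map π)).hom x) =
      smHZeroHomEquiv X A x ≫ π.hom := by
  ext v
  have h := smHZeroEquiv_naturality ((homSm X).map π) x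
  exact congrArg (fun t => homSmFun X t v) h

/-- (b) `H⁰(Γ, Hom_k(X, A)) ≃ (X ⟶ A)` as an additive equivalence with morphisms in `SmRep`. -/
noncomputable def smHZeroHomAddEquiv (A : SmRep k 𝒰) :
    smH 𝒰 ((homSm X).obj A) 0 ≃+ (X ⟶ A) :=
  (smHZeroHomEquiv X A).toAddEquiv.trans
    { toFun := fun f => ObjectProperty.homMk f
      invFun := fun f => f.hom
      left_inv := fun _ => rfl
      right_inv := fun _ => rfl
      map_add' := fun _ _ => rfl }

lemma smHZeroHomAddEquiv_hom (A : SmRep k 𝒰) (x : smH 𝒰 ((homSm X).obj A) 0) :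
    (smHZeroHomAddEquiv X A x).hom = smHZeroHomEquiv X A x := rfl

lemma smHZeroHomAddEquiv_naturality {A B : SmRep k 𝒰} (π : A ⟶ B)
    (x : smH 𝒰 ((homSm X).obj A) 0) :
    smHZeroHomAddEquiv X B (((smHFunctor k 𝒰 0).map ((homSm X).map π)).hom x) =
      smHZeroHomAddEquiv X A x ≫ π := by
  apply ObjectProperty.hom_ext
  exact smHZeroHomEquiv_naturality X π x

end Zero

end Fermat.Agent.CFT.Sm
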