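/-
S55 / CFT (P0.4 (c)) — helper5.
The functorial effacement of smooth cohomology: `smI k 𝒰 : SmRep k 𝒰 ⥤ SmRep k 𝒰`, smooth
coinduction from the trivial group (`smI B` = level-constant functions `Γ → B` with the right
regular action), the natural monomorphism `smIι : 𝟭 ⟶ smI`, `b ↦ (g ↦ ρ g b)`, and the
ACYCLICITY `smH 𝒰 (smI B) (n+1) = 0` via the explicit contracting homotopy
`(s c)(g₁,…,gₙ)(x) = c(x,g₁,…,gₙ)(1)`.
-/
import Fermat.Agent.CFT.Sm.Cohomology_helper9
import Fermat.Agent.CFT.Sm.Functors_helper9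

set_option autoImplicit false

open CategoryTheory CategoryTheory.Limits groupCohomology

namespace Fermat.Agent.CFT.Sm

section FinLemmas

variable {α : Type*} {n : ℕ}

lemma contractNth_succ_cons (j : Fin (n + 1)) (op : α → α → α) (x : α) (g : Fin (n + 1) → α) :
    Fin.contractNth j.succ op (Fin.cons x g : Fin (n + 2) → α) =
      Fin.cons x (Fin.contractNth j op g) := by
  funext i
  refine Fin.cases ?_ (fun i => ?_) i
  · rw [Fin.cons_zero, Fin.contractNth_apply_of_lt _ _ _ _ (by simp)]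
    rfl
  · rw [Fin.cons_succ]
    rcases lt_trichotomy (i : ℕ) j with h | h | h
    · rw [Fin.contractNth_apply_of_lt _ _ _ _ (by simpa using h),
        Fin.contractNth_apply_of_lt _ _ _ _ h]
      rw [← Fin.succ_castSucc, Fin.cons_succ]
    · rw [Fin.contractNth_apply_of_eq _ _ _ _ (by simpa using h),
        Fin.contractNth_apply_of_eq _ _ _ _ h]
      rw [← Fin.succ_castSucc, Fin.cons_succ, Fin.cons_succ]
    · rw [Fin.contractNth_apply_of_gt _ _ _ _ (by simpa using h),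
        Fin.contractNth_apply_of_gt _ _ _ _ h, Fin.cons_succ]

lemma contractNth_zero_cons (op : α → α → α) (x : α) (g : Fin (n + 1) → α) :
    Fin.contractNth 0 op (Fin.cons x g : Fin (n + 2) → α) =
      Fin.cons (op x (g 0)) (fun i => g i.succ) := by
  funext i
  refine Fin.cases ?_ (fun i => ?_) i
  · rw [Fin.cons_zero, Fin.contractNth_apply_of_eq _ _ _ _ (by simp)]
    simp
  · rw [Fin.cons_succ, Fin.contractNth_apply_of_gt _ _ _ _ (by simp), Fin.cons_succ]

end FinLemmas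

variable {k Γ : Type} [CommRing k] [Group Γ] (𝒰 : OpenBasis Γ)

/-- The homomorphism from the trivial group. -/
abbrev trivHom (Γ : Type) [Group Γ] : Unit →* Γ := 1

variable (k) in
/-- Smooth coinduction from the trivial group: `A ↦` level-constant functions `Γ → A` with the
right regular action. -/
noncomputable def smI : SmRep k 𝒰 ⥤ SmRep k 𝒰 :=
  resSm k (trivHom Γ) (OpenBasis.Finer.refl (𝒰.comap (trivHom Γ))) ⋙
    coindSm k 𝒰 (𝒰.comap (trivHom Γ)) (trivHom Γ)

variable (k) in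
/-- The natural embedding `A ⟶ smI A`, `a ↦ (g ↦ ρ g a)`. -/
noncomputable def smIι : 𝟭 (SmRep k 𝒰) ⟶ smI k 𝒰 :=
  (resCoindSmAdjunction k (trivHom Γ) (OpenBasis.Finer.refl (𝒰.comap (trivHom Γ)))).unit

instance : (smI k 𝒰).Additive := by unfold smI; infer_instance
instance : PreservesFiniteLimits (smI k 𝒰) := by unfold smI; infer_instance
instance : PreservesFiniteColimits (smI k 𝒰) := by unfold smI; infer_instance

variable {𝒰}

/-- The underlying function of an element of `smI B`. -/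
noncomputable def smIFun {B : SmRep k 𝒰} (f : ((smI k 𝒰).obj B).obj.V) : Γ → B.obj.V :=
  coindSmFun (trivHom Γ) f

lemma smIFun_injective {B : SmRep k 𝒰} : Function.Injective (smIFun (B := B)) :=
  coindSmFun_injective (trivHom Γ)

lemma smIFun_smooth {B : SmRep k 𝒰} (f : ((smI k 𝒰).obj B).obj.V) :
    ∃ U ∈ 𝒰.sets, ∀ (h : Γ), ∀ u ∈ U, smIFun f (h * u) = smIFun f h :=
  coindSmFun_smooth (trivHom Γ) f

lemma smIFun_action {B : SmRep k 𝒰} (f : ((smI k 𝒰).obj B).obj.V) (g h : Γ) :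
    smIFun (((smI k 𝒰).obj B).obj.ρ g f) h = smIFun f (h * g) := rfl

/-- Constructor for elements of `smI B`. -/
noncomputable def smIMk {B : SmRep k 𝒰} (F : Γ → B.obj.V)
    (hF : ∃ U ∈ 𝒰.sets, ∀ (h : Γ), ∀ u ∈ U, F (h * u) = F h) : ((smI k 𝒰).obj B).obj.V :=
  coindSmMk (trivHom Γ) (B := (resSm k (trivHom Γ) (OpenBasis.Finer.refl _)).obj B) F
    (fun a h => by
      change F (1 * h) = B.obj.ρ 1 (F h)
      rw [one_mul, map_one, Module.End.one_apply]) hF

@[simp] lemma smIFun_smIMk {B : SmRep k 𝒰} (F : Γ → B.obj.V)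
    (hF : ∃ U ∈ 𝒰.sets, ∀ (h : Γ), ∀ u ∈ U, F (h * u) = F h) : smIFun (smIMk F hF) = F := rfl

lemma smIι_apply (B : SmRep k 𝒰) (b : B.obj.V) (g : Γ) :
    smIFun (((smIι k 𝒰).app B).hom.hom b) g = B.obj.ρ g b := rfl

lemma smIFun_map {B C : SmRep k 𝒰} (π : B ⟶ C) (f : ((smI k 𝒰).obj B).obj.V) (h : Γ) :
    smIFun (((smI k 𝒰).map π).hom.hom f) h = π.hom.hom (smIFun f h) := rfl

instance (B : SmRep k 𝒰) : Mono ((smIι k 𝒰).app B) := by
  rw [mono_iff_injective]
  intro b b' h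
  have := congrArg (fun f => smIFun f 1) h
  simp only [smIι_apply, map_one, Module.End.one_apply] at this
  exact this

/-- Evaluation at a point, as a linear map. -/
noncomputable def smIEval (B : SmRep k 𝒰) (x : Γ) : ((smI k 𝒰).obj B).obj.V →ₗ[k] B.obj.V where
  toFun f := smIFun f x
  map_add' _ _ := rfl
  map_smul' _ _ := rfl

@[simp] lemma smIEval_apply (B : SmRep k 𝒰) (x : Γ) (f : ((smI k 𝒰).obj B).obj.V) :
    smIEval B x f = smIFun f x := rfl

section Acyclic

variable {B : SmRep k 𝒰} {n : ℕ}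

/-- The contracting homotopy on level-constant cochains of `smI B`:
`(s c)(g₁,…,gₙ)(x) = c(x,g₁,…,gₙ)(1)`. -/
noncomputable def smIHomotopyFun (c : lcCochains 𝒰 ((smI k 𝒰).obj B).obj (n + 1)) :
    (Fin n → Γ) → ((smI k 𝒰).obj B).obj.V := fun g =>
  smIMk (fun x => smIFun ((c : (Fin (n + 1) → Γ) → ((smI k 𝒰).obj B).obj.V) (Fin.cons x g)) 1) (by
    obtain ⟨U, hU, h⟩ := c.2
    refine ⟨U, hU, fun x u hu => ?_⟩
    have : (c : (Fin (n + 1) → Γ) → ((smI k 𝒰).obj B).obj.V) (Fin.cons (x * u) g) =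
        (c : (Fin (n + 1) → Γ) → ((smI k 𝒰).obj B).obj.V) (Fin.cons x g) := by
      refine (h _ _ (fun i => ?_)).symm
      refine Fin.cases ?_ (fun i => ?_) i
      · simpa using hu
      · simp [U.one_mem]
    simp only [this])

lemma smIHomotopyFun_apply (c : lcCochains 𝒰 ((smI k 𝒰).obj B).obj (n + 1)) (g : Fin n → Γ)
    (x : Γ) : smIFun (smIHomotopyFun c g) x =
      smIFun ((c : (Fin (n + 1) → Γ) → ((smI k 𝒰).obj B).obj.V) (Fin.cons x g)) 1 := rfl

lemma smIHomotopyFun_mem (c : lcCochains 𝒰 ((smI k 𝒰).obj B).obj (n + 1)) :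
    smIHomotopyFun c ∈ lcCochains 𝒰 ((smI k 𝒰).obj B).obj n := by
  obtain ⟨U, hU, h⟩ := c.2
  refine ⟨U, hU, fun g g' hgg' => ?_⟩
  apply smIFun_injective
  funext x
  rw [smIHomotopyFun_apply, smIHomotopyFun_apply]
  have : (c : (Fin (n + 1) → Γ) → ((smI k 𝒰).obj B).obj.V) (Fin.cons x g) =
      (c : (Fin (n + 1) → Γ) → ((smI k 𝒰).obj B).obj.V) (Fin.cons x g') := by
    refine h _ _ (fun i => ?_)
    refine Fin.cases ?_ (fun i => ?_) i
    · simp [U.one_mem]
    · simpa using hgg' i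
  rw [this]

/-- The contracting homotopy as a level-constant cochain. -/
noncomputable def smIHomotopy (c : lcCochains 𝒰 ((smI k 𝒰).obj B).obj (n + 1)) :
    lcCochains 𝒰 ((smI k 𝒰).obj B).obj n :=
  ⟨smIHomotopyFun c, smIHomotopyFun_mem c⟩

/-- A level-constant cocycle of `smI B` of positive degree is the coboundary of its image under
the contracting homotopy. -/
lemma d_smIHomotopy_of_d_eq_zero (c : lcCochains 𝒰 ((smI k 𝒰).obj B).obj (n + 1))
    (hc : (inhomogeneousCochains.d ((smI k 𝒰).obj B).obj (n + 1)).hom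
      (c : (Fin (n + 1) → Γ) → ((smI k 𝒰).obj B).obj.V) = 0) :
    (inhomogeneousCochains.d ((smI k 𝒰).obj B).obj n).hom (smIHomotopyFun c) =
      (c : (Fin (n + 1) → Γ) → ((smI k 𝒰).obj B).obj.V) := by
  funext g
  apply smIFun_injective
  funext x
  have h1 := congrArg (fun t => smIEval B 1 (t (Fin.cons x g))) hc
  simp only [inhomogeneousCochains.d_hom_apply, map_add, map_sum,
    map_smul, smIEval_apply, Fin.cons_zero, Fin.cons_succ, smIFun_action, one_mul] at h1
  rw [Fin.sum_univ_succ] at h1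
  simp only [contractNth_succ_cons, contractNth_zero_cons] at h1
  change smIEval B x ((inhomogeneousCochains.d ((smI k 𝒰).obj B).obj n).hom (smIHomotopyFun c) g) =
    smIFun ((c : (Fin (n + 1) → Γ) → ((smI k 𝒰).obj B).obj.V) g) x
  simp only [inhomogeneousCochains.d_hom_apply, map_add, map_sum,
    map_smul, smIEval_apply, smIFun_action, smIHomotopyFun_apply]
  have h0 : smIFun ((0 : (Fin (n + 2) → Γ) → ((smI k 𝒰).obj B).obj.V) (Fin.cons x g)) 1 = 0 := rfl
  have e : ∀ j : Fin (n + 1), (-1 : k) ^ ((j.succ : ℕ) + 1) •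
      smIFun ((c : (Fin (n + 1) → Γ) → ((smI k 𝒰).obj B).obj.V)
        (Fin.cons x (j.contractNth (fun x1 x2 => x1 * x2) g))) 1 =
      - ((-1 : k) ^ ((j : ℕ) + 1) •
        smIFun ((c : (Fin (n + 1) → Γ) → ((smI k 𝒰).obj B).obj.V)
          (Fin.cons x (j.contractNth (fun x1 x2 => x1 * x2) g))) 1) := by
    intro j
    rw [Fin.val_succ, pow_succ _ ((j : ℕ) + 1), mul_neg_one, neg_smul]
  rw [h0, Finset.sum_congr rfl (fun j _ => e j), Finset.sum_neg_distrib] at h1
  simp only [Fin.val_zero, zero_add, pow_one, neg_smul, one_smul] at h1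
  have e2 : ∀ a b S : B.obj.V, a + (-b + -S) = 0 → b + S = a := by
    intro a b S h
    have : b + S = a - (a + (-b + -S)) := by abel
    rw [this, h, sub_zero]
  exact e2 _ _ _ h1

/-- (c) ACYCLICITY: the smooth cohomology of `smI B` vanishes in positive degrees. -/
theorem smH_smI_succ_eq_zero (B : SmRep k 𝒰) (n : ℕ)
    (x : smH 𝒰 ((smI k 𝒰).obj B) (n + 1)) : x = 0 := by
  obtain ⟨f, rfl⟩ := exists_smHmk_eq x
  rw [smHmk_succ_eq_zero_iff]
  refine ⟨smIHomotopy f.1, ?_⟩
  apply Subtype.ext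
  rw [lcD_apply_coe]
  exact d_smIHomotopy_of_d_eq_zero f.1 ((mem_lcCocycles_iff f.1).1 f.2)

theorem isZero_smH_smI_succ (B : SmRep k 𝒰) (n : ℕ) :
    IsZero (smH 𝒰 ((smI k 𝒰).obj B) (n + 1)) := by
  have : Subsingleton (smH 𝒰 ((smI k 𝒰).obj B) (n + 1)) :=
    ⟨fun x y => (smH_smI_succ_eq_zero B n x).trans (smH_smI_succ_eq_zero B n y).symm⟩
  exact ModuleCat.isZero_of_subsingleton _

end Acyclic

end Fermat.Agent.CFT.Sm
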