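/-
S55 / CFT (P0.4 (d),(e)) — helper5.
`Hom_k(X, smI B)` is a retract of `smI (Hom_k(X, smI B))` (explicit equivariant retraction of the
unit), hence acyclic for smooth cohomology; consequently `Hom_k(X, J)` is acyclic for every
injective object `J` of `SmRep k 𝒰` (and injective objects themselves are acyclic).
-/
import Fermat.Agent.CFT.Sm.Compare_helper5_Acyclic
import Fermat.Agent.CFT.Sm.Compare_helper5_Hom

set_option autoImplicit false

open CategoryTheory CategoryTheory.Limits groupCohomology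

namespace Fermat.Agent.CFT.Sm

variable {k Γ : Type} [CommRing k] [Group Γ] {𝒰 : OpenBasis Γ}

/-- Smooth cohomology of a retract of an acyclic object vanishes. -/
lemma smH_eq_zero_of_retract {A B : SmRep k 𝒰} (i : A ⟶ B) (r : B ⟶ A) (h : i ≫ r = 𝟙 A) (n : ℕ)
    (hB : ∀ y : smH 𝒰 B n, y = 0) (x : smH 𝒰 A n) : x = 0 := by
  have h1 : ((smHFunctor k 𝒰 n).map (i ≫ r)).hom x = x := by
    rw [h, (smHFunctor k 𝒰 n).map_id]
    rfl
  rw [(smHFunctor k 𝒰 n).map_comp] at h1
  have h2 : ((smHFunctor k 𝒰 n).map r).hom (((smHFunctor k 𝒰 n).map i).hom x) = x := h1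
  rw [hB (((smHFunctor k 𝒰 n).map i).hom x)] at h2
  exact h2.symm.trans (map_zero ((smHFunctor k 𝒰 n).map r).hom)

variable (X : SmRep k 𝒰) [Module.Finite k X.obj.V] (B : SmRep k 𝒰)

/-- The underlying function of the retraction:
`r(F)(x)(g) = F(g)(ρ_X(g) x)(1)`. -/
noncomputable def homSmIRetrFun
    (F : ((smI k 𝒰).obj ((homSm X).obj ((smI k 𝒰).obj B))).obj.V) (x : X.obj.V) :
    ((smI k 𝒰).obj B).obj.V :=
  smIMk (fun g => smIFun (homSmFun X (smIFun F g) (X.obj.ρ g x)) 1) (by
    obtain ⟨U, hU, hF⟩ := smIFun_smooth F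
    obtain ⟨V, hV, hx⟩ := X.property x
    obtain ⟨W, hW, hWUV⟩ := 𝒰.directed U hU V hV
    refine ⟨W, hW, fun g u hu => ?_⟩
    have h1 : smIFun F (g * u) = smIFun F g := hF g u (hWUV hu).1
    have h2 : X.obj.ρ (g * u) x = X.obj.ρ g x := by
      rw [map_mul, Module.End.mul_apply, hx u (hWUV hu).2]
    simp only [h1, h2])

lemma homSmIRetrFun_apply
    (F : ((smI k 𝒰).obj ((homSm X).obj ((smI k 𝒰).obj B))).obj.V) (x : X.obj.V) (g : Γ) :
    smIFun (homSmIRetrFun X B F x) g = smIFun (homSmFun X (smIFun F g) (X.obj.ρ g x)) 1 := rfl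

/-- The retraction as a linear map into `Hom_k(X, smI B)`. -/
noncomputable def homSmIRetrLin
    (F : ((smI k 𝒰).obj ((homSm X).obj ((smI k 𝒰).obj B))).obj.V) :
    X.obj.V →ₗ[k] ((smI k 𝒰).obj B).obj.V where
  toFun := homSmIRetrFun X B F
  map_add' x y := by
    apply smIFun_injective
    funext g
    simp only [homSmIRetrFun_apply, map_add]
    rfl
  map_smul' c x := by
    apply smIFun_injective
    funext g
    simp only [homSmIRetrFun_apply, map_smul]
    rfl

/-- (d) The equivariant retraction `r : smI (Hom_k(X, smI B)) ⟶ Hom_k(X, smI B)` of the unit,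
`r(F)(x)(g) = F(g)(ρ_X(g) x)(1)`. -/
noncomputable def homSmIRetr :
    (smI k 𝒰).obj ((homSm X).obj ((smI k 𝒰).obj B)) ⟶ (homSm X).obj ((smI k 𝒰).obj B) :=
  ObjectProperty.homMk (Rep.ofHom
    (ρ := ((smI k 𝒰).obj ((homSm X).obj ((smI k 𝒰).obj B))).obj.ρ)
    (σ := ((homSm X).obj ((smI k 𝒰).obj B)).obj.ρ)
    ⟨{ toFun := fun F => homSmMk X (homSmIRetrLin X B F)
       map_add' := fun F F' => by
        apply homSmFun_injective
        apply LinearMap.ext
        intro x
        apply smIFun_injective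
        funext g
        rfl
       map_smul' := fun c F => by
        apply homSmFun_injective
        apply LinearMap.ext
        intro x
        apply smIFun_injective
        funext g
        rfl }, fun γ => by
      ext F
      apply homSmFun_injective
      apply LinearMap.ext
      intro x
      apply smIFun_injective
      funext g
      change smIFun (homSmFun X (smIFun F (g * γ)) (X.obj.ρ g x)) 1 =
        smIFun (homSmFun X (smIFun F (g * γ)) (X.obj.ρ (g * γ) (X.obj.ρ γ⁻¹ x))) 1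
      have : X.obj.ρ (g * γ) (X.obj.ρ γ⁻¹ x) = X.obj.ρ g x := by
        rw [← Module.End.mul_apply, ← map_mul, mul_assoc, mul_inv_cancel, mul_one]
      rw [this]⟩)

lemma homSmIRetr_apply (F : ((smI k 𝒰).obj ((homSm X).obj ((smI k 𝒰).obj B))).obj.V)
    (x : X.obj.V) (g : Γ) :
    smIFun (homSmFun X ((homSmIRetr X B).hom.hom F) x) g =
      smIFun (homSmFun X (smIFun F g) (X.obj.ρ g x)) 1 := rfl

/-- (d) `r ∘ u = id`. -/
lemma smIι_comp_homSmIRetr :
    (smIι k 𝒰).app ((homSm X).obj ((smI k 𝒰).obj B)) ≫ homSmIRetr X B = 𝟙 _ := by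
  apply ObjectProperty.hom_ext
  ext φ
  apply homSmFun_injective
  apply LinearMap.ext
  intro x
  apply smIFun_injective
  funext g
  change smIFun (homSmFun X ((homSmIRetr X B).hom.hom
    (((smIι k 𝒰).app ((homSm X).obj ((smI k 𝒰).obj B))).hom.hom φ)) x) g = smIFun (homSmFun X φ x) g
  rw [homSmIRetr_apply, smIι_apply, homSmFun_action, smIFun_action, one_mul]
  have : X.obj.ρ g⁻¹ (X.obj.ρ g x) = x := by
    rw [← Module.End.mul_apply, ← map_mul, inv_mul_cancel, map_one, Module.End.one_apply]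
  rw [this]

/-- (d) `Hom_k(X, smI B)` is acyclic. -/
theorem smH_homSm_smI_succ_eq_zero (n : ℕ)
    (x : smH 𝒰 ((homSm X).obj ((smI k 𝒰).obj B)) (n + 1)) : x = 0 :=
  smH_eq_zero_of_retract _ _ (smIι_comp_homSmIRetr X B) (n + 1)
    (smH_smI_succ_eq_zero _ n) x

/-- (e) `Hom_k(X, J)` is acyclic for `J` injective. -/
theorem smH_homSm_succ_eq_zero_of_injective (J : SmRep k 𝒰) [Injective J] (n : ℕ)
    (x : smH 𝒰 ((homSm X).obj J) (n + 1)) : x = 0 := by
  -- `J ↪ smI J` splits
  let r : (smI k 𝒰).obj J ⟶ J := Injective.factorThru (𝟙 J) ((smIι k 𝒰).app J)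
  have hr : (smIι k 𝒰).app J ≫ r = 𝟙 J := Injective.comp_factorThru _ _
  refine smH_eq_zero_of_retract ((homSm X).map ((smIι k 𝒰).app J)) ((homSm X).map r) ?_ (n + 1)
    (smH_homSm_smI_succ_eq_zero X J n) x
  rw [← (homSm X).map_comp, hr]
  exact (homSm X).map_id J

theorem isZero_smH_homSm_succ_of_injective (J : SmRep k 𝒰) [Injective J] (n : ℕ) :
    IsZero (smH 𝒰 ((homSm X).obj J) (n + 1)) := by
  have : Subsingleton (smH 𝒰 ((homSm X).obj J) (n + 1)) :=
    ⟨fun x y => (smH_homSm_succ_eq_zero_of_injective X J n x).trans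
      (smH_homSm_succ_eq_zero_of_injective X J n y).symm⟩
  exact ModuleCat.isZero_of_subsingleton _

/-- (e) for `X = 𝟙`: injective objects are acyclic for smooth cohomology. -/
theorem smH_succ_eq_zero_of_injective (J : SmRep k 𝒰) [Injective J] (n : ℕ)
    (x : smH 𝒰 J (n + 1)) : x = 0 := by
  let r : (smI k 𝒰).obj J ⟶ J := Injective.factorThru (𝟙 J) ((smIι k 𝒰).app J)
  have hr : (smIι k 𝒰).app J ≫ r = 𝟙 J := Injective.comp_factorThru _ _
  exact smH_eq_zero_of_retract _ r hr (n + 1) (smH_smI_succ_eq_zero J n) x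

end Fermat.Agent.CFT.Sm
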