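/-
S55 / CFT (P0.3) — helper9.  Pure category theory (Mathlib only).
* `ext_family_ext`: uniqueness principle for families of maps out of `Ext^•(X, -)` compatible with
  the connecting maps (dimension shifting with injectives).
* `mapExactFunctor_naturality`: naturality of `Ext.mapExactFunctor` w.r.t. natural transformations;
  `mapExactFunctor_id`, `mapExactFunctor_comp_functor`.
* `extAdjEquiv`: an adjunction `F ⊣ G` of exact functors induces `Extⁿ(F X, Y) ≃+ Extⁿ(X, G Y)`
  (`e ↦ η_X ≫ G(e)`, inverse `e ↦ F(e) ≫ ε_Y`) — abstract Shapiro lemma.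
-/
import Mathlib

set_option autoImplicit false

universe w w' w'' v v' v'' u u' u''

open CategoryTheory CategoryTheory.Limits CategoryTheory.Abelian

namespace Fermat.Agent.CFT.Sm

section Unique

variable {C : Type u} [Category.{v} C] [Abelian C] [HasExt.{w} C] [EnoughInjectives C]

/-- Uniqueness principle: two families of maps out of `Ext^•(X, -)` which are compatible with the
connecting maps (postcomposition with `extClass`) and agree in degree `0` are equal. -/
theorem ext_family_ext {X : C} {T : ℕ → C → Type*}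
    (δT : ∀ (n : ℕ) (S : ShortComplex C), S.ShortExact → T n S.X₃ → T (n + 1) S.X₁)
    (φ ψ : ∀ (n : ℕ) (A : C), Ext.{w} X A n → T n A)
    (hφ : ∀ (n : ℕ) (S : ShortComplex C) (hS : S.ShortExact) (e : Ext X S.X₃ n),
      φ (n + 1) S.X₁ (e.comp hS.extClass rfl) = δT n S hS (φ n S.X₃ e))
    (hψ : ∀ (n : ℕ) (S : ShortComplex C) (hS : S.ShortExact) (e : Ext X S.X₃ n),
      ψ (n + 1) S.X₁ (e.comp hS.extClass rfl) = δT n S hS (ψ n S.X₃ e))
    (h0 : ∀ (A : C) (f : X ⟶ A), φ 0 A (Ext.mk₀ f) = ψ 0 A (Ext.mk₀ f)) :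
    ∀ (n : ℕ) (A : C) (e : Ext X A n), φ n A e = ψ n A e := by
  intro n
  induction n with
  | zero =>
    intro A e
    obtain ⟨f, rfl⟩ := (Ext.mk₀_bijective X A).2 e
    exact h0 A f
  | succ n ih =>
    intro A e
    let S : ShortComplex C := ShortComplex.mk (Injective.ι A) (cokernel.π (Injective.ι A))
      (cokernel.condition _)
    have hS : S.ShortExact :=
      { exact := ShortComplex.exact_cokernel _
        mono_f := by change Mono (Injective.ι A); infer_instance
        epi_g := by change Epi (cokernel.π (Injective.ι A)); infer_instance }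
    have h1 : e.comp (Ext.mk₀ S.f) (add_zero (n + 1)) = 0 :=
      Ext.eq_zero_of_injective (I := Injective.under A) _
    obtain ⟨e', rfl⟩ := Ext.covariant_sequence_exact₁ X hS e h1 rfl
    rw [hφ n S hS e', hψ n S hS e', ih]

end Unique


section Nat

variable {C : Type u} [Category.{v} C] [Abelian C] [HasExt.{w} C] [EnoughInjectives C]
  {D : Type u'} [Category.{v'} D] [Abelian D] [HasExt.{w'} D]
  (F F' : C ⥤ D) [F.Additive] [PreservesFiniteLimits F] [PreservesFiniteColimits F]
  [F'.Additive] [PreservesFiniteLimits F'] [PreservesFiniteColimits F']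

/-- Naturality of `Ext.mapExactFunctor` with respect to natural transformations. -/
theorem mapExactFunctor_naturality (τ : F ⟶ F') {X A : C} {n : ℕ} (e : Ext.{w} X A n) :
    (e.mapExactFunctor F).comp (Ext.mk₀ (τ.app A)) (add_zero n) =
      (Ext.mk₀ (τ.app X)).comp (e.mapExactFunctor F') (zero_add n) := by
  refine ext_family_ext (X := X) (T := fun n A => Ext.{w'} (F.obj X) (F'.obj A) n)
    (fun n S hS t => t.comp (hS.map_of_exact F').extClass rfl)
    (fun n A e => (e.mapExactFunctor F).comp (Ext.mk₀ (τ.app A)) (add_zero n))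
    (fun n A e => (Ext.mk₀ (τ.app X)).comp (e.mapExactFunctor F') (zero_add n))
    ?_ ?_ ?_ n A e
  · intro n S hS e
    have h : (hS.map_of_exact F).extClass.comp (Ext.mk₀ (τ.app S.X₁)) (add_zero 1) =
        (Ext.mk₀ (τ.app S.X₃)).comp (hS.map_of_exact F').extClass (zero_add 1) :=
      ShortComplex.ShortExact.extClass_naturality (hS.map_of_exact F) (hS.map_of_exact F')
        (S.mapNatTrans τ)
    rw [Ext.mapExactFunctor_comp, Ext.mapExactFunctor_extClass, Ext.comp_assoc_of_third_deg_zero]
    refine (congrArg (fun t => (e.mapExactFunctor F).comp t (show n + 1 = n + 1 from rfl)) h).trans ?_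
    exact (Ext.comp_assoc_of_second_deg_zero _ _ _ _).symm
  · intro n S hS e
    rw [Ext.mapExactFunctor_comp, Ext.mapExactFunctor_extClass]
    symm
    apply Ext.comp_assoc
    lia
  · intro A f
    rw [Ext.mapExactFunctor_mk₀, Ext.mapExactFunctor_mk₀, Ext.mk₀_comp_mk₀, Ext.mk₀_comp_mk₀,
      τ.naturality]

end Nat

section Comp

variable {C : Type u} [Category.{v} C] [Abelian C] [HasExt.{w} C] [EnoughInjectives C]
  {D : Type u'} [Category.{v'} D] [Abelian D] [HasExt.{w'} D]
  {E : Type u''} [Category.{v''} E] [Abelian E] [HasExt.{w''} E]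
  (F : C ⥤ D) [F.Additive] [PreservesFiniteLimits F] [PreservesFiniteColimits F]
  (G : D ⥤ E) [G.Additive] [PreservesFiniteLimits G] [PreservesFiniteColimits G]

/-- `Ext.mapExactFunctor` of the identity functor is the identity. -/
theorem mapExactFunctor_id {X A : C} {n : ℕ} (e : Ext.{w} X A n) :
    e.mapExactFunctor (𝟭 C) = e := by
  refine ext_family_ext (X := X) (T := fun n A => Ext.{w} X A n)
    (fun n S hS t => t.comp hS.extClass rfl)
    (fun n A e => e.mapExactFunctor (𝟭 C)) (fun n A e => e) ?_ ?_ ?_ n A e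
  · intro n S hS e
    rw [Ext.mapExactFunctor_comp, Ext.mapExactFunctor_extClass]
    rfl
  · intro n S hS e
    rfl
  · intro A f
    rw [Ext.mapExactFunctor_mk₀]
    rfl

/-- `Ext.mapExactFunctor` is compatible with composition of functors. -/
theorem mapExactFunctor_comp_functor {X A : C} {n : ℕ} (e : Ext.{w} X A n) :
    (e.mapExactFunctor F).mapExactFunctor G = e.mapExactFunctor (F ⋙ G) := by
  refine ext_family_ext (X := X)
    (T := fun n A => Ext.{w''} (G.obj (F.obj X)) (G.obj (F.obj A)) n)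
    (fun n S hS t => t.comp (hS.map_of_exact (F ⋙ G)).extClass rfl)
    (fun n A e => (e.mapExactFunctor F).mapExactFunctor G)
    (fun n A e => e.mapExactFunctor (F ⋙ G)) ?_ ?_ ?_ n A e
  · intro n S hS e
    have h1 : (e.comp hS.extClass rfl).mapExactFunctor F =
        (e.mapExactFunctor F).comp (hS.map_of_exact F).extClass rfl :=
      (Ext.mapExactFunctor_comp F e hS.extClass rfl).trans
        (congrArg (fun t => (e.mapExactFunctor F).comp t (show n + 1 = n + 1 from rfl))
          (Ext.mapExactFunctor_extClass F hS))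
    have h2 : (hS.map_of_exact F).extClass.mapExactFunctor G =
        ((hS.map_of_exact F).map_of_exact G).extClass :=
      Ext.mapExactFunctor_extClass G (hS.map_of_exact F)
    exact (congrArg (fun t => t.mapExactFunctor G) h1).trans
      ((Ext.mapExactFunctor_comp G (e.mapExactFunctor F) (hS.map_of_exact F).extClass rfl).trans
        (congrArg (fun t => ((e.mapExactFunctor F).mapExactFunctor G).comp t
          (show n + 1 = n + 1 from rfl)) h2))
  · intro n S hS e
    exact (Ext.mapExactFunctor_comp (F ⋙ G) e hS.extClass rfl).trans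
      (congrArg (fun t => (e.mapExactFunctor (F ⋙ G)).comp t (show n + 1 = n + 1 from rfl))
        (Ext.mapExactFunctor_extClass (F ⋙ G) hS))
  · intro A f
    rw [Ext.mapExactFunctor_mk₀, Ext.mapExactFunctor_mk₀, Ext.mapExactFunctor_mk₀]
    rfl

end Comp

section Adj

variable {C : Type u} [Category.{v} C] [Abelian C] [HasExt.{w} C] [EnoughInjectives C]
  {D : Type u'} [Category.{v'} D] [Abelian D] [HasExt.{w'} D] [EnoughInjectives D]
  {F : C ⥤ D} {G : D ⥤ C} (adj : F ⊣ G)
  [F.Additive] [PreservesFiniteLimits F] [PreservesFiniteColimits F]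
  [G.Additive] [PreservesFiniteLimits G] [PreservesFiniteColimits G]

/-- The map `Extⁿ(F X, Y) → Extⁿ(X, G Y)`, `e ↦ η_X ≫ G(e)`, for an adjunction `F ⊣ G` of exact
functors. -/
noncomputable def extAdjTo (X : C) (Y : D) (n : ℕ) :
    Ext.{w'} (F.obj X) Y n →+ Ext.{w} X (G.obj Y) n :=
  ((Ext.mk₀ (adj.unit.app X)).precomp (G.obj Y) (zero_add n)).comp (G.mapExtAddHom (F.obj X) Y n)

/-- The map `Extⁿ(X, G Y) → Extⁿ(F X, Y)`, `e ↦ F(e) ≫ ε_Y`. -/
noncomputable def extAdjInv (X : C) (Y : D) (n : ℕ) :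
    Ext.{w} X (G.obj Y) n →+ Ext.{w'} (F.obj X) Y n :=
  ((Ext.mk₀ (adj.counit.app Y)).postcomp (F.obj X) (add_zero n)).comp
    (F.mapExtAddHom X (G.obj Y) n)

lemma extAdjTo_apply (X : C) (Y : D) (n : ℕ) (e : Ext.{w'} (F.obj X) Y n) :
    extAdjTo adj X Y n e = (Ext.mk₀ (adj.unit.app X)).comp (e.mapExactFunctor G) (zero_add n) :=
  rfl

lemma extAdjInv_apply (X : C) (Y : D) (n : ℕ) (e : Ext.{w} X (G.obj Y) n) :
    extAdjInv adj X Y n e = (e.mapExactFunctor F).comp (Ext.mk₀ (adj.counit.app Y)) (add_zero n) :=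
  rfl

lemma extAdjInv_extAdjTo (X : C) (Y : D) (n : ℕ) (e : Ext.{w'} (F.obj X) Y n) :
    extAdjInv adj X Y n (extAdjTo adj X Y n e) = e := by
  rw [extAdjTo_apply, extAdjInv_apply, Ext.mapExactFunctor_comp, Ext.mapExactFunctor_mk₀,
    mapExactFunctor_comp_functor G F e]
  have h1 := mapExactFunctor_naturality (G ⋙ F) (𝟭 D) adj.counit e
  rw [mapExactFunctor_id] at h1
  have h2 : ((Ext.mk₀ (F.map (adj.unit.app X))).comp (e.mapExactFunctor (G ⋙ F))
      (zero_add n)).comp (Ext.mk₀ (adj.counit.app Y)) (add_zero n) =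
      (Ext.mk₀ (F.map (adj.unit.app X))).comp ((e.mapExactFunctor (G ⋙ F)).comp
        (Ext.mk₀ (adj.counit.app Y)) (add_zero n)) (zero_add n) := by
    apply Ext.comp_assoc
    lia
  refine h2.trans ?_
  have h3 : (Ext.mk₀ (F.map (adj.unit.app X))).comp
      ((Ext.mk₀ (adj.counit.app (F.obj X))).comp e (zero_add n)) (zero_add n) = e := by
    rw [Ext.mk₀_comp_mk₀_assoc]
    exact (congrArg (fun t => (Ext.mk₀ t).comp e (zero_add n))
      (adj.left_triangle_components X)).trans (Ext.mk₀_id_comp e)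
  exact (congrArg (fun t => (Ext.mk₀ (F.map (adj.unit.app X))).comp t (zero_add n)) h1).trans h3

lemma extAdjTo_extAdjInv (X : C) (Y : D) (n : ℕ) (e : Ext.{w} X (G.obj Y) n) :
    extAdjTo adj X Y n (extAdjInv adj X Y n e) = e := by
  rw [extAdjTo_apply, extAdjInv_apply, Ext.mapExactFunctor_comp, Ext.mapExactFunctor_mk₀,
    mapExactFunctor_comp_functor F G e]
  have h1 := mapExactFunctor_naturality (𝟭 C) (F ⋙ G) adj.unit e
  rw [mapExactFunctor_id] at h1
  have h2 : (Ext.mk₀ (adj.unit.app X)).comp ((e.mapExactFunctor (F ⋙ G)).comp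
      (Ext.mk₀ (G.map (adj.counit.app Y))) (add_zero n)) (zero_add n) =
      ((Ext.mk₀ (adj.unit.app X)).comp (e.mapExactFunctor (F ⋙ G)) (zero_add n)).comp
        (Ext.mk₀ (G.map (adj.counit.app Y))) (add_zero n) := by
    symm
    apply Ext.comp_assoc
    lia
  refine h2.trans ?_
  have h3 : (e.comp (Ext.mk₀ (adj.unit.app (G.obj Y))) (add_zero n)).comp
      (Ext.mk₀ (G.map (adj.counit.app Y))) (add_zero n) = e := by
    rw [Ext.comp_assoc_of_third_deg_zero, Ext.mk₀_comp_mk₀]
    exact (congrArg (fun t => e.comp (Ext.mk₀ t) (add_zero n))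
      (adj.right_triangle_components Y)).trans (Ext.comp_mk₀_id e)
  exact (congrArg (fun t => t.comp (Ext.mk₀ (G.map (adj.counit.app Y))) (add_zero n)) h1.symm).trans
    h3

/-- An adjunction `F ⊣ G` of exact functors induces isomorphisms
`Extⁿ(F X, Y) ≃ Extⁿ(X, G Y)`. -/
noncomputable def extAdjEquiv (X : C) (Y : D) (n : ℕ) :
    Ext.{w'} (F.obj X) Y n ≃+ Ext.{w} X (G.obj Y) n :=
  { extAdjTo adj X Y n with
    invFun := extAdjInv adj X Y n
    left_inv := extAdjInv_extAdjTo adj X Y n
    right_inv := extAdjTo_extAdjInv adj X Y n }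

end Adj

end Fermat.Agent.CFT.Sm
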