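/-
S55 / CFT — helper9.
Relative cohomological `δ`-functors: `δ`-functors with values in abelian groups defined on a full
subcategory `P.FullSubcategory` (closed under quotients) of an abelian category `C`, for short
complexes of `P`-objects which are short exact in `C`; effacement by INJECTIVE objects
(non-functorial). Existence, uniqueness and isomorphism theorems by dimension shifting.
(Variant of `DeltaFunctor_helper5`: same proof skeleton.)  Pure category theory (Mathlib only).
-/
import Mathlib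

set_option autoImplicit false

universe w v u

open CategoryTheory CategoryTheory.Limits

namespace Fermat.Agent.CFT.Sm

variable {C : Type u} [Category.{v} C] [Abelian C] {P : ObjectProperty C}

/-- A short complex of `P`-objects is *short exact* if it is so in `C`. -/
abbrev RelSE (S : ShortComplex P.FullSubcategory) : Prop := (S.map P.ι).ShortExact

section MonoSeq

variable [P.IsClosedUnderQuotients]

/-- The short exact sequence `0 → A → X → coker → 0` attached to a monomorphism of `P`-objects. -/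
noncomputable def relMonoSeq {A X : P.FullSubcategory} (m : A ⟶ X) :
    ShortComplex P.FullSubcategory :=
  ShortComplex.mk m
    (ObjectProperty.homMk (cokernel.π m.hom) :
      X ⟶ ⟨cokernel m.hom, P.prop_of_epi (cokernel.π m.hom) X.property⟩)
    (by apply ObjectProperty.hom_ext; simp)

lemma relMonoSeq_se {A X : P.FullSubcategory} (m : A ⟶ X) [Mono m.hom] : RelSE (relMonoSeq m) where
  exact := ShortComplex.exact_cokernel m.hom
  mono_f := by change Mono m.hom; infer_instance
  epi_g := by change Epi (cokernel.π m.hom); infer_instance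

/-- morphism between the sequences attached to monomorphisms -/
noncomputable def relMonoSeqMap {A X A' X' : P.FullSubcategory} (m : A ⟶ X) (m' : A' ⟶ X')
    (a : A ⟶ A') (x : X ⟶ X') (h : m ≫ x = a ≫ m') : relMonoSeq m ⟶ relMonoSeq m' where
  τ₁ := a
  τ₂ := x
  τ₃ := ObjectProperty.homMk (cokernel.map m.hom m'.hom a.hom x.hom
    (by rw [← ObjectProperty.FullSubcategory.comp_hom, h]; rfl))
  comm₁₂ := h.symm
  comm₂₃ := by
    apply ObjectProperty.hom_ext
    simp [relMonoSeq]

end MonoSeq

/-- Given a surjective additive map `s : Y → X` and `t : Y → Z` killing `ker s`, the induced map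
`X → Z`. -/
noncomputable def liftSurj' {X Y Z : AddCommGrpCat.{w}} (s : Y ⟶ X) (hs : Function.Surjective s)
    (t : Y ⟶ Z) (h : ∀ y, s y = 0 → t y = 0) : X ⟶ Z :=
  AddCommGrpCat.ofHom ((s.hom).liftOfRightInverse (Function.surjInv hs)
    (Function.rightInverse_surjInv hs) ⟨t.hom, fun y hy => h y hy⟩)

lemma liftSurj'_apply {X Y Z : AddCommGrpCat.{w}} (s : Y ⟶ X) (hs : Function.Surjective s)
    (t : Y ⟶ Z) (h : ∀ y, s y = 0 → t y = 0) (y : Y) : liftSurj' s hs t h (s y) = t y :=
  AddMonoidHom.liftOfRightInverse_comp_apply _ _ _ _ _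

/-- A cohomological `δ`-functor on `P`-objects with values in abelian groups (only the part of the
long exact sequence needed for dimension shifting is recorded). -/
structure RelDelta (P : ObjectProperty C) where
  /-- the functors -/
  H : ℕ → P.FullSubcategory ⥤ AddCommGrpCat.{w}
  /-- the connecting homomorphisms -/
  δ : ∀ {S : ShortComplex P.FullSubcategory} (_ : RelSE S) (n : ℕ),
    (H n).obj S.X₃ ⟶ (H (n + 1)).obj S.X₁
  δ_naturality : ∀ {S S' : ShortComplex P.FullSubcategory} (hS : RelSE S) (hS' : RelSE S')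
    (φ : S ⟶ S') (n : ℕ), δ hS n ≫ (H (n + 1)).map φ.τ₁ = (H n).map φ.τ₃ ≫ δ hS' n
  δ_map_g : ∀ {S : ShortComplex P.FullSubcategory} (hS : RelSE S) (n : ℕ) (y : (H n).obj S.X₂),
    δ hS n ((H n).map S.g y) = 0
  exact₃ : ∀ {S : ShortComplex P.FullSubcategory} (hS : RelSE S) (n : ℕ) (x : (H n).obj S.X₃),
    δ hS n x = 0 → ∃ y, (H n).map S.g y = x
  exact₁ : ∀ {S : ShortComplex P.FullSubcategory} (hS : RelSE S) (n : ℕ)
    (x : (H (n + 1)).obj S.X₁), (H (n + 1)).map S.f x = 0 → ∃ y, δ hS n y = x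

namespace RelDelta

variable (T E : RelDelta.{w} P)

lemma δ_naturality_apply {S S' : ShortComplex P.FullSubcategory} (hS : RelSE S) (hS' : RelSE S')
    (φ : S ⟶ S') (n : ℕ) (x : (T.H n).obj S.X₃) :
    (T.H (n + 1)).map φ.τ₁ (T.δ hS n x) = T.δ hS' n ((T.H n).map φ.τ₃ x) := by
  have := ConcreteCategory.congr_hom (T.δ_naturality hS hS' φ n) x
  simpa using this

/-- An effacement of the positive-degree part of a `δ`-functor by injective objects. -/
structure Effacement where
  /-- the effacing objects -/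
  I : P.FullSubcategory → P.FullSubcategory
  /-- the embedding -/
  ι : ∀ A, A ⟶ I A
  mono : ∀ A, Mono (ι A).hom
  inj : ∀ A, Injective (I A).obj
  vanish : ∀ (A : P.FullSubcategory) (n : ℕ) (x : (T.H (n + 1)).obj (I A)), x = 0

/-- Morphisms of `δ`-functors. -/
@[ext]
structure Hom where
  /-- the components -/
  app : ∀ n, T.H n ⟶ E.H n
  comm : ∀ {S : ShortComplex P.FullSubcategory} (hS : RelSE S) (n : ℕ),
    T.δ hS n ≫ (app (n + 1)).app S.X₁ = (app n).app S.X₃ ≫ E.δ hS n

variable {T E}

lemma Hom.comm_apply (φ : Hom T E) {S : ShortComplex P.FullSubcategory} (hS : RelSE S) (n : ℕ)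
    (x : (T.H n).obj S.X₃) :
    (φ.app (n + 1)).app S.X₁ (T.δ hS n x) = E.δ hS n ((φ.app n).app S.X₃ x) := by
  have := ConcreteCategory.congr_hom (φ.comm hS n) x
  simpa using this

omit [Abelian C] in
lemma naturality_apply' {D : Type*} [Category D] {F G : D ⥤ AddCommGrpCat.{w}} (α : F ⟶ G)
    {A B : D} (f : A ⟶ B) (x : F.obj A) : α.app B (F.map f x) = G.map f (α.app A x) := by
  have := ConcreteCategory.congr_hom (α.naturality f) x
  simp only [ConcreteCategory.comp_apply] at this
  exact this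

omit [Abelian C] in
lemma map_id_apply' {D : Type*} [Category D] (F : D ⥤ AddCommGrpCat.{w}) (A : D) (x : F.obj A) :
    F.map (𝟙 A) x = x := by
  simp

section Shift

variable {S : ShortComplex P.FullSubcategory} (hS : RelSE S) {n : ℕ}
  (hv : ∀ x : (T.H (n + 1)).obj S.X₂, x = 0)

include hv in
lemma δ_surjective_of_vanish : Function.Surjective (T.δ hS n) := by
  intro x
  exact T.exact₁ hS n x (hv _)

/-- The dimension-shifting step along a short exact sequence whose middle term is acyclic. -/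
noncomputable def shiftApp (φ : T.H n ⟶ E.H n) :
    (T.H (n + 1)).obj S.X₁ ⟶ (E.H (n + 1)).obj S.X₁ :=
  liftSurj' (T.δ hS n) (δ_surjective_of_vanish hS hv)
    (φ.app S.X₃ ≫ E.δ hS n) (by
      intro y hy
      obtain ⟨z, rfl⟩ := T.exact₃ hS n y hy
      rw [ConcreteCategory.comp_apply, naturality_apply', E.δ_map_g])

lemma shiftApp_δ (φ : T.H n ⟶ E.H n) (y : (T.H n).obj S.X₃) :
    shiftApp hS hv φ (T.δ hS n y) = E.δ hS n (φ.app S.X₃ y) := by
  unfold shiftApp
  rw [liftSurj'_apply, ConcreteCategory.comp_apply]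

/-- `shiftApp` is compatible with morphisms of short exact sequences. -/
lemma shiftApp_naturality {S' : ShortComplex P.FullSubcategory} (hS' : RelSE S')
    (hv' : ∀ x : (T.H (n + 1)).obj S'.X₂, x = 0) (ψ : S ⟶ S') (φ : T.H n ⟶ E.H n)
    (x : (T.H (n + 1)).obj S.X₁) :
    shiftApp hS' hv' φ ((T.H (n + 1)).map ψ.τ₁ x) =
      (E.H (n + 1)).map ψ.τ₁ (shiftApp hS hv φ x) := by
  obtain ⟨y, rfl⟩ := δ_surjective_of_vanish hS hv x
  rw [T.δ_naturality_apply hS hS' ψ, shiftApp_δ, shiftApp_δ, E.δ_naturality_apply hS hS' ψ,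
    naturality_apply']

end Shift

namespace Effacement

variable [P.IsClosedUnderQuotients] (e : Effacement T)

/-- the canonical short exact sequence `0 → A → I A → Q A → 0` -/
noncomputable def seq (A : P.FullSubcategory) : ShortComplex P.FullSubcategory :=
  relMonoSeq (e.ι A)

lemma seq_se (A : P.FullSubcategory) : RelSE (e.seq A) :=
  have := e.mono A
  relMonoSeq_se (e.ι A)

/-- an extension of `f ≫ ι` to the effacing objects -/
noncomputable def ext {A B : P.FullSubcategory} (f : A ⟶ B) : e.I A ⟶ e.I B :=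
  have := e.mono A
  have := e.inj B
  ObjectProperty.homMk (Injective.factorThru (f.hom ≫ (e.ι B).hom) (e.ι A).hom)

omit [P.IsClosedUnderQuotients] in
lemma ι_ext {A B : P.FullSubcategory} (f : A ⟶ B) : e.ι A ≫ e.ext f = f ≫ e.ι B := by
  have := e.mono A
  have := e.inj B
  apply ObjectProperty.hom_ext
  exact Injective.comp_factorThru (f.hom ≫ (e.ι B).hom) (e.ι A).hom

/-- (non-canonical) functoriality of the canonical sequence -/
noncomputable def seqMap {A B : P.FullSubcategory} (f : A ⟶ B) : e.seq A ⟶ e.seq B :=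
  relMonoSeqMap _ _ f (e.ext f) (e.ι_ext f)

@[simp] lemma seqMap_τ₁ {A B : P.FullSubcategory} (f : A ⟶ B) : (e.seqMap f).τ₁ = f := rfl

lemma δ_surjective (A : P.FullSubcategory) (n : ℕ) :
    Function.Surjective (T.δ (e.seq_se A) n) := by
  intro x
  exact T.exact₁ (e.seq_se A) n x (e.vanish A n _)

/-- The dimension-shifting step. -/
noncomputable def step {n : ℕ} (φ : T.H n ⟶ E.H n) : T.H (n + 1) ⟶ E.H (n + 1) where
  app A := shiftApp (e.seq_se A) (e.vanish A n) φ
  naturality A B f := by
    ext x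
    rw [ConcreteCategory.comp_apply, ConcreteCategory.comp_apply]
    exact shiftApp_naturality (e.seq_se A) (e.vanish A n) (e.seq_se B)
      (e.vanish B n) (e.seqMap f) φ x

lemma step_app_δ {n : ℕ} (φ : T.H n ⟶ E.H n) (A : P.FullSubcategory)
    (y : (T.H n).obj (e.seq A).X₃) :
    (e.step φ).app A (T.δ (e.seq_se A) n y) = E.δ (e.seq_se A) n (φ.app (e.seq A).X₃ y) :=
  shiftApp_δ (e.seq_se A) (e.vanish A n) φ y

/-- the auxiliary sequence `0 → S.X₁ → I S.X₂ → coker → 0` -/
noncomputable def auxSeq (S : ShortComplex P.FullSubcategory) : ShortComplex P.FullSubcategory :=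
  relMonoSeq (S.f ≫ e.ι S.X₂)

lemma auxSeq_se {S : ShortComplex P.FullSubcategory} (hS : RelSE S) : RelSE (e.auxSeq S) :=
  have := e.mono S.X₂
  have : Mono S.f.hom := hS.mono_f
  have : Mono (S.f ≫ e.ι S.X₂).hom := by
    rw [ObjectProperty.FullSubcategory.comp_hom]; exact mono_comp _ _
  relMonoSeq_se _

/-- a morphism from the canonical sequence of `S.X₁` to the auxiliary sequence -/
noncomputable def seqToAux (S : ShortComplex P.FullSubcategory) : e.seq S.X₁ ⟶ e.auxSeq S :=
  relMonoSeqMap _ _ (𝟙 _) (e.ext S.f) (by rw [e.ι_ext, Category.id_comp])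

lemma toAux_aux (S : ShortComplex P.FullSubcategory) :
    (S.map P.ι).f ≫ (e.ι S.X₂).hom ≫ cokernel.π (S.f ≫ e.ι S.X₂).hom = 0 := by
  have : (S.f ≫ e.ι S.X₂).hom ≫ cokernel.π (S.f ≫ e.ι S.X₂).hom = 0 := cokernel.condition _
  rw [ObjectProperty.FullSubcategory.comp_hom, Category.assoc] at this
  exact this

/-- the morphism from a short exact sequence to its auxiliary sequence -/
noncomputable def toAux {S : ShortComplex P.FullSubcategory} (hS : RelSE S) :
    S ⟶ e.auxSeq S where
  τ₁ := 𝟙 _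
  τ₂ := e.ι S.X₂
  τ₃ := ObjectProperty.homMk (hS.gIsCokernel.desc
    (CokernelCofork.ofπ ((e.ι S.X₂).hom ≫ cokernel.π (S.f ≫ e.ι S.X₂).hom) (e.toAux_aux S)))
  comm₁₂ := by simp [auxSeq, relMonoSeq]
  comm₂₃ := by
    apply ObjectProperty.hom_ext
    have := Cofork.IsColimit.π_desc hS.gIsCokernel
      (t := CokernelCofork.ofπ ((e.ι S.X₂).hom ≫ cokernel.π (S.f ≫ e.ι S.X₂).hom)
        (e.toAux_aux S))
    exact this.symm

lemma step_app_aux_δ {n : ℕ} (φ : T.H n ⟶ E.H n) {S : ShortComplex P.FullSubcategory}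
    (hS : RelSE S) (y : (T.H n).obj (e.auxSeq S).X₃) :
    (e.step φ).app S.X₁ (T.δ (e.auxSeq_se hS) n y) =
      E.δ (e.auxSeq_se hS) n (φ.app (e.auxSeq S).X₃ y) := by
  have h : shiftApp (E := E) (e.auxSeq_se hS) (e.vanish S.X₂ n) φ
      ((T.H (n + 1)).map (𝟙 S.X₁) (T.δ (e.auxSeq_se hS) n y)) =
      (E.H (n + 1)).map (𝟙 S.X₁) ((e.step φ).app S.X₁ (T.δ (e.auxSeq_se hS) n y)) :=
    shiftApp_naturality (E := E) (e.seq_se S.X₁) (e.vanish S.X₁ n)
      (e.auxSeq_se hS) (e.vanish S.X₂ n) (e.seqToAux S) φ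
      (T.δ (e.auxSeq_se hS) n y)
  rw [map_id_apply', map_id_apply'] at h
  rw [← h]
  exact shiftApp_δ (e.auxSeq_se hS) (e.vanish S.X₂ n) φ y

/-- The dimension-shifting step is compatible with all connecting homomorphisms. -/
lemma step_comm {n : ℕ} (φ : T.H n ⟶ E.H n) {S : ShortComplex P.FullSubcategory} (hS : RelSE S)
    (x : (T.H n).obj S.X₃) :
    (e.step φ).app S.X₁ (T.δ hS n x) = E.δ hS n (φ.app S.X₃ x) := by
  have h1 : (T.H (n + 1)).map (𝟙 S.X₁) (T.δ hS n x) =
      T.δ (e.auxSeq_se hS) n ((T.H n).map (e.toAux hS).τ₃ x) :=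
    T.δ_naturality_apply hS (e.auxSeq_se hS) (e.toAux hS) n x
  have h2 : (E.H (n + 1)).map (𝟙 S.X₁) (E.δ hS n (φ.app S.X₃ x)) =
      E.δ (e.auxSeq_se hS) n ((E.H n).map (e.toAux hS).τ₃ (φ.app S.X₃ x)) :=
    E.δ_naturality_apply hS (e.auxSeq_se hS) (e.toAux hS) n (φ.app S.X₃ x)
  rw [map_id_apply'] at h1 h2
  rw [h1, h2, ← naturality_apply']
  exact e.step_app_aux_δ φ hS _

/-- The components of the lift of a natural transformation in degree `0`. -/
noncomputable def liftApp (φ₀ : T.H 0 ⟶ E.H 0) : ∀ n, T.H n ⟶ E.H n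
  | 0 => φ₀
  | n + 1 => e.step (liftApp φ₀ n)

/-- Existence: a natural transformation in degree `0` out of an effaceable `δ`-functor extends
to a morphism of `δ`-functors. -/
noncomputable def lift (φ₀ : T.H 0 ⟶ E.H 0) : Hom T E where
  app := e.liftApp φ₀
  comm {S} hS n := by
    ext x
    rw [ConcreteCategory.comp_apply, ConcreteCategory.comp_apply]
    exact e.step_comm (e.liftApp φ₀ n) hS x

@[simp] lemma lift_app_zero (φ₀ : T.H 0 ⟶ E.H 0) : (e.lift φ₀).app 0 = φ₀ := rfl

end Effacement

variable [P.IsClosedUnderQuotients]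

/-- Uniqueness: two morphisms out of an effaceable `δ`-functor which agree in degree `0` agree
in all degrees. -/
theorem Hom.app_eq_of_zero (e : Effacement T) (φ ψ : Hom T E) (h : φ.app 0 = ψ.app 0) (n : ℕ) :
    φ.app n = ψ.app n := by
  induction n with
  | zero => exact h
  | succ n ih =>
    ext A x
    obtain ⟨y, rfl⟩ := e.δ_surjective A n x
    have h1 := φ.comm_apply (e.seq_se A) n y
    have h2 := ψ.comm_apply (e.seq_se A) n y
    rw [ih] at h1
    exact h1.trans h2.symm

theorem Hom.ext_of_zero (e : Effacement T) (φ ψ : Hom T E) (h : φ.app 0 = ψ.app 0) : φ = ψ := by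
  apply Hom.ext
  funext n
  exact Hom.app_eq_of_zero e φ ψ h n

omit [P.IsClosedUnderQuotients] in
/-- identity morphism of a `δ`-functor -/
def Hom.id (T : RelDelta.{w} P) : Hom T T where
  app n := 𝟙 _
  comm hS n := by simp

omit [P.IsClosedUnderQuotients] in
/-- composition of morphisms of `δ`-functors -/
def Hom.comp {T₁ T₂ T₃ : RelDelta.{w} P} (φ : Hom T₁ T₂) (ψ : Hom T₂ T₃) : Hom T₁ T₃ where
  app n := φ.app n ≫ ψ.app n
  comm hS n := by
    rw [NatTrans.comp_app, NatTrans.comp_app, ← Category.assoc, φ.comm hS n, Category.assoc,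
      ψ.comm hS n, Category.assoc]

/-- A morphism between effaceable `δ`-functors which is an isomorphism in degree `0` is an
isomorphism in all degrees. -/
theorem Hom.isIso_app (e : Effacement T) (e' : Effacement E) (φ : Hom T E) [IsIso (φ.app 0)]
    (n : ℕ) : IsIso (φ.app n) := by
  let ψ : Hom E T := e'.lift (inv (φ.app 0))
  have h1 : φ.comp ψ = Hom.id T := Hom.ext_of_zero e _ _ (by
    change φ.app 0 ≫ inv (φ.app 0) = 𝟙 _
    simp)
  have h2 : ψ.comp φ = Hom.id E := Hom.ext_of_zero e' _ _ (by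
    change inv (φ.app 0) ≫ φ.app 0 = 𝟙 _
    simp)
  exact ⟨ψ.app n, congrFun (congrArg Hom.app h1) n, congrFun (congrArg Hom.app h2) n⟩

/-- The comparison isomorphism of two effaceable `δ`-functors with isomorphic degree `0` parts. -/
noncomputable def isoOfZero (e : Effacement T) (e' : Effacement E) (i : T.H 0 ≅ E.H 0) (n : ℕ) :
    T.H n ≅ E.H n :=
  have : IsIso ((e.lift (E := E) i.hom).app 0) := by
    rw [Effacement.lift_app_zero]; infer_instance
  have := Hom.isIso_app e e' (e.lift i.hom) n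
  asIso ((e.lift i.hom).app n)

end RelDelta

end Fermat.Agent.CFT.Sm
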