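/-
S55 / CFT (P0.3) — helper9.  `Ext^•(X, -)` as a relative `δ`-functor, effaced by injectives.
-/
import Fermat.Agent.CFT.Sm.DeltaRel_helper9

set_option autoImplicit false

universe w v u

open CategoryTheory CategoryTheory.Limits CategoryTheory.Abelian

namespace Fermat.Agent.CFT.Sm

variable {C : Type u} [Category.{v} C] [Abelian C] [HasExt.{w} C]

/-- `Ext^•(X, -)` as a relative `δ`-functor. -/
noncomputable def extRelDelta (X : C) (P : ObjectProperty C) : RelDelta.{w} P where
  H n := P.ι ⋙ extFunctorObj X n
  δ {S} hS n := AddCommGrpCat.ofHom (hS.extClass.postcomp X rfl)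
  δ_naturality {S S'} hS hS' φ n := by
    ext x
    change ((x.comp hS.extClass rfl).comp (Ext.mk₀ φ.τ₁.hom) (add_zero _)) =
      (x.comp (Ext.mk₀ φ.τ₃.hom) (add_zero _)).comp hS'.extClass rfl
    rw [Ext.comp_assoc_of_third_deg_zero, Ext.comp_assoc_of_second_deg_zero]
    congr 1
    exact ShortComplex.ShortExact.extClass_naturality hS hS' (P.ι.mapShortComplex.map φ)
  δ_map_g {S} hS n y := by
    change ((y.comp (Ext.mk₀ S.g.hom) (add_zero _)).comp hS.extClass rfl) = 0
    rw [Ext.comp_assoc_of_second_deg_zero]
    have : (Ext.mk₀ S.g.hom).comp hS.extClass (zero_add 1) = 0 := hS.comp_extClass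
    rw [this, Ext.comp_zero]
  exact₃ {S} hS n x hx := Ext.covariant_sequence_exact₃ X hS x rfl hx
  exact₁ {S} hS n x hx := Ext.covariant_sequence_exact₁ X hS x hx rfl


/-- `P` has enough injectives: every `P`-object embeds into an injective object of `C` lying in
`P`. -/
def HasEnoughInjectivesIn (P : ObjectProperty C) : Prop :=
  ∀ A : P.FullSubcategory, ∃ (J : P.FullSubcategory) (f : A ⟶ J), Injective J.obj ∧ Mono f.hom

omit [HasExt.{w} C] in
lemma hasEnoughInjectivesIn_top [EnoughInjectives C] :
    HasEnoughInjectivesIn (⊤ : ObjectProperty C) := fun A =>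
  ⟨⟨Injective.under A.obj, trivial⟩, ObjectProperty.homMk (Injective.ι A.obj),
    inferInstanceAs (Injective (Injective.under A.obj)),
    inferInstanceAs (Mono (Injective.ι A.obj))⟩

omit [HasExt.{w} C] in
/-- An effacement by injectives of a `δ`-functor vanishing on injective objects. -/
noncomputable def RelDelta.Effacement.ofInjectives {P : ObjectProperty C} (T : RelDelta.{w} P)
    (hP : HasEnoughInjectivesIn P)
    (hT : ∀ (J : P.FullSubcategory), Injective J.obj → ∀ (n : ℕ) (x : (T.H (n + 1)).obj J), x = 0) :
    T.Effacement where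
  I A := (hP A).choose
  ι A := (hP A).choose_spec.choose
  mono A := (hP A).choose_spec.choose_spec.2
  inj A := (hP A).choose_spec.choose_spec.1
  vanish A n x := hT _ (hP A).choose_spec.choose_spec.1 n x

/-- `Ext^•(X, -)` is effaced by injectives. -/
noncomputable def extEffacement (X : C) {P : ObjectProperty C} (hP : HasEnoughInjectivesIn P) :
    (extRelDelta.{w} X P).Effacement :=
  RelDelta.Effacement.ofInjectives _ hP (fun J _ n x =>
    Ext.eq_zero_of_injective (X := X) (I := J.obj) (n := n) x)

end Fermat.Agent.CFT.Sm
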