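/-
S55 / CFT (P0.4, comparison theorem for the unit object) — helper9.
* elementwise forms of the long exact sequence of smooth cohomology;
* `smDelta Φ P hΦ`: smooth cohomology of `Φ(-)` as a relative `δ`-functor;
* **`smUnitCompare A n : Ext (smUnit k 𝒰) A n ≃+ smH 𝒰 A n`**, natural (`smUnitCompare_naturality`),
  compatible with connecting homomorphisms (`smUnitCompare_δ`), explicit in degree `0`
  (`smUnitCompare_zero`, `smUnitZeroEquiv_mk₀`) and compatible with restriction along any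
  continuous homomorphism (`smUnitCompare_res`).
-/
import Fermat.Agent.CFT.Sm.Compare_helper5_Acyclic
import Fermat.Agent.CFT.Sm.Compare_helper5_Delta
import Fermat.Agent.CFT.Sm.Compare_helper5_Hom
import Fermat.Agent.CFT.Sm.Compare_helper5_Retract
import Fermat.Agent.CFT.Sm.ExtDelta_helper9
import Fermat.Agent.CFT.Sm.ExtAdj_helper9

set_option autoImplicit false

open CategoryTheory CategoryTheory.Limits CategoryTheory.Abelian

namespace Fermat.Agent.CFT.Sm

variable {k Γ : Type} [CommRing k] [Group Γ] {𝒰 : OpenBasis Γ}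

section Elementwise

variable {X : ShortComplex (SmRep k 𝒰)} (hX : X.ShortExact)

lemma smδ_map_g_apply (i j : ℕ) (hij : i + 1 = j) (y : smH 𝒰 X.X₂ i) :
    (smδ hX i j hij).hom (((smHFunctor k 𝒰 i).map X.g).hom y) = 0 := by
  have := (map_lcFunctor_shortExact hX).comp_δ i j hij
  exact congrArg (fun f => f.hom y) this

lemma map_f_smδ_apply (i j : ℕ) (hij : i + 1 = j) (y : smH 𝒰 X.X₃ i) :
    ((smHFunctor k 𝒰 j).map X.f).hom ((smδ hX i j hij).hom y) = 0 := by
  have := (map_lcFunctor_shortExact hX).δ_comp i j hij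
  exact congrArg (fun f => f.hom y) this

lemma exists_map_g_eq_of_smδ_eq_zero (i j : ℕ) (hij : i + 1 = j) (x : smH 𝒰 X.X₃ i)
    (hx : (smδ hX i j hij).hom x = 0) : ∃ y, ((smHFunctor k 𝒰 i).map X.g).hom y = x :=
  (ShortComplex.moduleCat_exact_iff _).1 (smH_exact₃ hX i j hij) x hx

lemma exists_smδ_eq_of_map_f_eq_zero (i j : ℕ) (hij : i + 1 = j) (x : smH 𝒰 X.X₁ j)
    (hx : ((smHFunctor k 𝒰 j).map X.f).hom x = 0) : ∃ y, (smδ hX i j hij).hom y = x :=
  (ShortComplex.moduleCat_exact_iff _).1 (smH_exact₁ hX i j hij) x hx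

include hX in
lemma exists_map_f_eq_of_map_g_eq_zero (i : ℕ) (x : smH 𝒰 X.X₂ i)
    (hx : ((smHFunctor k 𝒰 i).map X.g).hom x = 0) : ∃ y, ((smHFunctor k 𝒰 i).map X.f).hom y = x :=
  (ShortComplex.moduleCat_exact_iff _).1 (smH_exact₂ hX i) x hx

lemma smδ_naturality_apply {S S' : ShortComplex (SmRep k 𝒰)} (hS : S.ShortExact)
    (hS' : S'.ShortExact) (φ : S ⟶ S') (i j : ℕ) (hij : i + 1 = j) (x : smH 𝒰 S.X₃ i) :
    ((smHFunctor k 𝒰 j).map φ.τ₁).hom ((smδ hS i j hij).hom x) =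
      (smδ hS' i j hij).hom (((smHFunctor k 𝒰 i).map φ.τ₃).hom x) := by
  have := smδ_naturality hS hS' φ i j hij
  exact congrArg (fun f => f.hom x) this

end Elementwise

section Delta

variable (Φ : SmRep k 𝒰 ⥤ SmRep k 𝒰) [Φ.Additive] (P : ObjectProperty (SmRep k 𝒰))
  (hΦ : ∀ S : ShortComplex P.FullSubcategory, RelSE S → ((S.map P.ι).map Φ).ShortExact)

/-- Smooth cohomology of `Φ(-)` as a relative `δ`-functor on the class `P`, for an additive
functor `Φ` which is exact on short exact sequences of `P`-objects. -/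
noncomputable def smDelta : RelDelta.{0} P where
  H n := P.ι ⋙ Φ ⋙ smHFunctor k 𝒰 n ⋙ forget₂ (ModuleCat.{0} k) AddCommGrpCat.{0}
  δ {S} hS n := (forget₂ (ModuleCat.{0} k) AddCommGrpCat.{0}).map (smδ (hΦ S hS) n (n + 1) rfl)
  δ_naturality {S S'} hS hS' φ n := by
    have := smδ_naturality (hΦ S hS) (hΦ S' hS')
      (Φ.mapShortComplex.map (P.ι.mapShortComplex.map φ)) n (n + 1) rfl
    exact congrArg (fun f => (forget₂ (ModuleCat.{0} k) AddCommGrpCat.{0}).map f) this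
  δ_map_g {S} hS n y := smδ_map_g_apply (hΦ S hS) n (n + 1) rfl y
  exact₃ {S} hS n x hx := exists_map_g_eq_of_smδ_eq_zero (hΦ S hS) n (n + 1) rfl x hx
  exact₁ {S} hS n x hx := exists_smδ_eq_of_map_f_eq_zero (hΦ S hS) n (n + 1) rfl x hx

end Delta


section UnitZero

/-- morphisms out of the unit object are invariant vectors -/
noncomputable def unitHomEquiv (A : SmRep k 𝒰) : (smUnit k 𝒰 ⟶ A) ≃+ A.obj.ρ.invariants where
  toFun f := ⟨f.hom.hom (1 : k), fun g => by
    have := Rep.hom_comm_apply f.hom g (1 : k)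
    exact this.symm⟩
  invFun a := ofInvariant A a.1 a.2
  left_inv f := by
    apply ObjectProperty.hom_ext
    apply Rep.hom_ext
    apply Representation.IntertwiningMap.ext
    apply LinearMap.ext
    intro (c : k)
    change c • f.hom.hom (1 : k) = f.hom.hom c
    rw [← map_smul]
    congr 1
    exact mul_one c
  right_inv a := by
    apply Subtype.ext
    change (1 : k) • a.1 = a.1
    rw [one_smul]
  map_add' f g := rfl


lemma unitHomEquiv_comp {A B : SmRep k 𝒰} (f : smUnit k 𝒰 ⟶ A) (π : A ⟶ B) :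
    ((unitHomEquiv B (f ≫ π) : B.obj.ρ.invariants) : B.obj.V) =
      π.hom.hom ((unitHomEquiv A f : A.obj.ρ.invariants) : A.obj.V) := rfl

/-- `Ext⁰(𝟙, A) ≃ H⁰(A)`. -/
noncomputable def smUnitZeroEquiv (A : SmRep k 𝒰) : Ext (smUnit k 𝒰) A 0 ≃+ smH 𝒰 A 0 :=
  (Ext.addEquiv₀.trans (unitHomEquiv A)).trans (smHZeroEquiv A).symm.toAddEquiv

lemma smUnitZeroEquiv_mk₀ (A : SmRep k 𝒰) (f : smUnit k 𝒰 ⟶ A) :
    smUnitZeroEquiv A (Ext.mk₀ f) = (smHZeroEquiv A).symm (unitHomEquiv A f) := by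
  have h2 : Ext.addEquiv₀ (Ext.mk₀ f) = f := Ext.addEquiv₀.apply_symm_apply f
  change (smHZeroEquiv A).symm (unitHomEquiv A (Ext.addEquiv₀ (Ext.mk₀ f))) = _
  rw [h2]

lemma smUnitZeroEquiv_naturality {A B : SmRep k 𝒰} (π : A ⟶ B) (e : Ext (smUnit k 𝒰) A 0) :
    smUnitZeroEquiv B (e.comp (Ext.mk₀ π) (add_zero 0)) =
      ((smHFunctor k 𝒰 0).map π).hom (smUnitZeroEquiv A e) := by
  obtain ⟨f, rfl⟩ := (Ext.mk₀_bijective _ _).2 e
  rw [Ext.mk₀_comp_mk₀, smUnitZeroEquiv_mk₀, smUnitZeroEquiv_mk₀]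
  apply (smHZeroEquiv B).injective
  rw [LinearEquiv.apply_symm_apply]
  apply Subtype.ext
  rw [smHZeroEquiv_naturality, LinearEquiv.apply_symm_apply]
  rfl

end UnitZero

section UnitCompare

variable (k 𝒰)

/-- smooth cohomology as a `δ`-functor (on all objects) -/
noncomputable def smUnitDelta : RelDelta.{0} (⊤ : ObjectProperty (SmRep k 𝒰)) :=
  smDelta (𝟭 (SmRep k 𝒰)) ⊤ (fun _ hS => hS)

/-- smooth cohomology is effaced by injectives -/
noncomputable def smUnitEffacement : (smUnitDelta k 𝒰).Effacement :=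
  RelDelta.Effacement.ofInjectives _ hasEnoughInjectivesIn_top
    (fun J hJ n x => by
      have : Injective J.obj := hJ
      exact smH_succ_eq_zero_of_injective J.obj n x)

/-- the degree-zero comparison -/
noncomputable def smUnitZeroIso :
    (extRelDelta.{0} (smUnit k 𝒰) (⊤ : ObjectProperty (SmRep k 𝒰))).H 0 ≅ (smUnitDelta k 𝒰).H 0 :=
  NatIso.ofComponents (fun A => (smUnitZeroEquiv A.obj).toAddCommGrpIso)
    (fun {A B} π => by
      ext e
      exact smUnitZeroEquiv_naturality π.hom e)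


/-- the comparison morphism of `δ`-functors `Ext^•(𝟙, -) ⟶ H^•(-)` -/
noncomputable def smUnitCompareHom :
    RelDelta.Hom (extRelDelta.{0} (smUnit k 𝒰) (⊤ : ObjectProperty (SmRep k 𝒰)))
      (smUnitDelta k 𝒰) :=
  (extEffacement (smUnit k 𝒰) hasEnoughInjectivesIn_top).lift (smUnitZeroIso k 𝒰).hom

instance (n : ℕ) : IsIso ((smUnitCompareHom k 𝒰).app n) :=
  have : IsIso ((smUnitCompareHom k 𝒰).app 0) := by
    change IsIso (smUnitZeroIso k 𝒰).hom
    infer_instance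
  RelDelta.Hom.isIso_app (extEffacement (smUnit k 𝒰) hasEnoughInjectivesIn_top)
    (smUnitEffacement k 𝒰) (smUnitCompareHom k 𝒰) n

variable {k 𝒰}

/-- an object of `SmRep` as an object of the full subcategory `⊤` -/
abbrev topObj (A : SmRep k 𝒰) : (⊤ : ObjectProperty (SmRep k 𝒰)).FullSubcategory := ⟨A, trivial⟩

/-- **Comparison theorem**: `Extⁿ(𝟙, A) ≃ Hⁿ(Γ, A)` (smooth cohomology). -/
noncomputable def smUnitCompare (A : SmRep k 𝒰) (n : ℕ) : Ext (smUnit k 𝒰) A n ≃+ smH 𝒰 A n :=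
  ((asIso ((smUnitCompareHom k 𝒰).app n)).app (topObj A)).addCommGroupIsoToAddEquiv

lemma smUnitCompare_apply (A : SmRep k 𝒰) (n : ℕ) (e : Ext (smUnit k 𝒰) A n) :
    smUnitCompare A n e = ((smUnitCompareHom k 𝒰).app n).app (topObj A) e := rfl

lemma smUnitCompare_zero (A : SmRep k 𝒰) (e : Ext (smUnit k 𝒰) A 0) :
    smUnitCompare A 0 e = smUnitZeroEquiv A e := rfl

/-- naturality of the comparison isomorphism -/
lemma smUnitCompare_naturality {A B : SmRep k 𝒰} (π : A ⟶ B) (n : ℕ)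
    (e : Ext (smUnit k 𝒰) A n) :
    smUnitCompare B n (e.comp (Ext.mk₀ π) (add_zero n)) =
      ((smHFunctor k 𝒰 n).map π).hom (smUnitCompare A n e) :=
  RelDelta.naturality_apply' ((smUnitCompareHom k 𝒰).app n)
    (ObjectProperty.homMk π : topObj A ⟶ topObj B) e

/-- a short complex in `SmRep` as a short complex in the full subcategory `⊤` -/
def topSC (S : ShortComplex (SmRep k 𝒰)) :
    ShortComplex (⊤ : ObjectProperty (SmRep k 𝒰)).FullSubcategory :=
  ShortComplex.mk (ObjectProperty.homMk S.f : topObj S.X₁ ⟶ topObj S.X₂)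
    (ObjectProperty.homMk S.g : topObj S.X₂ ⟶ topObj S.X₃)
    (by apply ObjectProperty.hom_ext; exact S.zero)

lemma topSC_se {S : ShortComplex (SmRep k 𝒰)} (hS : S.ShortExact) : RelSE (topSC S) := hS

/-- the comparison isomorphism is compatible with connecting homomorphisms -/
lemma smUnitCompare_δ {S : ShortComplex (SmRep k 𝒰)} (hS : S.ShortExact) (n : ℕ)
    (e : Ext (smUnit k 𝒰) S.X₃ n) :
    smUnitCompare S.X₁ (n + 1) (e.comp hS.extClass rfl) =
      (smδ hS n (n + 1) rfl).hom (smUnitCompare S.X₃ n e) :=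
  (smUnitCompareHom k 𝒰).comm_apply (topSC_se hS) n e

end UnitCompare

section Res

variable {Γ' : Type} [Group Γ'] {𝒰' : OpenBasis Γ'} (ψ : Γ' →* Γ) (hψ : 𝒰'.Finer (𝒰.comap ψ))

/-- restriction on `H⁰` in terms of invariants -/
lemma smHZeroEquiv_smHRes (A : SmRep k 𝒰) (x : smH 𝒰 A 0) :
    (show A.obj.V from (smHZeroEquiv ((resSm k ψ hψ).obj A) ((smHRes ψ hψ A 0).hom x)).1) =
      ((smHZeroEquiv A x : A.obj.ρ.invariants) : A.obj.V) := by
  obtain ⟨f, rfl⟩ := exists_smHmk_eq x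
  rw [smHRes_smHmk, smHZeroEquiv_smHmk, smHZeroEquiv_smHmk]
  have h := lcCocyclesMap_apply ψ hψ (A := A) (B := (resSm k ψ hψ).obj A)
    (𝟙 (Rep.res ψ A.obj)) 0 f default
  refine h.trans ?_
  change (f.1 : (Fin 0 → Γ) → A.obj.V) (ψ ∘ default) = (f.1 : (Fin 0 → Γ) → A.obj.V) default
  exact congrArg (f.1 : (Fin 0 → Γ) → A.obj.V) (Subsingleton.elim _ _)

/-- restriction of `Ext^•(𝟙, -)` -/
noncomputable def extUnitRes (A : SmRep k 𝒰) (n : ℕ) (e : Ext (smUnit k 𝒰) A n) :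
    Ext (smUnit k 𝒰') ((resSm k ψ hψ).obj A) n :=
  e.mapExactFunctor (resSm k ψ hψ)

/-- The comparison isomorphism is compatible with restriction. -/
theorem smUnitCompare_res (A : SmRep k 𝒰) (n : ℕ) (e : Ext (smUnit k 𝒰) A n) :
    smUnitCompare ((resSm k ψ hψ).obj A) n (extUnitRes ψ hψ A n e) =
      (smHRes ψ hψ A n).hom (smUnitCompare A n e) := by
  refine ext_family_ext (X := smUnit k 𝒰)
    (T := fun n A => smH 𝒰' ((resSm k ψ hψ).obj A) n)
    (fun n S hS t => (smδ (resSm_shortExact ψ hψ hS) n (n + 1) rfl).hom t)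
    (fun n A e => smUnitCompare ((resSm k ψ hψ).obj A) n (extUnitRes ψ hψ A n e))
    (fun n A e => (smHRes ψ hψ A n).hom (smUnitCompare A n e)) ?_ ?_ ?_ n A e
  · intro n S hS e
    have h1 : extUnitRes ψ hψ S.X₁ (n + 1) (e.comp hS.extClass rfl) =
        (extUnitRes ψ hψ S.X₃ n e).comp (resSm_shortExact ψ hψ hS).extClass rfl :=
      (Ext.mapExactFunctor_comp (resSm k ψ hψ) e hS.extClass rfl).trans
        (congrArg (fun t => (e.mapExactFunctor (resSm k ψ hψ)).comp t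
          (show n + 1 = n + 1 from rfl)) (Ext.mapExactFunctor_extClass (resSm k ψ hψ) hS))
    change smUnitCompare _ (n + 1) (extUnitRes ψ hψ S.X₁ (n + 1) (e.comp hS.extClass rfl)) = _
    rw [h1]
    exact smUnitCompare_δ (resSm_shortExact ψ hψ hS) n (extUnitRes ψ hψ S.X₃ n e)
  · intro n S hS e
    rw [smUnitCompare_δ hS n e]
    have := smδ_smHRes ψ hψ hS n (n + 1) rfl
    exact congrArg (fun f => f.hom (smUnitCompare S.X₃ n e)) this
  · intro A f
    let f' : smUnit k 𝒰' ⟶ (resSm k ψ hψ).obj A := (resSm k ψ hψ).map f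
    have h1 : extUnitRes ψ hψ A 0 (Ext.mk₀ f) = Ext.mk₀ f' :=
      Ext.mapExactFunctor_mk₀ (resSm k ψ hψ) f
    rw [h1, smUnitCompare_zero, smUnitCompare_zero, smUnitZeroEquiv_mk₀, smUnitZeroEquiv_mk₀]
    apply (smHZeroEquiv ((resSm k ψ hψ).obj A)).injective
    rw [LinearEquiv.apply_symm_apply]
    apply Subtype.ext
    refine Eq.trans ?_ (smHZeroEquiv_smHRes ψ hψ A _).symm
    rw [LinearEquiv.apply_symm_apply]
    rfl

end Res

end Fermat.Agent.CFT.Sm
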