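/-
S55 / CFT (PT3 (f.5), T1) — helper5.
Abstract transfer of `p`-class formations along morphisms of formation modules:
`smHCoeff` (the map induced on `smH` by a morphism of coefficients), injectivity/surjectivity of
`Hⁿ(g)` from the long exact sequence, lifting of invariants, naturality of the reciprocity pairing
`recMap`, `IsBaseCF.of_map`, `IsBaseCF.IsGlobal.of_map`, `PClassFormation.ofMap` and
**(T1)** `PClassFormation.ofEpi` / `PClassFormation.IsGlobal.ofEpi`: transfer along an epimorphism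
`C ↠ D` whose kernel is cohomologically trivial for `Γ` and all open subgroups.
-/
import Fermat.Agent.CFT.Sm.Compare_helper5_Hom
import Fermat.Agent.CFT.Sm.Compare_helper5_Delta

set_option autoImplicit false

open CategoryTheory CategoryTheory.Limits groupCohomology

namespace Fermat.Agent.CFT.Sm

variable {Γ : Type} [Group Γ] {𝒰 : OpenBasis Γ}

section Coeff

variable {k : Type} [CommRing k]

/-- The map induced on smooth cohomology by a morphism of coefficients, as a linear map between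
the modules `smH`. -/
noncomputable def smHCoeff {A B : SmRep k 𝒰} (φ : A ⟶ B) (n : ℕ) :
    smH 𝒰 A n →ₗ[k] smH 𝒰 B n :=
  ((smHFunctor k 𝒰 n).map φ).hom

lemma smHCoeff_comp {A B C : SmRep k 𝒰} (φ : A ⟶ B) (ψ : B ⟶ C) (n : ℕ) (x : smH 𝒰 A n) :
    smHCoeff (φ ≫ ψ) n x = smHCoeff ψ n (smHCoeff φ n x) := by
  unfold smHCoeff
  rw [Functor.map_comp]
  rfl

end Coeff

section LES

variable {k : Type} [CommRing k] {S : ShortComplex (SmRep k 𝒰)} (hS : S.ShortExact)

include hS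

/-- `Hⁿ(g)` is injective when `Hⁿ(X₁) = 0`. -/
lemma smH_map_g_injective (n : ℕ) (h : ∀ x : smH 𝒰 S.X₁ n, x = 0) :
    Function.Injective (smHCoeff S.g n) := by
  rw [injective_iff_map_eq_zero]
  intro x hx
  have hex := smH_exact₂ hS n
  rw [ShortComplex.moduleCat_exact_iff] at hex
  obtain ⟨y, hy⟩ := hex x hx
  rw [← hy, h y]
  exact map_zero _

/-- `Hⁿ(g)` is surjective when `Hⁿ⁺¹(X₁) = 0`. -/
lemma smH_map_g_surjective (n : ℕ) (h : ∀ x : smH 𝒰 S.X₁ (n + 1), x = 0) :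
    Function.Surjective (smHCoeff S.g n) := by
  intro x
  have hex := smH_exact₃ hS n (n + 1) rfl
  rw [ShortComplex.moduleCat_exact_iff] at hex
  exact hex x (h _)

lemma smH_map_g_bijective (n : ℕ) (h : ∀ x : smH 𝒰 S.X₁ n, x = 0)
    (h' : ∀ x : smH 𝒰 S.X₁ (n + 1), x = 0) :
    Function.Bijective (smHCoeff S.g n) :=
  ⟨smH_map_g_injective hS n h, smH_map_g_surjective hS n h'⟩

/-- Invariants lift along an epimorphism whose kernel has trivial `H¹`. -/
lemma exists_invariant_lift (h : ∀ x : smH 𝒰 S.X₁ 1, x = 0) (d : S.X₃.obj.V)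
    (hd : ∀ g, S.X₃.obj.ρ g d = d) :
    ∃ c : S.X₂.obj.V, (∀ g, S.X₂.obj.ρ g c = c) ∧ S.g.hom.hom c = d := by
  obtain ⟨y, hy⟩ := smH_map_g_surjective hS 0 h ((smHZeroEquiv S.X₃).symm ⟨d, hd⟩)
  refine ⟨((smHZeroEquiv S.X₂ y : S.X₂.obj.ρ.invariants) : S.X₂.obj.V),
    (smHZeroEquiv S.X₂ y).2, ?_⟩
  have h1 : ((smHZeroEquiv S.X₃ (smHCoeff S.g 0 y) : S.X₃.obj.ρ.invariants) : S.X₃.obj.V) =
      S.g.hom.hom ((smHZeroEquiv S.X₂ y : S.X₂.obj.ρ.invariants) : S.X₂.obj.V) :=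
    smHZeroEquiv_naturality S.g y
  rw [← h1, hy, LinearEquiv.apply_symm_apply]

end LES


section Rec

variable {k : Type} [CommRing k]

/-- The image of an invariant vector under a morphism is invariant. -/
lemma smRep_map_invariant {A B : SmRep k 𝒰} (φ : A ⟶ B) {a : A.obj.V} (ha : ∀ g, A.obj.ρ g a = a)
    (g : Γ) : B.obj.ρ g (φ.hom.hom a) = φ.hom.hom a := by
  rw [← Rep.hom_comm_apply, ha g]

lemma ofInvariant_comp {A B : SmRep k 𝒰} (φ : A ⟶ B) (a : A.obj.V)
    (ha : ∀ g, A.obj.ρ g a = a) :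
    ofInvariant A a ha ≫ φ = ofInvariant B (φ.hom.hom a) (smRep_map_invariant φ ha) := by
  apply ObjectProperty.hom_ext
  apply Rep.hom_ext
  apply Representation.IntertwiningMap.ext
  apply LinearMap.ext
  intro c
  change φ.hom.hom (c • a) = c • φ.hom.hom a
  exact map_smul _ _ _

variable (p : ℕ) [hp : Fact p.Prime]

/-- Naturality of the reciprocity pairing in the formation module. -/
lemma recMap_map {C D : SmRep ℤ 𝒰} (φ : C ⟶ D) (inv : smH 𝒰 D 2 →+ AddCircle (1 : ℚ))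
    (c : C.obj.V) (hc : ∀ g, C.obj.ρ g c = c) :
    recMap 𝒰 p D inv (φ.hom.hom c) (smRep_map_invariant φ hc) =
      recMap 𝒰 p C (inv.comp (smHCoeff φ 2).toAddMonoidHom) c hc := by
  ext x
  unfold recMap
  rw [← ofInvariant_comp φ c hc, Functor.map_comp]
  rfl

lemma recMap_congr {C : SmRep ℤ 𝒰} {inv inv' : smH 𝒰 C 2 →+ AddCircle (1 : ℚ)}
    (h : ∀ x, inv x = inv' x) (c : C.obj.V) (hc : ∀ g, C.obj.ρ g c = c) :
    recMap 𝒰 p C inv c hc = recMap 𝒰 p C inv' c hc := by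
  have : inv = inv' := AddMonoidHom.ext h
  rw [this]

variable {p}

/-- Transfer of the base axioms along a morphism inducing bijections on `H¹` and `H²`. -/
theorem IsBaseCF.of_map {C D : SmRep ℤ 𝒰} (φ : C ⟶ D)
    {invC : smH 𝒰 C 2 →+ AddCircle (1 : ℚ)} {invD : smH 𝒰 D 2 →+ AddCircle (1 : ℚ)}
    (hinv : ∀ x, invD (smHCoeff φ 2 x) = invC x)
    (h1 : Function.Bijective (smHCoeff φ 1))
    (h2 : Function.Bijective (smHCoeff φ 2))
    (hC : IsBaseCF 𝒰 p C invC) : IsBaseCF 𝒰 p D invD where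
  h1_bij := by
    constructor
    · intro x y hxy
      obtain ⟨x', rfl⟩ := h1.2 x
      obtain ⟨y', rfl⟩ := h1.2 y
      have hxy' : p • smHCoeff φ 1 x' = p • smHCoeff φ 1 y' := hxy
      rw [← map_nsmul, ← map_nsmul] at hxy'
      rw [hC.h1_bij.1 (h1.1 hxy')]
    · intro x
      obtain ⟨x', rfl⟩ := h1.2 x
      obtain ⟨y', hy'⟩ := hC.h1_bij.2 x'
      refine ⟨smHCoeff φ 1 y', ?_⟩
      change p • smHCoeff φ 1 y' = _
      rw [← map_nsmul]
      exact congrArg _ hy'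
  inv_inj := by
    intro x hx hix
    obtain ⟨x', rfl⟩ := h2.2 x
    rw [← map_nsmul] at hx
    have hx' : p • x' = 0 := h2.1 (hx.trans (map_zero _).symm)
    rw [hinv] at hix
    rw [hC.inv_inj x' hx' hix]
    exact map_zero _
  inv_surj := by
    obtain ⟨x, hx, hix⟩ := hC.inv_surj
    refine ⟨smHCoeff φ 2 x, ?_, ?_⟩
    · rw [← map_nsmul, hx]
      exact map_zero _
    · rw [hinv, hix]
  h2_div := by
    intro x
    obtain ⟨x', rfl⟩ := h2.2 x
    obtain ⟨y', hy'⟩ := hC.h2_div x'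
    refine ⟨smHCoeff φ 2 y', ?_⟩
    rw [← map_nsmul, hy']
  rec_surj := by
    intro ψ
    obtain ⟨c, hc, hcψ⟩ := hC.rec_surj ψ
    refine ⟨φ.hom.hom c, smRep_map_invariant φ hc, ?_⟩
    rw [recMap_map, ← hcψ]
    exact recMap_congr p hinv c hc

/-- Transfer of the global base axioms along a morphism inducing a bijection on `H³` and a
surjection on invariants. -/
theorem IsBaseCF.IsGlobal.of_map {C D : SmRep ℤ 𝒰} (φ : C ⟶ D)
    {invC : smH 𝒰 C 2 →+ AddCircle (1 : ℚ)} {invD : smH 𝒰 D 2 →+ AddCircle (1 : ℚ)}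
    (hinv : ∀ x, invD (smHCoeff φ 2 x) = invC x)
    (h3 : Function.Bijective (smHCoeff φ 3))
    (hlift : ∀ d : D.obj.V, (∀ g, D.obj.ρ g d = d) →
      ∃ c : C.obj.V, (∀ g, C.obj.ρ g c = c) ∧ φ.hom.hom c = d)
    (hC : IsBaseCF.IsGlobal 𝒰 p C invC) : IsBaseCF.IsGlobal 𝒰 p D invD where
  h3 := by
    intro x hx
    obtain ⟨x', rfl⟩ := h3.2 x
    rw [← map_nsmul] at hx
    have hx' : p • x' = 0 := h3.1 (hx.trans (map_zero _).symm)
    rw [hC.h3 x' hx']
    exact map_zero _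
  rec_ker := by
    intro d hd hrec
    obtain ⟨c, hc, rfl⟩ := hlift d hd
    have h1 : recMap 𝒰 p C invC c hc = 0 := by
      rw [← recMap_congr p (inv := invD.comp (smHCoeff φ 2).toAddMonoidHom) hinv c hc]
      exact (recMap_map p φ invD c hc).symm.trans hrec
    obtain ⟨c', hc', hpc'⟩ := hC.rec_ker c hc h1
    refine ⟨φ.hom.hom c', smRep_map_invariant φ hc', ?_⟩
    rw [← map_nsmul, hpc']

end Rec

section Formation

variable {k : Type} [CommRing k]

/-- Restriction commutes with the maps induced by morphisms of coefficients. -/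
lemma smRes_smHCoeff {A B : SmRep k 𝒰} (f : A ⟶ B) (U : Subgroup Γ) (n : ℕ) (x : smH 𝒰 A n) :
    (smRes B U n).hom (smHCoeff f n x) =
      smHCoeff ((resSm k U.subtype (OpenBasis.Finer.refl _)).map f) n ((smRes A U n).hom x) := by
  have h := smHRes_naturality U.subtype (OpenBasis.Finer.refl _) f n
  exact (congrArg (fun t => t.hom x) h).symm

variable {p : ℕ} [hp : Fact p.Prime]

/-- Transfer of a `p`-class formation along a morphism `φ : C ⟶ D` inducing bijections on `H¹`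
and `H²` for `Γ` and all its open subgroups. -/
noncomputable def PClassFormation.ofMap {C D : SmRep ℤ 𝒰} (φ : C ⟶ D)
    (h2 : Function.Bijective (smHCoeff φ 2))
    (h2U : ∀ (U : Subgroup Γ), 𝒰.IsOpen U → Function.Bijective
      (smHCoeff ((resSm ℤ U.subtype (OpenBasis.Finer.refl _)).map φ) 2))
    (h1 : Function.Bijective (smHCoeff φ 1))
    (h1U : ∀ (U : Subgroup Γ), 𝒰.IsOpen U → Function.Bijective
      (smHCoeff ((resSm ℤ U.subtype (OpenBasis.Finer.refl _)).map φ) 1))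
    (F : PClassFormation 𝒰 p C) : PClassFormation 𝒰 p D where
  inv := F.inv.comp (LinearEquiv.ofBijective (smHCoeff φ 2) h2).symm.toLinearMap.toAddMonoidHom
  invU U hU := (F.invU U hU).comp (LinearEquiv.ofBijective
    (smHCoeff ((resSm ℤ U.subtype (OpenBasis.Finer.refl _)).map φ) 2)
      (h2U U hU)).symm.toLinearMap.toAddMonoidHom
  base := IsBaseCF.of_map φ (fun x => by
    change F.inv ((LinearEquiv.ofBijective (smHCoeff φ 2) h2).symm (smHCoeff φ 2 x)) = _
    rw [LinearEquiv.ofBijective_symm_apply_apply]) h1 h2 F.base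
  baseU U hU := IsBaseCF.of_map ((resSm ℤ U.subtype (OpenBasis.Finer.refl _)).map φ) (fun x => by
    change F.invU U hU ((LinearEquiv.ofBijective _ (h2U U hU)).symm (smHCoeff _ 2 x)) = _
    rw [LinearEquiv.ofBijective_symm_apply_apply])
    (h1U U hU) (h2U U hU) (F.baseU U hU)
  inv_res U hU y := by
    obtain ⟨x, rfl⟩ := h2.2 y
    rw [smRes_smHCoeff]
    change F.invU U hU ((LinearEquiv.ofBijective _ (h2U U hU)).symm (smHCoeff _ 2 _)) =
      U.index • F.inv ((LinearEquiv.ofBijective (smHCoeff φ 2) h2).symm (smHCoeff φ 2 x))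
    rw [LinearEquiv.ofBijective_symm_apply_apply, LinearEquiv.ofBijective_symm_apply_apply]
    exact F.inv_res U hU x
  res_surj U hU x hx := by
    obtain ⟨x', rfl⟩ := (h2U U hU).2 x
    rw [← map_nsmul] at hx
    have hx' : p • x' = 0 := (h2U U hU).1 (hx.trans (map_zero _).symm)
    obtain ⟨y', rfl⟩ := F.res_surj U hU x' hx'
    exact ⟨smHCoeff φ 2 y', smRes_smHCoeff φ U 2 y'⟩

lemma PClassFormation.ofMap_inv_apply {C D : SmRep ℤ 𝒰} (φ : C ⟶ D)
    (h2 : Function.Bijective (smHCoeff φ 2))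
    (h2U : ∀ (U : Subgroup Γ), 𝒰.IsOpen U → Function.Bijective
      (smHCoeff ((resSm ℤ U.subtype (OpenBasis.Finer.refl _)).map φ) 2))
    (h1 : Function.Bijective (smHCoeff φ 1))
    (h1U : ∀ (U : Subgroup Γ), 𝒰.IsOpen U → Function.Bijective
      (smHCoeff ((resSm ℤ U.subtype (OpenBasis.Finer.refl _)).map φ) 1))
    (F : PClassFormation 𝒰 p C) (x : smH 𝒰 C 2) :
    (PClassFormation.ofMap φ h2 h2U h1 h1U F).inv (smHCoeff φ 2 x) = F.inv x := by
  change F.inv ((LinearEquiv.ofBijective (smHCoeff φ 2) h2).symm (smHCoeff φ 2 x)) = _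
  rw [LinearEquiv.ofBijective_symm_apply_apply]

lemma PClassFormation.ofMap_invU_apply {C D : SmRep ℤ 𝒰} (φ : C ⟶ D)
    (h2 : Function.Bijective (smHCoeff φ 2))
    (h2U : ∀ (U : Subgroup Γ), 𝒰.IsOpen U → Function.Bijective
      (smHCoeff ((resSm ℤ U.subtype (OpenBasis.Finer.refl _)).map φ) 2))
    (h1 : Function.Bijective (smHCoeff φ 1))
    (h1U : ∀ (U : Subgroup Γ), 𝒰.IsOpen U → Function.Bijective
      (smHCoeff ((resSm ℤ U.subtype (OpenBasis.Finer.refl _)).map φ) 1))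
    (F : PClassFormation 𝒰 p C) (U : Subgroup Γ) (hU : 𝒰.IsOpen U)
    (x : smH (𝒰.sub U) (resSub C U) 2) :
    (PClassFormation.ofMap φ h2 h2U h1 h1U F).invU U hU
      (smHCoeff ((resSm ℤ U.subtype (OpenBasis.Finer.refl _)).map φ) 2 x) = F.invU U hU x := by
  change F.invU U hU ((LinearEquiv.ofBijective _ (h2U U hU)).symm (smHCoeff _ 2 x)) = _
  rw [LinearEquiv.ofBijective_symm_apply_apply]

/-- The transferred formation is global if the original one is, provided `φ` also induces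
bijections on `H³` and surjections on invariants (for `Γ` and all open subgroups). -/
theorem PClassFormation.IsGlobal.ofMap {C D : SmRep ℤ 𝒰} (φ : C ⟶ D)
    (h2 : Function.Bijective (smHCoeff φ 2))
    (h2U : ∀ (U : Subgroup Γ), 𝒰.IsOpen U → Function.Bijective
      (smHCoeff ((resSm ℤ U.subtype (OpenBasis.Finer.refl _)).map φ) 2))
    (h1 : Function.Bijective (smHCoeff φ 1))
    (h1U : ∀ (U : Subgroup Γ), 𝒰.IsOpen U → Function.Bijective
      (smHCoeff ((resSm ℤ U.subtype (OpenBasis.Finer.refl _)).map φ) 1))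
    (h3 : Function.Bijective (smHCoeff φ 3))
    (h3U : ∀ (U : Subgroup Γ), 𝒰.IsOpen U → Function.Bijective
      (smHCoeff ((resSm ℤ U.subtype (OpenBasis.Finer.refl _)).map φ) 3))
    (hlift : ∀ d : D.obj.V, (∀ g, D.obj.ρ g d = d) →
      ∃ c : C.obj.V, (∀ g, C.obj.ρ g c = c) ∧ φ.hom.hom c = d)
    (hliftU : ∀ (U : Subgroup Γ), 𝒰.IsOpen U → ∀ d : (resSub D U).obj.V,
      (∀ g, (resSub D U).obj.ρ g d = d) → ∃ c : (resSub C U).obj.V,
        (∀ g, (resSub C U).obj.ρ g c = c) ∧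
          ((resSm ℤ U.subtype (OpenBasis.Finer.refl _)).map φ).hom.hom c = d)
    {F : PClassFormation 𝒰 p C} (hF : F.IsGlobal) :
    (PClassFormation.ofMap φ h2 h2U h1 h1U F).IsGlobal where
  base := IsBaseCF.IsGlobal.of_map φ (PClassFormation.ofMap_inv_apply φ h2 h2U h1 h1U F) h3 hlift
    hF.base
  baseU U hU := IsBaseCF.IsGlobal.of_map ((resSm ℤ U.subtype (OpenBasis.Finer.refl _)).map φ)
    (PClassFormation.ofMap_invU_apply φ h2 h2U h1 h1U F U hU) (h3U U hU) (hliftU U hU)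
    (hF.baseU U hU)

section Epi

variable {S : ShortComplex (SmRep ℤ 𝒰)} (hS : S.ShortExact)

/-- **(T1)** Transfer of a `p`-class formation along an epimorphism `C ↠ D` whose kernel is
cohomologically trivial for `Γ` and all its open subgroups. -/
noncomputable def PClassFormation.ofEpi (hK : ∀ n, ∀ x : smH 𝒰 S.X₁ (n + 1), x = 0)
    (hKU : ∀ (U : Subgroup Γ), 𝒰.IsOpen U → ∀ n,
      ∀ x : smH (𝒰.sub U) (resSub S.X₁ U) (n + 1), x = 0)
    (F : PClassFormation 𝒰 p S.X₂) : PClassFormation 𝒰 p S.X₃ :=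
  PClassFormation.ofMap S.g (smH_map_g_bijective hS 2 (hK 1) (hK 2))
    (fun U hU => smH_map_g_bijective (resSm_shortExact U.subtype (OpenBasis.Finer.refl _) hS) 2
      (hKU U hU 1) (hKU U hU 2))
    (smH_map_g_bijective hS 1 (hK 0) (hK 1))
    (fun U hU => smH_map_g_bijective (resSm_shortExact U.subtype (OpenBasis.Finer.refl _) hS) 1
      (hKU U hU 0) (hKU U hU 1)) F

lemma PClassFormation.ofEpi_inv_apply (hK : ∀ n, ∀ x : smH 𝒰 S.X₁ (n + 1), x = 0)
    (hKU : ∀ (U : Subgroup Γ), 𝒰.IsOpen U → ∀ n,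
      ∀ x : smH (𝒰.sub U) (resSub S.X₁ U) (n + 1), x = 0)
    (F : PClassFormation 𝒰 p S.X₂) (x : smH 𝒰 S.X₂ 2) :
    (PClassFormation.ofEpi hS hK hKU F).inv (smHCoeff S.g 2 x) = F.inv x :=
  PClassFormation.ofMap_inv_apply _ _ _ _ _ F x

lemma PClassFormation.ofEpi_invU_apply (hK : ∀ n, ∀ x : smH 𝒰 S.X₁ (n + 1), x = 0)
    (hKU : ∀ (U : Subgroup Γ), 𝒰.IsOpen U → ∀ n,
      ∀ x : smH (𝒰.sub U) (resSub S.X₁ U) (n + 1), x = 0)
    (F : PClassFormation 𝒰 p S.X₂) (U : Subgroup Γ) (hU : 𝒰.IsOpen U)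
    (x : smH (𝒰.sub U) (resSub S.X₂ U) 2) :
    (PClassFormation.ofEpi hS hK hKU F).invU U hU
      (smHCoeff ((resSm ℤ U.subtype (OpenBasis.Finer.refl _)).map S.g) 2 x) = F.invU U hU x :=
  PClassFormation.ofMap_invU_apply _ _ _ _ _ F U hU x

/-- **(T1)**, global part. -/
theorem PClassFormation.IsGlobal.ofEpi (hK : ∀ n, ∀ x : smH 𝒰 S.X₁ (n + 1), x = 0)
    (hKU : ∀ (U : Subgroup Γ), 𝒰.IsOpen U → ∀ n,
      ∀ x : smH (𝒰.sub U) (resSub S.X₁ U) (n + 1), x = 0)
    {F : PClassFormation 𝒰 p S.X₂} (hF : F.IsGlobal) :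
    (PClassFormation.ofEpi hS hK hKU F).IsGlobal :=
  PClassFormation.IsGlobal.ofMap S.g _ _ _ _ (smH_map_g_bijective hS 3 (hK 2) (hK 3))
    (fun U hU => smH_map_g_bijective (resSm_shortExact U.subtype (OpenBasis.Finer.refl _) hS) 3
      (hKU U hU 2) (hKU U hU 3))
    (exists_invariant_lift hS (hK 0))
    (fun U hU => exists_invariant_lift
      (resSm_shortExact U.subtype (OpenBasis.Finer.refl _) hS) (hKU U hU 0)) hF

end Epi

end Formation

end Fermat.Agent.CFT.Sm
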