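/-
S55 / CFT (U3, `p`-divisible comparison) — helper5.
For `X : SmRep ℤ 𝒰` finitely generated and killed by the prime `p`, and `A` a `p`-divisible smooth
representation: **`smHomCompare p X hX A hA n : Ext X A n ≃+ smH 𝒰 ((homSm X).obj A) n`**,
natural among `p`-divisible objects (`smHomCompare_naturality`), compatible with connecting
homomorphisms (`smHomCompare_δ`), explicit in degree `0` (`smHomCompare_zero`,
`smHomZeroEquiv_mk₀`) and compatible with restriction along any continuous homomorphism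
(`smHomCompare_res`, via `resHomSmIso : homSm X ⋙ res ≅ res ⋙ homSm (res X)`).
Ingredients: `ext_family_ext_rel` (relative uniqueness principle), `exists_nsmul_eq_of_injective`
(injective objects of `SmRep ℤ 𝒰` are divisible), `pDivProp` (closed under quotients, enough
injectives), `smHomDelta` (`A ↦ H^•(Γ, Hom(X, A))` as a relative `δ`-functor).
-/
import Fermat.Agent.CFT.Sm.Compare_helper9
import Fermat.Agent.CFT.Sm.Compare_helper5_Retract
import Fermat.Agent.CFT.Sm.ExtTorsion_helper5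

set_option autoImplicit false

universe w v u

open CategoryTheory CategoryTheory.Limits CategoryTheory.Abelian

namespace Fermat.Agent.CFT.Sm

section RelUnique

variable {C : Type u} [Category.{v} C] [Abelian C] [HasExt.{w} C] {P : ObjectProperty C}
  [P.IsClosedUnderQuotients]

/-- Relative uniqueness principle: two families of maps out of `Ext^•(X, -)` on `P`-objects which
are compatible with the connecting maps and agree in degree `0` are equal. -/
theorem ext_family_ext_rel (hP : HasEnoughInjectivesIn P) {X : C}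
    {T : ℕ → P.FullSubcategory → Type*}
    (δT : ∀ (n : ℕ) (S : ShortComplex P.FullSubcategory), RelSE S → T n S.X₃ → T (n + 1) S.X₁)
    (φ ψ : ∀ (n : ℕ) (A : P.FullSubcategory), Ext.{w} X A.obj n → T n A)
    (hφ : ∀ (n : ℕ) (S : ShortComplex P.FullSubcategory) (hS : RelSE S)
      (e : Ext X S.X₃.obj n), φ (n + 1) S.X₁ (e.comp hS.extClass rfl) = δT n S hS (φ n S.X₃ e))
    (hψ : ∀ (n : ℕ) (S : ShortComplex P.FullSubcategory) (hS : RelSE S)
      (e : Ext X S.X₃.obj n), ψ (n + 1) S.X₁ (e.comp hS.extClass rfl) = δT n S hS (ψ n S.X₃ e))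
    (h0 : ∀ (A : P.FullSubcategory) (f : X ⟶ A.obj), φ 0 A (Ext.mk₀ f) = ψ 0 A (Ext.mk₀ f)) :
    ∀ (n : ℕ) (A : P.FullSubcategory) (e : Ext X A.obj n), φ n A e = ψ n A e := by
  intro n
  induction n with
  | zero =>
    intro A e
    obtain ⟨f, rfl⟩ := (Ext.mk₀_bijective X A.obj).2 e
    exact h0 A f
  | succ n ih =>
    intro A e
    obtain ⟨J, f, hJ, hf⟩ := hP A
    have hS : RelSE (relMonoSeq f) := relMonoSeq_se f
    have h1 : e.comp (Ext.mk₀ f.hom) (add_zero (n + 1)) = 0 :=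
      Ext.eq_zero_of_injective (I := J.obj) _
    obtain ⟨e', rfl⟩ := Ext.covariant_sequence_exact₁ X hS e h1 rfl
    exact (hφ n (relMonoSeq f) hS e').trans
      ((congrArg (δT n (relMonoSeq f) hS) (ih _ e')).trans (hψ n (relMonoSeq f) hS e').symm)

end RelUnique

section ResHom

variable {k Γ Γ' : Type} [CommRing k] [Group Γ] [Group Γ'] {𝒰 : OpenBasis Γ}
  {𝒰' : OpenBasis Γ'} (ψ : Γ' →* Γ) (hψ : 𝒰'.Finer (𝒰.comap ψ))
  (X : SmRep k 𝒰) [Module.Finite k X.obj.V]

instance instFiniteResSm : Module.Finite k ((resSm k ψ hψ).obj X).obj.V :=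
  inferInstanceAs (Module.Finite k X.obj.V)

/-- `res Hom(X, A) ⟶ Hom(res X, res A)` (the identity on underlying linear maps). -/
noncomputable def resHomSmHom (A : SmRep k 𝒰) :
    (resSm k ψ hψ).obj ((homSm X).obj A) ⟶
      (homSm ((resSm k ψ hψ).obj X)).obj ((resSm k ψ hψ).obj A) :=
  ObjectProperty.homMk (Rep.ofHom ⟨LinearMap.id, fun g => by
    apply LinearMap.ext
    intro f
    apply LinearMap.ext
    intro x
    change A.obj.ρ (ψ g) ((homSmFun X f) (X.obj.ρ ((ψ g)⁻¹) x)) =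
      A.obj.ρ (ψ g) ((homSmFun X f) (X.obj.ρ (ψ g⁻¹) x))
    rw [map_inv ψ g]⟩)

lemma resHomSmHom_apply (A : SmRep k 𝒰) (f : ((homSm X).obj A).obj.V) (x : X.obj.V) :
    homSmFun ((resSm k ψ hψ).obj X) ((resHomSmHom ψ hψ X A).hom.hom f) x = homSmFun X f x := rfl

/-- `Hom(res X, res A) ⟶ res Hom(X, A)`. -/
noncomputable def resHomSmInv (A : SmRep k 𝒰) :
    (homSm ((resSm k ψ hψ).obj X)).obj ((resSm k ψ hψ).obj A) ⟶
      (resSm k ψ hψ).obj ((homSm X).obj A) :=
  ObjectProperty.homMk (Rep.ofHom ⟨LinearMap.id, fun g => by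
    apply LinearMap.ext
    intro f
    apply LinearMap.ext
    intro x
    change A.obj.ρ (ψ g) ((homSmFun ((resSm k ψ hψ).obj X) f) (X.obj.ρ (ψ g⁻¹) x)) =
      A.obj.ρ (ψ g) ((homSmFun ((resSm k ψ hψ).obj X) f) (X.obj.ρ ((ψ g)⁻¹) x))
    rw [map_inv ψ g]⟩)

/-- `res ∘ Hom(X, -) ≅ Hom(res X, res -)`. -/
noncomputable def resHomSmIso :
    homSm X ⋙ resSm k ψ hψ ≅ resSm k ψ hψ ⋙ homSm ((resSm k ψ hψ).obj X) :=
  NatIso.ofComponents
    (fun A => { hom := resHomSmHom ψ hψ X A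
                inv := resHomSmInv ψ hψ X A
                hom_inv_id := by
                  apply ObjectProperty.hom_ext
                  rfl
                inv_hom_id := by
                  apply ObjectProperty.hom_ext
                  rfl })
    (fun {A B} π => by
      apply ObjectProperty.hom_ext
      rfl)

end ResHom

variable {Γ : Type} [Group Γ] {𝒰 : OpenBasis Γ}

section InjectiveDivisible

/-- Injective objects of `SmRep ℤ 𝒰` are divisible. -/
theorem exists_nsmul_eq_of_injective (J : SmRep ℤ 𝒰) [Injective J] (n : ℕ) (hn : n ≠ 0)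
    (a : J.obj.V) : ∃ b : J.obj.V, n • b = a := by
  obtain ⟨U, hU, hfix⟩ := J.property a
  have hUo : 𝒰.IsOpen U := 𝒰.isOpen_of_mem hU
  let B : SmRep ℤ (𝒰.comap U.subtype) := trivSm ℤ (𝒰.comap U.subtype) ℤ
  let F : SmRep ℤ 𝒰 := (coindSm ℤ 𝒰 (𝒰.comap U.subtype) U.subtype).obj B
  let adj := coindResSmAdjunction ℤ U hUo
  let RJ : SmRep ℤ (𝒰.comap U.subtype) :=
    (resSm ℤ U.subtype (OpenBasis.Finer.refl (𝒰.comap U.subtype))).obj J
  let g₀ : B ⟶ RJ := ofInvariant RJ a (fun g => hfix g.1 g.2)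
  let φ : F ⟶ J := (adj.homEquiv B J).symm g₀
  let f : F.obj.V := (adj.unit.app B).hom.hom (1 : ℤ)
  have hφf : φ.hom.hom f = a := by
    have h1 : adj.unit.app B ≫
        (resSm ℤ U.subtype (OpenBasis.Finer.refl (𝒰.comap U.subtype))).map φ = g₀ := by
      exact (adj.homEquiv_unit (f := φ)).symm.trans ((adj.homEquiv B J).apply_symm_apply g₀)
    have h2 := congrArg (fun t => t.hom.hom (1 : ℤ)) h1
    have h3 : g₀.hom.hom (1 : ℤ) = a := by
      rw [ofInvariant_apply]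
      exact @one_smul ℤ _ _ RJ.obj.hV2.toMulAction a
    exact h2.trans h3
  have hmono : Mono (n • 𝟙 F) := by
    rw [mono_iff_injective]
    intro x y hxy
    rw [smRep_nsmul_hom_apply, smRep_nsmul_hom_apply] at hxy
    have hxy' : n • x = n • y := hxy
    apply coindSmFun_injective U.subtype
    funext h
    have h4 := congrArg (fun t => coindSmFun U.subtype t h) hxy'
    have h5 : ∀ z : F.obj.V, coindSmFun U.subtype (n • z) h = n • coindSmFun U.subtype z h := by
      intro z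
      rw [← natCast_zsmul, ← natCast_zsmul]
      exact coindSmFun_smul U.subtype (n : ℤ) z h
    change coindSmFun U.subtype (n • x) h = coindSmFun U.subtype (n • y) h at h4
    rw [h5, h5] at h4
    have h6 : ∀ u v : ℤ, n • u = n • v → u = v := by
      intro u v huv
      have h7 : u = v ∨ n = 0 := by simpa [nsmul_eq_mul] using huv
      exact h7.resolve_right hn
    exact h6 _ _ h4
  let ψ : F ⟶ J := Injective.factorThru φ (n • 𝟙 F)
  have hψ : (n • 𝟙 F) ≫ ψ = φ := Injective.comp_factorThru φ (n • 𝟙 F)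
  refine ⟨ψ.hom.hom f, ?_⟩
  rw [← hφf, ← hψ]
  change n • ψ.hom.hom f = ψ.hom.hom ((n • 𝟙 F : F ⟶ F).hom.hom f)
  rw [smRep_nsmul_hom_apply, map_nsmul]
  rfl

end InjectiveDivisible

section PDiv

variable (𝒰) (p : ℕ)

/-- The class of `p`-divisible smooth representations. -/
def pDivProp : ObjectProperty (SmRep ℤ 𝒰) := fun A => ∀ a : A.obj.V, ∃ b : A.obj.V, p • b = a

instance : (pDivProp 𝒰 p).IsClosedUnderQuotients where
  prop_of_epi {A B} f _ hA := by
    intro b
    obtain ⟨a, rfl⟩ := (epi_iff_surjective f).1 inferInstance b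
    obtain ⟨a', rfl⟩ := hA a
    exact ⟨f.hom.hom a', (map_nsmul _ _ _).symm⟩

variable [hp : Fact p.Prime]

lemma hasEnoughInjectivesIn_pDivProp : HasEnoughInjectivesIn (pDivProp 𝒰 p) := fun A =>
  ⟨⟨Injective.under A.obj, fun a =>
      exists_nsmul_eq_of_injective (Injective.under A.obj) p hp.out.ne_zero a⟩,
    ObjectProperty.homMk (Injective.ι A.obj),
    inferInstanceAs (Injective (Injective.under A.obj)),
    inferInstanceAs (Mono (Injective.ι A.obj))⟩

end PDiv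

section HomDelta

variable (p : ℕ) [hp : Fact p.Prime] (X : SmRep ℤ 𝒰) [@Module.Finite ℤ X.obj.V _ _ X.obj.hV2]
  (hX : ∀ x : X.obj.V, p • x = 0)

include hX in
lemma homSm_relSE (S : ShortComplex (pDivProp 𝒰 p).FullSubcategory) (hS : RelSE S) :
    ((S.map (pDivProp 𝒰 p).ι).map (homSm X)).ShortExact :=
  homSm_shortExact_of_torsion_of_divisible X (fun z => ⟨z, Int.cast_id⟩) p hX hS S.X₁.property

/-- `A ↦ H^•(Γ, Hom(X, A))` as a `δ`-functor on `p`-divisible modules. -/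
noncomputable def smHomDelta : RelDelta.{0} (pDivProp 𝒰 p) :=
  smDelta (homSm X) (pDivProp 𝒰 p) (homSm_relSE p X hX)

/-- It is effaced by injectives. -/
noncomputable def smHomEffacement : (smHomDelta p X hX).Effacement :=
  RelDelta.Effacement.ofInjectives _ (hasEnoughInjectivesIn_pDivProp 𝒰 p)
    (fun J hJ n x => by
      have : Injective J.obj := hJ
      exact smH_homSm_succ_eq_zero_of_injective X J.obj n x)

/-- `Ext⁰(X, A) ≃ H⁰(Γ, Hom(X, A))`. -/
noncomputable def smHomZeroEquiv (A : SmRep ℤ 𝒰) : Ext X A 0 ≃+ smH 𝒰 ((homSm X).obj A) 0 :=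
  Ext.addEquiv₀.trans (smHZeroHomAddEquiv X A).symm

lemma smHomZeroEquiv_mk₀ (A : SmRep ℤ 𝒰) (f : X ⟶ A) :
    smHomZeroEquiv X A (Ext.mk₀ f) = (smHZeroHomAddEquiv X A).symm f := by
  have h2 : Ext.addEquiv₀ (Ext.mk₀ f) = f := Ext.addEquiv₀.apply_symm_apply f
  change (smHZeroHomAddEquiv X A).symm (Ext.addEquiv₀ (Ext.mk₀ f)) = _
  rw [h2]

lemma smHomZeroEquiv_naturality {A B : SmRep ℤ 𝒰} (π : A ⟶ B) (e : Ext X A 0) :
    smHomZeroEquiv X B (e.comp (Ext.mk₀ π) (add_zero 0)) =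
      ((smHFunctor ℤ 𝒰 0).map ((homSm X).map π)).hom (smHomZeroEquiv X A e) := by
  obtain ⟨f, rfl⟩ := (Ext.mk₀_bijective _ _).2 e
  rw [Ext.mk₀_comp_mk₀, smHomZeroEquiv_mk₀, smHomZeroEquiv_mk₀]
  apply (smHZeroHomAddEquiv X B).injective
  rw [AddEquiv.apply_symm_apply, smHZeroHomAddEquiv_naturality, AddEquiv.apply_symm_apply]

/-- the degree-zero comparison -/
noncomputable def smHomZeroIso :
    (extRelDelta.{0} X (pDivProp 𝒰 p)).H 0 ≅ (smHomDelta p X hX).H 0 :=
  NatIso.ofComponents (fun A => (smHomZeroEquiv X A.obj).toAddCommGrpIso)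
    (fun {A B} π => by
      ext e
      exact smHomZeroEquiv_naturality X π.hom e)

/-- the comparison morphism of `δ`-functors `Ext^•(X, -) ⟶ H^•(Γ, Hom(X, -))` -/
noncomputable def smHomCompareHom :
    RelDelta.Hom (extRelDelta.{0} X (pDivProp 𝒰 p)) (smHomDelta p X hX) :=
  (extEffacement X (hasEnoughInjectivesIn_pDivProp 𝒰 p)).lift (smHomZeroIso p X hX).hom

instance (n : ℕ) : IsIso ((smHomCompareHom p X hX).app n) :=
  have : IsIso ((smHomCompareHom p X hX).app 0) := by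
    change IsIso (smHomZeroIso p X hX).hom
    infer_instance
  RelDelta.Hom.isIso_app (extEffacement X (hasEnoughInjectivesIn_pDivProp 𝒰 p))
    (smHomEffacement p X hX) (smHomCompareHom p X hX) n

end HomDelta

section HomCompare

variable (p : ℕ) [hp : Fact p.Prime] (X : SmRep ℤ 𝒰) [@Module.Finite ℤ X.obj.V _ _ X.obj.hV2]
  (hX : ∀ x : X.obj.V, p • x = 0)

/-- a `p`-divisible object as an object of the full subcategory -/
abbrev pDivObj (A : SmRep ℤ 𝒰) (hA : pDivProp 𝒰 p A) : (pDivProp 𝒰 p).FullSubcategory := ⟨A, hA⟩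

/-- **(U3) `p`-divisible comparison**: `Extⁿ(X, A) ≃ Hⁿ(Γ, Hom(X, A))` for `X` killed by `p` and
`A` `p`-divisible. -/
noncomputable def smHomCompare (A : SmRep ℤ 𝒰) (hA : pDivProp 𝒰 p A) (n : ℕ) :
    Ext X A n ≃+ smH 𝒰 ((homSm X).obj A) n :=
  ((asIso ((smHomCompareHom p X hX).app n)).app (pDivObj p A hA)).addCommGroupIsoToAddEquiv

lemma smHomCompare_apply (A : SmRep ℤ 𝒰) (hA : pDivProp 𝒰 p A) (n : ℕ) (e : Ext X A n) :
    smHomCompare p X hX A hA n e =
      ((smHomCompareHom p X hX).app n).app (pDivObj p A hA) e := rfl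

lemma smHomCompare_zero (A : SmRep ℤ 𝒰) (hA : pDivProp 𝒰 p A) (e : Ext X A 0) :
    smHomCompare p X hX A hA 0 e = smHomZeroEquiv X A e := rfl

/-- naturality of the comparison isomorphism (among `p`-divisible objects) -/
lemma smHomCompare_naturality {A B : SmRep ℤ 𝒰} (hA : pDivProp 𝒰 p A) (hB : pDivProp 𝒰 p B)
    (π : A ⟶ B) (n : ℕ) (e : Ext X A n) :
    smHomCompare p X hX B hB n (e.comp (Ext.mk₀ π) (add_zero n)) =
      ((smHFunctor ℤ 𝒰 n).map ((homSm X).map π)).hom (smHomCompare p X hX A hA n e) :=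
  RelDelta.naturality_apply' ((smHomCompareHom p X hX).app n)
    (ObjectProperty.homMk π : pDivObj p A hA ⟶ pDivObj p B hB) e

/-- a short complex of `p`-divisible objects as a short complex in the full subcategory -/
def pDivSC (S : ShortComplex (SmRep ℤ 𝒰)) (h₁ : pDivProp 𝒰 p S.X₁) (h₂ : pDivProp 𝒰 p S.X₂)
    (h₃ : pDivProp 𝒰 p S.X₃) : ShortComplex (pDivProp 𝒰 p).FullSubcategory :=
  ShortComplex.mk (ObjectProperty.homMk S.f : pDivObj p S.X₁ h₁ ⟶ pDivObj p S.X₂ h₂)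
    (ObjectProperty.homMk S.g : pDivObj p S.X₂ h₂ ⟶ pDivObj p S.X₃ h₃)
    (by apply ObjectProperty.hom_ext; exact S.zero)

omit hp in
lemma pDivSC_se {S : ShortComplex (SmRep ℤ 𝒰)} (hS : S.ShortExact) (h₁ : pDivProp 𝒰 p S.X₁)
    (h₂ : pDivProp 𝒰 p S.X₂) (h₃ : pDivProp 𝒰 p S.X₃) : RelSE (pDivSC p S h₁ h₂ h₃) := hS

/-- the comparison isomorphism is compatible with connecting homomorphisms -/
lemma smHomCompare_δ {S : ShortComplex (SmRep ℤ 𝒰)} (hS : S.ShortExact)
    (h₁ : pDivProp 𝒰 p S.X₁) (h₂ : pDivProp 𝒰 p S.X₂) (h₃ : pDivProp 𝒰 p S.X₃)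
    (hS' : (S.map (homSm X)).ShortExact) (n : ℕ) (e : Ext X S.X₃ n) :
    smHomCompare p X hX S.X₁ h₁ (n + 1) (e.comp hS.extClass rfl) =
      (smδ hS' n (n + 1) rfl).hom (smHomCompare p X hX S.X₃ h₃ n e) :=
  (smHomCompareHom p X hX).comm_apply (pDivSC_se p hS h₁ h₂ h₃) n e

end HomCompare

section HomCompareRes

variable {Γ' : Type} [Group Γ'] {𝒰' : OpenBasis Γ'} (ψ : Γ' →* Γ) (hψ : 𝒰'.Finer (𝒰.comap ψ))
  (p : ℕ) [hp : Fact p.Prime] (X : SmRep ℤ 𝒰) [@Module.Finite ℤ X.obj.V _ _ X.obj.hV2]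
  (hX : ∀ x : X.obj.V, p • x = 0)

/-- restriction on `H⁰(Hom(X, A))` in terms of morphisms -/
lemma smHZeroHomAddEquiv_res (A : SmRep ℤ 𝒰) (y : smH 𝒰 ((homSm X).obj A) 0) :
    smHZeroHomAddEquiv ((resSm ℤ ψ hψ).obj X) ((resSm ℤ ψ hψ).obj A)
      (((smHFunctor ℤ 𝒰' 0).map (resHomSmHom ψ hψ X A)).hom
        ((smHRes ψ hψ ((homSm X).obj A) 0).hom y)) =
      (resSm ℤ ψ hψ).map (smHZeroHomAddEquiv X A y) := by
  apply ObjectProperty.hom_ext
  ext
  refine DFunLike.ext _ _ fun x => ?_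
  have h1 := smHZeroEquiv_naturality (resHomSmHom ψ hψ X A)
    ((smHRes ψ hψ ((homSm X).obj A) 0).hom y)
  have h2 := smHZeroEquiv_smHRes ψ hψ ((homSm X).obj A) y
  have h3 := congrArg (fun t => homSmFun ((resSm ℤ ψ hψ).obj X) t x) h1
  refine h3.trans ?_
  have h4 := congrArg (fun t => homSmFun X t x) h2
  exact h4

/-- **(U3)** The `p`-divisible comparison isomorphism is compatible with restriction. -/
theorem smHomCompare_res (A : SmRep ℤ 𝒰) (hA : pDivProp 𝒰 p A) (n : ℕ) (e : Ext X A n) :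
    smHomCompare p ((resSm ℤ ψ hψ).obj X) hX ((resSm ℤ ψ hψ).obj A) hA n
        (e.mapExactFunctor (resSm ℤ ψ hψ)) =
      ((smHFunctor ℤ 𝒰' n).map (resHomSmHom ψ hψ X A)).hom
        ((smHRes ψ hψ ((homSm X).obj A) n).hom (smHomCompare p X hX A hA n e)) := by
  have hRS : ∀ (S : ShortComplex (pDivProp 𝒰 p).FullSubcategory), RelSE S →
      (((S.map (pDivProp 𝒰 p).ι).map (resSm ℤ ψ hψ)).map
        (homSm ((resSm ℤ ψ hψ).obj X))).ShortExact := fun S hS =>
    homSm_shortExact_of_torsion_of_divisible ((resSm ℤ ψ hψ).obj X) (fun z => ⟨z, Int.cast_id⟩) p hX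
      (resSm_shortExact ψ hψ hS) S.X₁.property
  refine ext_family_ext_rel (hasEnoughInjectivesIn_pDivProp 𝒰 p) (X := X)
    (T := fun n A => smH 𝒰' ((homSm ((resSm ℤ ψ hψ).obj X)).obj ((resSm ℤ ψ hψ).obj A.obj)) n)
    (fun n S hS t => (smδ (hRS S hS) n (n + 1) rfl).hom t)
    (fun n A e => smHomCompare p ((resSm ℤ ψ hψ).obj X) hX ((resSm ℤ ψ hψ).obj A.obj) A.property n
        (e.mapExactFunctor (resSm ℤ ψ hψ)))
    (fun n A e => ((smHFunctor ℤ 𝒰' n).map (resHomSmHom ψ hψ X A.obj)).hom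
        ((smHRes ψ hψ ((homSm X).obj A.obj) n).hom (smHomCompare p X hX A.obj A.property n e)))
    ?_ ?_ ?_ n (pDivObj p A hA) e
  · intro n S hS e
    have h1 : (e.comp hS.extClass rfl).mapExactFunctor (resSm ℤ ψ hψ) =
        (e.mapExactFunctor (resSm ℤ ψ hψ)).comp (resSm_shortExact ψ hψ hS).extClass rfl :=
      (Ext.mapExactFunctor_comp (resSm ℤ ψ hψ) e hS.extClass rfl).trans
        (congrArg (fun t => (e.mapExactFunctor (resSm ℤ ψ hψ)).comp t
          (show n + 1 = n + 1 from rfl)) (Ext.mapExactFunctor_extClass (resSm ℤ ψ hψ) hS))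
    change smHomCompare p ((resSm ℤ ψ hψ).obj X) hX ((resSm ℤ ψ hψ).obj S.X₁.obj) S.X₁.property
      (n + 1) ((e.comp hS.extClass rfl).mapExactFunctor (resSm ℤ ψ hψ)) = _
    rw [h1]
    exact smHomCompare_δ p ((resSm ℤ ψ hψ).obj X) hX (resSm_shortExact ψ hψ hS)
      S.X₁.property S.X₂.property S.X₃.property (hRS S hS) n _
  · intro n S hS e
    have hS' : ((S.map (pDivProp 𝒰 p).ι).map (homSm X)).ShortExact := homSm_relSE p X hX S hS
    have h1 : smHomCompare p X hX S.X₁.obj S.X₁.property (n + 1) (e.comp hS.extClass rfl) =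
        (smδ hS' n (n + 1) rfl).hom (smHomCompare p X hX S.X₃.obj S.X₃.property n e) :=
      smHomCompare_δ p X hX hS S.X₁.property S.X₂.property S.X₃.property hS' n e
    have h2 := smδ_smHRes ψ hψ hS' n (n + 1) rfl
    have h2' := congrArg (fun f => f.hom (smHomCompare p X hX S.X₃.obj S.X₃.property n e)) h2
    have h3 := smδ_naturality_apply (resSm_shortExact ψ hψ hS') (hRS S hS)
      ((S.map (pDivProp 𝒰 p).ι).mapNatTrans (resHomSmIso ψ hψ X).hom) n (n + 1) rfl
      ((smHRes ψ hψ ((homSm X).obj S.X₃.obj) n).hom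
        (smHomCompare p X hX S.X₃.obj S.X₃.property n e))
    change ((smHFunctor ℤ 𝒰' (n + 1)).map (resHomSmHom ψ hψ X S.X₁.obj)).hom
      ((smHRes ψ hψ ((homSm X).obj S.X₁.obj) (n + 1)).hom
        (smHomCompare p X hX S.X₁.obj S.X₁.property (n + 1) (e.comp hS.extClass rfl))) = _
    rw [h1]
    refine Eq.trans ?_ h3
    exact congrArg (fun t => ((smHFunctor ℤ 𝒰' (n + 1)).map (resHomSmHom ψ hψ X S.X₁.obj)).hom t)
      h2'
  · intro A f
    have h1 : (Ext.mk₀ f).mapExactFunctor (resSm ℤ ψ hψ) = Ext.mk₀ ((resSm ℤ ψ hψ).map f) :=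
      Ext.mapExactFunctor_mk₀ (resSm ℤ ψ hψ) f
    change smHomCompare p ((resSm ℤ ψ hψ).obj X) hX ((resSm ℤ ψ hψ).obj A.obj) A.property 0
        ((Ext.mk₀ f).mapExactFunctor (resSm ℤ ψ hψ)) =
      ((smHFunctor ℤ 𝒰' 0).map (resHomSmHom ψ hψ X A.obj)).hom
        ((smHRes ψ hψ ((homSm X).obj A.obj) 0).hom
          (smHomCompare p X hX A.obj A.property 0 (Ext.mk₀ f)))
    rw [h1, smHomCompare_zero, smHomCompare_zero, smHomZeroEquiv_mk₀, smHomZeroEquiv_mk₀]
    apply (smHZeroHomAddEquiv ((resSm ℤ ψ hψ).obj X) ((resSm ℤ ψ hψ).obj A.obj)).injective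
    rw [AddEquiv.apply_symm_apply, smHZeroHomAddEquiv_res, AddEquiv.apply_symm_apply]

end HomCompareRes

end Fermat.Agent.CFT.Sm
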