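/-
S55 / CFT (LG'.d) — helper2.
The kernel of inflation `H²(Γ ⧸ U, A^U) ⟶ smH²(Γ, A)` from a finite level: a class `y` dying in
smooth cohomology has an obstruction class in `smH¹(U, A)`; if `e` kills the obstruction then
`e • y = 0`.  Consequence: if `smH¹(U, A)` has no `p`-torsion, inflation from the level `U` kills
no nonzero `p`-power torsion class.  (Refactoring of helper4's `inflLevel_two_injective`.)
-/
import Fermat.Agent.CFT.Sm.FL_helper4_Low
import Fermat.Agent.CFT.Sm.FL_helper4_Colim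
import Fermat.Agent.CFT.Coh.Torsion_helper9

set_option autoImplicit false
set_option linter.unusedSectionVars false
set_option linter.style.haveILetI false

open CategoryTheory CategoryTheory.Limits groupCohomology

namespace Fermat.Agent.CFT.Sm

variable {k Γ : Type} [CommRing k] [Group Γ] {𝒰 : OpenBasis Γ}

section Obstruction

variable (A : SmRep k 𝒰) (U : Subgroup Γ) [U.Normal] (hU : 𝒰.IsOpen U)

/-- The value `z(1,1)` of a level-`U` 2-cocycle, as an element of `A`. -/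
noncomputable def levelCocycleOne (z : levelCocycles A U 2) : A.obj.V :=
  (((z : (Fin 2 → Γ ⧸ U) → (levelRep A U).V) ![1, 1] : (levelRep A U).V) : A.obj.V)

/-- The 1-cochain on `U` attached to a trivialisation `h` of the inflation of `z`:
`u ↦ h u - z(1,1)`. -/
noncomputable def obstrFun (z : levelCocycles A U 2) (h : lcCochains 𝒰 A.obj 1) :
    (Fin 1 → U) → A.obj.V :=
  fun x => (h : (Fin 1 → Γ) → A.obj.V) (U.subtype ∘ x) - levelCocycleOne A U z

lemma obstrFun_mem_lcCochains (z : levelCocycles A U 2) (h : lcCochains 𝒰 A.obj 1) :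
    obstrFun A U z h ∈ lcCochains (𝒰.comap U.subtype) (resSub A U).obj 1 :=
  ((IsLevelConstant.precomp U.subtype (OpenBasis.Finer.refl _) h.2).comp
    (· - levelCocycleOne A U z) :)

lemma obstrFun_apply (z : levelCocycles A U 2) (h : lcCochains 𝒰 A.obj 1) (x : Fin 1 → U) :
    obstrFun A U z h x =
      (h : (Fin 1 → Γ) → A.obj.V) (fun _ => ((x 0 : U) : Γ)) - levelCocycleOne A U z := by
  have : (U.subtype ∘ x) = fun _ => ((x 0 : U) : Γ) := by
    funext i; rw [Subsingleton.elim i 0]; rfl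
  change (h : (Fin 1 → Γ) → A.obj.V) (U.subtype ∘ x) - _ = _
  rw [this]

/-- the coboundary equation `z(g₀, g₁) = g₀ h(g₁) - h(g₀ g₁) + h(g₀)`. -/
lemma infl_eq_d_apply (z : levelCocycles A U 2) (h : lcCochains 𝒰 A.obj 1)
    (hh : (lcD 𝒰 A 1).hom h = (inflCocycles A U hU 2 z).1) (g₀ g₁ : Γ) :
    (((z : (Fin 2 → Γ ⧸ U) → (levelRep A U).V) ![(g₀ : Γ ⧸ U), (g₁ : Γ ⧸ U)] :
      (levelRep A U).V) : A.obj.V) =
      A.obj.ρ g₀ ((h : (Fin 1 → Γ) → A.obj.V) (fun _ => g₁)) -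
        (h : (Fin 1 → Γ) → A.obj.V) (fun _ => g₀ * g₁) +
        (h : (Fin 1 → Γ) → A.obj.V) (fun _ => g₀) := by
  have e := congrFun (congrArg Subtype.val hh) ![g₀, g₁]
  rw [lcD_apply_coe, d_one_apply] at e
  rw [inflCocycles_apply] at e
  have e2 : (fun i => ((![g₀, g₁] i : Γ) : Γ ⧸ U)) = ![(g₀ : Γ ⧸ U), (g₁ : Γ ⧸ U)] := by
    funext i; fin_cases i <;> rfl
  rw [e2] at e
  exact e.symm

lemma obstrFun_mem_lcCocycles (z : levelCocycles A U 2) (h : lcCochains 𝒰 A.obj 1)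
    (hh : (lcD 𝒰 A 1).hom h = (inflCocycles A U hU 2 z).1) :
    (⟨obstrFun A U z h, obstrFun_mem_lcCochains A U z h⟩ :
      lcCochains (𝒰.comap U.subtype) (resSub A U).obj 1) ∈
      lcCocycles (𝒰.comap U.subtype) (resSub A U) 1 := by
  set ĥ : Γ → A.obj.V := fun g => (h : (Fin 1 → Γ) → A.obj.V) (fun _ => g) with hĥ
  set c : A.obj.V := levelCocycleOne A U z with hc
  have hmk1 : ∀ u : Γ, u ∈ U → ((u : Γ) : Γ ⧸ U) = 1 :=
    fun u hu => (QuotientGroup.eq_one_iff _).2 hu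
  have hcfix : ∀ u : Γ, u ∈ U → A.obj.ρ u c = c := fun u hu => levelRep_fixed A U _ u hu
  rw [mem_lcCocycles_iff]
  funext x
  rw [d_one_apply]
  change A.obj.ρ (x 0 : Γ) (obstrFun A U z h _) - obstrFun A U z h _ + obstrFun A U z h _ = 0
  rw [obstrFun_apply, obstrFun_apply, obstrFun_apply]
  have e := infl_eq_d_apply A U hU z h hh (x 0 : Γ) (x 1 : Γ)
  rw [hmk1 _ (x 0).2, hmk1 _ (x 1).2] at e
  have e3 : (((x 0 * x 1 : U) : U) : Γ) = (x 0 : Γ) * (x 1 : Γ) := rfl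
  rw [map_sub, hcfix _ (x 0).2]
  change A.obj.ρ (x 0 : Γ) (ĥ (x 1 : Γ)) - c - (ĥ ((x 0 : Γ) * (x 1 : Γ)) - c) +
        (ĥ (x 0 : Γ) - c) = 0
  have : A.obj.ρ (x 0 : Γ) (ĥ (x 1 : Γ)) - c - (ĥ ((x 0 : Γ) * (x 1 : Γ)) - c) +
      (ĥ (x 0 : Γ) - c) =
      (A.obj.ρ (x 0 : Γ) (ĥ (x 1 : Γ)) - ĥ ((x 0 : Γ) * (x 1 : Γ)) + ĥ (x 0 : Γ)) - c := by
    abel
  rw [this]
  change _ - levelCocycleOne A U z = 0
  rw [levelCocycleOne, ← e, sub_self]

/-- The obstruction cocycle in `Z¹(U, A)` of a trivialisation `h` of the inflation of `z`. -/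
noncomputable def obstrCocycle (z : levelCocycles A U 2) (h : lcCochains 𝒰 A.obj 1)
    (hh : (lcD 𝒰 A 1).hom h = (inflCocycles A U hU 2 z).1) :
    lcCocycles (𝒰.comap U.subtype) (resSub A U) 1 :=
  ⟨⟨obstrFun A U z h, obstrFun_mem_lcCochains A U z h⟩, obstrFun_mem_lcCocycles A U hU z h hh⟩

/-- **Core**: if the obstruction cocycle `u ↦ h u - z(1,1)` is the coboundary of `a`, the class
of `z` at the level `U` vanishes. -/
theorem levelMk_eq_zero_of_obstr (z : levelCocycles A U 2) (h : lcCochains 𝒰 A.obj 1)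
    (hh : (lcD 𝒰 A 1).hom h = (inflCocycles A U hU 2 z).1) (a : A.obj.V)
    (hya : ∀ u : Γ, u ∈ U → (h : (Fin 1 → Γ) → A.obj.V) (fun _ => u) - levelCocycleOne A U z =
      A.obj.ρ u a - a) :
    levelMk A U 2 z = 0 := by
  set ĥ : Γ → A.obj.V := fun g => (h : (Fin 1 → Γ) → A.obj.V) (fun _ => g) with hĥ
  set Z : Γ ⧸ U → Γ ⧸ U → A.obj.V := fun q₀ q₁ =>
    (((z : (Fin 2 → Γ ⧸ U) → (levelRep A U).V) ![q₀, q₁] : (levelRep A U).V) : A.obj.V) with hZ
  have hZfix : ∀ q₀ q₁ (u : Γ), u ∈ U → A.obj.ρ u (Z q₀ q₁) = Z q₀ q₁ :=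
    fun q₀ q₁ u hu => levelRep_fixed A U _ u hu
  have hmk1 : ∀ u : Γ, u ∈ U → ((u : Γ) : Γ ⧸ U) = 1 :=
    fun u hu => (QuotientGroup.eq_one_iff _).2 hu
  have E1 : ∀ g₀ g₁ : Γ, Z g₀ g₁ = A.obj.ρ g₀ (ĥ g₁) - ĥ (g₀ * g₁) + ĥ g₀ :=
    fun g₀ g₁ => infl_eq_d_apply A U hU z h hh g₀ g₁
  have hcoc : ∀ (g₀ : Γ) (q₁ q₂ : Γ ⧸ U),
      A.obj.ρ g₀ (Z q₁ q₂) - Z ((g₀ : Γ ⧸ U) * q₁) q₂ + Z g₀ (q₁ * q₂) - Z g₀ q₁ = 0 := by
    intro g₀ q₁ q₂
    have e := congrFun ((mem_levelCocycles_iff A U 2 z.1).1 z.2) ![(g₀ : Γ ⧸ U), q₁, q₂]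
    rw [d_two_apply] at e
    have e' := congrArg (Subtype.val : (levelRep A U).V → A.obj.V) e
    exact e'
  set c : A.obj.V := Z 1 1 with hc
  have hcc : levelCocycleOne A U z = c := rfl
  have C1 : ∀ q, Z 1 q = c := by
    intro q
    have e := hcoc 1 1 q
    rw [map_one, QuotientGroup.mk_one, one_mul, one_mul] at e
    have : Z 1 q - c = 0 := by
      rw [← e]
      simp only [Module.End.one_apply]
      abel
    exact sub_eq_zero.1 this
  have C2 : ∀ g : Γ, Z g 1 = A.obj.ρ g c := by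
    intro g
    have e := hcoc g 1 1
    rw [mul_one, mul_one] at e
    have : A.obj.ρ g c - Z g 1 = 0 := by
      rw [← e]
      abel
    exact (sub_eq_zero.1 this).symm
  have hcfix : ∀ u : Γ, u ∈ U → A.obj.ρ u c = c := fun u hu => hZfix 1 1 u hu
  rw [hcc] at hya
  -- the corrected cochain
  set κ : Γ → A.obj.V := fun g => ĥ g - (A.obj.ρ g a - a) with hκ
  have K0 : ∀ u : Γ, u ∈ U → κ u = c := by
    intro u hu
    have := hya u hu
    change ĥ u - (A.obj.ρ u a - a) = c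
    rw [← this]
    abel
  have K1 : ∀ g₀ g₁ : Γ, Z g₀ g₁ = A.obj.ρ g₀ (κ g₁) - κ (g₀ * g₁) + κ g₀ := by
    intro g₀ g₁
    rw [E1]
    change _ = A.obj.ρ g₀ (ĥ g₁ - (A.obj.ρ g₁ a - a)) - (ĥ (g₀ * g₁) - (A.obj.ρ (g₀ * g₁) a - a)) +
      (ĥ g₀ - (A.obj.ρ g₀ a - a))
    rw [map_sub, map_sub, map_mul, Module.End.mul_apply]
    abel
  have K2 : ∀ (g u : Γ), u ∈ U → κ (g * u) = κ g := by
    intro g u hu
    have e := K1 g u
    rw [hmk1 u hu, C2, K0 u hu] at e
    have : κ g - κ (g * u) = 0 := by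
      have e' : A.obj.ρ g c - κ (g * u) + κ g = A.obj.ρ g c := e.symm
      have : κ g - κ (g * u) = (A.obj.ρ g c - κ (g * u) + κ g) - A.obj.ρ g c := by abel
      rw [this, e', sub_self]
    exact (sub_eq_zero.1 this).symm
  have K3 : ∀ (g u : Γ), u ∈ U → A.obj.ρ u (κ g) = κ (u * g) := by
    intro g u hu
    have e := K1 u g
    rw [hmk1 u hu, C1, K0 u hu] at e
    have : A.obj.ρ u (κ g) - κ (u * g) = 0 := by
      have e' : A.obj.ρ u (κ g) - κ (u * g) + c = c := e.symm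
      have : A.obj.ρ u (κ g) - κ (u * g) = (A.obj.ρ u (κ g) - κ (u * g) + c) - c := by abel
      rw [this, e', sub_self]
    exact sub_eq_zero.1 this
  have K4 : ∀ (g u : Γ), u ∈ U → A.obj.ρ u (κ g) = κ g := by
    intro g u hu
    rw [K3 g u hu]
    have : u * g = g * (g⁻¹ * u * g) := by group
    rw [this]
    refine K2 g _ ?_
    have := Subgroup.Normal.conj_mem (inferInstance : U.Normal) u hu g⁻¹
    simpa using this
  have K5 : ∀ g : Γ, κ ((g : Γ ⧸ U).out) = κ g := by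
    intro g
    have h1 : (((g : Γ ⧸ U).out : Γ) : Γ ⧸ U) = (g : Γ ⧸ U) := QuotientGroup.out_eq' _
    have h2 : g⁻¹ * (g : Γ ⧸ U).out ∈ U := QuotientGroup.eq.1 h1.symm
    have h3 : (g : Γ ⧸ U).out = g * (g⁻¹ * (g : Γ ⧸ U).out) := by group
    rw [h3]
    exact K2 g _ h2
  -- the descended cochain
  let κ' : (Fin 1 → Γ ⧸ U) → (levelRep A U).V := fun q =>
    ⟨κ (q 0).out, fun u => K4 _ u.1 u.2⟩
  rw [levelMk]
  refine (CC.mk_succ_eq_zero_iff _ 1 _).2 ⟨κ', ?_⟩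
  rw [inhomogeneousCochains.d_def]
  apply inflCochains_f_injective A U hU 2
  rw [← lcD_inflCochains]
  apply Subtype.ext
  funext g
  rw [lcD_apply_coe, d_one_apply]
  rw [inflCochains_f_apply_coe, inflCochains_f_apply_coe, inflCochains_f_apply_coe,
    inflCochains_f_apply_coe]
  change A.obj.ρ (g 0) (κ ((g 1 : Γ ⧸ U)).out) - κ (((g 0 * g 1 : Γ) : Γ ⧸ U)).out +
    κ ((g 0 : Γ ⧸ U)).out = _
  rw [K5, K5, K5, ← K1]
  have e2 : (fun i => ((g i : Γ) : Γ ⧸ U)) = ![(g 0 : Γ ⧸ U), (g 1 : Γ ⧸ U)] := by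
    funext i; fin_cases i <;> rfl
  rw [e2]

lemma levelCocycleOne_nsmul (e : ℕ) (z : levelCocycles A U 2) :
    levelCocycleOne A U (e • z) = e • levelCocycleOne A U z := by
  unfold levelCocycleOne
  rw [Submodule.coe_smul_of_tower, Pi.smul_apply, Submodule.coe_smul_of_tower]

/-- **Obstruction**: a class of the level `U` dying in smooth cohomology has an obstruction class
`x ∈ smH¹(U, A)`: every `e` killing `x` kills the class. -/
theorem exists_obstruction (y : groupCohomology (levelRep A U) 2)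
    (hy : (inflLevel A U hU 2).hom y = 0) :
    ∃ x : smH (𝒰.comap U.subtype) (resSub A U) 1, ∀ e : ℕ, e • x = 0 → e • y = 0 := by
  obtain ⟨z, rfl⟩ := levelMk_surjective A U 2 y
  rw [inflLevel_levelMk, smHmk_succ_eq_zero_iff] at hy
  obtain ⟨h, hh⟩ := hy
  refine ⟨smHmk (resSub A U) 1 (obstrCocycle A U hU z h hh), fun e he => ?_⟩
  rw [← map_nsmul, smHmk_succ_eq_zero_iff] at he
  obtain ⟨y0, hy0⟩ := he
  set a : A.obj.V := y0.1 default with ha
  have hya : ∀ u : Γ, u ∈ U →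
      e • ((h : (Fin 1 → Γ) → A.obj.V) (fun _ => u) - levelCocycleOne A U z) =
        A.obj.ρ u a - a := by
    intro u hu
    have e1 := congrFun (congrArg Subtype.val hy0) (fun _ => (⟨u, hu⟩ : U))
    rw [lcD_apply_coe, d_zero_apply] at e1
    have e' : A.obj.ρ u a - a =
        e • obstrFun A U z h (fun _ => (⟨u, hu⟩ : U)) := e1
    rw [obstrFun_apply] at e'
    exact e'.symm
  have hh' : (lcD 𝒰 A 1).hom (e • h) = (inflCocycles A U hU 2 (e • z)).1 := by
    rw [map_nsmul, map_nsmul, hh]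
    rfl
  have := levelMk_eq_zero_of_obstr A U hU (e • z) (e • h) hh' a (fun u hu => by
    rw [levelCocycleOne_nsmul, ← hya u hu, smul_sub]
    rfl)
  rw [← map_nsmul]
  exact this

/-- the kernel of inflation from the level `U` in degree 2 is killed by every `e` killing
`smH¹(U, A)`. -/
theorem inflLevel_two_nsmul_eq_zero (e : ℕ)
    (he : ∀ x : smH (𝒰.comap U.subtype) (resSub A U) 1, e • x = 0)
    (y : groupCohomology (levelRep A U) 2) (hy : (inflLevel A U hU 2).hom y = 0) :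
    e • y = 0 := by
  obtain ⟨x, hx⟩ := exists_obstruction A U hU y hy
  exact hx e (he x)

end Obstruction

section Torsion

/-- Smooth cohomology in positive degrees is torsion. -/
theorem exists_nsmul_smH_eq_zero (A : SmRep k 𝒰) (n : ℕ) (x : smH 𝒰 A (n + 1)) :
    ∃ m : ℕ, 0 < m ∧ m • x = 0 := by
  obtain ⟨W, hW, -, hex⟩ := exists_inflLevel_eq A x ⊤ 𝒰.isOpen_top
  haveI := 𝒰.normal W hW
  haveI := 𝒰.finiteIndex W hW
  obtain ⟨y, rfl⟩ := hex
  haveI : Finite (Γ ⧸ W) := Subgroup.finite_quotient_of_finiteIndex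
  refine ⟨Nat.card (Γ ⧸ W), Nat.card_pos, ?_⟩
  rw [← map_nsmul, Coh.card_nsmul_groupCohomology_eq_zero (levelRep A W) n y, map_zero]

/-- If `M` has no `p`-torsion, an element killed by `p ^ a * m` is killed by `m`. -/
lemma nsmul_eq_zero_of_pow_mul_nsmul {M : Type*} [AddCommGroup M] (p : ℕ)
    (h1 : ∀ x : M, p • x = 0 → x = 0) (a m : ℕ) (x : M) (hx : (p ^ a * m) • x = 0) :
    m • x = 0 := by
  induction a with
  | zero => simpa using hx
  | succ a ih =>
    apply ih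
    apply h1
    rw [← mul_smul, ← mul_assoc, ← pow_succ']
    exact hx

variable (A : SmRep k 𝒰) (U : Subgroup Γ) [U.Normal] (hU : 𝒰.IsOpen U)

/-- **`p`-primary inflation injectivity**: if `smH¹(U, A)` has no `p`-torsion, inflation from the
level `U` to smooth cohomology kills no nonzero `p`-power torsion class of `H²(Γ ⧸ U, A^U)`. -/
theorem inflLevel_two_eq_zero_imp_of_torsion (p : ℕ) (hp : p.Prime)
    (h1 : ∀ x : smH (𝒰.comap U.subtype) (resSub A U) 1, p • x = 0 → x = 0)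
    (y : groupCohomology (levelRep A U) 2) (r : ℕ) (hyr : p ^ r • y = 0)
    (hy : (inflLevel A U hU 2).hom y = 0) : y = 0 := by
  obtain ⟨x, hx⟩ := exists_obstruction A U hU y hy
  obtain ⟨m, hm, hmx⟩ := exists_nsmul_smH_eq_zero (resSub A U) 0 x
  obtain ⟨a, m', hm', rfl⟩ := Nat.exists_eq_pow_mul_and_not_dvd hm.ne' p hp.ne_one
  have hx' : m' • x = 0 := nsmul_eq_zero_of_pow_mul_nsmul p h1 a m' x hmx
  have hy' : m' • y = 0 := hx m' hx'
  have hcop : Nat.Coprime (p ^ r) m' :=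
    Nat.Coprime.pow_left r ((Nat.Prime.coprime_iff_not_dvd hp).2 hm')
  have h2 : ((p ^ r : ℕ) : ℤ) * Nat.gcdA (p ^ r) m' + (m' : ℤ) * Nat.gcdB (p ^ r) m' = 1 := by
    have := Nat.gcd_eq_gcd_ab (p ^ r) m'
    rw [hcop] at this
    exact_mod_cast this.symm
  have h3 : (1 : ℤ) • y = 0 := by
    rw [← h2, add_smul, mul_comm, mul_smul, mul_comm, mul_smul, natCast_zsmul, natCast_zsmul, hyr,
      hy', smul_zero, smul_zero, add_zero]
  simpa using h3

/-- For a finite `p`-group quotient `Γ ⧸ U`: inflation from the level `U` is injective in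
degree 2 if `smH¹(U, A)` has no `p`-torsion. -/
theorem inflLevel_two_injective_of_isPGroup (p : ℕ) [Fact p.Prime] [U.FiniteIndex]
    (hq : IsPGroup p (Γ ⧸ U))
    (h1 : ∀ x : smH (𝒰.comap U.subtype) (resSub A U) 1, p • x = 0 → x = 0) :
    Function.Injective (inflLevel A U hU 2).hom := by
  rw [injective_iff_map_eq_zero]
  intro y hy
  haveI : Finite (Γ ⧸ U) := Subgroup.finite_quotient_of_finiteIndex
  obtain ⟨r, hr⟩ := IsPGroup.iff_card.mp hq
  refine inflLevel_two_eq_zero_imp_of_torsion A U hU p (Fact.out) h1 y r ?_ hy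
  rw [← hr]
  exact Coh.card_nsmul_groupCohomology_eq_zero (levelRep A U) 1 y

end Torsion

end Fermat.Agent.CFT.Sm
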