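/-
S55 / CFT (LG'.d) — helper2.
Abstract form of the local–global injectivity (LG'): for `j : A ⟶ C` smooth representations,
if `smH²(Γ, A)[p]` is cyclic (an invariant map injective on `p`-torsion), and at ONE finite level
`V` there is a `p`-torsion class `z_V` of `H²(Γ ⧸ V, A^V)` whose image in `smH²(Γ, C)` is nonzero,
then `smH²(j)` is injective on `p`-torsion.
-/
import Fermat.Agent.CFT.Sm.InflTorsion_helper2
import Fermat.Agent.CFT.Sm.FL_helper4_Nat

set_option autoImplicit false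
set_option linter.unusedSectionVars false
set_option linter.style.haveILetI false

open CategoryTheory CategoryTheory.Limits groupCohomology

namespace Fermat.Agent.CFT.Sm

/-- The `p`-torsion of `ℚ/ℤ` is generated by `1/p`. -/
lemma addCircle_eq_zsmul_inv_of_nsmul_eq_zero (p : ℕ) (hp : 0 < p) (x : AddCircle (1 : ℚ))
    (hx : p • x = 0) : ∃ n : ℤ, x = n • (((p : ℚ)⁻¹ : ℚ) : AddCircle (1 : ℚ)) := by
  obtain ⟨q, rfl⟩ := QuotientAddGroup.mk_surjective x
  have h1 : ((p • q : ℚ) : AddCircle (1 : ℚ)) = 0 := hx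
  rw [QuotientAddGroup.eq_zero_iff] at h1
  obtain ⟨n, hn⟩ := AddSubgroup.mem_zmultiples_iff.1 h1
  refine ⟨n, ?_⟩
  have hp' : (p : ℚ) ≠ 0 := by exact_mod_cast hp.ne'
  have h2 : q = n • ((p : ℚ)⁻¹) := by
    simp only [zsmul_eq_mul, mul_one, nsmul_eq_mul] at hn ⊢
    field_simp
    rw [hn, mul_comm]
  rw [h2]
  rfl

lemma nsmul_addCircle_inv (p : ℕ) (hp : 0 < p) :
    p • (((p : ℚ)⁻¹ : ℚ) : AddCircle (1 : ℚ)) = 0 := by
  have hp' : (p : ℚ) ≠ 0 := by exact_mod_cast hp.ne'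
  have h1 : p • (((p : ℚ)⁻¹ : ℚ) : AddCircle (1 : ℚ)) = ((p • (p : ℚ)⁻¹ : ℚ) : AddCircle (1 : ℚ)) :=
    rfl
  rw [h1, QuotientAddGroup.eq_zero_iff]
  refine AddSubgroup.mem_zmultiples_iff.2 ⟨1, ?_⟩
  simp only [one_smul, nsmul_eq_mul]
  field_simp

/-- If an invariant map `M → ℚ/ℤ` is injective on the `p`-torsion, the `p`-torsion is cyclic:
every `p`-torsion element is a multiple of any nonzero `p`-torsion element. -/
lemma exists_zsmul_eq_of_inv_injective {M : Type*} [AddCommGroup M] (p : ℕ) [hp : Fact p.Prime]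
    (inv : M →+ AddCircle (1 : ℚ)) (hinv : ∀ x : M, p • x = 0 → inv x = 0 → x = 0)
    (z w : M) (hz : p • z = 0) (hw : p • w = 0) (hw0 : w ≠ 0) : ∃ k : ℤ, z = k • w := by
  set u : AddCircle (1 : ℚ) := (((p : ℚ)⁻¹ : ℚ) : AddCircle (1 : ℚ)) with hu
  have hpu : p • u = 0 := nsmul_addCircle_inv p hp.out.pos
  have hpu' : (p : ℤ) • u = 0 := by rw [natCast_zsmul]; exact hpu
  obtain ⟨a, ha⟩ := addCircle_eq_zsmul_inv_of_nsmul_eq_zero p hp.out.pos (inv w)
    (by rw [← map_nsmul, hw, map_zero])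
  obtain ⟨b, hb⟩ := addCircle_eq_zsmul_inv_of_nsmul_eq_zero p hp.out.pos (inv z)
    (by rw [← map_nsmul, hz, map_zero])
  have hpa : ¬ (p : ℤ) ∣ a := by
    rintro ⟨c, rfl⟩
    apply hw0
    apply hinv w hw
    rw [ha, mul_comm, mul_smul, hpu', smul_zero]
  have hcop : IsCoprime a (p : ℤ) :=
    ((Nat.prime_iff_prime_int.1 hp.out).coprime_iff_not_dvd.2 hpa).symm
  obtain ⟨x, y, hxy⟩ := hcop
  refine ⟨x * b, ?_⟩
  have h0 : z - (x * b) • w = 0 := by
    apply hinv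
    · rw [smul_sub, hz, smul_comm, hw, smul_zero, sub_zero]
    · rw [map_sub, map_zsmul, ha, hb, ← mul_smul, ← sub_smul]
      have : b - x * b * a = (y * b) * p := by
        have : b = (x * a + y * p) * b := by rw [hxy, one_mul]
        nth_rewrite 1 [this]
        ring
      rw [this, mul_smul, hpu', smul_zero]
  exact sub_eq_zero.1 h0

lemma zsmul_eq_zero_of_dvd_of_nsmul {M : Type*} [AddCommGroup M] (w : M) (p : ℕ) (k : ℤ)
    (hk : (p : ℤ) ∣ k) (hpw : p • w = 0) : k • w = 0 := by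
  obtain ⟨c, rfl⟩ := hk
  rw [mul_comm, mul_smul, natCast_zsmul, hpw, smul_zero]

lemma eq_zero_of_zsmul_of_isCoprime {M : Type*} [AddCommGroup M] (t : M) (k : ℤ) (p : ℕ)
    (hcop : IsCoprime k (p : ℤ)) (h1 : k • t = 0) (h2 : p • t = 0) : t = 0 := by
  obtain ⟨x, y, hxy⟩ := hcop
  have h2' : (p : ℤ) • t = 0 := by rw [natCast_zsmul]; exact h2
  have : (1 : ℤ) • t = 0 := by
    rw [← hxy, add_smul, mul_smul, mul_smul, h1, h2', smul_zero, smul_zero, add_zero]
  simpa using this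

variable {Γ : Type} [Group Γ] {𝒰 : OpenBasis Γ}

/-- **(LG'), abstract form.**  `j : A ⟶ C`; `smH²(Γ, A)[p]` is cyclic (via `inv`); at a level
`V` a `p`-torsion class `z_V ∈ H²(Γ ⧸ V, A^V)` maps to a nonzero class of `smH²(Γ, C)`.  Then
`smH²(j)` is injective on the `p`-torsion. -/
theorem smH_two_map_eq_zero_imp_of_level {A C : SmRep ℤ 𝒰} (j : A ⟶ C) (p : ℕ)
    [hp : Fact p.Prime] (inv : smH 𝒰 A 2 →+ AddCircle (1 : ℚ))
    (hinv : ∀ x : smH 𝒰 A 2, p • x = 0 → inv x = 0 → x = 0)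
    (V : Subgroup Γ) [V.Normal] (hV : 𝒰.IsOpen V)
    (zV : groupCohomology (levelRep A V) 2) (hpz : p • zV = 0)
    (hne : (inflLevel C V hV 2).hom ((levelHMap j V 2).hom zV) ≠ 0)
    (z : smH 𝒰 A 2) (hz : p • z = 0) (hjz : ((smHFunctor ℤ 𝒰 2).map j).hom z = 0) : z = 0 := by
  let J : smH 𝒰 A 2 →+ smH 𝒰 C 2 := ((smHFunctor ℤ 𝒰 2).map j).hom.toAddMonoidHom
  have hjz' : J z = 0 := hjz
  set w : smH 𝒰 A 2 := (inflLevel A V hV 2).hom zV with hw
  have hjw : J w ≠ 0 := by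
    have : J w = (inflLevel C V hV 2).hom ((levelHMap j V 2).hom zV) :=
      (inflLevel_levelHMap_apply j V hV 2 zV).symm
    rw [this]
    exact hne
  have hw0 : w ≠ 0 := by
    intro h
    apply hjw
    rw [h, map_zero]
  have hpw : p • w = 0 := by rw [hw, ← map_nsmul, hpz, map_zero]
  obtain ⟨k, rfl⟩ := exists_zsmul_eq_of_inv_injective p inv hinv z w hz hpw hw0
  by_cases hk : (p : ℤ) ∣ k
  · exact zsmul_eq_zero_of_dvd_of_nsmul w p k hk hpw
  · exfalso
    apply hjw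
    have hcop : IsCoprime k (p : ℤ) :=
      ((Nat.prime_iff_prime_int.1 hp.out).coprime_iff_not_dvd.2 hk).symm
    have h1 : k • J w = 0 := by rw [← map_zsmul]; exact hjz'
    have h2 : p • J w = 0 := by rw [← map_nsmul, hpw, map_zero]
    exact eq_zero_of_zsmul_of_isCoprime (J w) k p hcop h1 h2

/-- **(LG'), abstract form with finite-level hypotheses**: (b) a nonzero `p`-torsion class `z_V`
at the level `V`, (c) `H²(Γ ⧸ V, j^V)` injective, (d) inflation `H²(Γ ⧸ V, C^V) → smH²(Γ, C)`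
kills no nonzero `p`-torsion class. -/
theorem smH_two_map_eq_zero_imp_of_level' {A C : SmRep ℤ 𝒰} (j : A ⟶ C) (p : ℕ)
    [hp : Fact p.Prime] (inv : smH 𝒰 A 2 →+ AddCircle (1 : ℚ))
    (hinv : ∀ x : smH 𝒰 A 2, p • x = 0 → inv x = 0 → x = 0)
    (V : Subgroup Γ) [V.Normal] (hV : 𝒰.IsOpen V)
    (zV : groupCohomology (levelRep A V) 2) (hzV : zV ≠ 0) (hpz : p • zV = 0)
    (hc : Function.Injective (levelHMap j V 2).hom)
    (hd : ∀ y : groupCohomology (levelRep C V) 2, p • y = 0 →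
      (inflLevel C V hV 2).hom y = 0 → y = 0)
    (z : smH 𝒰 A 2) (hz : p • z = 0) (hjz : ((smHFunctor ℤ 𝒰 2).map j).hom z = 0) : z = 0 := by
  refine smH_two_map_eq_zero_imp_of_level j p inv hinv V hV zV hpz ?_ z hz hjz
  intro h
  apply hzV
  apply hc
  rw [map_zero]
  exact hd _ (by rw [← map_nsmul, hpz, map_zero]) h

/-- Variant of (d) from the class-formation axiom (CF1) for the open subgroup `V`:
`smH¹(V, C)` has no `p`-torsion. -/
theorem smH_two_map_eq_zero_imp_of_level'' {A C : SmRep ℤ 𝒰} (j : A ⟶ C) (p : ℕ)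
    [hp : Fact p.Prime] (inv : smH 𝒰 A 2 →+ AddCircle (1 : ℚ))
    (hinv : ∀ x : smH 𝒰 A 2, p • x = 0 → inv x = 0 → x = 0)
    (V : Subgroup Γ) [V.Normal] (hV : 𝒰.IsOpen V)
    (zV : groupCohomology (levelRep A V) 2) (hzV : zV ≠ 0) (hpz : p • zV = 0)
    (hc : Function.Injective (levelHMap j V 2).hom)
    (h1 : ∀ x : smH (𝒰.comap V.subtype) (resSub C V) 1, p • x = 0 → x = 0)
    (z : smH 𝒰 A 2) (hz : p • z = 0) (hjz : ((smHFunctor ℤ 𝒰 2).map j).hom z = 0) : z = 0 :=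
  smH_two_map_eq_zero_imp_of_level' j p inv hinv V hV zV hzV hpz hc
    (fun y hy h0 => inflLevel_two_eq_zero_imp_of_torsion C V hV p hp.out h1 y 1
      (by rwa [pow_one]) h0) z hz hjz

end Fermat.Agent.CFT.Sm
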