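import Fermat.Agent.CFT.Sm.Bockstein_helper9

set_option autoImplicit false

open CategoryTheory CategoryTheory.Limits CategoryTheory.Abelian

namespace Fermat.Agent.CFT.Sm

variable {Γ : Type} [Group Γ]

section GlobalBelow

variable {𝒰 : OpenBasis Γ} {p : ℕ} [hp : Fact p.Prime] {C : SmRep ℤ 𝒰}

/-- A `p`-class formation which is *global below* the open subgroup `U₀`: `H³(U, C)[p] = 0` for all
open subgroups `U`, and the existence theorem mod `p` (kernel of reciprocity `= p C^U`) for the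
open subgroups `U ≤ U₀`. -/
structure PClassFormation.IsGlobalBelow (F : PClassFormation 𝒰 p C) (U₀ : Subgroup Γ) : Prop where
  /-- `H³(U, C)[p] = 0` for every open subgroup `U` (including `U = ⊤`) -/
  h3U : ∀ (U : Subgroup Γ) (_ : 𝒰.IsOpen U) (x : smH (𝒰.sub U) (resSub C U) 3), p • x = 0 → x = 0
  /-- the existence theorem mod `p` for the open subgroups below `U₀` -/
  rec_kerU : ∀ (U : Subgroup Γ) (hU : 𝒰.IsOpen U), U ≤ U₀ →
    ∀ (c : (resSub C U).obj.V) (hc : ∀ g, (resSub C U).obj.ρ g c = c),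
      recMap (𝒰.sub U) p (resSub C U) (F.invU U hU) c hc = 0 →
        ∃ c' : (resSub C U).obj.V, (∀ g, (resSub C U).obj.ρ g c' = c') ∧ p • c' = c

lemma PClassFormation.IsGlobal.isGlobalBelow {F : PClassFormation 𝒰 p C} (h : F.IsGlobal)
    (U₀ : Subgroup Γ) : F.IsGlobalBelow U₀ where
  h3U U hU := (h.baseU U hU).h3
  rec_kerU U hU _ := (h.baseU U hU).rec_ker

/-- `Ext³(ZMod p, C) = 0` from `H³(Γ, C)[p] = 0` and the `p`-divisibility of `H²(Γ, C)`. -/
theorem ext_three_smFp_eq_zero_of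
    (h3 : ∀ x : smH 𝒰 C 3, p • x = 0 → x = 0)
    (h2_div : ∀ x : smH 𝒰 C 2, ∃ y : smH 𝒰 C 2, p • y = x)
    (e : Ext (smFp 𝒰 p) C 3) : e = 0 := by
  have h1 : (Ext.mk₀ (bockπ 𝒰 p)).comp e (zero_add 3) = 0 := by
    have h2 : p • smUnitCompare C 3 ((Ext.mk₀ (bockπ 𝒰 p)).comp e (zero_add 3)) = 0 := by
      rw [← map_nsmul, nsmul_mk₀_g_comp, map_zero]
    exact (AddEquiv.map_eq_zero_iff _).1 (h3 _ h2)
  obtain ⟨y, rfl⟩ := exists_bockClass_comp (n := 2) e h1
  obtain ⟨x, hx⟩ := h2_div (smUnitCompare C 2 y)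
  have hy : y = p • (smUnitCompare C 2).symm x := by
    apply (smUnitCompare C 2).injective
    rw [map_nsmul, AddEquiv.apply_symm_apply]
    exact hx.symm
  rw [hy]
  exact bockClass_comp_nsmul _ _

/-- the anchor `Ext³_W(ZMod p, C) = 0` for all open subgroups `W`. -/
theorem PClassFormation.IsGlobalBelow.ext_three_eq_zero {F : PClassFormation 𝒰 p C}
    {U₀ : Subgroup Γ} (hG : F.IsGlobalBelow U₀) (W : Subgroup Γ) (hW : 𝒰.IsOpen W)
    (e : Ext (trivSm ℤ (𝒰.sub W) (ZMod p)) (resSub C W) 3) : e = 0 :=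
  ext_three_smFp_eq_zero_of (hG.h3U W hW) (F.baseU W hW).h2_div e

end GlobalBelow

section Datum

variable (𝒰 : OpenBasis Γ) (p : ℕ) [hp : Fact p.Prime] {ι : Type} [Fintype ι]
  {G : ι → Type} [∀ v, Group (G v)] (ψ : ∀ v, G v →* Γ) (𝒱 : ∀ v, OpenBasis (G v))

/-- The data of the Poitou–Tate situation: global modules `E → J → C` (with `C` a `p`-class
formation, global below an open subgroup), finitely many local groups `ψ v : G v → Γ` with FINE
bases `𝒱 v`, local `p`-class formations `B v`, the coarse local modules `Jv v` (the coarse-smooth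
vectors of `B v`) with `J ≅ ⊕ coindSm (Jv v)`, and the weak local-global compatibility. -/
structure PTDatum where
  /-- units -/
  E : SmRep ℤ 𝒰
  /-- ideles -/
  J : SmRep ℤ 𝒰
  /-- idele classes -/
  C : SmRep ℤ 𝒰
  /-- `E → J` -/
  i : E ⟶ J
  /-- `J → C` -/
  π : J ⟶ C
  i_inj : Function.Injective i.hom.hom
  comp_zero : ∀ e : E.obj.V, π.hom.hom (i.hom.hom e) = 0
  exact : ∀ j : J.obj.V, π.hom.hom j = 0 → ∃ e : E.obj.V, i.hom.hom e = j
  /-- the cokernel of `J → C` is `p`-divisible -/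
  coker_div : ∀ c : C.obj.V, ∃ (j : J.obj.V) (c' : C.obj.V), c = π.hom.hom j + p • c'
  /-- the cokernel of `J → C` has no `p`-torsion -/
  coker_tor : ∀ c : C.obj.V, (∃ j : J.obj.V, π.hom.hom j = p • c) → ∃ j' : J.obj.V, π.hom.hom j' = c
  /-- the global class formation -/
  form : PClassFormation 𝒰 p C
  /-- the open subgroup below which the existence theorem is known -/
  U₀ : Subgroup Γ
  hU₀ : 𝒰.IsOpen U₀
  glob : form.IsGlobalBelow U₀
  /-- the fine local bases are finer than the pulled back global basis -/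
  fine : ∀ v, (𝒱 v).Finer (𝒰.comap (ψ v))
  /-- the coarse local modules -/
  Jv : ∀ v, SmRep ℤ (𝒰.comap (ψ v))
  /-- the fine local modules -/
  B : ∀ v, SmRep ℤ (𝒱 v)
  /-- the local class formations -/
  locForm : ∀ v, PClassFormation (𝒱 v) p (B v)
  /-- Hilbert 90 for the fine local modules -/
  h90 : ∀ (v : ι) (W : Subgroup (G v)), (𝒱 v).IsOpen W →
    ∀ x : smH ((𝒱 v).sub W) (resSub (B v) W) 1, x = 0
  /-- the comparison `J_v → B_v` (a morphism of representations of `G v`) -/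
  κ : ∀ v, (Jv v).obj ⟶ (B v).obj
  κ_inj : ∀ v, Function.Injective (κ v).hom
  /-- the image of `κ` consists of the coarse-smooth vectors of `B v` -/
  κ_range : ∀ (v : ι) (b : (B v).obj.V),
    (∃ U ∈ (𝒰.comap (ψ v)).sets, ∀ g ∈ U, (B v).obj.ρ g b = b) → ∃ j : (Jv v).obj.V, (κ v).hom j = b
  /-- inclusion of the `v`-component of `J` -/
  incl : ∀ v, (coindSm ℤ 𝒰 (𝒰.comap (ψ v)) (ψ v)).obj (Jv v) ⟶ J
  /-- projection onto the `v`-component of `J` -/
  proj : ∀ v, J ⟶ (coindSm ℤ 𝒰 (𝒰.comap (ψ v)) (ψ v)).obj (Jv v)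
  sum : ∑ v, proj v ≫ incl v = 𝟙 J
  /-- (LG') a nonzero local class of order `p` is not a global class -/
  lg : ∀ (v : ι) (z : smH 𝒰 ((coindSm ℤ 𝒰 (𝒰.comap (ψ v)) (ψ v)).obj (Jv v)) 2), p • z = 0 →
    ((smHFunctor ℤ 𝒰 2).map (incl v ≫ π)).hom z = 0 → z = 0
  /-- the natural maps `E → B_v` -/
  κE : ∀ v, (resSm ℤ (ψ v) (fine v)).obj E ⟶ B v
  hκE : ∀ (v : ι) (e : E.obj.V), (κE v).hom.hom e =
    (κ v).hom (coindSmFun (ψ v) ((proj v).hom.hom (i.hom.hom e)) 1)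

variable {𝒰 p ψ 𝒱}

/-- the localisation maps `Extⁿ(X, E) → Extⁿ_{G_v}(res X, B_v)` -/
noncomputable def PTDatum.locExt (D : PTDatum 𝒰 p ψ 𝒱) (v : ι) (X : SmRep ℤ 𝒰) (n : ℕ) :
    Ext X D.E n →+ Ext ((resSm ℤ (ψ v) (D.fine v)).obj X) (D.B v) n :=
  ((Ext.mk₀ (D.κE v)).postcomp _ (add_zero n)).comp
    ((resSm ℤ (ψ v) (D.fine v)).mapExtAddHom X D.E n)

lemma PTDatum.locExt_apply (D : PTDatum 𝒰 p ψ 𝒱) (v : ι) (X : SmRep ℤ 𝒰) (n : ℕ) (e : Ext X D.E n) :
    D.locExt v X n e =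
      (e.mapExactFunctor (resSm ℤ (ψ v) (D.fine v))).comp (Ext.mk₀ (D.κE v)) (add_zero n) := rfl

/-- `Ш²` in `Ext`-form: classes of `Ext²(X, E)` which are locally trivial. -/
noncomputable def PTDatum.extSha (D : PTDatum 𝒰 p ψ 𝒱) (X : SmRep ℤ 𝒰) (n : ℕ) :
    AddSubgroup (Ext X D.E n) :=
  ⨅ v, (D.locExt v X n).ker

/-- `Ш¹` in smooth cohomology: classes which are locally trivial for the FINE local groups. -/
noncomputable def PTDatum.shaOne (D : PTDatum 𝒰 p ψ 𝒱) (X : SmRep ℤ 𝒰) :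
    AddSubgroup (smH 𝒰 X 1) :=
  ⨅ v, (smHRes (ψ v) (D.fine v) X 1).hom.toAddMonoidHom.ker

end Datum

end Fermat.Agent.CFT.Sm
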