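/-
S55 / CFT (engine, Layer 4a) — helper9.
Transfer of the invariant map and of the Yoneda pairing along coinduction from an open subgroup
`U`: `t ∘ cores` agrees with the invariant map of `U` on `p`-torsion, hence injectivity /
surjectivity of the pairing and vanishing of `Ext` transfer from `(U, X)` to `(Γ, coind X)`.
-/
import Fermat.Agent.CFT.Sm.PTDatum_helper9

set_option autoImplicit false

open CategoryTheory CategoryTheory.Limits CategoryTheory.Abelian

namespace Fermat.Agent.CFT.Sm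

variable {Γ : Type} [Group Γ] {𝒰 : OpenBasis Γ} {p : ℕ} [hp : Fact p.Prime] {C : SmRep ℤ 𝒰}

section Cores

variable (F : PClassFormation 𝒰 p C) (U : Subgroup Γ) (hU : 𝒰.IsOpen U)

omit hp in
lemma unit_counit_index (X : SmRep ℤ 𝒰) :
    (resCoindSmAdjunction ℤ U.subtype (OpenBasis.Finer.refl _)).unit.app X ≫
      (coindResSmAdjunction ℤ U hU).counit.app X = U.index • 𝟙 X := by
  rw [resCoindSm_unit_comp_coindResSm_counit]
  exact @Nat.cast_smul_eq_nsmul ℤ (X ⟶ X) _ _ (@Linear.homModule ℤ _ (SmRep ℤ 𝒰) _ _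
    (@Linear.fullSubcategory (Rep.{0} ℤ Γ) _ _ ℤ _ Rep.instLinear (smoothProp ℤ 𝒰)) X X)
    U.index (𝟙 X)

/-- the invariant map of `Γ` transported to `U` by corestriction -/
noncomputable def tCores : Ext (smUnit ℤ (𝒰.sub U)) (resSub C U) 2 →+ AddCircle (1 : ℚ) :=
  (tInv C F.inv).comp
    (extCores (resCoindSmAdjunction ℤ U.subtype (OpenBasis.Finer.refl _))
      (coindResSmAdjunction ℤ U hU) (smUnit ℤ 𝒰) C 2)

lemma tCores_res (y : Ext (smUnit ℤ 𝒰) C 2) :
    tCores F U hU (extUnitRes U.subtype (OpenBasis.Finer.refl _) C 2 y) =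
      tInv (resSub C U) (F.invU U hU) (extUnitRes U.subtype (OpenBasis.Finer.refl _) C 2 y) := by
  have h1 : extCores (resCoindSmAdjunction ℤ U.subtype (OpenBasis.Finer.refl _))
      (coindResSmAdjunction ℤ U hU) (smUnit ℤ 𝒰) C 2
      (extUnitRes U.subtype (OpenBasis.Finer.refl _) C 2 y) = (U.index : ℤ) • y :=
    extCores_mapExactFunctor _ _ (U.index : ℤ)
      (fun X => (unit_counit_index U hU X).trans (natCast_zsmul _ _).symm) y
  have h2 : tCores F U hU (extUnitRes U.subtype (OpenBasis.Finer.refl _) C 2 y) =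
      tInv C F.inv ((U.index : ℤ) • y) := congrArg (tInv C F.inv) h1
  rw [h2, tInv_apply, tInv_apply, smUnitCompare_res, map_zsmul, map_zsmul, natCast_zsmul]
  exact (F.inv_res U hU _).symm

lemma tCores_eq (z : Ext (smUnit ℤ (𝒰.sub U)) (resSub C U) 2) (hz : p • z = 0) :
    tCores F U hU z = tInv (resSub C U) (F.invU U hU) z := by
  have h1 : p • smUnitCompare (resSub C U) 2 z = 0 := by rw [← map_nsmul, hz, map_zero]
  obtain ⟨y, hy⟩ := F.res_surj U hU _ h1
  have h2 : z = extUnitRes U.subtype (OpenBasis.Finer.refl _) C 2 ((smUnitCompare C 2).symm y) := by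
    apply (smUnitCompare (resSub C U) 2).injective
    rw [smUnitCompare_res, AddEquiv.apply_symm_apply]
    exact hy.symm
  rw [h2]
  exact tCores_res F U hU _

section Transfer

variable {r s : ℕ} (h : s + r = 2) (X' : SmRep ℤ (𝒰.sub U)) (hX' : p • 𝟙 X' = 0)

include hX' in
lemma yPair_tCores_eq :
    yPair (smUnit ℤ (𝒰.sub U)) (resSub C U) (tCores F U hU) h X' =
      yPair (smUnit ℤ (𝒰.sub U)) (resSub C U) (tInv (resSub C U) (F.invU U hU)) h X' := by
  refine yPair_congr_of_torsion _ _ (tCores F U hU) _ (p : ℤ) (fun z hz => ?_) ?_ h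
  · apply tCores_eq
    rw [← natCast_zsmul]
    exact hz
  · rw [natCast_zsmul]
    exact hX'

include hX' in
/-- transfer of the injectivity of the pairing from `(U, X')` to `(Γ, coind X')` -/
theorem yPair_injective_coind
    (hinj : Function.Injective (yPair (smUnit ℤ (𝒰.sub U)) (resSub C U)
      (tInv (resSub C U) (F.invU U hU)) h X')) :
    Function.Injective (yPair (smUnit ℤ 𝒰) C (tInv C F.inv) h
      ((coindSm ℤ 𝒰 (𝒰.sub U) U.subtype).obj X')) := by
  apply yPair_injective_of_adj (resCoindSmAdjunction ℤ U.subtype (OpenBasis.Finer.refl _))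
    (coindResSmAdjunction ℤ U hU) (smUnit ℤ 𝒰) C (tInv C F.inv) h X'
  have := yPair_tCores_eq F U hU h X' hX'
  exact this ▸ hinj

include hX' in
/-- transfer of the surjectivity of the pairing from `(U, X')` to `(Γ, coind X')` -/
theorem yPair_surjective_coind
    (hsurj : Function.Surjective (yPair (smUnit ℤ (𝒰.sub U)) (resSub C U)
      (tInv (resSub C U) (F.invU U hU)) h X')) :
    Function.Surjective (yPair (smUnit ℤ 𝒰) C (tInv C F.inv) h
      ((coindSm ℤ 𝒰 (𝒰.sub U) U.subtype).obj X')) := by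
  apply yPair_surjective_of_adj (resCoindSmAdjunction ℤ U.subtype (OpenBasis.Finer.refl _))
    (coindResSmAdjunction ℤ U hU) (smUnit ℤ 𝒰) C (tInv C F.inv) h X'
  have := yPair_tCores_eq F U hU h X' hX'
  exact this ▸ hsurj

omit hp in
include hU in
/-- transfer of vanishing -/
theorem ext_coind_eq_zero {n : ℕ} (h0 : ∀ e' : Ext X' (resSub C U) n, e' = 0)
    (e : Ext ((coindSm ℤ 𝒰 (𝒰.sub U) U.subtype).obj X') C n) : e = 0 :=
  ext_eq_zero_of_adj (coindResSmAdjunction ℤ U hU) h0 e

end Transfer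

end Cores

end Fermat.Agent.CFT.Sm
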