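/-
S55 / CFT (engine, local comparison) — helper9.
Fine/coarse comparison for the local modules: smooth coinduction from a finer basis preserves
surjections with `H¹`-acyclic kernel; `coind Jv ≅ coind B`; the local comparison maps
`Extⁿ(X, coind Jv) → Extⁿ(res X, B)` (bijective for `n = 1`, injective for `n = 2`), and the
invariant map on `H²(Γ, coind Jv)` which is injective on `p`-torsion.
-/
import Fermat.Agent.CFT.Sm.Cores_helper9
import Fermat.Agent.CFT.Sm.Transfer_helper5_Epi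

set_option autoImplicit false

open CategoryTheory CategoryTheory.Limits CategoryTheory.Abelian

namespace Fermat.Agent.CFT.Sm

section EpiCoind

variable {k Γ G : Type} [CommRing k] [Group Γ] [Group G] {𝒰 : OpenBasis Γ} {𝒱 : OpenBasis G}
  (ψ : G →* Γ) (hfine : 𝒱.Finer (𝒰.comap ψ))

include hfine in
/-- Smooth coinduction from a FINER basis preserves those surjections whose kernel has trivial
`H¹` on all open subgroups. -/
lemma coindSm_map_surjective_of_h1 {S : ShortComplex (SmRep k 𝒱)} (hS : S.ShortExact)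
    (h1 : ∀ W : Subgroup G, 𝒱.IsOpen W → ∀ x : smH (𝒱.sub W) (resSub S.X₁ W) 1, x = 0) :
    Function.Surjective ((coindSm k 𝒰 𝒱 ψ).map S.g).hom.hom := by
  classical
  intro f
  obtain ⟨U, hU, hfU⟩ := coindSmFun_smooth ψ f
  have hUn := 𝒰.normal U hU
  set W : Subgroup G := U.comap ψ with hW
  have hWopen : 𝒱.IsOpen W := hfine W ⟨U, hU, rfl⟩
  have hπ : Function.Surjective S.g.hom.hom := (epi_iff_surjective _).1 hS.epi_g
  -- invariant lifts
  have hlift : ∀ c : S.X₃.obj.V, (∀ w ∈ W, S.X₃.obj.ρ w c = c) →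
      ∃ b : S.X₂.obj.V, (∀ w ∈ W, S.X₂.obj.ρ w b = b) ∧ S.g.hom.hom b = c := by
    intro c hc
    obtain ⟨b, hb, hbc⟩ := exists_invariant_lift
      (resSm_shortExact W.subtype (OpenBasis.Finer.refl _) hS) (h1 W hWopen) c
      (fun g => hc g.1 g.2)
    exact ⟨b, fun w hw => hb ⟨w, hw⟩, hbc⟩
  let s : S.X₃.obj.V → S.X₂.obj.V := fun c =>
    if hc : ∀ w ∈ W, S.X₃.obj.ρ w c = c then (hlift c hc).choose else Function.surjInv hπ c
  have hs : ∀ c, S.g.hom.hom (s c) = c := by
    intro c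
    by_cases hc : ∀ w ∈ W, S.X₃.obj.ρ w c = c
    · simp only [s, dif_pos hc]
      exact (hlift c hc).choose_spec.2
    · simp only [s, dif_neg hc]
      exact Function.surjInv_eq hπ c
  have hfW : ∀ (h : Γ), ∀ w ∈ W, S.X₃.obj.ρ w (coindSmFun ψ f h) = coindSmFun ψ f h := by
    intro h w hw
    rw [← coindSmFun_equivariant]
    have : ψ w * h = h * (h⁻¹ * ψ w * h) := by group
    rw [this]
    exact hfU h _ (hUn.conj_mem' _ hw h)
  let _ : MulAction G S.X₂.obj.V :=
    { smul := fun g b => S.X₂.obj.ρ g b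
      one_smul := fun b => by change S.X₂.obj.ρ 1 b = b; simp
      mul_smul := fun g h b => by
        change S.X₂.obj.ρ (g * h) b = S.X₂.obj.ρ g (S.X₂.obj.ρ h b); simp }
  let _ : MulAction G S.X₃.obj.V :=
    { smul := fun g b => S.X₃.obj.ρ g b
      one_smul := fun b => by change S.X₃.obj.ρ 1 b = b; simp
      mul_smul := fun g h b => by
        change S.X₃.obj.ρ (g * h) b = S.X₃.obj.ρ g (S.X₃.obj.ρ h b); simp }
  obtain ⟨F, hF1, hF2, hF3⟩ := exists_equivariant_lift ψ U S.g.hom.hom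
    (fun a b => Rep.hom_comm_apply S.g.hom a b) (coindSmFun ψ f)
    (coindSmFun_equivariant ψ f) hfU s (fun h => hs _)
    (fun h a ha => by
      have hc : ∀ w ∈ W, S.X₃.obj.ρ w (coindSmFun ψ f h) = coindSmFun ψ f h := hfW h
      change S.X₂.obj.ρ a (s (coindSmFun ψ f h)) = s (coindSmFun ψ f h)
      simp only [s, dif_pos hc]
      exact (hlift _ hc).choose_spec.1 a ha)
  refine ⟨coindSmMk ψ F hF2 ⟨U, hU, hF3⟩, ?_⟩
  apply coindSmFun_injective
  funext h
  rw [coindSmFun_map, coindSmFun_coindSmMk, hF1]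

end EpiCoind

section LocalDatum

variable {Γ G : Type} [Group Γ] [Group G] (𝒰 : OpenBasis Γ) (ψ : G →* Γ) (𝒱 : OpenBasis G)

/-- The local comparison datum: a FINE basis `𝒱` of the local group, a coarse local module
`Jv` (smooth for the basis pulled back from the global group), a fine local module `B`
satisfying Hilbert 90, and an identification `κ` of `Jv` with the coarse-smooth vectors of `B`. -/
structure PTLocalDatum where
  /-- the fine basis is finer than the pulled back global basis -/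
  fine : 𝒱.Finer (𝒰.comap ψ)
  /-- the coarse local module -/
  Jv : SmRep ℤ (𝒰.comap ψ)
  /-- the fine local module -/
  B : SmRep ℤ 𝒱
  /-- Hilbert 90 -/
  h90 : ∀ W : Subgroup G, 𝒱.IsOpen W → ∀ x : smH (𝒱.sub W) (resSub B W) 1, x = 0
  /-- the comparison map -/
  κ : Jv.obj ⟶ B.obj
  κ_inj : Function.Injective κ.hom
  κ_range : ∀ b : B.obj.V,
    (∃ U ∈ (𝒰.comap ψ).sets, ∀ g ∈ U, B.obj.ρ g b = b) → ∃ j : Jv.obj.V, κ.hom j = b

variable {𝒰 ψ 𝒱} (L : PTLocalDatum 𝒰 ψ 𝒱)

namespace PTLocalDatum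

/-- coarse coinduction of `Jv` -/
noncomputable abbrev coindJ : SmRep ℤ 𝒰 := (coindSm ℤ 𝒰 (𝒰.comap ψ) ψ).obj L.Jv

/-- fine coinduction of `B` -/
noncomputable abbrev coindB : SmRep ℤ 𝒰 := (coindSm ℤ 𝒰 𝒱 ψ).obj L.B

/-- the comparison `coind Jv ⟶ coind B` -/
noncomputable def κCoind : L.coindJ ⟶ L.coindB :=
  (smoothPartFunctor ℤ 𝒰).map ((Rep.coindFunctor ℤ ψ).map L.κ)

lemma coindSmFun_κCoind (f : L.coindJ.obj.V) (h : Γ) :
    coindSmFun ψ (L.κCoind.hom.hom f) h = L.κ.hom (coindSmFun ψ f h) := rfl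

lemma κCoind_bijective : Function.Bijective L.κCoind.hom.hom := by
  classical
  constructor
  · intro f f' hff'
    apply coindSmFun_injective
    funext h
    apply L.κ_inj
    rw [← coindSmFun_κCoind, ← coindSmFun_κCoind, hff']
  · intro f'
    obtain ⟨U, hU, hfU⟩ := coindSmFun_smooth ψ f'
    have hUn := 𝒰.normal U hU
    have hex : ∀ h : Γ, ∃ j : L.Jv.obj.V, L.κ.hom j = coindSmFun ψ f' h := by
      intro h
      apply L.κ_range
      refine ⟨U.comap ψ, ⟨U, hU, rfl⟩, fun w hw => ?_⟩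
      rw [← coindSmFun_equivariant]
      have : ψ w * h = h * (h⁻¹ * ψ w * h) := by group
      rw [this]
      exact hfU h _ (hUn.conj_mem' _ hw h)
    choose F hF using hex
    have h1 : ∀ (a : G) (h : Γ), F (ψ a * h) = L.Jv.obj.ρ a (F h) := by
      intro a h
      apply L.κ_inj
      rw [hF, coindSmFun_equivariant, ← hF h]
      exact (Rep.hom_comm_apply L.κ a (F h)).symm
    have h2 : ∀ (h : Γ), ∀ u ∈ U, F (h * u) = F h := by
      intro h u hu
      apply L.κ_inj
      rw [hF, hF, hfU h u hu]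
    refine ⟨coindSmMk ψ F h1 ⟨U, hU, h2⟩, ?_⟩
    apply coindSmFun_injective
    funext h
    rw [coindSmFun_κCoind, coindSmFun_coindSmMk, hF]

instance : IsIso L.κCoind := smRep_isIso_of_bijective _ L.κCoind_bijective

/-- fine restriction -/
noncomputable abbrev resF : SmRep ℤ 𝒰 ⥤ SmRep ℤ 𝒱 := resSm ℤ ψ L.fine

/-- the adjunction between fine restriction and fine coinduction -/
noncomputable abbrev adjF : L.resF ⊣ coindSm ℤ 𝒰 𝒱 ψ := resCoindSmAdjunction ℤ ψ L.fine

/-- evaluation at `1` followed by `κ`: `res (coind Jv) ⟶ B` -/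
noncomputable def κEval : L.resF.obj L.coindJ ⟶ L.B :=
  L.resF.map L.κCoind ≫ L.adjF.counit.app L.B

lemma κEval_apply (f : L.coindJ.obj.V) :
    L.κEval.hom.hom f = L.κ.hom (coindSmFun ψ f 1) := rfl

/-- the local comparison map `Extⁿ(X, coind Jv) → Extⁿ_{fine}(res X, B)` -/
noncomputable def locCompare (X : SmRep ℤ 𝒰) (n : ℕ) :
    Ext X L.coindJ n →+ Ext (L.resF.obj X) L.B n :=
  ((Ext.mk₀ L.κEval).postcomp _ (add_zero n)).comp (L.resF.mapExtAddHom X L.coindJ n)

lemma locCompare_apply (X : SmRep ℤ 𝒰) (n : ℕ) (y : Ext X L.coindJ n) :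
    L.locCompare X n y = (y.mapExactFunctor L.resF).comp (Ext.mk₀ L.κEval) (add_zero n) := rfl

lemma locCompare_eq (X : SmRep ℤ 𝒰) (n : ℕ) (y : Ext X L.coindJ n) :
    L.locCompare X n y =
      extAdjInv L.adjF X L.B n (y.comp (Ext.mk₀ L.κCoind) (add_zero n)) := by
  rw [locCompare_apply, extAdjInv_apply', Ext.mapExactFunctor_comp, Ext.mapExactFunctor_mk₀,
    Ext.comp_assoc_of_third_deg_zero, Ext.mk₀_comp_mk₀]
  rfl

lemma postcomp_κCoind_bijective (X : SmRep ℤ 𝒰) (n : ℕ) :
    Function.Bijective (fun y : Ext X L.coindJ n => y.comp (Ext.mk₀ L.κCoind) (add_zero n)) := by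
  constructor
  · intro y y' hyy'
    have h1 : ∀ z : Ext X L.coindJ n, (z.comp (Ext.mk₀ L.κCoind) (add_zero n)).comp
        (Ext.mk₀ (inv L.κCoind)) (add_zero n) = z := fun z => by
      rw [Ext.comp_assoc_of_third_deg_zero, Ext.mk₀_comp_mk₀, IsIso.hom_inv_id, Ext.comp_mk₀_id]
    rw [← h1 y, ← h1 y']
    exact congrArg (fun t => t.comp (Ext.mk₀ (inv L.κCoind)) (add_zero n)) hyy'
  · intro z
    refine ⟨z.comp (Ext.mk₀ (inv L.κCoind)) (add_zero n), ?_⟩
    change (z.comp (Ext.mk₀ (inv L.κCoind)) (add_zero n)).comp (Ext.mk₀ L.κCoind) (add_zero n) = z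
    rw [Ext.comp_assoc_of_third_deg_zero, Ext.mk₀_comp_mk₀, IsIso.inv_hom_id, Ext.comp_mk₀_id]

/-- an injective resolution step of `B` -/
noncomputable def injSC : ShortComplex (SmRep ℤ 𝒱) :=
  ShortComplex.mk (Injective.ι L.B) (cokernel.π (Injective.ι L.B)) (cokernel.condition _)

lemma injSC_shortExact : L.injSC.ShortExact :=
  { exact := ShortComplex.exact_cokernel (Injective.ι L.B)
    mono_f := inferInstanceAs (Mono (Injective.ι L.B))
    epi_g := inferInstanceAs (Epi (cokernel.π (Injective.ι L.B))) }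

instance : Injective L.injSC.X₂ := inferInstanceAs (Injective (Injective.under L.B))

lemma epi_coind_injSC : Epi ((coindSm ℤ 𝒰 𝒱 ψ).map L.injSC.g) := by
  rw [epi_iff_surjective]
  exact coindSm_map_surjective_of_h1 ψ L.fine L.injSC_shortExact L.h90

theorem locCompare_one_bijective (X : SmRep ℤ 𝒰) : Function.Bijective (L.locCompare X 1) := by
  haveI : PreservesFiniteLimits (coindSm ℤ 𝒰 𝒱 ψ) := preservesFiniteLimits_coindSm ψ L.fine
  haveI := L.epi_coind_injSC (𝒰 := 𝒰)
  have h1 : Function.Bijective (extAdjInv L.adjF X L.B 1) :=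
    extAdjInv_one_bijective_of_epi L.adjF L.injSC_shortExact X
  have h2 : (L.locCompare X 1 : Ext X L.coindJ 1 → Ext (L.resF.obj X) L.B 1) =
      (extAdjInv L.adjF X L.B 1) ∘
        (fun y : Ext X L.coindJ 1 => y.comp (Ext.mk₀ L.κCoind) (add_zero 1)) :=
    funext (fun y => L.locCompare_eq X 1 y)
  rw [h2]
  exact h1.comp (L.postcomp_κCoind_bijective X 1)

theorem locCompare_two_injective (X : SmRep ℤ 𝒰) : Function.Injective (L.locCompare X 2) := by
  haveI : PreservesFiniteLimits (coindSm ℤ 𝒰 𝒱 ψ) := preservesFiniteLimits_coindSm ψ L.fine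
  haveI := L.epi_coind_injSC (𝒰 := 𝒰)
  have h1 : Function.Injective (extAdjInv L.adjF X L.B 2) :=
    extAdjInv_two_injective_of_epi L.adjF L.injSC_shortExact X
  have h2 : (L.locCompare X 2 : Ext X L.coindJ 2 → Ext (L.resF.obj X) L.B 2) =
      (extAdjInv L.adjF X L.B 2) ∘
        (fun y : Ext X L.coindJ 2 => y.comp (Ext.mk₀ L.κCoind) (add_zero 2)) :=
    funext (fun y => L.locCompare_eq X 2 y)
  rw [h2]
  exact h1.comp (L.postcomp_κCoind_bijective X 2).1

/-- the local comparison maps are compatible with Yoneda products -/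
lemma locCompare_comp {Z X : SmRep ℤ 𝒰} {s r n : ℕ} (h : s + r = n) (x : Ext Z X s)
    (y : Ext X L.coindJ r) :
    L.locCompare Z n (x.comp y h) =
      (x.mapExactFunctor L.resF).comp (L.locCompare X r y) h := by
  rw [locCompare_apply, locCompare_apply, Ext.mapExactFunctor_comp]
  apply Ext.comp_assoc
  lia

/-- naturality of the local comparison maps in the first variable -/
lemma locCompare_mk₀_comp {Z X : SmRep ℤ 𝒰} {n : ℕ} (g : Z ⟶ X) (y : Ext X L.coindJ n) :
    L.locCompare Z n ((Ext.mk₀ g).comp y (zero_add n)) =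
      (Ext.mk₀ (L.resF.map g)).comp (L.locCompare X n y) (zero_add n) := by
  rw [locCompare_comp, Ext.mapExactFunctor_mk₀]

/-- the local comparison map for the unit object -/
noncomputable def locCompareUnit (n : ℕ) :
    Ext (smUnit ℤ 𝒰) L.coindJ n →+ Ext (smUnit ℤ 𝒱) L.B n :=
  L.locCompare (smUnit ℤ 𝒰) n

lemma locCompareUnit_two_injective : Function.Injective (L.locCompareUnit (𝒰 := 𝒰) 2) :=
  L.locCompare_two_injective (smUnit ℤ 𝒰)

section Inv

variable (p : ℕ) [hp : Fact p.Prime] (Fv : PClassFormation 𝒱 p L.B)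

/-- the local invariant map transported to `Ext²(𝟙, coind Jv)` -/
noncomputable def lam : Ext (smUnit ℤ 𝒰) L.coindJ 2 →+ AddCircle (1 : ℚ) :=
  (tInv L.B Fv.inv).comp (L.locCompareUnit 2)

lemma lam_apply (z : Ext (smUnit ℤ 𝒰) L.coindJ 2) :
    L.lam p Fv z = tInv L.B Fv.inv (L.locCompareUnit 2 z) := rfl

/-- `lam` is injective on `p`-torsion. -/
theorem lam_inj (z : Ext (smUnit ℤ 𝒰) L.coindJ 2) (hz : p • z = 0) (h : L.lam p Fv z = 0) :
    z = 0 := by
  apply L.locCompareUnit_two_injective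
  rw [map_zero]
  refine Fv.base.ext_two_eq_zero _ ?_ h
  rw [← map_nsmul, hz, map_zero]

/-- the local invariant map on `H²(Γ, coind Jv)` -/
noncomputable def lamH : smH 𝒰 L.coindJ 2 →+ AddCircle (1 : ℚ) :=
  (L.lam p Fv).comp (smUnitCompare L.coindJ 2).symm.toAddMonoidHom

/-- **(I1)** `H²(Γ, coind Jv)` carries an invariant map which is injective on `p`-torsion. -/
theorem lamH_inj (x : smH 𝒰 L.coindJ 2) (hx : p • x = 0) (h : L.lamH p Fv x = 0) : x = 0 := by
  have h1 : (smUnitCompare L.coindJ 2).symm x = 0 := by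
    apply L.lam_inj p Fv _ _ h
    rw [← map_nsmul, hx, map_zero]
  exact (AddEquiv.map_eq_zero_iff _).1 h1

end Inv

end PTLocalDatum

end LocalDatum

end Fermat.Agent.CFT.Sm
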