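/-
S55 / CFT (FL1, FL2) — helper4.
Smooth cohomology is the colimit of the cohomology of the finite levels:
every class of `smH 𝒰 A n` is inflated from a finite level (`exists_inflLevel_eq`), and a class of
a finite level dies in `smH 𝒰 A n` iff it dies at a deeper finite level
(`inflLevel_eq_zero_iff`).
-/
import Fermat.Agent.CFT.Sm.FL_helper4_Infl

set_option autoImplicit false
set_option linter.unusedSectionVars false
set_option linter.style.haveILetI false

open CategoryTheory CategoryTheory.Limits groupCohomology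

namespace Fermat.Agent.CFT.Sm

variable {k Γ : Type} [CommRing k] [Group Γ] {𝒰 : OpenBasis Γ}

/-- Every level-constant cochain descends to a finite level contained in any given open
subgroup. -/
lemma exists_descend_lcCochain (A : SmRep k 𝒰) {n : ℕ} (h : lcCochains 𝒰 A.obj n)
    (U₀ : Subgroup Γ) (hU₀ : 𝒰.IsOpen U₀) :
    ∃ (W : Subgroup Γ) (hW : W ∈ 𝒰.sets) (_ : W ≤ U₀), haveI := 𝒰.normal W hW
      ∃ f : (Fin n → Γ ⧸ W) → (levelRep A W).V,
        ((inflCochains A W (𝒰.isOpen_of_mem hW)).f n).hom f = h := by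
  obtain ⟨h, U', hU', hlev⟩ := h
  have hfin := IsLevelConstant.finite_range ⟨U', hU', hlev⟩
  have := hfin.to_subtype
  obtain ⟨V, hV, hVfix⟩ := A.property.exists_mem_forall_fixed (fun x : Set.range h => (x : A.obj.V))
  obtain ⟨U₀', hU₀', hle₀⟩ := hU₀
  obtain ⟨W₁, hW₁, hW₁le⟩ := 𝒰.directed U' hU' V hV
  obtain ⟨W, hW, hWle⟩ := 𝒰.directed W₁ hW₁ U₀' hU₀'
  have hWU' : W ≤ U' := fun w hw => (hW₁le (hWle hw).1).1
  have hWV : W ≤ V := fun w hw => (hW₁le (hWle hw).1).2
  have hWU₀ : W ≤ U₀ := fun w hw => hle₀ (hWle hw).2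
  refine ⟨W, hW, hWU₀, ?_⟩
  haveI := 𝒰.normal W hW
  refine ⟨fun q => ⟨h (fun i => (q i).out), fun w => ?_⟩, ?_⟩
  · exact hVfix ⟨_, Set.mem_range_self _⟩ w.1 (hWV w.2)
  · apply Subtype.ext
    funext g
    change h (fun i => ((g i : Γ ⧸ W)).out) = h g
    refine (hlev g _ (fun i => hWU' ?_)).symm
    have : (((g i : Γ ⧸ W).out : Γ) : Γ ⧸ W) = (g i : Γ ⧸ W) := QuotientGroup.out_eq' _
    exact QuotientGroup.eq.1 this.symm

/-- A cochain of a finite level whose inflation is a cocycle is a cocycle. -/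
lemma mem_levelCocycles_of_infl (A : SmRep k 𝒰) (U : Subgroup Γ) [U.Normal] (hU : 𝒰.IsOpen U)
    (n : ℕ) (f : (Fin n → Γ ⧸ U) → (levelRep A U).V)
    (hf : (show lcCochains 𝒰 A.obj n from ((inflCochains A U hU).f n).hom f) ∈
      lcCocycles 𝒰 A n) : f ∈ levelCocycles A U n := by
  rw [mem_levelCocycles_iff]
  apply inflCochains_f_injective A U hU (n + 1)
  rw [map_zero, ← lcD_inflCochains]
  exact (mem_lcCocycles_iff' _).1 hf

/-- (FL1) Every smooth cohomology class is inflated from a finite level (which can be chosen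
inside any given open subgroup). -/
theorem exists_inflLevel_eq (A : SmRep k 𝒰) {n : ℕ} (x : smH 𝒰 A n)
    (U₀ : Subgroup Γ) (hU₀ : 𝒰.IsOpen U₀) :
    ∃ (W : Subgroup Γ) (hW : W ∈ 𝒰.sets) (_ : W ≤ U₀), haveI := 𝒰.normal W hW
      ∃ y : groupCohomology (levelRep A W) n,
        (inflLevel A W (𝒰.isOpen_of_mem hW) n).hom y = x := by
  obtain ⟨z, rfl⟩ := exists_smHmk_eq x
  obtain ⟨W, hW, hWU₀, hex⟩ := exists_descend_lcCochain A z.1 U₀ hU₀
  refine ⟨W, hW, hWU₀, ?_⟩
  haveI := 𝒰.normal W hW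
  obtain ⟨f, hf⟩ := hex
  have hfz : f ∈ levelCocycles A W n := by
    apply mem_levelCocycles_of_infl A W (𝒰.isOpen_of_mem hW) n f
    rw [hf]
    exact z.2
  refine ⟨levelMk A W n ⟨f, hfz⟩, ?_⟩
  rw [inflLevel_levelMk]
  congr 1
  exact Subtype.ext hf

/-- (FL2) A class of a finite level dies in smooth cohomology iff it dies at a deeper finite
level. -/
theorem inflLevel_eq_zero_iff (A : SmRep k 𝒰) (U : Subgroup Γ) [U.Normal] (hU : 𝒰.IsOpen U)
    (n : ℕ) (y : groupCohomology (levelRep A U) n) :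
    (inflLevel A U hU n).hom y = 0 ↔
      ∃ (V : Subgroup Γ) (hV : V ∈ 𝒰.sets) (hVU : V ≤ U), haveI := 𝒰.normal V hV
        (inflTrans A V U hVU n).hom y = 0 := by
  constructor
  · intro h0
    obtain ⟨z, rfl⟩ := levelMk_surjective A U n y
    rw [inflLevel_levelMk] at h0
    cases n with
    | zero =>
      have h1 : inflCocycles A U hU 0 z = 0 := smHmk_zero_injective A (by rw [h0, map_zero])
      have h2 : z = 0 := by
        apply Subtype.ext
        apply inflCochains_f_injective A U hU 0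
        rw [ZeroMemClass.coe_zero, map_zero]
        exact congrArg Subtype.val h1
      obtain ⟨V, hV, hVU⟩ := hU
      refine ⟨V, hV, hVU, ?_⟩
      rw [h2, map_zero, map_zero]
    | succ n =>
      rw [smHmk_succ_eq_zero_iff] at h0
      obtain ⟨h, hh⟩ := h0
      obtain ⟨W, hW, hWU, hex⟩ := exists_descend_lcCochain A h U hU
      refine ⟨W, hW, hWU, ?_⟩
      haveI := 𝒰.normal W hW
      obtain ⟨f, hf⟩ := hex
      rw [inflTrans_levelMk]
      refine (CC.mk_succ_eq_zero_iff _ n _).2 ⟨f, ?_⟩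
      rw [inhomogeneousCochains.d_def]
      apply inflCochains_f_injective A W (𝒰.isOpen_of_mem hW) (n + 1)
      rw [← lcD_inflCochains, hf, hh]
      rfl
  · rintro ⟨V, hV, hVU, h0⟩
    haveI := 𝒰.normal V hV
    rw [← inflLevel_inflTrans_apply A V U hVU (𝒰.isOpen_of_mem hV) hU n y, h0, map_zero]

/-- A smooth cohomology class is inflated from cofinally many levels: given levels `V` cofinal in
the basis, every class comes from one of them. -/
theorem exists_inflLevel_eq_of_cofinal (A : SmRep k 𝒰) {n : ℕ} (x : smH 𝒰 A n)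
    (P : Subgroup Γ → Prop)
    (hP : ∀ (U : Subgroup Γ), U ∈ 𝒰.sets → ∃ (V : Subgroup Γ), V ∈ 𝒰.sets ∧ V ≤ U ∧ P V) :
    ∃ (V : Subgroup Γ) (hV : V ∈ 𝒰.sets), P V ∧ (haveI := 𝒰.normal V hV
      ∃ y : groupCohomology (levelRep A V) n,
        (inflLevel A V (𝒰.isOpen_of_mem hV) n).hom y = x) := by
  obtain ⟨W, hW, -, hex⟩ := exists_inflLevel_eq A x ⊤ 𝒰.isOpen_top
  haveI := 𝒰.normal W hW
  obtain ⟨y, rfl⟩ := hex
  obtain ⟨V, hV, hVW, hPV⟩ := hP W hW
  refine ⟨V, hV, hPV, ?_⟩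
  haveI := 𝒰.normal V hV
  exact ⟨(inflTrans A V W hVW n).hom y, inflLevel_inflTrans_apply A V W hVW _ _ n y⟩

/-- If the cohomology of cofinally many finite levels vanishes in degree `n`, so does smooth
cohomology. -/
theorem isZero_smH_of_cofinal (A : SmRep k 𝒰) (n : ℕ)
    (h : ∀ (U : Subgroup Γ), U ∈ 𝒰.sets → ∃ (V : Subgroup Γ) (hV : V ∈ 𝒰.sets), V ≤ U ∧
      (haveI := 𝒰.normal V hV; IsZero (groupCohomology (levelRep A V) n))) :
    IsZero (smH 𝒰 A n) := by
  have hsub : Subsingleton (smH 𝒰 A n) := by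
    refine ⟨fun x x' => ?_⟩
    have key : ∀ x : smH 𝒰 A n, x = 0 := by
      intro x
      obtain ⟨W, hW, -, hex⟩ := exists_inflLevel_eq A x ⊤ 𝒰.isOpen_top
      haveI := 𝒰.normal W hW
      obtain ⟨y, rfl⟩ := hex
      obtain ⟨V, hV, hVW, hz⟩ := h W hW
      haveI := 𝒰.normal V hV
      rw [← inflLevel_inflTrans_apply A V W hVW (𝒰.isOpen_of_mem hV) _ n y]
      have : (inflTrans A V W hVW n).hom y = 0 :=
        (ModuleCat.isZero_iff_subsingleton.1 hz).elim _ _
      rw [this, map_zero]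
    rw [key x, key x']
  exact ModuleCat.isZero_of_subsingleton _

/-- If multiplication by `c` kills the cohomology of cofinally many finite levels in degree `n`,
it kills smooth cohomology. -/
theorem smul_eq_zero_smH_of_cofinal (A : SmRep k 𝒰) (n : ℕ) (c : k)
    (h : ∀ (U : Subgroup Γ), U ∈ 𝒰.sets → ∃ (V : Subgroup Γ) (hV : V ∈ 𝒰.sets), V ≤ U ∧
      (haveI := 𝒰.normal V hV; ∀ y : groupCohomology (levelRep A V) n, c • y = 0))
    (x : smH 𝒰 A n) : c • x = 0 := by
  obtain ⟨W, hW, -, hex⟩ := exists_inflLevel_eq A x ⊤ 𝒰.isOpen_top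
  haveI := 𝒰.normal W hW
  obtain ⟨y, rfl⟩ := hex
  obtain ⟨V, hV, hVW, hz⟩ := h W hW
  haveI := 𝒰.normal V hV
  rw [← inflLevel_inflTrans_apply A V W hVW (𝒰.isOpen_of_mem hV) _ n y, ← map_smul, hz, map_zero]

/-- If multiplication by `c` is injective on the cohomology of cofinally many finite levels in
degree `n`, it is injective on smooth cohomology. -/
theorem smul_injective_smH_of_cofinal (A : SmRep k 𝒰) (n : ℕ) (c : k)
    (h : ∀ (U : Subgroup Γ), U ∈ 𝒰.sets → ∃ (V : Subgroup Γ) (hV : V ∈ 𝒰.sets), V ≤ U ∧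
      (haveI := 𝒰.normal V hV; ∀ y : groupCohomology (levelRep A V) n, c • y = 0 → y = 0))
    (x : smH 𝒰 A n) (hx : c • x = 0) : x = 0 := by
  obtain ⟨W, hW, -, hex⟩ := exists_inflLevel_eq A x ⊤ 𝒰.isOpen_top
  haveI := 𝒰.normal W hW
  obtain ⟨y, rfl⟩ := hex
  rw [← map_smul, inflLevel_eq_zero_iff] at hx
  obtain ⟨V₁, hV₁, hV₁W, h1⟩ := hx
  haveI := 𝒰.normal V₁ hV₁
  obtain ⟨V, hV, hVV₁, hz⟩ := h V₁ hV₁
  haveI := 𝒰.normal V hV
  rw [← inflLevel_inflTrans_apply A V W (hVV₁.trans hV₁W) (𝒰.isOpen_of_mem hV) _ n y]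
  have h2 : (inflTrans A V W (hVV₁.trans hV₁W) n).hom y = 0 := by
    apply hz
    rw [← inflTrans_inflTrans_apply A V V₁ W hVV₁ hV₁W n y, ← map_smul, ← map_smul, h1, map_zero]
  rw [h2, map_zero]

end Fermat.Agent.CFT.Sm
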