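/-
S55 / CFT (FL5) — helper4.
The universal property of smooth cohomology as the colimit of the cohomology of the finite
levels: a compatible family of additive maps on the cohomology of a cofinal family of levels
induces an additive map on `smH 𝒰 A n` (`smHLift`).
-/
import Fermat.Agent.CFT.Sm.FL_helper4_Colim

set_option autoImplicit false
set_option linter.unusedSectionVars false
set_option linter.style.haveILetI false

open CategoryTheory CategoryTheory.Limits groupCohomology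

namespace Fermat.Agent.CFT.Sm

variable {k Γ : Type} [CommRing k] [Group Γ] {𝒰 : OpenBasis Γ}

/-- A cofinal family of levels of an open basis. -/
structure LevelFamily (𝒰 : OpenBasis Γ) where
  /-- the levels -/
  lev : Set (Subgroup Γ)
  lev_sub : lev ⊆ 𝒰.sets
  cofinal : ∀ U ∈ 𝒰.sets, ∃ V ∈ lev, V ≤ U

namespace LevelFamily

variable (ℒ : LevelFamily 𝒰)

lemma normal {V : Subgroup Γ} (hV : V ∈ ℒ.lev) : V.Normal := 𝒰.normal V (ℒ.lev_sub hV)

lemma isOpen {V : Subgroup Γ} (hV : V ∈ ℒ.lev) : 𝒰.IsOpen V := 𝒰.isOpen_of_mem (ℒ.lev_sub hV)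

lemma exists_le_of_isOpen {U : Subgroup Γ} (hU : 𝒰.IsOpen U) : ∃ V ∈ ℒ.lev, V ≤ U := by
  obtain ⟨U', hU', hle⟩ := hU
  obtain ⟨V, hV, hVU'⟩ := ℒ.cofinal U' hU'
  exact ⟨V, hV, hVU'.trans hle⟩

lemma exists_le_inf {V V' : Subgroup Γ} (hV : V ∈ ℒ.lev) (hV' : V' ∈ ℒ.lev) :
    ∃ W ∈ ℒ.lev, W ≤ V ∧ W ≤ V' := by
  obtain ⟨W, hW, hWle⟩ := ℒ.exists_le_of_isOpen (OpenBasis.IsOpen.inf 𝒰 (ℒ.isOpen hV) (ℒ.isOpen hV'))
  exact ⟨W, hW, hWle.trans inf_le_left, hWle.trans inf_le_right⟩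

/-- All the basic open subgroups form a level family. -/
def all (𝒰 : OpenBasis Γ) : LevelFamily 𝒰 where
  lev := 𝒰.sets
  lev_sub := subset_rfl
  cofinal := fun U hU => ⟨U, hU, le_rfl⟩

/-- Every class is inflated from a level of the family. -/
theorem exists_inflLevel_eq (A : SmRep k 𝒰) {n : ℕ} (x : smH 𝒰 A n) :
    ∃ (V : Subgroup Γ) (hV : V ∈ ℒ.lev), haveI := ℒ.normal hV
      ∃ y : groupCohomology (levelRep A V) n, (inflLevel A V (ℒ.isOpen hV) n).hom y = x := by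
  obtain ⟨V, hV, hVlev, hex⟩ := exists_inflLevel_eq_of_cofinal A x (· ∈ ℒ.lev)
    (fun U hU => by
      obtain ⟨V, hV, hVU⟩ := ℒ.cofinal U hU
      exact ⟨V, ℒ.lev_sub hV, hVU, hV⟩)
  exact ⟨V, hVlev, hex⟩

/-- A class of a level of the family dies in smooth cohomology iff it dies at a deeper level
of the family. -/
theorem inflLevel_eq_zero_iff (A : SmRep k 𝒰) {n : ℕ} {V : Subgroup Γ} (hV : V ∈ ℒ.lev)
    [V.Normal] (y : groupCohomology (levelRep A V) n) :
    (inflLevel A V (ℒ.isOpen hV) n).hom y = 0 ↔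
      ∃ (W : Subgroup Γ) (hW : W ∈ ℒ.lev) (hWV : W ≤ V), haveI := ℒ.normal hW
        (inflTrans A W V hWV n).hom y = 0 := by
  constructor
  · intro h
    obtain ⟨W₁, hW₁, hW₁V, h1⟩ := (Sm.inflLevel_eq_zero_iff A V (ℒ.isOpen hV) n y).1 h
    haveI := 𝒰.normal W₁ hW₁
    obtain ⟨W, hW, hWW₁⟩ := ℒ.cofinal W₁ hW₁
    refine ⟨W, hW, hWW₁.trans hW₁V, ?_⟩
    haveI := ℒ.normal hW
    rw [← inflTrans_inflTrans_apply A W W₁ V hWW₁ hW₁V n y, h1, map_zero]
  · rintro ⟨W, hW, hWV, h⟩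
    haveI := ℒ.normal hW
    rw [← inflLevel_inflTrans_apply A W V hWV (ℒ.isOpen hW) (ℒ.isOpen hV) n y, h, map_zero]

end LevelFamily

/-- A compatible family of additive maps on the cohomology of the levels of a level family. -/
structure LevelCocone (ℒ : LevelFamily 𝒰) (A : SmRep k 𝒰) (n : ℕ) (T : Type*)
    [AddCommGroup T] where
  /-- the maps on the levels -/
  φ : ∀ (V : Subgroup Γ) [V.Normal], V ∈ ℒ.lev → (groupCohomology (levelRep A V) n →+ T)
  compat : ∀ (W V : Subgroup Γ) [W.Normal] [V.Normal] (hW : W ∈ ℒ.lev) (hV : V ∈ ℒ.lev)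
    (hWV : W ≤ V) (y : groupCohomology (levelRep A V) n),
    φ W hW ((inflTrans A W V hWV n).hom y) = φ V hV y

namespace LevelCocone

variable {ℒ : LevelFamily 𝒰} {A : SmRep k 𝒰} {n : ℕ} {T : Type*} [AddCommGroup T]
  (c : LevelCocone ℒ A n T)

/-- The value of the cocone only depends on the image in smooth cohomology. -/
lemma φ_eq_of_inflLevel_eq {V V' : Subgroup Γ} [V.Normal] [V'.Normal] (hV : V ∈ ℒ.lev)
    (hV' : V' ∈ ℒ.lev) (y : groupCohomology (levelRep A V) n)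
    (y' : groupCohomology (levelRep A V') n)
    (h : (inflLevel A V (ℒ.isOpen hV) n).hom y = (inflLevel A V' (ℒ.isOpen hV') n).hom y') :
    c.φ V hV y = c.φ V' hV' y' := by
  obtain ⟨W, hW, hWV, hWV'⟩ := ℒ.exists_le_inf hV hV'
  haveI := ℒ.normal hW
  have h0 : (inflLevel A W (ℒ.isOpen hW) n).hom
      ((inflTrans A W V hWV n).hom y - (inflTrans A W V' hWV' n).hom y') = 0 := by
    rw [map_sub, inflLevel_inflTrans_apply A W V hWV (ℒ.isOpen hW) (ℒ.isOpen hV),
      inflLevel_inflTrans_apply A W V' hWV' (ℒ.isOpen hW) (ℒ.isOpen hV'), h, sub_self]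
  obtain ⟨W₂, hW₂, hW₂W, h2⟩ := (ℒ.inflLevel_eq_zero_iff A hW _).1 h0
  haveI := ℒ.normal hW₂
  rw [map_sub, inflTrans_inflTrans_apply, inflTrans_inflTrans_apply, sub_eq_zero] at h2
  rw [← c.compat W₂ V hW₂ hV (hW₂W.trans hWV) y, ← c.compat W₂ V' hW₂ hV' (hW₂W.trans hWV') y', h2]

/-- The underlying function of `smHLift`. -/
noncomputable def liftFun (x : smH 𝒰 A n) : T :=
  haveI := ℒ.normal (ℒ.exists_inflLevel_eq A x).choose_spec.choose
  c.φ (ℒ.exists_inflLevel_eq A x).choose (ℒ.exists_inflLevel_eq A x).choose_spec.choose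
    (ℒ.exists_inflLevel_eq A x).choose_spec.choose_spec.choose

lemma liftFun_inflLevel {V : Subgroup Γ} [V.Normal] (hV : V ∈ ℒ.lev)
    (y : groupCohomology (levelRep A V) n) :
    c.liftFun ((inflLevel A V (ℒ.isOpen hV) n).hom y) = c.φ V hV y := by
  set x := (inflLevel A V (ℒ.isOpen hV) n).hom y with hx
  haveI := ℒ.normal (ℒ.exists_inflLevel_eq A x).choose_spec.choose
  exact c.φ_eq_of_inflLevel_eq (ℒ.exists_inflLevel_eq A x).choose_spec.choose hV _ y
    (ℒ.exists_inflLevel_eq A x).choose_spec.choose_spec.choose_spec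

/-- **Universal property of smooth cohomology**: the additive map induced by a compatible family
of additive maps on the levels. -/
noncomputable def smHLift : smH 𝒰 A n →+ T where
  toFun := c.liftFun
  map_zero' := by
    obtain ⟨V, hV⟩ := ℒ.cofinal _ 𝒰.nonempty.choose_spec
    haveI := ℒ.normal hV.1
    have := c.liftFun_inflLevel hV.1 0
    rw [map_zero, map_zero] at this
    exact this
  map_add' x x' := by
    obtain ⟨V, hV, hex⟩ := ℒ.exists_inflLevel_eq A x
    obtain ⟨V', hV', hex'⟩ := ℒ.exists_inflLevel_eq A x'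
    haveI := ℒ.normal hV
    haveI := ℒ.normal hV'
    obtain ⟨y, rfl⟩ := hex
    obtain ⟨y', rfl⟩ := hex'
    obtain ⟨W, hW, hWV, hWV'⟩ := ℒ.exists_le_inf hV hV'
    haveI := ℒ.normal hW
    rw [← inflLevel_inflTrans_apply A W V hWV (ℒ.isOpen hW) (ℒ.isOpen hV),
      ← inflLevel_inflTrans_apply A W V' hWV' (ℒ.isOpen hW) (ℒ.isOpen hV'), ← map_add,
      c.liftFun_inflLevel hW, c.liftFun_inflLevel hW, c.liftFun_inflLevel hW, map_add]

@[simp]
lemma smHLift_inflLevel {V : Subgroup Γ} [V.Normal] (hV : V ∈ ℒ.lev)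
    (y : groupCohomology (levelRep A V) n) :
    c.smHLift ((inflLevel A V (ℒ.isOpen hV) n).hom y) = c.φ V hV y :=
  c.liftFun_inflLevel hV y

/-- Uniqueness in the universal property. -/
lemma smHLift_unique (Φ : smH 𝒰 A n →+ T)
    (h : ∀ (V : Subgroup Γ) [V.Normal] (hV : V ∈ ℒ.lev) (y : groupCohomology (levelRep A V) n),
      Φ ((inflLevel A V (ℒ.isOpen hV) n).hom y) = c.φ V hV y) : Φ = c.smHLift := by
  ext x
  obtain ⟨V, hV, hex⟩ := ℒ.exists_inflLevel_eq A x
  haveI := ℒ.normal hV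
  obtain ⟨y, rfl⟩ := hex
  rw [h V hV y, c.smHLift_inflLevel hV y]

end LevelCocone

end Fermat.Agent.CFT.Sm
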