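/-
S55 / CFT (FL4, p-primary refinement) — helper4.
The kernel of inflation `H²(Γ ⧸ U, A^U) → H²(Γ, A)` is controlled by a class in `H¹(U, A)`:
if `infl y = 0` there is `x ∈ H¹(U, A)` such that every integer killing `x` kills `y`.
-/
import Fermat.Agent.CFT.Sm.FL_helper4_Low

set_option autoImplicit false
set_option linter.unusedSectionVars false
set_option linter.style.haveILetI false

open CategoryTheory CategoryTheory.Limits groupCohomology

namespace Fermat.Agent.CFT.Sm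

variable {k Γ : Type} [CommRing k] [Group Γ] {𝒰 : OpenBasis Γ}

section TwoP

variable (A : SmRep k 𝒰) (U : Subgroup Γ) [U.Normal] (hU : 𝒰.IsOpen U)

/-- Core of the inflation–restriction argument in degree `2`: if `infl z = d h`, the restriction
of `h - z(1,1)` to `U` is a level-constant `1`-cocycle of `U`, and if it is a coboundary then
`z` is a coboundary at the finite level. -/
theorem inflLevel_two_core (z : levelCocycles A U 2) (h : lcCochains 𝒰 A.obj 1)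
    (hh : (lcD 𝒰 A 1).hom h = (inflCocycles A U hU 2 z).1) :
    ∃ fU : lcCocycles (𝒰.comap U.subtype) (resSub A U) 1,
      (∀ x : Fin 1 → U, (fU.1.1 : (Fin 1 → U) → A.obj.V) x =
        (h : (Fin 1 → Γ) → A.obj.V) (fun _ => ((x 0 : U) : Γ)) -
          (((z : (Fin 2 → Γ ⧸ U) → (levelRep A U).V) ![1, 1] : (levelRep A U).V) : A.obj.V)) ∧
      (smHmk (resSub A U) 1 fU = 0 → levelMk A U 2 z = 0) := by
  -- notation
  set ĥ : Γ → A.obj.V := fun g => (h : (Fin 1 → Γ) → A.obj.V) (fun _ => g) with hĥ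
  set Z : Γ ⧸ U → Γ ⧸ U → A.obj.V := fun q₀ q₁ =>
    (((z : (Fin 2 → Γ ⧸ U) → (levelRep A U).V) ![q₀, q₁] : (levelRep A U).V) : A.obj.V) with hZ
  have hZfix : ∀ q₀ q₁ (u : Γ), u ∈ U → A.obj.ρ u (Z q₀ q₁) = Z q₀ q₁ :=
    fun q₀ q₁ u hu => levelRep_fixed A U _ u hu
  have hmk1 : ∀ u : Γ, u ∈ U → ((u : Γ) : Γ ⧸ U) = 1 :=
    fun u hu => (QuotientGroup.eq_one_iff _).2 hu
  -- (E1) the coboundary equation
  have E1 : ∀ g₀ g₁ : Γ, Z g₀ g₁ = A.obj.ρ g₀ (ĥ g₁) - ĥ (g₀ * g₁) + ĥ g₀ := by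
    intro g₀ g₁
    have e := congrFun (congrArg Subtype.val hh) ![g₀, g₁]
    rw [lcD_apply_coe, d_one_apply] at e
    rw [inflCocycles_apply] at e
    have e2 : (fun i => ((![g₀, g₁] i : Γ) : Γ ⧸ U)) = ![(g₀ : Γ ⧸ U), (g₁ : Γ ⧸ U)] := by
      funext i; fin_cases i <;> rfl
    rw [e2] at e
    exact e.symm
  -- the cocycle identity of `z`
  have hcoc : ∀ (g₀ : Γ) (q₁ q₂ : Γ ⧸ U),
      A.obj.ρ g₀ (Z q₁ q₂) - Z ((g₀ : Γ ⧸ U) * q₁) q₂ + Z g₀ (q₁ * q₂) - Z g₀ q₁ = 0 := by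
    intro g₀ q₁ q₂
    have e := congrFun ((mem_levelCocycles_iff A U 2 z.1).1 z.2) ![(g₀ : Γ ⧸ U), q₁, q₂]
    rw [d_two_apply] at e
    have e' := congrArg (Subtype.val : (levelRep A U).V → A.obj.V) e
    exact e'
  set c : A.obj.V := Z 1 1 with hc
  have C1 : ∀ q, Z 1 q = c := by
    intro q
    have e := hcoc 1 1 q
    rw [map_one, QuotientGroup.mk_one, one_mul, one_mul] at e
    have : Z 1 q - c = 0 := by
      rw [← e]
      simp only [Module.End.one_apply]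
      abel
    exact sub_eq_zero.1 this
  have C2 : ∀ g : Γ, Z g 1 = A.obj.ρ g c := by
    intro g
    have e := hcoc g 1 1
    rw [mul_one, mul_one] at e
    have : A.obj.ρ g c - Z g 1 = 0 := by
      rw [← e]
      abel
    exact (sub_eq_zero.1 this).symm
  have hcfix : ∀ u : Γ, u ∈ U → A.obj.ρ u c = c := fun u hu => hZfix 1 1 u hu
  -- the restriction of `ĥ - c` to `U` is a level-constant cocycle
  let fU : (Fin 1 → U) → A.obj.V := fun x => (h : (Fin 1 → Γ) → A.obj.V) (U.subtype ∘ x) - c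
  have hfU_lc : fU ∈ lcCochains (𝒰.comap U.subtype) (resSub A U).obj 1 :=
    ((IsLevelConstant.precomp U.subtype (OpenBasis.Finer.refl _) h.2).comp (· - c) :)
  have hfU_apply : ∀ x : Fin 1 → U, fU x = ĥ (x 0 : Γ) - c := by
    intro x
    have : (U.subtype ∘ x) = fun _ => ((x 0 : U) : Γ) := by
      funext i; rw [Subsingleton.elim i 0]; rfl
    change (h : (Fin 1 → Γ) → A.obj.V) (U.subtype ∘ x) - c = _
    rw [this]
  have hfU_coc : (⟨fU, hfU_lc⟩ : lcCochains (𝒰.comap U.subtype) (resSub A U).obj 1) ∈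
      lcCocycles (𝒰.comap U.subtype) (resSub A U) 1 := by
    rw [mem_lcCocycles_iff]
    funext x
    rw [d_one_apply]
    change A.obj.ρ (x 0 : Γ) (fU _) - fU _ + fU _ = 0
    rw [hfU_apply, hfU_apply, hfU_apply]
    have e := E1 (x 0 : Γ) (x 1 : Γ)
    rw [hmk1 _ (x 0).2, hmk1 _ (x 1).2] at e
    have e3 : (((x 0 * x 1 : U) : U) : Γ) = (x 0 : Γ) * (x 1 : Γ) := rfl
    rw [map_sub, hcfix _ (x 0).2, e3]
    have : A.obj.ρ (x 0 : Γ) (ĥ (x 1 : Γ)) - c - (ĥ ((x 0 : Γ) * (x 1 : Γ)) - c) +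
        (ĥ (x 0 : Γ) - c) =
        (A.obj.ρ (x 0 : Γ) (ĥ (x 1 : Γ)) - ĥ ((x 0 : Γ) * (x 1 : Γ)) + ĥ (x 0 : Γ)) - c := by
      abel
    rw [this, ← e, hc, sub_self]
  refine ⟨⟨⟨fU, hfU_lc⟩, hfU_coc⟩, fun x => hfU_apply x, ?_⟩
  intro hzero
  rw [smHmk_succ_eq_zero_iff] at hzero
  obtain ⟨y, hy⟩ := hzero
  set a : A.obj.V := y.1 default with ha
  have hya : ∀ u : Γ, u ∈ U → ĥ u - c = A.obj.ρ u a - a := by
    intro u hu
    have e := congrFun (congrArg Subtype.val hy) (fun _ => (⟨u, hu⟩ : U))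
    rw [lcD_apply_coe, d_zero_apply] at e
    have e' : A.obj.ρ u a - a = fU (fun _ => (⟨u, hu⟩ : U)) := e
    rw [hfU_apply] at e'
    exact e'.symm
  -- the corrected cochain
  set κ : Γ → A.obj.V := fun g => ĥ g - (A.obj.ρ g a - a) with hκ
  have K0 : ∀ u : Γ, u ∈ U → κ u = c := by
    intro u hu
    have := hya u hu
    change ĥ u - (A.obj.ρ u a - a) = c
    rw [← this]
    abel
  have K1 : ∀ g₀ g₁ : Γ, Z g₀ g₁ = A.obj.ρ g₀ (κ g₁) - κ (g₀ * g₁) + κ g₀ := by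
    intro g₀ g₁
    rw [E1]
    change _ = A.obj.ρ g₀ (ĥ g₁ - (A.obj.ρ g₁ a - a)) - (ĥ (g₀ * g₁) - (A.obj.ρ (g₀ * g₁) a - a)) +
      (ĥ g₀ - (A.obj.ρ g₀ a - a))
    rw [map_sub, map_sub, map_mul, Module.End.mul_apply]
    abel
  have K2 : ∀ (g u : Γ), u ∈ U → κ (g * u) = κ g := by
    intro g u hu
    have e := K1 g u
    rw [hmk1 u hu, C2, K0 u hu] at e
    have : κ g - κ (g * u) = 0 := by
      have e' : A.obj.ρ g c - κ (g * u) + κ g = A.obj.ρ g c := e.symm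
      have : κ g - κ (g * u) = (A.obj.ρ g c - κ (g * u) + κ g) - A.obj.ρ g c := by abel
      rw [this, e', sub_self]
    exact (sub_eq_zero.1 this).symm
  have K3 : ∀ (g u : Γ), u ∈ U → A.obj.ρ u (κ g) = κ (u * g) := by
    intro g u hu
    have e := K1 u g
    rw [hmk1 u hu, C1, K0 u hu] at e
    have : A.obj.ρ u (κ g) - κ (u * g) = 0 := by
      have e' : A.obj.ρ u (κ g) - κ (u * g) + c = c := e.symm
      have : A.obj.ρ u (κ g) - κ (u * g) = (A.obj.ρ u (κ g) - κ (u * g) + c) - c := by abel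
      rw [this, e', sub_self]
    exact sub_eq_zero.1 this
  have K4 : ∀ (g u : Γ), u ∈ U → A.obj.ρ u (κ g) = κ g := by
    intro g u hu
    rw [K3 g u hu]
    have : u * g = g * (g⁻¹ * u * g) := by group
    rw [this]
    refine K2 g _ ?_
    have := Subgroup.Normal.conj_mem (inferInstance : U.Normal) u hu g⁻¹
    simpa using this
  have K5 : ∀ g : Γ, κ ((g : Γ ⧸ U).out) = κ g := by
    intro g
    have h1 : (((g : Γ ⧸ U).out : Γ) : Γ ⧸ U) = (g : Γ ⧸ U) := QuotientGroup.out_eq' _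
    have h2 : g⁻¹ * (g : Γ ⧸ U).out ∈ U := QuotientGroup.eq.1 h1.symm
    have h3 : (g : Γ ⧸ U).out = g * (g⁻¹ * (g : Γ ⧸ U).out) := by group
    rw [h3]
    exact K2 g _ h2
  -- the descended cochain
  let κ' : (Fin 1 → Γ ⧸ U) → (levelRep A U).V := fun q =>
    ⟨κ (q 0).out, fun u => K4 _ u.1 u.2⟩
  rw [levelMk]
  refine (CC.mk_succ_eq_zero_iff _ 1 _).2 ⟨κ', ?_⟩
  rw [inhomogeneousCochains.d_def]
  apply inflCochains_f_injective A U hU 2
  rw [← lcD_inflCochains]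
  apply Subtype.ext
  funext g
  rw [lcD_apply_coe, d_one_apply]
  rw [inflCochains_f_apply_coe, inflCochains_f_apply_coe, inflCochains_f_apply_coe,
    inflCochains_f_apply_coe]
  change A.obj.ρ (g 0) (κ ((g 1 : Γ ⧸ U)).out) - κ (((g 0 * g 1 : Γ) : Γ ⧸ U)).out +
    κ ((g 0 : Γ ⧸ U)).out = _
  rw [K5, K5, K5, ← K1]
  have e2 : (fun i => ((g i : Γ) : Γ ⧸ U)) = ![(g 0 : Γ ⧸ U), (g 1 : Γ ⧸ U)] := by
    funext i; fin_cases i <;> rfl
  rw [e2]


/-- **The kernel of inflation in degree `2` is controlled by `H¹(U, A)`**: if `infl y = 0` there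
is a class `x ∈ H¹(U, A)` such that every natural number killing `x` kills `y`. -/
theorem exists_smH_one_of_inflLevel_two_eq_zero (y : groupCohomology (levelRep A U) 2)
    (hy : (inflLevel A U hU 2).hom y = 0) :
    ∃ x : smH (𝒰.comap U.subtype) (resSub A U) 1, ∀ e : ℕ, e • x = 0 → e • y = 0 := by
  obtain ⟨z, rfl⟩ := levelMk_surjective A U 2 y
  rw [inflLevel_levelMk, smHmk_succ_eq_zero_iff] at hy
  obtain ⟨h, hh⟩ := hy
  obtain ⟨fU, hfU, -⟩ := inflLevel_two_core A U hU z h hh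
  refine ⟨smHmk (resSub A U) 1 fU, fun e he => ?_⟩
  have hh' : (lcD 𝒰 A 1).hom (e • h) = (inflCocycles A U hU 2 (e • z)).1 := by
    rw [map_nsmul, map_nsmul, hh]
    rfl
  obtain ⟨fU', hfU', hcore⟩ := inflLevel_two_core A U hU (e • z) (e • h) hh'
  have hfe : fU' = e • fU := by
    apply Subtype.ext
    apply Subtype.ext
    funext x
    have h1 : (fU'.1.1 : (Fin 1 → U) → A.obj.V) x =
        e • ((h : (Fin 1 → Γ) → A.obj.V) (fun _ => ((x 0 : U) : Γ))) -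
          e • ((((z : (Fin 2 → Γ ⧸ U) → (levelRep A U).V) ![1, 1] : (levelRep A U).V) :
            A.obj.V)) := hfU' x
    have h2 : e • (fU.1.1 : (Fin 1 → U) → A.obj.V) x =
        e • ((h : (Fin 1 → Γ) → A.obj.V) (fun _ => ((x 0 : U) : Γ)) -
          ((((z : (Fin 2 → Γ ⧸ U) → (levelRep A U).V) ![1, 1] : (levelRep A U).V) :
            A.obj.V))) := congrArg (fun t : A.obj.V => e • t) (hfU x)
    have h3 : ((e • fU : lcCocycles (𝒰.comap U.subtype) (resSub A U) 1).1.1 :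
        (Fin 1 → U) → A.obj.V) x = e • (fU.1.1 : (Fin 1 → U) → A.obj.V) x := rfl
    exact h1.trans ((smul_sub e _ _).symm.trans (h2.symm.trans h3.symm))
  rw [← map_nsmul]
  apply hcore
  rw [hfe, map_nsmul]
  exact he

end TwoP

end Fermat.Agent.CFT.Sm
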