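/-
S55 / CFT (PT5/PT8, abstract part) — helper4.
`p`-primary level systems: the structure of `H²(Γ, C)` (`p`-primary part) deduced from "pure
properties" of a cofinal family of finite levels. Base theory: torsion, `p`-primary inflation
injectivity, the socle of `H²`, `p`-divisibility, the invariant map.
-/
import Fermat.Agent.CFT.Sm.FL_helper4_LowP
import Fermat.Agent.CFT.Sm.FL_helper4_Lift
import Fermat.Agent.CFT.Coh.PPrimary_helper4
import Fermat.Agent.CFT.Coh.Torsion_helper9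

set_option autoImplicit false
set_option linter.unusedSectionVars false
set_option linter.style.haveILetI false

open CategoryTheory CategoryTheory.Limits groupCohomology

namespace Fermat.Agent.CFT.Sm

open Fermat.Agent.CFT.Coh

variable {Γ : Type} [Group Γ] {𝒰 : OpenBasis Γ}

section Torsion

lemma OpenBasis.index_pos_of_mem (𝒰 : OpenBasis Γ) {V : Subgroup Γ} (hV : V ∈ 𝒰.sets) :
    0 < V.index := by
  haveI := 𝒰.finiteIndex V hV
  exact Nat.pos_of_ne_zero Subgroup.FiniteIndex.index_ne_zero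

/-- The cohomology of a finite level is killed by the index. -/
lemma index_nsmul_level_eq_zero (A : SmRep ℤ 𝒰) {V : Subgroup Γ} [V.Normal] (hV : V ∈ 𝒰.sets)
    (n : ℕ) (y : groupCohomology (levelRep A V) (n + 1)) : V.index • y = 0 := by
  haveI := 𝒰.finiteIndex V hV
  haveI : Finite (Γ ⧸ V) := Subgroup.finite_quotient_of_finiteIndex
  rw [Subgroup.index_eq_card]
  exact card_nsmul_groupCohomology_eq_zero _ n y

lemma level_torsion (A : SmRep ℤ 𝒰) {V : Subgroup Γ} [V.Normal] (hV : V ∈ 𝒰.sets)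
    (n : ℕ) (y : groupCohomology (levelRep A V) (n + 1)) : ∃ m : ℕ, 0 < m ∧ m • y = 0 :=
  ⟨V.index, 𝒰.index_pos_of_mem hV, index_nsmul_level_eq_zero A hV n y⟩

/-- Smooth cohomology in positive degrees is torsion. -/
lemma smH_succ_torsion (A : SmRep ℤ 𝒰) (n : ℕ) (x : smH 𝒰 A (n + 1)) :
    ∃ m : ℕ, 0 < m ∧ m • x = 0 := by
  obtain ⟨W, hW, -, hex⟩ := exists_inflLevel_eq A x ⊤ 𝒰.isOpen_top
  haveI := 𝒰.normal W hW
  obtain ⟨y, rfl⟩ := hex
  refine ⟨W.index, 𝒰.index_pos_of_mem hW, ?_⟩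
  rw [← map_nsmul, index_nsmul_level_eq_zero A hW n y, map_zero]

end Torsion

variable (p : ℕ) [hp : Fact p.Prime]

/-- The "pure properties" of a cofinal family of levels making `(Γ, 𝒰, C)` behave like a
`p`-class formation at the base level. -/
structure IsPLevelSystem (ℒ : LevelFamily 𝒰) (p : ℕ) (C : SmRep ℤ 𝒰) : Prop where
  /-- the `p`-primary part of `H²` of a level is cyclic of order the `p`-part of the index -/
  fund : ∀ (V : Subgroup Γ) [V.Normal], V ∈ ℒ.lev →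
    ∃ g : groupCohomology (levelRep C V) 2, IsPPrimary p g ∧
      (∀ x : groupCohomology (levelRep C V) 2, IsPPrimary p x → ∃ m : ℤ, x = m • g) ∧
      (∀ m : ℤ, m • g = 0 → ((p ^ V.index.factorization p : ℕ) : ℤ) ∣ m)
  h1 : ∀ (V : Subgroup Γ) [V.Normal], V ∈ ℒ.lev →
    ∀ x : groupCohomology (levelRep C V) 1, p • x = 0 → x = 0
  h1sub : ∀ (V : Subgroup Γ), V ∈ ℒ.lev →
    ∀ x : smH (𝒰.sub V) (resSub C V) 1, p • x = 0 → x = 0
  pcof : ∀ V ∈ ℒ.lev, ∃ W ∈ ℒ.lev, W ≤ V ∧ p ∣ W.index / V.index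

namespace IsPLevelSystem

variable {p} {ℒ : LevelFamily 𝒰} {C : SmRep ℤ 𝒰} (h : IsPLevelSystem ℒ p C)

include h

/-- `H¹(Γ, C)` has no `p`-torsion. -/
theorem smH_one_torsion_free (x : smH 𝒰 C 1) (hx : p • x = 0) : x = 0 := by
  refine smul_injective_smH_of_cofinal C 1 (p : ℤ) ?_ x (by rw [Nat.cast_smul_eq_nsmul]; exact hx)
  intro U hU
  obtain ⟨V, hV, hVU⟩ := ℒ.cofinal U hU
  refine ⟨V, ℒ.lev_sub hV, hVU, ?_⟩
  haveI := ℒ.normal hV
  intro y hy
  rw [Nat.cast_smul_eq_nsmul] at hy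
  exact h.h1 V hV y hy

/-- (CF1) multiplication by `p` is bijective on `H¹(Γ, C)`. -/
theorem smH_one_bijective : Function.Bijective (fun x : smH 𝒰 C 1 => p • x) :=
  bijective_nsmul_of_torsion (smH_succ_torsion C 0) h.smH_one_torsion_free

/-- Inflation from a level is injective on `p`-primary classes in degree `2`. -/
theorem inflLevel_two_eq_zero {V : Subgroup Γ} [V.Normal] (hV : V ∈ ℒ.lev)
    (y : groupCohomology (levelRep C V) 2) (hy : IsPPrimary p y)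
    (h0 : (inflLevel C V (ℒ.isOpen hV) 2).hom y = 0) : y = 0 := by
  obtain ⟨x, hx⟩ := exists_smH_one_of_inflLevel_two_eq_zero C V (ℒ.isOpen hV) y h0
  have hx' : IsPrimeTo p x :=
    isPrimeTo_of_torsion_free (h.h1sub V hV) (smH_succ_torsion (resSub C V) 0 x)
  obtain ⟨m, hm, hmx⟩ := hx'
  exact eq_zero_of_isPPrimary_of_isPrimeTo hy ⟨m, hm, hx m hmx⟩

/-- The transition maps are injective on `p`-primary classes in degree `2`. -/
theorem inflTrans_two_eq_zero {W V : Subgroup Γ} [W.Normal] [V.Normal] (hW : W ∈ ℒ.lev)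
    (hV : V ∈ ℒ.lev) (hWV : W ≤ V) (y : groupCohomology (levelRep C V) 2) (hy : IsPPrimary p y)
    (h0 : (inflTrans C W V hWV 2).hom y = 0) : y = 0 := by
  apply h.inflLevel_two_eq_zero hV y hy
  rw [← inflLevel_inflTrans_apply C W V hWV (ℒ.isOpen hW) (ℒ.isOpen hV) 2 y, h0, map_zero]

/-- A `p`-primary class of `H²(Γ, C)` is inflated from a `p`-primary class of a level below any
given level. -/
theorem exists_inflLevel_eq_of_isPPrimary (x : smH 𝒰 C 2) (hx : IsPPrimary p x)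
    {V₀ : Subgroup Γ} (hV₀ : 𝒰.IsOpen V₀) :
    ∃ (W : Subgroup Γ) (hW : W ∈ ℒ.lev) (_ : W ≤ V₀), haveI := ℒ.normal hW
      ∃ y : groupCohomology (levelRep C W) 2, IsPPrimary p y ∧
        (inflLevel C W (ℒ.isOpen hW) 2).hom y = x := by
  obtain ⟨V', hV', hex⟩ := ℒ.exists_inflLevel_eq C x
  haveI := ℒ.normal hV'
  obtain ⟨y', rfl⟩ := hex
  obtain ⟨W, hW, hWle⟩ := ℒ.exists_le_of_isOpen (OpenBasis.IsOpen.inf 𝒰 (ℒ.isOpen hV') hV₀)
  haveI := ℒ.normal hW
  have hWV' : W ≤ V' := hWle.trans inf_le_left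
  refine ⟨W, hW, hWle.trans inf_le_right, ?_⟩
  have tW := level_torsion C (ℒ.lev_sub hW) 1
  have tX := smH_succ_torsion C 1
  refine ⟨pProj p tW ((inflTrans C W V' hWV' 2).hom y'), isPPrimary_pProj tW _, ?_⟩
  have e := map_pProj (p := p) tW tX (inflLevel C W (ℒ.isOpen hW) 2).hom.toAddMonoidHom
    ((inflTrans C W V' hWV' 2).hom y')
  refine e.trans ?_
  have e2 : (inflLevel C W (ℒ.isOpen hW) 2).hom.toAddMonoidHom ((inflTrans C W V' hWV' 2).hom y') =
      (inflLevel C V' (ℒ.isOpen hV') 2).hom y' :=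
    inflLevel_inflTrans_apply C W V' hWV' (ℒ.isOpen hW) (ℒ.isOpen hV') 2 y'
  rw [e2]
  exact pProj_eq_self tX hx

omit h in
lemma _root_.Fermat.Agent.CFT.Sm.LevelFamily.exists_mem (ℒ : LevelFamily 𝒰) : ∃ V, V ∈ ℒ.lev := by
  obtain ⟨U, hU⟩ := 𝒰.nonempty
  obtain ⟨V, hV, -⟩ := ℒ.cofinal U hU
  exact ⟨V, hV⟩

omit h in
lemma index_ne_zero_of_mem {V : Subgroup Γ} (hV : V ∈ ℒ.lev) : V.index ≠ 0 :=
  (𝒰.index_pos_of_mem (ℒ.lev_sub hV)).ne'

/-- The exact order of the generator at a level. -/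
lemma zsmul_gen_eq_zero_iff {V : Subgroup Γ} [V.Normal] (hV : V ∈ ℒ.lev)
    {g : groupCohomology (levelRep C V) 2} (hg : IsPPrimary p g)
    (hord : ∀ m : ℤ, m • g = 0 → ((p ^ V.index.factorization p : ℕ) : ℤ) ∣ m) (m : ℤ) :
    m • g = 0 ↔ ((p ^ V.index.factorization p : ℕ) : ℤ) ∣ m :=
  zsmul_eq_zero_iff_of_ord hg (index_ne_zero_of_mem hV) rfl
    (index_nsmul_level_eq_zero C (ℒ.lev_sub hV) 1 g) hord m

omit h in
/-- Going down along a `p`-cofinal step raises the `p`-adic valuation of the index. -/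
lemma factorization_lt_of_dvd {W V : Subgroup Γ} (hW : W ∈ ℒ.lev) (hV : V ∈ ℒ.lev) (hWV : W ≤ V)
    (hd : p ∣ W.index / V.index) : V.index.factorization p + 1 ≤ W.index.factorization p := by
  have h1 : W.index / V.index * V.index = W.index :=
    Nat.div_mul_cancel (Subgroup.index_dvd_of_le hWV)
  have hq0 : W.index / V.index ≠ 0 := by
    intro h0
    rw [h0, zero_mul] at h1
    exact index_ne_zero_of_mem hW h1.symm
  have h2 : W.index.factorization p =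
      (W.index / V.index).factorization p + V.index.factorization p := by
    conv_lhs => rw [← h1]
    rw [Nat.factorization_mul hq0 (index_ne_zero_of_mem hV)]
    rfl
  have h3 : 0 < (W.index / V.index).factorization p :=
    Nat.Prime.factorization_pos_of_dvd hp.out hq0 hd
  omega

/-- **The socle of `H²(Γ, C)`** is cyclic of order `p`. -/
theorem exists_socle_generator : ∃ e : smH 𝒰 C 2, e ≠ 0 ∧ p • e = 0 ∧
    ∀ x : smH 𝒰 C 2, p • x = 0 → ∃ m : ℤ, x = m • e := by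
  obtain ⟨V₀, hV₀⟩ := ℒ.exists_mem
  obtain ⟨W₀, hW₀, hW₀V₀, hdvd⟩ := h.pcof V₀ hV₀
  haveI := ℒ.normal hW₀
  have hv₀ : 1 ≤ W₀.index.factorization p := by
    have := factorization_lt_of_dvd (p := p) hW₀ hV₀ hW₀V₀ hdvd
    omega
  obtain ⟨g₀, hg₀p, hg₀gen, hg₀ord⟩ := h.fund W₀ hW₀
  have hg₀ := h.zsmul_gen_eq_zero_iff hW₀ hg₀p hg₀ord
  set v₀ := W₀.index.factorization p with hv₀def
  set e₀ : groupCohomology (levelRep C W₀) 2 := (p ^ (v₀ - 1)) • g₀ with he₀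
  have hpe₀ : p • e₀ = 0 := by
    rw [he₀, ← mul_smul, ← pow_succ', Nat.sub_add_cancel hv₀, ← natCast_zsmul]
    exact (hg₀ _).2 (dvd_refl _)
  have he₀0 : e₀ ≠ 0 := by
    intro h0
    rw [he₀, ← natCast_zsmul] at h0
    have h1 := (hg₀ _).1 h0
    have h2 : p ^ v₀ ∣ p ^ (v₀ - 1) := by exact_mod_cast h1
    have := (Nat.pow_dvd_pow_iff_le_right hp.out.one_lt).1 h2
    omega
  have he₀p : IsPPrimary p e₀ := hg₀p.nsmul _
  refine ⟨(inflLevel C W₀ (ℒ.isOpen hW₀) 2).hom e₀, ?_, ?_, ?_⟩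
  · intro h0
    exact he₀0 (h.inflLevel_two_eq_zero hW₀ e₀ he₀p h0)
  · rw [← map_nsmul, hpe₀, map_zero]
  · intro x hx
    obtain ⟨W, hW, hWW₀, hex⟩ := h.exists_inflLevel_eq_of_isPPrimary x
      (isPPrimary_of_nsmul_eq_zero hx) (ℒ.isOpen hW₀)
    haveI := ℒ.normal hW
    obtain ⟨y, hy, rfl⟩ := hex
    have hpy : p • y = 0 := h.inflLevel_two_eq_zero hW (p • y) (hy.nsmul p) (by
      rw [map_nsmul]; exact hx)
    obtain ⟨g, hgp, hggen, hgord⟩ := h.fund W hW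
    have hg := h.zsmul_gen_eq_zero_iff hW hgp hgord
    set hh := (inflTrans C W W₀ hWW₀ 2).hom e₀ with hhh
    have hhp : IsPPrimary p hh := he₀p.map (inflTrans C W W₀ hWW₀ 2).hom.toAddMonoidHom
    have hph : p • hh = 0 := by rw [hhh, ← map_nsmul, hpe₀, map_zero]
    have hh0 : hh ≠ 0 := fun h0 => he₀0 (h.inflTrans_two_eq_zero hW hW₀ hWW₀ e₀ he₀p h0)
    obtain ⟨r, hr⟩ := exists_zsmul_eq_of_exact_order hg
      (zsmul_eq_zero_iff_of_prime_order hh0 hph) (hggen hh hhp) (hggen y hy)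
      (by rw [pow_one]; exact hpy)
    refine ⟨r, ?_⟩
    rw [hr, map_zsmul, hhh, inflLevel_inflTrans_apply C W W₀ hWW₀ (ℒ.isOpen hW) (ℒ.isOpen hW₀)]

/-- The `p`-primary part of `H²(Γ, C)` is `p`-divisible. -/
theorem exists_nsmul_eq_of_isPPrimary (x : smH 𝒰 C 2) (hx : IsPPrimary p x) :
    ∃ y : smH 𝒰 C 2, IsPPrimary p y ∧ p • y = x := by
  obtain ⟨W, hW, -, hex⟩ := h.exists_inflLevel_eq_of_isPPrimary x hx 𝒰.isOpen_top
  haveI := ℒ.normal hW
  obtain ⟨y, hy, rfl⟩ := hex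
  obtain ⟨W', hW', hW'W, hdvd⟩ := h.pcof W hW
  haveI := ℒ.normal hW'
  have hvv := factorization_lt_of_dvd (p := p) hW' hW hW'W hdvd
  obtain ⟨g', hg'p, hg'gen, hg'ord⟩ := h.fund W' hW'
  have hg' := h.zsmul_gen_eq_zero_iff hW' hg'p hg'ord
  set w := W.index.factorization p with hw
  -- `p^w` kills `y`
  have hwy : p ^ w • y = 0 := by
    refine hy.pow_nsmul_eq_zero (m := W.index / p ^ w) ?_ ?_
    · exact Nat.not_dvd_ordCompl hp.out (index_ne_zero_of_mem hW)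
    · rw [Nat.ordProj_mul_ordCompl_eq_self]
      exact index_nsmul_level_eq_zero C (ℒ.lev_sub hW) 1 y
  set y' := (inflTrans C W' W hW'W 2).hom y with hy'
  have hy'p : IsPPrimary p y' := hy.map (inflTrans C W' W hW'W 2).hom.toAddMonoidHom
  obtain ⟨t, ht⟩ := hg'gen y' hy'p
  have hwy' : p ^ w • y' = 0 := by rw [hy', ← map_nsmul, hwy, map_zero]
  have h1 : (((p ^ w : ℕ) : ℤ) * t) • g' = 0 := by
    rw [mul_smul, ← ht, natCast_zsmul]; exact hwy'
  have h2 := (hg' _).1 h1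
  have hpt : (p : ℤ) ∣ t := by
    have h3 : ((p ^ (w + 1) : ℕ) : ℤ) ∣ ((p ^ w : ℕ) : ℤ) * t := by
      refine dvd_trans ?_ h2
      exact_mod_cast pow_dvd_pow p hvv
    have hp0 : ((p ^ w : ℕ) : ℤ) ≠ 0 := by
      exact_mod_cast pow_ne_zero w hp.out.ne_zero
    have h4 : ((p ^ w : ℕ) : ℤ) * (p : ℤ) ∣ ((p ^ w : ℕ) : ℤ) * t := by
      have : ((p ^ (w + 1) : ℕ) : ℤ) = ((p ^ w : ℕ) : ℤ) * (p : ℤ) := by
        push_cast; ring
      rwa [this] at h3
    exact (mul_dvd_mul_iff_left hp0).1 h4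
  obtain ⟨c, rfl⟩ := hpt
  refine ⟨(inflLevel C W' (ℒ.isOpen hW') 2).hom (c • g'),
    (hg'p.zsmul c).map (inflLevel C W' (ℒ.isOpen hW') 2).hom.toAddMonoidHom, ?_⟩
  rw [← map_nsmul, ← inflLevel_inflTrans_apply C W' W hW'W (ℒ.isOpen hW') (ℒ.isOpen hW) 2 y,
    ← hy', ht, mul_smul, natCast_zsmul]

/-- (CF2c) `H²(Γ, C)` is `p`-divisible. -/
theorem exists_nsmul_eq (x : smH 𝒰 C 2) : ∃ y : smH 𝒰 C 2, p • y = x := by
  have tX := smH_succ_torsion C 1
  obtain ⟨y₁, -, hy₁⟩ := h.exists_nsmul_eq_of_isPPrimary (pProj p tX x) (isPPrimary_pProj tX x)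
  obtain ⟨y₂, hy₂⟩ := exists_nsmul_eq_of_isPrimeTo (isPrimeTo_sub_pProj (p := p) tX x)
  refine ⟨y₁ + y₂, ?_⟩
  rw [smul_add, hy₁, hy₂]
  abel

omit h in
lemma zsmul_inv_p_eq_zero_iff (m : ℤ) :
    m • (((p : ℚ)⁻¹ : ℚ) : AddCircle (1 : ℚ)) = 0 ↔ (p : ℤ) ∣ m := by
  have hpQ : (p : ℚ) ≠ 0 := by exact_mod_cast hp.out.ne_zero
  rw [← AddCircle.coe_zsmul, AddCircle.coe_eq_zero_iff]
  constructor
  · rintro ⟨n, hn⟩
    refine ⟨n, ?_⟩
    rw [zsmul_eq_mul, mul_one, zsmul_eq_mul] at hn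
    have : (m : ℚ) = (p : ℚ) * n := by
      rw [hn]; field_simp
    exact_mod_cast this
  · rintro ⟨n, rfl⟩
    refine ⟨n, ?_⟩
    rw [zsmul_eq_mul, mul_one, zsmul_eq_mul]
    push_cast
    field_simp

/-- **Existence of an invariant map**: a character of `H²(Γ, C)` which is injective on the
`p`-primary part, kills the prime-to-`p` part and takes the value `1/p`. -/
theorem exists_inv : ∃ inv : smH 𝒰 C 2 →+ AddCircle (1 : ℚ),
    (∀ x, IsPPrimary p x → inv x = 0 → x = 0) ∧ (∀ x, IsPrimeTo p x → inv x = 0) ∧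
    ∃ x : smH 𝒰 C 2, p • x = 0 ∧ inv x = (((p : ℚ)⁻¹ : ℚ) : AddCircle (1 : ℚ)) := by
  have tX := smH_succ_torsion C 1
  obtain ⟨e, he0, hpe, hgen⟩ := h.exists_socle_generator
  obtain ⟨j, hj⟩ := exists_character_apply_eq_inv he0 hpe
  have hsoc : ∀ x : smH 𝒰 C 2, p • x = 0 → j x = 0 → x = 0 := by
    intro x hx hjx
    obtain ⟨m, rfl⟩ := hgen x hx
    rw [map_zsmul, hj, zsmul_inv_p_eq_zero_iff] at hjx
    obtain ⟨c, rfl⟩ := hjx
    rw [mul_comm, mul_smul, natCast_zsmul, hpe]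
    exact zsmul_zero c
  refine ⟨j.comp (pProj p tX), ?_, ?_, ⟨e, hpe, ?_⟩⟩
  · intro x hx hjx
    rw [AddMonoidHom.comp_apply, pProj_eq_self tX hx] at hjx
    exact eq_zero_of_isPPrimary_of_socle j hsoc hx hjx
  · intro x hx
    rw [AddMonoidHom.comp_apply, pProj_eq_zero tX hx, map_zero]
  · rw [AddMonoidHom.comp_apply, pProj_eq_self tX (isPPrimary_of_nsmul_eq_zero hpe), hj]

end IsPLevelSystem

end Fermat.Agent.CFT.Sm
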