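/-
S55 / CFT (PT5, abstract part) — helper4.
The reciprocity pairing `recMap` of helper9's class formation interface for a level formation:
the Bockstein connecting homomorphism on representatives, and the formula
`recMap (nak_V σ) χ = χ(σ)/p` for the Nakayama elements of a level `V`.
-/
import Fermat.Agent.CFT.Sm.FL_helper4_Low
import Fermat.Agent.CFT.Coh.FundInv_helper4
import Fermat.Agent.CFT.Sm.ClassFormation_helper9

set_option autoImplicit false
set_option linter.unusedSectionVars false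
set_option linter.style.haveILetI false

open CategoryTheory CategoryTheory.Limits groupCohomology

namespace Fermat.Agent.CFT.Sm

open Fermat.Agent.CFT.Coh

variable {Γ : Type} [Group Γ] {𝒰 : OpenBasis Γ}

section Bock

variable (𝒰) (p : ℕ) [hp : Fact p.Prime]

/-- The integral lift `g ↦ (ζ g).val` of a `ZMod p`-valued cochain. -/
noncomputable def bockLift {n : ℕ} (z : lcCochains 𝒰 (trivSm ℤ 𝒰 (ZMod p)).obj n) :
    lcCochains 𝒰 (trivSm ℤ 𝒰 ℤ).obj n :=
  ⟨(fun a : ZMod p => ((a.val : ℕ) : ℤ)) ∘ (z : (Fin n → Γ) → (trivSm ℤ 𝒰 (ZMod p)).obj.V),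
    (IsLevelConstant.comp z.2 (fun a : ZMod p => ((a.val : ℕ) : ℤ)) :)⟩

lemma bockstein_g_apply (a : ℤ) :
    (bockstein 𝒰 p).g.hom.hom (show (trivSm ℤ 𝒰 ℤ).obj.V from a) = ((a : ℤ) : ZMod p) := rfl

lemma bockstein_f_apply (a : ℤ) :
    (bockstein 𝒰 p).f.hom.hom (show (trivSm ℤ 𝒰 ℤ).obj.V from a) = (p : ℤ) * a := rfl

lemma trivSm_ρ_apply (M : Type) [AddCommGroup M] [Module ℤ M] (g : Γ) (a : M) :
    (trivSm ℤ 𝒰 M).obj.ρ g a = a := rfl

lemma bockLift_apply {n : ℕ} (z : lcCochains 𝒰 (trivSm ℤ 𝒰 (ZMod p)).obj n) (g : Fin n → Γ) :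
    (show ℤ from (bockLift 𝒰 p z).1 g) =
      (((show ZMod p from (z : (Fin n → Γ) → (trivSm ℤ 𝒰 (ZMod p)).obj.V) g).val : ℕ) : ℤ) := rfl

lemma bockLift_cast {n : ℕ} (z : lcCochains 𝒰 (trivSm ℤ 𝒰 (ZMod p)).obj n) (g : Fin n → Γ) :
    (((show ℤ from (bockLift 𝒰 p z).1 g) : ℤ) : ZMod p) =
      (z : (Fin n → Γ) → (trivSm ℤ 𝒰 (ZMod p)).obj.V) g := by
  haveI : NeZero p := ⟨hp.out.ne_zero⟩
  rw [bockLift_apply, Int.cast_natCast, ZMod.natCast_zmod_val]

/-- `d` of the integral lift of a `1`-cocycle is divisible by `p`. -/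
lemma dvd_d_bockLift (z : lcCocycles 𝒰 (trivSm ℤ 𝒰 (ZMod p)) 1) (g : Fin 2 → Γ) :
    (p : ℤ) ∣ (show ℤ from (inhomogeneousCochains.d (trivSm ℤ 𝒰 ℤ).obj 1).hom
      (bockLift 𝒰 p z.1).1 g) := by
  have e : (show ℤ from (inhomogeneousCochains.d (trivSm ℤ 𝒰 ℤ).obj 1).hom
      (bockLift 𝒰 p z.1).1 g) =
      (show ℤ from (bockLift 𝒰 p z.1).1 (fun _ => g 1)) -
        (show ℤ from (bockLift 𝒰 p z.1).1 (fun _ => g 0 * g 1)) +
        (show ℤ from (bockLift 𝒰 p z.1).1 (fun _ => g 0)) := d_one_apply _ _ g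
  have hz := congrFun ((mem_lcCocycles_iff z.1).1 z.2) g
  rw [d_one_apply] at hz
  have hz' : (show ZMod p from z.1.1 (fun _ => g 1)) - (show ZMod p from z.1.1 (fun _ => g 0 * g 1)) +
      (show ZMod p from z.1.1 (fun _ => g 0)) = 0 := hz
  rw [e, ← ZMod.intCast_zmod_eq_zero_iff_dvd, Int.cast_add, Int.cast_sub, bockLift_cast,
    bockLift_cast, bockLift_cast]
  exact hz'

/-- The Bockstein cochain `(d ỹ) / p` of a `1`-cocycle with values in `ZMod p`. -/
noncomputable def bockCochain (z : lcCocycles 𝒰 (trivSm ℤ 𝒰 (ZMod p)) 1) :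
    lcCochains 𝒰 (trivSm ℤ 𝒰 ℤ).obj 2 :=
  ⟨(fun a : ℤ => a / (p : ℤ)) ∘ ((inhomogeneousCochains.d (trivSm ℤ 𝒰 ℤ).obj 1).hom
      (bockLift 𝒰 p z.1).1),
    (IsLevelConstant.comp (d_mem_lcCochains 𝒰 (trivSm ℤ 𝒰 ℤ).property 1
      (bockLift 𝒰 p z.1).2) (fun a : ℤ => a / (p : ℤ)) :)⟩

lemma natCast_mul_bockCochain (z : lcCocycles 𝒰 (trivSm ℤ 𝒰 (ZMod p)) 1) (g : Fin 2 → Γ) :
    (p : ℤ) * (show ℤ from (bockCochain 𝒰 p z).1 g) =
      (inhomogeneousCochains.d (trivSm ℤ 𝒰 ℤ).obj 1).hom (bockLift 𝒰 p z.1).1 g :=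
  Int.mul_ediv_cancel' (dvd_d_bockLift 𝒰 p z g)

lemma bockCochain_mem (z : lcCocycles 𝒰 (trivSm ℤ 𝒰 (ZMod p)) 1) :
    bockCochain 𝒰 p z ∈ lcCocycles 𝒰 (trivSm ℤ 𝒰 ℤ) 2 :=
  mem_lcCocycles_of_comp_eq_d (bockstein_shortExact 𝒰 p hp.out.ne_zero) (bockLift 𝒰 p z.1)
    (bockCochain 𝒰 p z) (fun g => natCast_mul_bockCochain 𝒰 p z g)

/-- **The Bockstein connecting homomorphism on representatives.** -/
theorem smδ_bockstein_smHmk (z : lcCocycles 𝒰 (trivSm ℤ 𝒰 (ZMod p)) 1) :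
    (smδ (bockstein_shortExact 𝒰 p hp.out.ne_zero) 1 2 rfl).hom
        (smHmk (trivSm ℤ 𝒰 (ZMod p)) 1 z) =
      smHmk (trivSm ℤ 𝒰 ℤ) 2 ⟨bockCochain 𝒰 p z, bockCochain_mem 𝒰 p z⟩ :=
  smδ_smHmk (bockstein_shortExact 𝒰 p hp.out.ne_zero) z (bockLift 𝒰 p z.1)
    (fun g => bockLift_cast 𝒰 p z.1 g) (bockCochain 𝒰 p z)
    (fun g => natCast_mul_bockCochain 𝒰 p z g)

end Bock

section Coeff

variable {k : Type} [CommRing k]

/-- The map induced on smooth cohomology by a morphism of coefficients, on representatives. -/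
lemma smHFunctor_map_smHmk {A B : SmRep k 𝒰} (φ : A ⟶ B) (n : ℕ) (f : lcCocycles 𝒰 A n) :
    ((smHFunctor k 𝒰 n).map φ).hom (smHmk A n f) =
      smHmk B n (lcCocyclesMap (MonoidHom.id Γ) 𝒰.finer_comap_id (A := A) (B := B) φ.hom n f) :=
  smHMap_smHmk (MonoidHom.id Γ) 𝒰.finer_comap_id (A := A) (B := B) φ.hom n f

end Coeff

section LevelChar

variable (p : ℕ) [hp : Fact p.Prime] (V : Subgroup Γ) [V.Normal]
  (z : lcCocycles 𝒰 (trivSm ℤ 𝒰 (ZMod p)) 1)

/-- The underlying function of a `ZMod p`-valued `1`-cocycle. -/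
def cocFun : (Fin 1 → Γ) → ZMod p := fun g => z.1.1 g

/-- A `1`-cocycle with values in the trivial module is a homomorphism. -/
lemma cocFun_mul (g₀ g₁ : Γ) :
    cocFun p z (fun _ => g₀ * g₁) = cocFun p z (fun _ => g₀) + cocFun p z (fun _ => g₁) := by
  have hz := congrFun ((mem_lcCocycles_iff z.1).1 z.2) ![g₀, g₁]
  rw [d_one_apply] at hz
  have hz' : cocFun p z (fun _ => g₁) - cocFun p z (fun _ => g₀ * g₁) +
      cocFun p z (fun _ => g₀) = 0 := hz
  have : cocFun p z (fun _ => g₀ * g₁) = cocFun p z (fun _ => g₀ * g₁) +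
      (cocFun p z (fun _ => g₁) - cocFun p z (fun _ => g₀ * g₁) + cocFun p z (fun _ => g₀)) := by
    rw [hz', add_zero]
  rw [this]
  abel

/-- The character of the finite level `V` defined by a cocycle. -/
noncomputable def levelChar : Γ ⧸ V → ZMod p := fun q => cocFun p z (fun _ => q.out)

variable (hzV : ∀ g g' : Fin 1 → Γ, (∀ i, (g i)⁻¹ * g' i ∈ V) → cocFun p z g = cocFun p z g')

include hzV in
lemma levelChar_mk (g : Γ) : levelChar p V z (g : Γ ⧸ V) = cocFun p z (fun _ => g) := by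
  refine (hzV _ _ (fun _ => ?_)).symm
  have : (((g : Γ ⧸ V).out : Γ) : Γ ⧸ V) = (g : Γ ⧸ V) := QuotientGroup.out_eq' _
  exact QuotientGroup.eq.1 this.symm

include hzV in
lemma levelChar_mul (q₀ q₁ : Γ ⧸ V) :
    levelChar p V z (q₀ * q₁) = levelChar p V z q₀ + levelChar p V z q₁ := by
  induction q₀ using QuotientGroup.induction_on with
  | H g₀ =>
    induction q₁ using QuotientGroup.induction_on with
    | H g₁ =>
      rw [← QuotientGroup.mk_mul, levelChar_mk p V z hzV, levelChar_mk p V z hzV,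
        levelChar_mk p V z hzV, cocFun_mul]

/-- The rational lift `q ↦ val(χ(q)) / p`. -/
noncomputable def levelLiftQ : Γ ⧸ V → ℚ := fun q => ((levelChar p V z q).val : ℚ) / p

include hzV in
lemma levelLiftQ_add (σ τ : Γ ⧸ V) :
    levelLiftQ p V z σ + levelLiftQ p V z τ - levelLiftQ p V z (σ * τ) =
      (((((levelChar p V z σ).val + (levelChar p V z τ).val) / p : ℕ) : ℤ) : ℚ) := by
  have hp0 : (p : ℚ) ≠ 0 := by exact_mod_cast hp.out.ne_zero
  unfold levelLiftQ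
  rw [levelChar_mul p V z hzV, ZMod.val_add]
  generalize (levelChar p V z σ).val = a
  generalize (levelChar p V z τ).val = b
  have h := Nat.div_add_mod (a + b) p
  have h' : ((a : ℚ) + b) = p * ((a + b) / p : ℕ) + (((a + b) % p : ℕ) : ℚ) := by
    exact_mod_cast h.symm
  rw [Int.cast_natCast]
  generalize (((a + b) / p : ℕ) : ℚ) = D at h' ⊢
  generalize (((a + b) % p : ℕ) : ℚ) = R at h' ⊢
  field_simp
  linarith

include hzV in
lemma isQZLift_levelLiftQ : IsQZLift (levelLiftQ p V z) :=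
  fun σ τ => ⟨_, levelLiftQ_add p V z hzV σ τ⟩

/-- The `ℚ/ℤ`-valued character `χ/p` of the finite level. -/
noncomputable def levelQZChar : QZChar (Γ ⧸ V) :=
  AddMonoidHom.mk' (fun q => ((levelLiftQ p V z (Additive.toMul q) : ℚ) : AddCircle (1 : ℚ)))
    (fun a b => by
      have h := levelLiftQ_add p V z hzV (Additive.toMul a) (Additive.toMul b)
      have h0 : ((levelLiftQ p V z (Additive.toMul a) + levelLiftQ p V z (Additive.toMul b) -
          levelLiftQ p V z (Additive.toMul a * Additive.toMul b) : ℚ) : AddCircle (1 : ℚ)) = 0 := by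
        rw [h, AddCircle.coe_eq_zero_iff]
        exact ⟨_, by rw [zsmul_eq_mul, mul_one]⟩
      rw [AddCircle.coe_sub, AddCircle.coe_add, sub_eq_zero] at h0
      exact h0.symm)

lemma liftsChar_levelLiftQ : LiftsChar (levelQZChar p V z hzV) (levelLiftQ p V z) :=
  fun _ => rfl

lemma levelQZChar_apply (σ : Γ ⧸ V) :
    levelQZChar p V z hzV (Additive.ofMul σ) =
      ((((levelChar p V z σ).val : ℚ) / p : ℚ) : AddCircle (1 : ℚ)) := rfl

end LevelChar

section LevelInvariant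

variable {k : Type} [CommRing k] {C : SmRep k 𝒰} (V : Subgroup Γ) [V.Normal]
  (c : C.obj.V) (hc : ∀ g, C.obj.ρ g c = c)

/-- A `Γ`-invariant element of `C`, as an invariant of the level `V`. -/
def levelInvariant : (levelRep C V).ρ.invariants :=
  ⟨⟨c, fun v => hc v.1⟩, fun q => by
    induction q using QuotientGroup.induction_on with
    | H g => exact Subtype.ext (hc g)⟩

lemma levelInvariant_coe : (((levelInvariant V c hc : (levelRep C V).ρ.invariants) :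
    (levelRep C V).V) : C.obj.V) = c := rfl

end LevelInvariant

section Formula

variable (p : ℕ) [hp : Fact p.Prime] {C : SmRep ℤ 𝒰} (V : Subgroup Γ) [V.Normal]
  [Finite (Γ ⧸ V)] (hV : 𝒰.IsOpen V)
  (z : lcCocycles 𝒰 (trivSm ℤ 𝒰 (ZMod p)) 1)
  (hzV : ∀ g g' : Fin 1 → Γ, (∀ i, (g i)⁻¹ * g' i ∈ V) → cocFun p z g = cocFun p z g')
  (c : C.obj.V) (hc : ∀ g, C.obj.ρ g c = c)

variable (𝒰) in
/-- The value of a cochain with values in the trivial module `ℤ`, as an integer. -/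
def intVal (x : (trivSm ℤ 𝒰 ℤ).obj.V) : ℤ := x

include hzV in
/-- The Bockstein cochain of a cocycle of level `V` is the inflation of `δ(χ/p)`. -/
lemma bockCochain_apply (g : Fin 2 → Γ) :
    intVal 𝒰 ((bockCochain 𝒰 p z).1 g) =
      δcochain (levelLiftQ p V z) ((g 0 : Γ ⧸ V), (g 1 : Γ ⧸ V)) := by
  have hp0 : (p : ℚ) ≠ 0 := by exact_mod_cast hp.out.ne_zero
  have hb : ∀ h : Γ, intVal 𝒰 ((bockLift 𝒰 p z.1).1 (fun _ => h)) =
      (((levelChar p V z (h : Γ ⧸ V)).val : ℕ) : ℤ) := by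
    intro h
    rw [levelChar_mk p V z hzV]
    rfl
  have h1 : (p : ℤ) * intVal 𝒰 ((bockCochain 𝒰 p z).1 g) =
      (((levelChar p V z ((g 1 : Γ) : Γ ⧸ V)).val : ℕ) : ℤ) -
        (((levelChar p V z ((g 0 * g 1 : Γ) : Γ ⧸ V)).val : ℕ) : ℤ) +
        (((levelChar p V z ((g 0 : Γ) : Γ ⧸ V)).val : ℕ) : ℤ) := by
    rw [← hb (g 1), ← hb (g 0 * g 1), ← hb (g 0)]
    exact (natCast_mul_bockCochain 𝒰 p z g).trans (d_one_apply _ _ g)
  have h2 := δcochain_cast (isQZLift_levelLiftQ p V z hzV) (g 0 : Γ ⧸ V) (g 1 : Γ ⧸ V)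
  have h3 : ((p : ℤ) : ℚ) * ((intVal 𝒰 ((bockCochain 𝒰 p z).1 g) : ℤ) : ℚ) =
      ((p : ℤ) : ℚ) * ((δcochain (levelLiftQ p V z) ((g 0 : Γ ⧸ V), (g 1 : Γ ⧸ V)) : ℤ) : ℚ) := by
    rw [h2, ← Int.cast_mul, h1, QuotientGroup.mk_mul]
    unfold levelLiftQ
    push_cast
    field_simp
    ring
  have hp0' : ((p : ℤ) : ℚ) ≠ 0 := by exact_mod_cast hp.out.ne_zero
  exact_mod_cast mul_left_cancel₀ hp0' h3

include hzV in
/-- **The reciprocity pairing at a finite level**: `c_* (δ_Bockstein χ)` is the inflation of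
`c ∪ δ(χ/p)` from any level `V` at which `χ` is defined. -/
theorem map_ofInvariant_smδ_bockstein :
    ((smHFunctor ℤ 𝒰 2).map (ofInvariant C c hc)).hom
        ((smδ (bockstein_shortExact 𝒰 p hp.out.ne_zero) 1 2 rfl).hom
          (smHmk (trivSm ℤ 𝒰 (ZMod p)) 1 z)) =
      (inflLevel C V hV 2).hom (cupδ (levelRep C V)
        (TateH0.mk (levelRep C V) (levelInvariant V c hc)) (levelQZChar p V z hzV)) := by
  rw [smδ_bockstein_smHmk, smHFunctor_map_smHmk,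
    cupδ_mk_eq (levelRep C V) (liftsChar_levelLiftQ p V z hzV), H2π_eq_mk]
  change _ = (inflLevel C V hV 2).hom (levelMk C V 2 ⟨_, _⟩)
  rw [inflLevel_levelMk]
  congr 1
  apply Subtype.ext
  apply Subtype.ext
  funext g
  rw [lcCocyclesMap_apply, inflCocycles_apply]
  have key : ((bockCochain 𝒰 p z).1 (⇑(MonoidHom.id Γ) ∘ g) : (trivSm ℤ 𝒰 ℤ).obj.V) =
      (δcochain (levelLiftQ p V z) ((g 0 : Γ ⧸ V), (g 1 : Γ ⧸ V)) : ℤ) :=
    bockCochain_apply p V z hzV g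
  refine (congrArg (fun t => (ofInvariant C c hc).hom.hom t) key).trans ?_
  rfl

end Formula

end Fermat.Agent.CFT.Sm
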