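/-
S55 / CFT (PT5/PT8, abstract part) — helper4.
The reciprocity pairing of a `p`-primary level system: right non-degeneracy from the character
formula for Nakayama elements, and surjectivity of reciprocity from the finiteness of `C^Γ / p`.
-/
import Fermat.Agent.CFT.Sm.CF_helper4_Rec
import Fermat.Agent.CFT.Sm.CF_helper4_PBase

set_option autoImplicit false
set_option linter.unusedSectionVars false
set_option linter.style.haveILetI false

open CategoryTheory CategoryTheory.Limits groupCohomology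

namespace Fermat.Agent.CFT.Sm

open Fermat.Agent.CFT.Coh

variable {Γ : Type} [Group Γ] {𝒰 : OpenBasis Γ}

section OfInv

variable {k : Type} [CommRing k] (A : SmRep k 𝒰)

lemma ofInvariant_add_of (a b : A.obj.V) (ha : ∀ g, A.obj.ρ g a = a) (hb : ∀ g, A.obj.ρ g b = b)
    (hab : ∀ g, A.obj.ρ g (a + b) = a + b) :
    ofInvariant A (a + b) hab = ofInvariant A a ha + ofInvariant A b hb := by
  apply ObjectProperty.hom_ext
  apply Rep.hom_ext
  apply Representation.IntertwiningMap.ext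
  apply LinearMap.ext
  intro x
  exact smul_add (show k from x) a b

lemma ofInvariant_zero_of (h0 : ∀ g, A.obj.ρ g (0 : A.obj.V) = 0) :
    ofInvariant A (0 : A.obj.V) h0 = 0 := by
  apply ObjectProperty.hom_ext
  apply Rep.hom_ext
  apply Representation.IntertwiningMap.ext
  apply LinearMap.ext
  intro x
  exact smul_zero (show k from x)

lemma ofInvariant_neg_of (a : A.obj.V) (ha : ∀ g, A.obj.ρ g a = a)
    (hna : ∀ g, A.obj.ρ g (-a) = -a) :
    ofInvariant A (-a) hna = -ofInvariant A a ha := by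
  apply ObjectProperty.hom_ext
  apply Rep.hom_ext
  apply Representation.IntertwiningMap.ext
  apply LinearMap.ext
  intro x
  exact smul_neg (show k from x) a

end OfInv

section RecClass

variable (𝒰) (p : ℕ) [hp : Fact p.Prime] (C : SmRep ℤ 𝒰)

/-- The homomorphism `χ ↦ c_* (δ χ)`. -/
noncomputable def recClassHom (c : C.obj.V) (hc : ∀ g, C.obj.ρ g c = c) :
    smH 𝒰 (trivSm ℤ 𝒰 (ZMod p)) 1 →+ smH 𝒰 C 2 :=
  ((smHFunctor ℤ 𝒰 2).map (ofInvariant C c hc)).hom.toAddMonoidHom.comp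
    (smδ (bockstein_shortExact 𝒰 p hp.out.ne_zero) 1 2 rfl).hom.toAddMonoidHom

/-- The class `c_* (δ χ) ∈ H²(Γ, C)` for an invariant `c` and `χ ∈ H¹(Γ, ℤ/p)`. -/
noncomputable def recClass (c : C.obj.V) (hc : ∀ g, C.obj.ρ g c = c)
    (χ : smH 𝒰 (trivSm ℤ 𝒰 (ZMod p)) 1) : smH 𝒰 C 2 :=
  recClassHom 𝒰 p C c hc χ

lemma recClass_eq (c : C.obj.V) (hc : ∀ g, C.obj.ρ g c = c)
    (χ : smH 𝒰 (trivSm ℤ 𝒰 (ZMod p)) 1) :
    recClass 𝒰 p C c hc χ = ((smHFunctor ℤ 𝒰 2).map (ofInvariant C c hc)).hom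
      ((smδ (bockstein_shortExact 𝒰 p hp.out.ne_zero) 1 2 rfl).hom χ) := rfl

lemma recMap_apply_recClass (inv : smH 𝒰 C 2 →+ AddCircle (1 : ℚ)) (c : C.obj.V)
    (hc : ∀ g, C.obj.ρ g c = c) (χ : smH 𝒰 (trivSm ℤ 𝒰 (ZMod p)) 1) :
    recMap 𝒰 p C inv c hc χ = inv (recClass 𝒰 p C c hc χ) := rfl

lemma recClass_congr {a b : C.obj.V} (hab : a = b) (ha : ∀ g, C.obj.ρ g a = a)
    (hb : ∀ g, C.obj.ρ g b = b) (χ : smH 𝒰 (trivSm ℤ 𝒰 (ZMod p)) 1) :
    recClass 𝒰 p C a ha χ = recClass 𝒰 p C b hb χ := by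
  subst hab
  rfl

lemma recClass_add_left (a b : C.obj.V) (ha : ∀ g, C.obj.ρ g a = a) (hb : ∀ g, C.obj.ρ g b = b)
    (hab : ∀ g, C.obj.ρ g (a + b) = a + b) (χ : smH 𝒰 (trivSm ℤ 𝒰 (ZMod p)) 1) :
    recClass 𝒰 p C (a + b) hab χ = recClass 𝒰 p C a ha χ + recClass 𝒰 p C b hb χ := by
  rw [recClass_eq, recClass_eq, recClass_eq, ofInvariant_add_of C a b ha hb hab, Functor.map_add]
  rfl

lemma recClass_zero_left (h0 : ∀ g, C.obj.ρ g (0 : C.obj.V) = 0)
    (χ : smH 𝒰 (trivSm ℤ 𝒰 (ZMod p)) 1) : recClass 𝒰 p C 0 h0 χ = 0 := by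
  rw [recClass_eq, ofInvariant_zero_of C h0, Functor.map_zero]
  rfl

lemma recClass_neg_left (a : C.obj.V) (ha : ∀ g, C.obj.ρ g a = a)
    (hna : ∀ g, C.obj.ρ g (-a) = -a) (χ : smH 𝒰 (trivSm ℤ 𝒰 (ZMod p)) 1) :
    recClass 𝒰 p C (-a) hna χ = -recClass 𝒰 p C a ha χ := by
  rw [recClass_eq, recClass_eq, ofInvariant_neg_of C a ha hna, Functor.map_neg]
  rfl

/-- `H¹(Γ, ℤ/p)` is killed by `p`. -/
lemma nsmul_smH_zmod_eq_zero (n : ℕ) (χ : smH 𝒰 (trivSm ℤ 𝒰 (ZMod p)) n) : p • χ = 0 := by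
  obtain ⟨z, rfl⟩ := exists_smHmk_eq χ
  rw [← map_nsmul]
  have : p • z = 0 := by
    apply Subtype.ext
    apply Subtype.ext
    funext g
    change p • (show ZMod p from z.1.1 g) = 0
    rw [nsmul_eq_mul, CharP.cast_eq_zero, zero_mul]
  rw [this, map_zero]

lemma recClass_nsmul_right (c : C.obj.V) (hc : ∀ g, C.obj.ρ g c = c) (m : ℕ)
    (χ : smH 𝒰 (trivSm ℤ 𝒰 (ZMod p)) 1) :
    recClass 𝒰 p C c hc (m • χ) = m • recClass 𝒰 p C c hc χ :=
  map_nsmul (recClassHom 𝒰 p C c hc) m χ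

/-- `c_* (δ χ)` is killed by `p`. -/
lemma nsmul_recClass (c : C.obj.V) (hc : ∀ g, C.obj.ρ g c = c)
    (χ : smH 𝒰 (trivSm ℤ 𝒰 (ZMod p)) 1) : p • recClass 𝒰 p C c hc χ = 0 := by
  rw [← recClass_nsmul_right, nsmul_smH_zmod_eq_zero]
  exact map_zero (recClassHom 𝒰 p C c hc)

variable (inv : smH 𝒰 C 2 →+ AddCircle (1 : ℚ))

/-- The image of reciprocity, as a subgroup of the character group of `H¹(Γ, ℤ/p)`. -/
noncomputable def recRange : AddSubgroup (CharacterModule (smH 𝒰 (trivSm ℤ 𝒰 (ZMod p)) 1)) where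
  carrier := {φ | ∃ (c : C.obj.V) (hc : ∀ g, C.obj.ρ g c = c), recMap 𝒰 p C inv c hc = φ}
  zero_mem' := by
    refine ⟨0, fun g => map_zero _, ?_⟩
    ext χ
    rw [recMap_apply_recClass, recClass_zero_left, map_zero]
    rfl
  add_mem' := by
    rintro _ _ ⟨a, ha, rfl⟩ ⟨b, hb, rfl⟩
    refine ⟨a + b, fun g => by rw [map_add, ha, hb], ?_⟩
    ext χ
    rw [recMap_apply_recClass, recClass_add_left 𝒰 p C a b ha hb, map_add]
    rfl
  neg_mem' := by
    rintro _ ⟨a, ha, rfl⟩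
    refine ⟨-a, fun g => by rw [map_neg, ha], ?_⟩
    ext χ
    rw [recMap_apply_recClass, recClass_neg_left 𝒰 p C a ha, map_neg]
    rfl

lemma mem_recRange (φ : CharacterModule (smH 𝒰 (trivSm ℤ 𝒰 (ZMod p)) 1)) :
    φ ∈ recRange 𝒰 p C inv ↔
      ∃ (c : C.obj.V) (hc : ∀ g, C.obj.ρ g c = c), recMap 𝒰 p C inv c hc = φ := Iff.rfl

end RecClass

section RN

variable {p : ℕ} [hp : Fact p.Prime] {ℒ : LevelFamily 𝒰} {C : SmRep ℤ 𝒰}
  (h : IsPLevelSystem ℒ p C)

include h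

/-- **Right non-degeneracy of the reciprocity pairing**: for `χ ≠ 0` in `H¹(Γ, ℤ/p)` there is an
invariant `c` (a Nakayama element of a finite level) with `c_* (δ χ) ≠ 0`. -/
theorem exists_recClass_ne_zero (χ : smH 𝒰 (trivSm ℤ 𝒰 (ZMod p)) 1) (hχ : χ ≠ 0) :
    ∃ (c : C.obj.V) (hc : ∀ g, C.obj.ρ g c = c), recClass 𝒰 p C c hc χ ≠ 0 := by
  obtain ⟨z, rfl⟩ := exists_smHmk_eq χ
  obtain ⟨U', hU', hlev⟩ := z.1.2
  obtain ⟨V, hV, hVU'⟩ := ℒ.cofinal U' hU'
  haveI := ℒ.normal hV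
  haveI := 𝒰.finiteIndex V (ℒ.lev_sub hV)
  haveI : Finite (Γ ⧸ V) := Subgroup.finite_quotient_of_finiteIndex
  have hzV : ∀ g g' : Fin 1 → Γ, (∀ i, (g i)⁻¹ * g' i ∈ V) → cocFun p z g = cocFun p z g' :=
    fun g g' hgg' => hlev g g' (fun i => hVU' (hgg' i))
  -- a `σ` with `χ(σ) ≠ 0`
  obtain ⟨σ, hσ⟩ : ∃ σ : Γ ⧸ V, levelChar p V z σ ≠ 0 := by
    by_contra hall
    push Not at hall
    apply hχ
    have hz0 : z = 0 := by
      apply Subtype.ext
      apply Subtype.ext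
      funext g
      have e : g = fun _ => g 0 := by
        funext i; rw [Subsingleton.elim i 0]
      change cocFun p z g = 0
      rw [e, ← levelChar_mk p V z hzV, hall]
    rw [hz0, map_zero]
  obtain ⟨γ, hγp, hγgen, hγord⟩ := h.fund V hV
  have hsurj : Function.Surjective (H2π (levelRep C V)).hom :=
    (ModuleCat.epi_iff_surjective _).1 inferInstance
  obtain ⟨f, rfl⟩ := hsurj γ
  set c' : (levelRep C V).V := nakayamaElt (levelRep C V) f σ with hc'
  have hc : ∀ g, C.obj.ρ g (c' : C.obj.V) = (c' : C.obj.V) := by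
    intro g
    have := nakayamaElt_mem_invariants (levelRep C V) f σ (g : Γ ⧸ V)
    rw [← levelRep_ρ_mk_coe C V g c']
    exact congrArg Subtype.val this
  refine ⟨(c' : C.obj.V), hc, ?_⟩
  rw [recClass_eq, map_ofInvariant_smδ_bockstein p V (ℒ.isOpen hV) z hzV _ hc]
  have e1 : levelInvariant V (c' : C.obj.V) hc = nakayamaInv (levelRep C V) f σ := by
    apply Subtype.ext
    apply Subtype.ext
    rfl
  rw [e1, ← nakayamaClass_eq,
    cupδ_nakayamaClass_of_liftsChar (levelRep C V) f σ (liftsChar_levelLiftQ p V z hzV)]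
  intro h0
  rw [Int.cast_smul_eq_zsmul] at h0
  have h1 := h.inflLevel_two_eq_zero hV _ (hγp.zsmul _) h0
  have h2 := hγord _ h1
  -- arithmetic
  set N := liftNum (levelLiftQ p V z) σ with hN
  have hNq : ((N : ℤ) : ℚ) = Nat.card (Γ ⧸ V) * levelLiftQ p V z σ :=
    liftNum_cast (isQZLift_levelLiftQ p V z hzV) σ
  set a := (levelChar p V z σ).val with ha
  haveI : NeZero p := ⟨hp.out.ne_zero⟩
  have ha0 : a ≠ 0 := by
    rw [ha]
    intro h0
    exact hσ ((ZMod.val_eq_zero _).1 h0)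
  have hap : a < p := ZMod.val_lt _
  have hpQ : (p : ℚ) ≠ 0 := by exact_mod_cast hp.out.ne_zero
  have hNp : N * (p : ℤ) = (V.index : ℤ) * (a : ℤ) := by
    have : ((N * (p : ℤ) : ℤ) : ℚ) = (((V.index : ℤ) * (a : ℤ) : ℤ) : ℚ) := by
      push_cast
      rw [hNq, ← Subgroup.index_eq_card]
      unfold levelLiftQ
      field_simp
      rfl
    exact_mod_cast this
  have h3 : ((p ^ (V.index.factorization p + 1) : ℕ) : ℤ) ∣ (V.index : ℤ) * (a : ℤ) := by
    rw [← hNp, pow_succ]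
    push_cast
    exact mul_dvd_mul (by exact_mod_cast h2) (dvd_refl _)
  have h4 : p ^ (V.index.factorization p + 1) ∣ V.index * a := by exact_mod_cast h3
  have hcop : (p ^ (V.index.factorization p + 1)).Coprime a := by
    apply Nat.Coprime.pow_left
    rw [Nat.Prime.coprime_iff_not_dvd hp.out]
    intro hd
    exact absurd (Nat.le_of_dvd (Nat.pos_of_ne_zero ha0) hd) (not_le.2 hap)
  have h5 := hcop.dvd_of_dvd_mul_right h4
  exact Nat.pow_succ_factorization_not_dvd (IsPLevelSystem.index_ne_zero_of_mem hV) hp.out h5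

/-- **Surjectivity of reciprocity** for an invariant map which is injective on the `p`-torsion,
given the finiteness of `C^Γ / p`. -/
theorem rec_surj (inv : smH 𝒰 C 2 →+ AddCircle (1 : ℚ))
    (I1 : ∀ x : smH 𝒰 C 2, p • x = 0 → inv x = 0 → x = 0)
    (hfin : ∃ T : Finset C.obj.V, ∀ c : C.obj.V, (∀ g, C.obj.ρ g c = c) →
      ∃ t ∈ T, ∃ c' : C.obj.V, (∀ g, C.obj.ρ g c' = c') ∧ c = t + p • c')
    (φ : CharacterModule (smH 𝒰 (trivSm ℤ 𝒰 (ZMod p)) 1)) :
    ∃ (c : C.obj.V) (hc : ∀ g, C.obj.ρ g c = c), recMap 𝒰 p C inv c hc = φ := by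
  classical
  obtain ⟨T, hT⟩ := hfin
  rw [← mem_recRange]
  -- the characters attached to the elements of `T`
  let ρ : C.obj.V → (smH 𝒰 (trivSm ℤ 𝒰 (ZMod p)) 1 →+ AddCircle (1 : ℚ)) := fun t =>
    if ht : ∀ g, C.obj.ρ g t = t then recMap 𝒰 p C inv t ht else 0
  have hρmem : ∀ t, ρ t ∈ recRange 𝒰 p C inv := by
    intro t
    by_cases ht : ∀ g, C.obj.ρ g t = t
    · have e : ρ t = recMap 𝒰 p C inv t ht := dif_pos ht
      rw [e]
      exact ⟨t, ht, rfl⟩
    · have e : ρ t = 0 := dif_neg ht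
      rw [e]
      exact (recRange 𝒰 p C inv).zero_mem
  have hsep : ∀ χ : smH 𝒰 (trivSm ℤ 𝒰 (ZMod p)) 1, (∀ t ∈ T, ρ t χ = 0) → χ = 0 := by
    intro χ hχ
    by_contra hne
    obtain ⟨c, hc, hcχ⟩ := exists_recClass_ne_zero h χ hne
    obtain ⟨t, htT, c', hc', hct⟩ := hT c hc
    have ht : ∀ g, C.obj.ρ g t = t := by
      intro g
      have e : t = c - p • c' := by rw [hct]; abel
      rw [e, map_sub, map_nsmul, hc, hc']
    have hpc' : ∀ g, C.obj.ρ g (p • c') = p • c' := fun g => by rw [map_nsmul, hc']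
    have h1 := hχ t htT
    have e0 : ρ t = recMap 𝒰 p C inv t ht := dif_pos ht
    rw [e0] at h1
    replace h1 : inv (recClass 𝒰 p C t ht χ) = 0 := h1
    -- `(p • c')_* δχ = 0`
    have h2 : recClass 𝒰 p C (p • c') hpc' χ = 0 := by
      have key : ∀ (n : ℕ) (hn : ∀ g, C.obj.ρ g (n • c') = n • c'),
          recClass 𝒰 p C (n • c') hn χ = n • recClass 𝒰 p C c' hc' χ := by
        intro n
        induction n with
        | zero =>
          intro hn
          simp only [zero_smul]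
          exact recClass_zero_left 𝒰 p C _ χ
        | succ n ih =>
          intro hn
          have hn' : ∀ g, C.obj.ρ g (n • c') = n • c' := fun g => by rw [map_nsmul, hc']
          have e := recClass_add_left 𝒰 p C (n • c') c' hn' hc'
            (fun g => by rw [map_add, hn', hc']) χ
          calc recClass 𝒰 p C ((n + 1) • c') hn χ
              = recClass 𝒰 p C (n • c' + c') (fun g => by rw [map_add, hn', hc']) χ :=
                recClass_congr 𝒰 p C (succ_nsmul c' n) _ _ χ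
            _ = recClass 𝒰 p C (n • c') hn' χ + recClass 𝒰 p C c' hc' χ := e
            _ = n • recClass 𝒰 p C c' hc' χ + recClass 𝒰 p C c' hc' χ := by rw [ih hn']
            _ = (n + 1) • recClass 𝒰 p C c' hc' χ := (succ_nsmul _ n).symm
      rw [key p hpc', nsmul_recClass]
    have h3 : recClass 𝒰 p C c hc χ = recClass 𝒰 p C t ht χ := by
      have e := recClass_add_left 𝒰 p C t (p • c') ht hpc'
        (fun g => by rw [map_add, ht, hpc']) χ
      rw [h2, add_zero] at e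
      rw [← e]
      exact recClass_congr 𝒰 p C hct _ _ χ
    rw [h3] at hcχ
    exact hcχ (I1 _ (nsmul_recClass 𝒰 p C t ht χ) h1)
  obtain ⟨a, ha⟩ := exists_int_comb_of_separating T (smH 𝒰 (trivSm ℤ 𝒰 (ZMod p)) 1)
    (nsmul_smH_zmod_eq_zero 𝒰 p 1) ρ hsep φ
  rw [ha]
  exact AddSubgroup.sum_mem _ (fun t _ => AddSubgroup.zsmul_mem _ (hρmem t) _)

end RN

end Fermat.Agent.CFT.Sm
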