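/-
S55 / CFT (PT5/PT8, abstract part) — helper4.
`p`-primary level systems, relative theory: restriction `H²(Γ, C) → H²(U, C)` to an open subgroup
on `p`-primary parts, and the transferred invariant map of `U`.
-/
import Fermat.Agent.CFT.Sm.CF_helper4_PBase
import Fermat.Agent.CFT.Coh.PTransfer_helper4

set_option autoImplicit false
set_option linter.unusedSectionVars false
set_option linter.style.haveILetI false

open CategoryTheory CategoryTheory.Limits groupCohomology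

namespace Fermat.Agent.CFT.Sm

open Fermat.Agent.CFT.Coh

variable {Γ : Type} [Group Γ] {𝒰 : OpenBasis Γ}

/-- The level family induced on an open subgroup `U`: the levels `V ∩ U = V` for `V ≤ U`. -/
def LevelFamily.sub (ℒ : LevelFamily 𝒰) (U : Subgroup Γ) (hU : 𝒰.IsOpen U) :
    LevelFamily (𝒰.sub U) where
  lev := {V' | ∃ V ∈ ℒ.lev, V ≤ U ∧ V' = V.subgroupOf U}
  lev_sub := by
    rintro _ ⟨V, hV, -, rfl⟩
    exact ⟨V, ℒ.lev_sub hV, rfl⟩
  cofinal := by
    rintro _ ⟨W, hW, rfl⟩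
    obtain ⟨V, hV, hVle⟩ := ℒ.exists_le_of_isOpen (OpenBasis.IsOpen.inf 𝒰 (𝒰.isOpen_of_mem hW) hU)
    exact ⟨V.subgroupOf U, ⟨V, hV, hVle.trans inf_le_right, rfl⟩,
      Subgroup.comap_mono (hVle.trans inf_le_left)⟩

lemma LevelFamily.mem_sub {ℒ : LevelFamily 𝒰} {U : Subgroup Γ} (hU : 𝒰.IsOpen U)
    {V : Subgroup Γ} (hV : V ∈ ℒ.lev) (hVU : V ≤ U) : V.subgroupOf U ∈ (ℒ.sub U hU).lev :=
  ⟨V, hV, hVU, rfl⟩

variable {p : ℕ} [hp : Fact p.Prime] {ℒ : LevelFamily 𝒰} {C : SmRep ℤ 𝒰}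

section Rel

variable (h : IsPLevelSystem ℒ p C) (U : Subgroup Γ) (hU : 𝒰.IsOpen U)
  (hU' : IsPLevelSystem (ℒ.sub U hU) p (resSub C U))
  (hres : ∀ (V : Subgroup Γ) [V.Normal], V ∈ ℒ.lev → V ≤ U →
    ∀ z' : groupCohomology (levelRep (resSub C U) (V.subgroupOf U)) 2, IsPPrimary p z' →
      ∃ y' : groupCohomology (levelRep C V) 2, (levelRes C U V 2).hom y' = z')

include h hU' hres

/-- Finite-level restriction on `p`-primary classes: the kernel is the `[Γ : U]`-torsion. -/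
theorem levelRes_eq_zero_iff {V : Subgroup Γ} [V.Normal] (hV : V ∈ ℒ.lev) (hVU : V ≤ U)
    (y' : groupCohomology (levelRep C V) 2) (hy' : IsPPrimary p y') :
    (levelRes C U V 2).hom y' = 0 ↔ U.index • y' = 0 := by
  have hV' : V.subgroupOf U ∈ (ℒ.sub U hU).lev := LevelFamily.mem_sub hU hV hVU
  obtain ⟨g, hgp, hggen, hgord⟩ := h.fund V hV
  have hg := h.zsmul_gen_eq_zero_iff hV hgp hgord
  obtain ⟨g', hg'p, hg'gen, hg'ord⟩ := hU'.fund (V.subgroupOf U) hV'
  have hg' := hU'.zsmul_gen_eq_zero_iff hV' hg'p hg'ord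
  -- indices
  have hidx : (V.subgroupOf U).index * U.index = V.index := Subgroup.relIndex_mul_index hVU
  have hU0 : U.index ≠ 0 := by
    intro h0
    rw [h0, mul_zero] at hidx
    exact IsPLevelSystem.index_ne_zero_of_mem hV hidx.symm
  have hV'0 : (V.subgroupOf U).index ≠ 0 := by
    intro h0
    rw [h0, zero_mul] at hidx
    exact IsPLevelSystem.index_ne_zero_of_mem hV hidx.symm
  set v' := (V.subgroupOf U).index.factorization p with hv'
  set a := U.index.factorization p with ha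
  have hv : V.index.factorization p = v' + a := by
    rw [← hidx, Nat.factorization_mul hV'0 hU0]
    rfl
  rw [hv] at hg
  -- a `p`-primary preimage of `g'`
  have tV := level_torsion C (ℒ.lev_sub hV) 1
  have tV' := level_torsion (resSub C U) ((ℒ.sub U hU).lev_sub hV') 1
  obtain ⟨y₀, hy₀⟩ := hres V hV hVU g' hg'p
  have hy₀' : (levelRes C U V 2).hom (pProj p tV y₀) = g' := by
    have e := map_pProj (p := p) tV tV' (levelRes C U V 2).hom.toAddMonoidHom y₀
    refine e.trans ?_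
    change pProj p tV' ((levelRes C U V 2).hom y₀) = g'
    rw [hy₀]
    exact pProj_eq_self tV' hg'p
  obtain ⟨t₀, ht₀⟩ := hggen _ (isPPrimary_pProj tV y₀)
  set hh := (levelRes C U V 2).hom g with hhh
  have hhp : IsPPrimary p hh := hgp.map (levelRes C U V 2).hom.toAddMonoidHom
  have hg'hh : g' = t₀ • hh := by rw [← hy₀', ht₀, map_zsmul]
  obtain ⟨s, hs⟩ := hg'gen hh hhp
  have hhord : ∀ t : ℤ, t • hh = 0 ↔ ((p ^ v' : ℕ) : ℤ) ∣ t := by
    intro t
    constructor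
    · intro ht
      apply (hg' t).1
      rw [hg'hh, smul_comm, ht]
      exact zsmul_zero _
    · intro ht
      rw [hs, smul_comm, (hg' t).2 ht]
      exact zsmul_zero _
  obtain ⟨t, rfl⟩ := hggen y' hy'
  have e1 : (levelRes C U V 2).hom (t • g) = t • hh := map_zsmul _ _ _
  rw [e1, hhord]
  have e2 : U.index • t • g = ((U.index : ℤ) * t) • g := by
    rw [mul_smul, natCast_zsmul]
  rw [e2, hg]
  -- arithmetic
  have hUidx : U.index = p ^ a * (U.index / p ^ a) := (Nat.ordProj_mul_ordCompl_eq_self _ _).symm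
  have hm : ¬ p ∣ U.index / p ^ a := Nat.not_dvd_ordCompl hp.out hU0
  set m := U.index / p ^ a with hmdef
  have hpp : Prime (p : ℤ) := Nat.prime_iff_prime_int.1 hp.out
  have hm' : ¬ (p : ℤ) ∣ (m : ℤ) := fun hd => hm (by exact_mod_cast hd)
  have hcop : IsCoprime ((p : ℤ) ^ v') (m : ℤ) :=
    IsCoprime.pow_left ((Prime.coprime_iff_not_dvd hpp).2 hm')
  have hpa0 : ((p : ℤ) ^ a) ≠ 0 := pow_ne_zero _ (by exact_mod_cast hp.out.ne_zero)
  have e3 : ((p ^ (v' + a) : ℕ) : ℤ) = (p : ℤ) ^ a * (p : ℤ) ^ v' := by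
    push_cast; ring
  have e4 : ((U.index : ℕ) : ℤ) * t = (p : ℤ) ^ a * ((m : ℤ) * t) := by
    conv_lhs => rw [hUidx]
    push_cast; ring
  rw [e3, e4, mul_dvd_mul_iff_left hpa0]
  push_cast
  constructor
  · intro ht
    exact Dvd.dvd.mul_left ht _
  · intro ht
    rw [mul_comm] at ht
    exact hcop.dvd_of_dvd_mul_right ht

/-- (R1) restriction is surjective on `p`-primary classes. -/
theorem exists_smRes_eq_of_isPPrimary (z : smH (𝒰.sub U) (resSub C U) 2) (hz : IsPPrimary p z) :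
    ∃ y : smH 𝒰 C 2, IsPPrimary p y ∧ (smRes C U 2).hom y = z := by
  have tX := smH_succ_torsion C 1
  have tX' := smH_succ_torsion (resSub C U) 1
  obtain ⟨W', hW', -, hex⟩ := hU'.exists_inflLevel_eq_of_isPPrimary z hz (𝒰.sub U).isOpen_top
  obtain ⟨V, hV, hVU, rfl⟩ := hW'
  haveI := ℒ.normal hV
  obtain ⟨z', hz', rfl⟩ := hex
  obtain ⟨y', hy'⟩ := hres V hV hVU z' hz'
  refine ⟨pProj p tX ((inflLevel C V (ℒ.isOpen hV) 2).hom y'), isPPrimary_pProj tX _, ?_⟩
  have e := map_pProj (p := p) tX tX' (smRes C U 2).hom.toAddMonoidHom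
    ((inflLevel C V (ℒ.isOpen hV) 2).hom y')
  refine e.trans ?_
  have e2 : (smRes C U 2).hom.toAddMonoidHom ((inflLevel C V (ℒ.isOpen hV) 2).hom y') =
      (inflLevel (resSub C U) (V.subgroupOf U) (𝒰.isOpen_comap U.subtype (ℒ.isOpen hV)) 2).hom
        ((levelRes C U V 2).hom y') :=
    (inflLevel_levelRes_apply C U V (ℒ.isOpen hV) 2 y').symm
  rw [e2, hy']
  exact pProj_eq_self tX' (hz'.map (inflLevel (resSub C U) (V.subgroupOf U)
    (𝒰.isOpen_comap U.subtype (ℒ.isOpen hV)) 2).hom.toAddMonoidHom)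

/-- (R2) the kernel of restriction on `p`-primary classes is the `[Γ : U]`-torsion. -/
theorem smRes_eq_zero_iff (y : smH 𝒰 C 2) (hy : IsPPrimary p y) :
    (smRes C U 2).hom y = 0 ↔ U.index • y = 0 := by
  obtain ⟨V, hV, hVU, hex⟩ := h.exists_inflLevel_eq_of_isPPrimary y hy hU
  haveI := ℒ.normal hV
  obtain ⟨y', hy', rfl⟩ := hex
  have hV' : V.subgroupOf U ∈ (ℒ.sub U hU).lev := LevelFamily.mem_sub hU hV hVU
  have key := levelRes_eq_zero_iff h U hU hU' hres hV hVU y' hy'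
  rw [← inflLevel_levelRes_apply C U V (ℒ.isOpen hV) 2 y', ← map_nsmul]
  constructor
  · intro h0
    have h1 := hU'.inflLevel_two_eq_zero hV' _ (hy'.map (levelRes C U V 2).hom.toAddMonoidHom) h0
    rw [key.1 h1, map_zero]
  · intro h0
    have h1 := h.inflLevel_two_eq_zero hV _ (hy'.nsmul _) h0
    rw [key.2 h1, map_zero]

/-- **The transferred invariant map of an open subgroup.** -/
theorem exists_invU (inv : smH 𝒰 C 2 →+ AddCircle (1 : ℚ))
    (I1 : ∀ x, IsPPrimary p x → inv x = 0 → x = 0) (I2 : ∀ x, IsPrimeTo p x → inv x = 0)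
    (I3 : ∃ x : smH 𝒰 C 2, p • x = 0 ∧ inv x = (((p : ℚ)⁻¹ : ℚ) : AddCircle (1 : ℚ))) :
    ∃ inv' : smH (𝒰.sub U) (resSub C U) 2 →+ AddCircle (1 : ℚ),
      (∀ z, IsPPrimary p z → inv' z = 0 → z = 0) ∧ (∀ z, IsPrimeTo p z → inv' z = 0) ∧
      (∃ z : smH (𝒰.sub U) (resSub C U) 2,
        p • z = 0 ∧ inv' z = (((p : ℚ)⁻¹ : ℚ) : AddCircle (1 : ℚ))) ∧
      (∀ y : smH 𝒰 C 2, inv' ((smRes C U 2).hom y) = U.index • inv y) := by
  haveI := hU.finiteIndex
  exact exists_transfer_inv (smH_succ_torsion C 1) (smH_succ_torsion (resSub C U) 1)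
    (smRes C U 2).hom.toAddMonoidHom U.index Subgroup.FiniteIndex.index_ne_zero inv I1 I2 I3
    h.exists_nsmul_eq_of_isPPrimary
    (exists_smRes_eq_of_isPPrimary h U hU hU' hres)
    (smRes_eq_zero_iff h U hU hU' hres)

end Rel

end Fermat.Agent.CFT.Sm
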