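/-
S55 / CFT (PT5/PT8, abstract part) — helper4.
`p`-primary level formations, layer 2: the hypotheses "a `p`-primary fundamental class at every
level of a cofinal family" restrict to open subgroups and give `p`-primary level systems.
-/
import Fermat.Agent.CFT.Sm.CF_helper4_PRel
import Fermat.Agent.CFT.Sm.CF_helper4_PRec
import Fermat.Agent.CFT.Coh.PFundTransport_helper4

set_option autoImplicit false
set_option linter.unusedSectionVars false
set_option linter.style.haveILetI false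

open CategoryTheory CategoryTheory.Limits groupCohomology

namespace Fermat.Agent.CFT.Sm

open Fermat.Agent.CFT.Coh

variable {Γ : Type} [Group Γ] {𝒰 : OpenBasis Γ}

section LevelRes

variable {k : Type} [CommRing k] (A : SmRep k 𝒰) (H U : Subgroup Γ) [U.Normal]

lemma levelResHom_injective : Function.Injective (levelResHom H U) := by
  rw [injective_iff_map_eq_one]
  intro q hq
  induction q using QuotientGroup.induction_on with
  | H h =>
    rw [levelResHom_mk, QuotientGroup.eq_one_iff] at hq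
    exact (QuotientGroup.eq_one_iff _).2 hq

lemma levelResLift_bijective (hUH : U ≤ H) : Function.Bijective (levelResLift A H U).hom := by
  constructor
  · intro a b hab
    apply Subtype.ext
    have h1 := levelResLift_apply_coe A H U a
    have h2 := levelResLift_apply_coe A H U b
    rw [← h1, ← h2, hab]
  · intro b
    refine ⟨⟨(b.1 : A.obj.V), fun u => ?_⟩, Subtype.ext rfl⟩
    exact b.2 ⟨⟨u.1, hUH u.2⟩, u.2⟩

end LevelRes

section Levels

variable {p : ℕ} [hp : Fact p.Prime] (ℒ : LevelFamily 𝒰) (C : SmRep ℤ 𝒰)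

/-- `p`-torsion-freeness of smooth cohomology from the finite levels. -/
lemma smH_torsion_free_of_levels (n : ℕ)
    (h1 : ∀ (V : Subgroup Γ) [V.Normal], V ∈ ℒ.lev →
      ∀ x : groupCohomology (levelRep C V) n, p • x = 0 → x = 0)
    (x : smH 𝒰 C n) (hx : p • x = 0) : x = 0 := by
  refine smul_injective_smH_of_cofinal C n (p : ℤ) ?_ x (by
    rw [Nat.cast_smul_eq_nsmul]; exact hx)
  intro U hU
  obtain ⟨V, hV, hVU⟩ := ℒ.cofinal U hU
  refine ⟨V, ℒ.lev_sub hV, hVU, ?_⟩
  haveI := ℒ.normal hV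
  intro y hy
  rw [Nat.cast_smul_eq_nsmul] at hy
  exact h1 V hV y hy

end Levels

variable {p : ℕ} [hp : Fact p.Prime] {ℒ : LevelFamily 𝒰} {C : SmRep ℤ 𝒰}

/-- Every level of the family carries a `p`-primary fundamental class. -/
def AllPFund (ℒ : LevelFamily 𝒰) (p : ℕ) (C : SmRep ℤ 𝒰) : Prop :=
  ∀ (V : Subgroup Γ) [V.Normal], V ∈ ℒ.lev →
    ∃ γ : groupCohomology (levelRep C V) 2, IsPFundamental p (levelRep C V) γ

/-- The restricted class at a level of an open subgroup. -/
lemma isPFundamental_levelRes {V : Subgroup Γ} [V.Normal] {γ : groupCohomology (levelRep C V) 2}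
    (hγ : IsPFundamental p (levelRep C V) γ) (U : Subgroup Γ) (hVU : V ≤ U) :
    IsPFundamental p (levelRep (resSub C U) (V.subgroupOf U)) ((levelRes C U V 2).hom γ) :=
  hγ.of_injective (levelResHom U V) (levelResHom_injective U V) _ (levelResLift C U V)
    (levelResLift_bijective C U V hVU)

/-- The hypothesis restricts to open subgroups. -/
lemma AllPFund.sub (h : AllPFund ℒ p C) (U : Subgroup Γ) (hU : 𝒰.IsOpen U) :
    AllPFund (ℒ.sub U hU) p (resSub C U) := by
  intro V' _ hV'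
  obtain ⟨V, hV, hVU, rfl⟩ := hV'
  haveI := ℒ.normal hV
  obtain ⟨γ, hγ⟩ := h V hV
  exact ⟨_, isPFundamental_levelRes hγ U hVU⟩

lemma finite_quotient_of_mem_lev {V : Subgroup Γ} (hV : V ∈ ℒ.lev) : Finite (Γ ⧸ V) := by
  haveI := 𝒰.finiteIndex V (ℒ.lev_sub hV)
  exact Subgroup.finite_quotient_of_finiteIndex

/-- `p`-cofinality restricts to open subgroups. -/
lemma pcof_sub (hcof : ∀ V ∈ ℒ.lev, ∃ W ∈ ℒ.lev, W ≤ V ∧ p ∣ W.index / V.index)
    (U : Subgroup Γ) (hU : 𝒰.IsOpen U) :
    ∀ V' ∈ (ℒ.sub U hU).lev, ∃ W' ∈ (ℒ.sub U hU).lev, W' ≤ V' ∧ p ∣ W'.index / V'.index := by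
  rintro _ ⟨V, hV, hVU, rfl⟩
  obtain ⟨W, hW, hWV, hd⟩ := hcof V hV
  refine ⟨W.subgroupOf U, ⟨W, hW, hWV.trans hVU, rfl⟩, Subgroup.comap_mono hWV, ?_⟩
  have e1 : (W.subgroupOf U).index * U.index = W.index :=
    Subgroup.relIndex_mul_index (hWV.trans hVU)
  have e2 : (V.subgroupOf U).index * U.index = V.index := Subgroup.relIndex_mul_index hVU
  haveI := hU.finiteIndex
  have hU0 : 0 < U.index := Nat.pos_of_ne_zero Subgroup.FiniteIndex.index_ne_zero
  rwa [← e1, ← e2, Nat.mul_div_mul_right _ _ hU0] at hd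

/-- **From fundamental classes to a level system.** -/
theorem AllPFund.isPLevelSystem (h : AllPFund ℒ p C)
    (hcof : ∀ V ∈ ℒ.lev, ∃ W ∈ ℒ.lev, W ≤ V ∧ p ∣ W.index / V.index) :
    IsPLevelSystem ℒ p C where
  fund V _ hV := by
    obtain ⟨γ, hγ⟩ := h V hV
    haveI := finite_quotient_of_mem_lev hV
    obtain ⟨-, hgen, hord⟩ := hγ.top
    have tV := level_torsion C (ℒ.lev_sub hV) 1
    refine ⟨pProj p tV γ, isPPrimary_pProj tV γ, ?_, ?_⟩
    · intro x hx
      obtain ⟨m, hm⟩ := hgen x hx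
      refine ⟨m, ?_⟩
      rw [← map_zsmul, ← hm, pProj_eq_self tV hx]
    · intro m hm
      obtain ⟨m', hm', hm'γ⟩ := isPrimeTo_sub_pProj (p := p) tV γ
      have h1a : ((m' : ℤ) * m) • pProj p tV γ = 0 := by
        rw [mul_smul, hm]; exact zsmul_zero _
      have h1b : ((m' : ℤ) * m) • (γ - pProj p tV γ) = 0 := by
        rw [mul_comm, mul_smul, natCast_zsmul, hm'γ]; exact zsmul_zero _
      have h1 : ((m' : ℤ) * m) • γ = 0 := by
        have e : ((m' : ℤ) * m) • γ =
            ((m' : ℤ) * m) • pProj p tV γ + ((m' : ℤ) * m) • (γ - pProj p tV γ) := by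
          rw [← zsmul_add]; congr 1; abel
        rw [e, h1a, h1b, add_zero]
      have h2 := hord _ h1
      rw [← Subgroup.index_eq_card] at h2
      have hpp : Prime (p : ℤ) := Nat.prime_iff_prime_int.1 hp.out
      have hm'' : ¬ (p : ℤ) ∣ (m' : ℤ) := fun hd => hm' (by exact_mod_cast hd)
      have hcop : IsCoprime (((p ^ V.index.factorization p : ℕ) : ℤ)) (m' : ℤ) := by
        push_cast
        exact IsCoprime.pow_left ((Prime.coprime_iff_not_dvd hpp).2 hm'')
      exact hcop.dvd_of_dvd_mul_left h2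
  h1 V _ hV := by
    obtain ⟨γ, hγ⟩ := h V hV
    haveI := finite_quotient_of_mem_lev hV
    exact hγ.top.1
  h1sub V hV := by
    have hsub := h.sub V (ℒ.isOpen hV)
    refine smH_torsion_free_of_levels (ℒ.sub V (ℒ.isOpen hV)) (resSub C V) 1 ?_
    intro V' _ hV'
    obtain ⟨γ, hγ⟩ := hsub V' hV'
    haveI := finite_quotient_of_mem_lev hV'
    exact hγ.top.1
  pcof := hcof

/-- Finite-level restriction is surjective on `p`-primary classes. -/
lemma AllPFund.hres (h : AllPFund ℒ p C) (U : Subgroup Γ) (hU : 𝒰.IsOpen U)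
    (V : Subgroup Γ) [V.Normal] (hV : V ∈ ℒ.lev) (hVU : V ≤ U)
    (z' : groupCohomology (levelRep (resSub C U) (V.subgroupOf U)) 2) (hz' : IsPPrimary p z') :
    ∃ y' : groupCohomology (levelRep C V) 2, (levelRes C U V 2).hom y' = z' := by
  obtain ⟨γ, hγ⟩ := h V hV
  have hγ' := isPFundamental_levelRes hγ U hVU
  haveI := finite_quotient_of_mem_lev (LevelFamily.mem_sub hU hV hVU)
  obtain ⟨-, hgen, -⟩ := hγ'.top
  obtain ⟨m, hm⟩ := hgen z' hz'
  exact ⟨m • γ, by rw [map_zsmul, hm]⟩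

end Fermat.Agent.CFT.Sm
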