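/-
S55 / CFT (PT5/PT8, abstract part) — helper4.
**The abstract theorem**: a cofinal family of levels carrying `p`-primary fundamental classes
(+ `p`-cofinality + finiteness of `C^U / p`) gives a `p`-class formation in the sense of helper9.
-/
import Fermat.Agent.CFT.Sm.CF_helper4_PSub
import Fermat.Agent.CFT.Sm.PTDatum_helper9

set_option autoImplicit false
set_option linter.unusedSectionVars false
set_option linter.style.haveILetI false

open CategoryTheory CategoryTheory.Limits groupCohomology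

namespace Fermat.Agent.CFT.Sm

open Fermat.Agent.CFT.Coh

variable {Γ : Type} [Group Γ] {𝒰 : OpenBasis Γ}

/-- The hypotheses of the abstract theorem: a cofinal family of normal levels, each carrying a
`p`-primary fundamental class (no compatibility between the levels), `p`-cofinality of the family,
and the finiteness of `C^U / p` for the open subgroups `U`. -/
structure PLevelFormation (𝒰 : OpenBasis Γ) (p : ℕ) (C : SmRep ℤ 𝒰) extends LevelFamily 𝒰 where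
  fund : ∀ (V : Subgroup Γ) [V.Normal], V ∈ lev →
    ∃ γ : groupCohomology (levelRep C V) 2, IsPFundamental p (levelRep C V) γ
  pcof : ∀ V ∈ lev, ∃ W ∈ lev, W ≤ V ∧ p ∣ W.index / V.index
  fin : ∀ U : Subgroup Γ, 𝒰.IsOpen U → ∃ T : Finset C.obj.V,
    ∀ c : C.obj.V, (∀ g ∈ U, C.obj.ρ g c = c) →
      ∃ t ∈ T, ∃ c' : C.obj.V, (∀ g ∈ U, C.obj.ρ g c' = c') ∧ c = t + p • c'

variable {p : ℕ} [hp : Fact p.Prime] {C : SmRep ℤ 𝒰}

/-- The base axioms from a level system, an invariant map injective on the `p`-primary part with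
the value `1/p`, and finiteness. -/
theorem IsPLevelSystem.isBaseCF {ℒ : LevelFamily 𝒰} (h : IsPLevelSystem ℒ p C)
    (inv : smH 𝒰 C 2 →+ AddCircle (1 : ℚ))
    (I1 : ∀ x, IsPPrimary p x → inv x = 0 → x = 0)
    (I3 : ∃ x : smH 𝒰 C 2, p • x = 0 ∧ inv x = (((p : ℚ)⁻¹ : ℚ) : AddCircle (1 : ℚ)))
    (hfin : ∃ T : Finset C.obj.V, ∀ c : C.obj.V, (∀ g, C.obj.ρ g c = c) →
      ∃ t ∈ T, ∃ c' : C.obj.V, (∀ g, C.obj.ρ g c' = c') ∧ c = t + p • c') :
    IsBaseCF 𝒰 p C inv where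
  h1_bij := h.smH_one_bijective
  inv_inj x hx hix := I1 x (isPPrimary_of_nsmul_eq_zero hx) hix
  inv_surj := I3
  h2_div := h.exists_nsmul_eq
  rec_surj := rec_surj h inv (fun x hx => I1 x (isPPrimary_of_nsmul_eq_zero hx)) hfin

namespace PLevelFormation

variable (ℱ : PLevelFormation 𝒰 p C)

lemma allPFund : AllPFund ℱ.toLevelFamily p C := fun V _ hV => ℱ.fund V hV

lemma sys : IsPLevelSystem ℱ.toLevelFamily p C := ℱ.allPFund.isPLevelSystem ℱ.pcof

lemma sysU (U : Subgroup Γ) (hU : 𝒰.IsOpen U) :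
    IsPLevelSystem (ℱ.toLevelFamily.sub U hU) p (resSub C U) :=
  (ℱ.allPFund.sub U hU).isPLevelSystem (pcof_sub ℱ.pcof U hU)

include ℱ in
lemma fin_top : ∃ T : Finset C.obj.V, ∀ c : C.obj.V, (∀ g, C.obj.ρ g c = c) →
    ∃ t ∈ T, ∃ c' : C.obj.V, (∀ g, C.obj.ρ g c' = c') ∧ c = t + p • c' := by
  obtain ⟨T, hT⟩ := ℱ.fin ⊤ 𝒰.isOpen_top
  refine ⟨T, fun c hc => ?_⟩
  obtain ⟨t, ht, c', hc', e⟩ := hT c (fun g _ => hc g)
  exact ⟨t, ht, c', fun g => hc' g (Subgroup.mem_top g), e⟩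

include ℱ in
lemma fin_sub (U : Subgroup Γ) (hU : 𝒰.IsOpen U) :
    ∃ T : Finset (resSub C U).obj.V, ∀ c : (resSub C U).obj.V,
      (∀ g, (resSub C U).obj.ρ g c = c) →
      ∃ t ∈ T, ∃ c' : (resSub C U).obj.V, (∀ g, (resSub C U).obj.ρ g c' = c') ∧
        c = t + p • c' := by
  obtain ⟨T, hT⟩ := ℱ.fin U hU
  refine ⟨T, fun c hc => ?_⟩
  obtain ⟨t, ht, c', hc', e⟩ := hT c (fun g hg => hc ⟨g, hg⟩)
  exact ⟨t, ht, c', fun g => hc' g.1 g.2, e⟩

/-- The invariant map of `Γ`. -/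
noncomputable def inv : smH 𝒰 C 2 →+ AddCircle (1 : ℚ) := Classical.choose ℱ.sys.exists_inv

lemma inv_spec : (∀ x, IsPPrimary p x → ℱ.inv x = 0 → x = 0) ∧
    (∀ x, IsPrimeTo p x → ℱ.inv x = 0) ∧
    ∃ x : smH 𝒰 C 2, p • x = 0 ∧ ℱ.inv x = (((p : ℚ)⁻¹ : ℚ) : AddCircle (1 : ℚ)) :=
  Classical.choose_spec ℱ.sys.exists_inv

lemma exists_invU' (U : Subgroup Γ) (hU : 𝒰.IsOpen U) :
    ∃ inv' : smH (𝒰.sub U) (resSub C U) 2 →+ AddCircle (1 : ℚ),
      (∀ z, IsPPrimary p z → inv' z = 0 → z = 0) ∧ (∀ z, IsPrimeTo p z → inv' z = 0) ∧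
      (∃ z : smH (𝒰.sub U) (resSub C U) 2,
        p • z = 0 ∧ inv' z = (((p : ℚ)⁻¹ : ℚ) : AddCircle (1 : ℚ))) ∧
      (∀ y : smH 𝒰 C 2, inv' ((smRes C U 2).hom y) = U.index • ℱ.inv y) :=
  exists_invU ℱ.sys U hU (ℱ.sysU U hU) (fun V _ hV hVU => ℱ.allPFund.hres U hU V hV hVU) ℱ.inv
    ℱ.inv_spec.1 ℱ.inv_spec.2.1 ℱ.inv_spec.2.2

/-- The invariant maps of the open subgroups. -/
noncomputable def invU (U : Subgroup Γ) (hU : 𝒰.IsOpen U) :
    smH (𝒰.sub U) (resSub C U) 2 →+ AddCircle (1 : ℚ) := Classical.choose (ℱ.exists_invU' U hU)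

lemma invU_spec (U : Subgroup Γ) (hU : 𝒰.IsOpen U) :
    (∀ z, IsPPrimary p z → ℱ.invU U hU z = 0 → z = 0) ∧
    (∀ z, IsPrimeTo p z → ℱ.invU U hU z = 0) ∧
    (∃ z : smH (𝒰.sub U) (resSub C U) 2,
      p • z = 0 ∧ ℱ.invU U hU z = (((p : ℚ)⁻¹ : ℚ) : AddCircle (1 : ℚ))) ∧
    (∀ y : smH 𝒰 C 2, ℱ.invU U hU ((smRes C U 2).hom y) = U.index • ℱ.inv y) :=
  Classical.choose_spec (ℱ.exists_invU' U hU)

/-- **The abstract theorem: levels ⇒ `p`-class formation.** -/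
noncomputable def toPClassFormation : PClassFormation 𝒰 p C where
  inv := ℱ.inv
  invU := ℱ.invU
  base := ℱ.sys.isBaseCF ℱ.inv ℱ.inv_spec.1 ℱ.inv_spec.2.2 ℱ.fin_top
  baseU U hU := (ℱ.sysU U hU).isBaseCF (ℱ.invU U hU) (ℱ.invU_spec U hU).1
    (ℱ.invU_spec U hU).2.2.1 (ℱ.fin_sub U hU)
  inv_res U hU := (ℱ.invU_spec U hU).2.2.2
  res_surj U hU x hx := by
    obtain ⟨y, -, hy⟩ := exists_smRes_eq_of_isPPrimary ℱ.sys U hU (ℱ.sysU U hU)
      (fun V _ hV hVU => ℱ.allPFund.hres U hU V hV hVU) x (isPPrimary_of_nsmul_eq_zero hx)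
    exact ⟨y, hy⟩

/-- `Hⁿ(U, C)` has no `p`-torsion for all open `U` if this holds at the finite levels
(for all subgroups of the finite quotients). -/
theorem smH_sub_torsion_free (n : ℕ)
    (hn : ∀ (V : Subgroup Γ) [V.Normal], V ∈ ℱ.lev → ∀ (S : Subgroup (Γ ⧸ V))
      (x : groupCohomology (Rep.res S.subtype (levelRep C V)) n), p • x = 0 → x = 0)
    (U : Subgroup Γ) (hU : 𝒰.IsOpen U) (x : smH (𝒰.sub U) (resSub C U) n) (hx : p • x = 0) :
    x = 0 := by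
  refine smH_torsion_free_of_levels (ℱ.toLevelFamily.sub U hU) (resSub C U) n ?_ x hx
  rintro V' _ ⟨V, hV, hVU, rfl⟩ y hy
  haveI := ℱ.normal hV
  exact torsion_free_of_injective n (hn V hV) (levelResHom U V) (levelResHom_injective U V) _
    (levelResLift C U V) (levelResLift_bijective C U V hVU) y hy

/-- The formation is global below `U₀` as soon as `H³` of the finite levels has no `p`-torsion and
the existence theorem mod `p` holds for the open subgroups below `U₀`. -/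
theorem isGlobalBelow (U₀ : Subgroup Γ)
    (h3 : ∀ (V : Subgroup Γ) [V.Normal], V ∈ ℱ.lev → ∀ (S : Subgroup (Γ ⧸ V))
      (x : groupCohomology (Rep.res S.subtype (levelRep C V)) 3), p • x = 0 → x = 0)
    (hker : ∀ (U : Subgroup Γ) (hU : 𝒰.IsOpen U), U ≤ U₀ →
      ∀ (c : (resSub C U).obj.V) (hc : ∀ g, (resSub C U).obj.ρ g c = c),
        recMap (𝒰.sub U) p (resSub C U) (ℱ.toPClassFormation.invU U hU) c hc = 0 →
          ∃ c' : (resSub C U).obj.V, (∀ g, (resSub C U).obj.ρ g c' = c') ∧ p • c' = c) :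
    ℱ.toPClassFormation.IsGlobalBelow U₀ where
  h3U U hU x hx := ℱ.smH_sub_torsion_free 3 h3 U hU x hx
  rec_kerU := hker

end PLevelFormation

end Fermat.Agent.CFT.Sm
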