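/-
S55 / CFT (P0.5) — helper9.  Pure category theory (Mathlib only).
The ABSTRACT DUALITY ENGINE: in an abelian category with `Ext`, objects `I` ("unit"), `C`
("formation module") and `t : Ext²(I, C) →+ ℚ/ℤ`, the Yoneda pairings
`α^r(X) = yPair : Ext^r(X, C) →+ Hom(Ext^{2-r}(I, X), ℚ/ℤ)`; four-lemma steps along a short exact
sequence, closure under finite sums/retracts, and the dévissage theorems
`yPair_surjective_of_resolution` (local) and `yPair_bijective_of_resolution` (global).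
-/
import Mathlib

set_option autoImplicit false

universe w v u

open CategoryTheory CategoryTheory.Limits CategoryTheory.Abelian

namespace Fermat.Agent.CFT.Sm

section Character

/-- Exactness of the character dual at the middle term: a character of `B` vanishing on the image
of `u` (= kernel of `v`) factors through `v`. -/
lemma exists_character_factor {A B C' : Type*} [AddCommGroup A] [AddCommGroup B] [AddCommGroup C']
    (u : A →+ B) (v : B →+ C') (hex : ∀ b, v b = 0 → ∃ a, u a = b)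
    (χ : B →+ AddCircle (1 : ℚ)) (hχ : ∀ a, χ (u a) = 0) :
    ∃ χ' : C' →+ AddCircle (1 : ℚ), ∀ b, χ' (v b) = χ b := by
  -- descend to the range of `v`
  have hsurj : Function.Surjective v.rangeRestrict := v.rangeRestrict_surjective
  let χ₀ : v.range →+ AddCircle (1 : ℚ) :=
    v.rangeRestrict.liftOfRightInverse (Function.surjInv hsurj)
      (Function.rightInverse_surjInv hsurj) ⟨χ, fun b hb => by
        have hb' : v b = 0 := by
          have := congrArg Subtype.val (AddMonoidHom.mem_ker.1 hb)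
          simpa using this
        obtain ⟨a, rfl⟩ := hex b hb'
        exact AddMonoidHom.mem_ker.2 (hχ a)⟩
  have hχ₀ : ∀ b, χ₀ (v.rangeRestrict b) = χ b := fun b =>
    AddMonoidHom.liftOfRightInverse_comp_apply _ _ _ _ _
  obtain ⟨χ', hχ'⟩ := CharacterModule.dual_surjective_of_injective (R := ℤ)
    (v.range.subtype.toIntLinearMap) Subtype.val_injective χ₀
  refine ⟨χ', fun b => ?_⟩
  have := DFunLike.congr_fun hχ' (v.rangeRestrict b)
  exact this.trans (hχ₀ b)

/-- Characters extend along injections. -/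
lemma exists_character_extend {A B : Type*} [AddCommGroup A] [AddCommGroup B]
    (u : A →+ B) (hu : Function.Injective u) (χ : A →+ AddCircle (1 : ℚ)) :
    ∃ χ' : B →+ AddCircle (1 : ℚ), ∀ a, χ' (u a) = χ a := by
  obtain ⟨χ', hχ'⟩ := CharacterModule.dual_surjective_of_injective (R := ℤ)
    u.toIntLinearMap hu χ
  exact ⟨χ', fun a => DFunLike.congr_fun hχ' a⟩

end Character


section Pairing

variable {𝒞 : Type u} [Category.{v} 𝒞] [Abelian 𝒞] [HasExt.{w} 𝒞] (I C : 𝒞)
  (t : Ext.{w} I C 2 →+ AddCircle (1 : ℚ))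

/-- The Yoneda pairing `Ext^r(X, C) → Hom(Ext^s(I, X), ℚ/ℤ)`, `e ↦ (x ↦ t (x ≫ e))`,
for `s + r = 2`. -/
noncomputable def yPair {r s : ℕ} (h : s + r = 2) (X : 𝒞) :
    Ext.{w} X C r →+ (Ext.{w} I X s →+ AddCircle (1 : ℚ)) :=
  (AddMonoidHom.compHom t).comp (Ext.bilinearComp I X C s r 2 h).flip

@[simp] lemma yPair_apply {r s : ℕ} (h : s + r = 2) (X : 𝒞) (e : Ext.{w} X C r)
    (x : Ext.{w} I X s) : yPair I C t h X e x = t (x.comp e h) := rfl

/-- Naturality of the pairing in `X`. -/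
lemma yPair_precomp {r s : ℕ} (h : s + r = 2) {X X' : 𝒞} (f : X ⟶ X') (e : Ext.{w} X' C r)
    (x : Ext.{w} I X s) :
    yPair I C t h X ((Ext.mk₀ f).comp e (zero_add r)) x =
      yPair I C t h X' e (x.comp (Ext.mk₀ f) (add_zero s)) := by
  rw [yPair_apply, yPair_apply]
  congr 1
  symm
  exact Ext.comp_assoc_of_second_deg_zero _ _ _ _

/-- Compatibility of the pairing with the connecting maps (degrees `(2,0)` and `(1,1)`). -/
lemma yPair_connecting {N M : 𝒞} (ξ : Ext.{w} N M 1) (e : Ext.{w} M C 1) (x : Ext.{w} I N 0) :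
    yPair I C t (show 0 + 2 = 2 from rfl) N (ξ.comp e (show 1 + 1 = 2 from rfl)) x =
      yPair I C t (show 1 + 1 = 2 from rfl) M e (x.comp ξ (zero_add 1)) := by
  rw [yPair_apply, yPair_apply]
  congr 1
  symm
  apply Ext.comp_assoc
  lia

section Steps

variable {S : ShortComplex 𝒞} (hS : S.ShortExact)

include hS

/-- Step 1: surjectivity of `α²` passes to subobjects. -/
lemma yPair_two_surjective_of_mono
    (hF : Function.Surjective (yPair I C t (show 0 + 2 = 2 from rfl) S.X₂)) :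
    Function.Surjective (yPair I C t (show 0 + 2 = 2 from rfl) S.X₁) := by
  intro ψ
  have := hS.mono_f
  obtain ⟨ψ', hψ'⟩ := exists_character_extend ((Ext.mk₀ S.f).postcomp I (add_zero 0))
    (Ext.postcomp_mk₀_injective_of_mono I S.f) ψ
  obtain ⟨e, he⟩ := hF ψ'
  refine ⟨(Ext.mk₀ S.f).comp e (zero_add 2), ?_⟩
  ext x
  rw [yPair_precomp, he]
  exact hψ' x

/-- Step 2: injectivity of `α²` for the sub, given `Ext³(N, C) = 0`. -/
lemma yPair_two_injective_of_mono
    (hF : Function.Injective (yPair I C t (show 0 + 2 = 2 from rfl) S.X₂))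
    (hN : Function.Surjective (yPair I C t (show 0 + 2 = 2 from rfl) S.X₃))
    (h3 : ∀ e : Ext.{w} S.X₃ C 3, e = 0) :
    Function.Injective (yPair I C t (show 0 + 2 = 2 from rfl) S.X₁) := by
  rw [injective_iff_map_eq_zero]
  intro e he
  obtain ⟨eF, rfl⟩ := Ext.contravariant_sequence_exact₁ hS C e (show 1 + 2 = 3 from rfl) (h3 _)
  obtain ⟨χ', hχ'⟩ := exists_character_factor
    ((Ext.mk₀ S.f).postcomp I (add_zero 0)) ((Ext.mk₀ S.g).postcomp I (add_zero 0))
    (fun x₂ hx₂ => Ext.covariant_sequence_exact₂ I hS x₂ hx₂)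
    (yPair I C t (show 0 + 2 = 2 from rfl) S.X₂ eF)
    (fun x => by
      have := DFunLike.congr_fun he x
      rw [yPair_precomp] at this
      exact this)
  obtain ⟨eN, heN⟩ := hN χ'
  have h1 : (Ext.mk₀ S.g).comp eN (zero_add 2) = eF := by
    apply hF
    ext y
    rw [yPair_precomp, heN]
    exact hχ' y
  rw [← h1, Ext.mk₀_comp_mk₀_assoc, S.zero, Ext.mk₀_zero, Ext.zero_comp]

/-- Step 3: surjectivity of `α¹` for the sub. -/
lemma yPair_one_surjective_of_mono
    (hN : Function.Surjective (yPair I C t (show 0 + 2 = 2 from rfl) S.X₃))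
    (hF2 : Function.Injective (yPair I C t (show 0 + 2 = 2 from rfl) S.X₂))
    (hF1 : Function.Surjective (yPair I C t (show 1 + 1 = 2 from rfl) S.X₂)) :
    Function.Surjective (yPair I C t (show 1 + 1 = 2 from rfl) S.X₁) := by
  intro ψ
  obtain ⟨eN, heN⟩ := hN (ψ.comp (hS.extClass.postcomp I (zero_add 1)))
  have h1 : (Ext.mk₀ S.g).comp eN (zero_add 2) = 0 := by
    apply hF2
    rw [map_zero]
    ext y
    rw [yPair_precomp, heN]
    change ψ ((y.comp (Ext.mk₀ S.g) (add_zero 0)).comp hS.extClass (zero_add 1)) = 0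
    rw [Ext.comp_assoc_of_second_deg_zero, hS.comp_extClass, Ext.comp_zero, map_zero]
  obtain ⟨eM, heM⟩ := Ext.contravariant_sequence_exact₃ hS C eN h1 (show 1 + 1 = 2 from rfl)
  obtain ⟨χ', hχ'⟩ := exists_character_factor
    (hS.extClass.postcomp I (zero_add 1)) ((Ext.mk₀ S.f).postcomp I (add_zero 1))
    (fun x₁ hx₁ => Ext.covariant_sequence_exact₁ I hS x₁ hx₁ (zero_add 1))
    (ψ - yPair I C t (show 1 + 1 = 2 from rfl) S.X₁ eM)
    (fun x => by
      have h2 := yPair_connecting I C t hS.extClass eM x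
      rw [heM, heN] at h2
      change ψ (x.comp hS.extClass (zero_add 1)) -
        yPair I C t (show 1 + 1 = 2 from rfl) S.X₁ eM (x.comp hS.extClass (zero_add 1)) = 0
      rw [← h2]
      exact sub_self _)
  obtain ⟨eF, heF⟩ := hF1 χ'
  refine ⟨eM + (Ext.mk₀ S.f).comp eF (zero_add 1), ?_⟩
  ext x
  rw [map_add, AddMonoidHom.add_apply, yPair_precomp, heF]
  have := hχ' x
  change χ' (x.comp (Ext.mk₀ S.f) (add_zero 1)) = _ at this
  rw [this]
  simp

/-- Step 4: injectivity of `α¹` for the sub. -/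
lemma yPair_one_injective_of_mono
    (hN2 : Function.Injective (yPair I C t (show 0 + 2 = 2 from rfl) S.X₃))
    (hF1 : Function.Injective (yPair I C t (show 1 + 1 = 2 from rfl) S.X₂))
    (hN1 : Function.Surjective (yPair I C t (show 1 + 1 = 2 from rfl) S.X₃)) :
    Function.Injective (yPair I C t (show 1 + 1 = 2 from rfl) S.X₁) := by
  rw [injective_iff_map_eq_zero]
  intro e he
  have h0 : hS.extClass.comp e (show 1 + 1 = 2 from rfl) = 0 := by
    apply hN2
    rw [map_zero]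
    ext x
    rw [yPair_connecting, he]
    rfl
  obtain ⟨eF, rfl⟩ := Ext.contravariant_sequence_exact₁ hS C e (show 1 + 1 = 2 from rfl) h0
  obtain ⟨χ', hχ'⟩ := exists_character_factor
    ((Ext.mk₀ S.f).postcomp I (add_zero 1)) ((Ext.mk₀ S.g).postcomp I (add_zero 1))
    (fun x₂ hx₂ => Ext.covariant_sequence_exact₂ I hS x₂ hx₂)
    (yPair I C t (show 1 + 1 = 2 from rfl) S.X₂ eF)
    (fun x => by
      have := DFunLike.congr_fun he x
      rw [yPair_precomp] at this
      exact this)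
  obtain ⟨eN, heN⟩ := hN1 χ'
  have h1 : (Ext.mk₀ S.g).comp eN (zero_add 1) = eF := by
    apply hF1
    ext y
    rw [yPair_precomp, heN]
    exact hχ' y
  rw [← h1, Ext.mk₀_comp_mk₀_assoc, S.zero, Ext.mk₀_zero, Ext.zero_comp]

end Steps

section Sums

variable {A B X : 𝒞} (iA : A ⟶ X) (iB : B ⟶ X) (pA : X ⟶ A) (pB : X ⟶ B)
  (hX : pA ≫ iA + pB ≫ iB = 𝟙 X)

include hX

omit t in
lemma ext_eq_sum {Y : 𝒞} {n : ℕ} (e : Ext.{w} X Y n) :
    e = (Ext.mk₀ pA).comp ((Ext.mk₀ iA).comp e (zero_add n)) (zero_add n) +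
      (Ext.mk₀ pB).comp ((Ext.mk₀ iB).comp e (zero_add n)) (zero_add n) := by
  rw [Ext.mk₀_comp_mk₀_assoc, Ext.mk₀_comp_mk₀_assoc, ← Ext.add_comp, ← Ext.mk₀_add, hX,
    Ext.mk₀_id_comp]

omit t in
lemma ext_eq_sum' {Y : 𝒞} {n : ℕ} (x : Ext.{w} Y X n) :
    x = (x.comp (Ext.mk₀ pA) (add_zero n)).comp (Ext.mk₀ iA) (add_zero n) +
      (x.comp (Ext.mk₀ pB) (add_zero n)).comp (Ext.mk₀ iB) (add_zero n) := by
  rw [Ext.comp_assoc_of_third_deg_zero, Ext.comp_assoc_of_third_deg_zero, Ext.mk₀_comp_mk₀,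
    Ext.mk₀_comp_mk₀, ← Ext.comp_add, ← Ext.mk₀_add, hX, Ext.comp_mk₀_id]

omit t in
/-- `Extⁿ(-, Y)` vanishes on a sum if it vanishes on the summands. -/
lemma ext_eq_zero_of_sum {Y : 𝒞} {n : ℕ} (hA : ∀ e : Ext.{w} A Y n, e = 0)
    (hB : ∀ e : Ext.{w} B Y n, e = 0) (e : Ext.{w} X Y n) : e = 0 := by
  rw [ext_eq_sum iA iB pA pB hX e, hA ((Ext.mk₀ iA).comp e (zero_add n)),
    hB ((Ext.mk₀ iB).comp e (zero_add n)), Ext.comp_zero, Ext.comp_zero, add_zero]

lemma yPair_injective_of_sum {r s : ℕ} (h : s + r = 2)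
    (gA : Function.Injective (yPair I C t h A)) (gB : Function.Injective (yPair I C t h B)) :
    Function.Injective (yPair I C t h X) := by
  rw [injective_iff_map_eq_zero]
  intro e he
  have hA : (Ext.mk₀ iA).comp e (zero_add r) = 0 := by
    apply gA
    rw [map_zero]
    ext x
    rw [yPair_precomp, he]
    rfl
  have hB : (Ext.mk₀ iB).comp e (zero_add r) = 0 := by
    apply gB
    rw [map_zero]
    ext x
    rw [yPair_precomp, he]
    rfl
  rw [ext_eq_sum iA iB pA pB hX e, hA, hB, Ext.comp_zero, Ext.comp_zero, add_zero]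

lemma yPair_surjective_of_sum {r s : ℕ} (h : s + r = 2)
    (gA : Function.Surjective (yPair I C t h A)) (gB : Function.Surjective (yPair I C t h B)) :
    Function.Surjective (yPair I C t h X) := by
  intro ψ
  obtain ⟨eA, heA⟩ := gA (ψ.comp ((Ext.mk₀ iA).postcomp I (add_zero s)))
  obtain ⟨eB, heB⟩ := gB (ψ.comp ((Ext.mk₀ iB).postcomp I (add_zero s)))
  refine ⟨(Ext.mk₀ pA).comp eA (zero_add r) + (Ext.mk₀ pB).comp eB (zero_add r), ?_⟩
  ext x
  rw [map_add, AddMonoidHom.add_apply, yPair_precomp, yPair_precomp, heA, heB]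
  change ψ ((x.comp (Ext.mk₀ pA) (add_zero s)).comp (Ext.mk₀ iA) (add_zero s)) +
    ψ ((x.comp (Ext.mk₀ pB) (add_zero s)).comp (Ext.mk₀ iB) (add_zero s)) = ψ x
  rw [← map_add, ← ext_eq_sum' iA iB pA pB hX x]

end Sums

section Retract

omit t in
lemma mk₀_zsmul_comp {X X' Y : 𝒞} {n : ℕ} (a : ℤ) (f : X ⟶ X') (e : Ext.{w} X' Y n) :
    (Ext.mk₀ (a • f)).comp e (zero_add n) = a • ((Ext.mk₀ f).comp e (zero_add n)) := by
  have h1 : Ext.mk₀ (a • f) = a • Ext.mk₀ f :=
    map_zsmul (Ext.addEquiv₀ (X := X) (Y := X')).symm a f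
  rw [h1]
  exact map_zsmul ((Ext.bilinearComp X X' Y 0 n n (zero_add n)).flip e) a (Ext.mk₀ f)

omit t in
/-- If `m • 𝟙 X` factors through `A`, `q • 𝟙 X = 0` with `m`, `q` coprime, and `Extⁿ(A, Y) = 0`,
then `Extⁿ(X, Y) = 0`. -/
lemma ext_eq_zero_of_factor {A X Y : 𝒞} {n : ℕ} (i : A ⟶ X) (p : X ⟶ A) (m q : ℤ)
    (hmq : IsCoprime m q) (hm : p ≫ i = m • 𝟙 X) (hq : q • 𝟙 X = 0)
    (hA : ∀ e : Ext.{w} A Y n, e = 0) (e : Ext.{w} X Y n) : e = 0 := by
  obtain ⟨a, b, hab⟩ := hmq
  have h1 : m • e = 0 := by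
    have := mk₀_zsmul_comp m (𝟙 X) e
    rw [← hm, ← Ext.mk₀_comp_mk₀_assoc, hA ((Ext.mk₀ i).comp e (zero_add n)), Ext.comp_zero,
      Ext.mk₀_id_comp] at this
    exact this.symm
  have h2 : q • e = 0 := by
    have := mk₀_zsmul_comp q (𝟙 X) e
    rw [hq, Ext.mk₀_zero, Ext.zero_comp, Ext.mk₀_id_comp] at this
    exact this.symm
  calc e = (a * m + b * q) • e := by rw [hab, one_smul]
    _ = 0 := by rw [add_smul, mul_smul, mul_smul, h1, h2, smul_zero, smul_zero, add_zero]

end Retract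

section Devissage

variable (P : 𝒞 → Prop)

/-- A resolution of `M` by a "good" object: a short exact sequence `0 → M → F → N → 0` with
`N` again in the class `P`. -/
def HasGoodResolution (good : 𝒞 → Prop) (M : 𝒞) : Prop :=
  ∃ (S : ShortComplex 𝒞), S.ShortExact ∧ S.X₁ = M ∧ good S.X₂ ∧ P S.X₃

/-- LOCAL dévissage: if every object of the class `P` embeds, with cokernel in `P`, into an
object `F` for which `α²` is bijective and `α¹` is surjective, then `α²` and `α¹` are surjective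
on the whole class `P`. (No `Ext³`-hypothesis.) -/
theorem yPair_surjective_of_resolution
    (hres : ∀ M, P M → HasGoodResolution P (fun F =>
      Function.Bijective (yPair I C t (show 0 + 2 = 2 from rfl) F) ∧
      Function.Surjective (yPair I C t (show 1 + 1 = 2 from rfl) F)) M) :
    ∀ M, P M → Function.Surjective (yPair I C t (show 0 + 2 = 2 from rfl) M) ∧
      Function.Surjective (yPair I C t (show 1 + 1 = 2 from rfl) M) := by
  have s1 : ∀ M, P M → Function.Surjective (yPair I C t (show 0 + 2 = 2 from rfl) M) := by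
    intro M hM
    obtain ⟨S, hS, rfl, ⟨hF2, _⟩, _⟩ := hres M hM
    exact yPair_two_surjective_of_mono I C t hS hF2.2
  intro M hM
  refine ⟨s1 M hM, ?_⟩
  obtain ⟨S, hS, rfl, ⟨hF2, hF1⟩, hN⟩ := hres M hM
  exact yPair_one_surjective_of_mono I C t hS (s1 _ hN) hF2.1 hF1

/-- GLOBAL dévissage: if moreover `α¹(F)` is injective for the good objects and `Ext³(N, C) = 0`
on the class `P`, then `α¹` and `α²` are bijective on the whole class `P`. -/
theorem yPair_bijective_of_resolution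
    (hres : ∀ M, P M → HasGoodResolution P (fun F =>
      Function.Bijective (yPair I C t (show 0 + 2 = 2 from rfl) F) ∧
      Function.Bijective (yPair I C t (show 1 + 1 = 2 from rfl) F)) M)
    (h3 : ∀ N, P N → ∀ e : Ext.{w} N C 3, e = 0) :
    ∀ M, P M → Function.Bijective (yPair I C t (show 0 + 2 = 2 from rfl) M) ∧
      Function.Bijective (yPair I C t (show 1 + 1 = 2 from rfl) M) := by
  have hsurj := yPair_surjective_of_resolution I C t P (fun M hM => by
    obtain ⟨S, hS, h1, ⟨hF2, hF1⟩, hN⟩ := hres M hM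
    exact ⟨S, hS, h1, ⟨hF2, hF1.2⟩, hN⟩)
  have i2 : ∀ M, P M → Function.Injective (yPair I C t (show 0 + 2 = 2 from rfl) M) := by
    intro M hM
    obtain ⟨S, hS, rfl, ⟨hF2, _⟩, hN⟩ := hres M hM
    exact yPair_two_injective_of_mono I C t hS hF2.1 (hsurj _ hN).1 (h3 _ hN)
  have i1 : ∀ M, P M → Function.Injective (yPair I C t (show 1 + 1 = 2 from rfl) M) := by
    intro M hM
    obtain ⟨S, hS, rfl, ⟨_, hF1⟩, hN⟩ := hres M hM
    exact yPair_one_injective_of_mono I C t hS (i2 _ hN) hF1.1 (hsurj _ hN).2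
  exact fun M hM => ⟨⟨i2 M hM, (hsurj M hM).1⟩, ⟨i1 M hM, (hsurj M hM).2⟩⟩

end Devissage

end Pairing

end Fermat.Agent.CFT.Sm
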