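/-
S55 / CFT (E-GR) — helper2.
GOOD RESOLUTIONS for the dévissage of the duality theorem.  For `U ∈ 𝒰.sets` and a prime `p`, the
class `PU 𝒰 p U` of finite smooth `ℤ[Γ]`-modules killed by `p` on which `U` acts trivially:

* (a) `hasGoodResolution_PU`: the unit `X ⟶ coInd_U^Γ Res_U X` is mono with cokernel again in the
  class, i.e. `HasGoodResolution (PU 𝒰 p U) good X` for any `good` containing the coinduced objects;
* (b1) `resSubTrivIso`: `Res_U X ≅ trivSm (X.obj.V)` (trivial action);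
* (b2) `trivSm_induction`: a property of smooth modules which is invariant under isomorphism, holds
  for zero objects and for `trivSm (ZMod p)`, and passes to "sums" `pA ≫ iA + pB ≫ iB = 𝟙`, holds for
  `trivSm V` for every finite abelian group `V` killed by `p`.
-/
import Fermat.Agent.CFT.Sm.Devissage_helper9
import Fermat.Agent.CFT.Sm.ClassFormation_helper9

set_option autoImplicit false
set_option linter.unusedSectionVars false
set_option linter.style.haveILetI false

open CategoryTheory CategoryTheory.Limits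

namespace Fermat.Agent.CFT.Sm

variable {Γ : Type} [Group Γ] (𝒰 : OpenBasis Γ) (p : ℕ)

/-- The class of finite smooth modules killed by `p` with trivial action of `U`. -/
def PU (U : Subgroup Γ) (X : SmRep ℤ 𝒰) : Prop :=
  Finite X.obj.V ∧ (∀ x : X.obj.V, p • x = 0) ∧ ∀ u ∈ U, ∀ x : X.obj.V, X.obj.ρ u x = x

variable {𝒰 p}

section Coind

variable (U : Subgroup Γ) (X : SmRep ℤ 𝒰)

/-- `coInd_U^Γ Res_U X` as a smooth representation of `Γ`. -/
noncomputable abbrev coindRes : SmRep ℤ 𝒰 :=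
  (coindSm ℤ 𝒰 (𝒰.sub U) U.subtype).obj (resSub X U)

/-- The unit `X ⟶ coInd_U^Γ Res_U X`, `a ↦ (g ↦ g a)`. -/
noncomputable abbrev coindResUnit : X ⟶ coindRes U X :=
  (resCoindSmAdjunction ℤ U.subtype (OpenBasis.Finer.refl (𝒰.sub U))).unit.app X

lemma coindResUnit_injective : Function.Injective (coindResUnit U X).hom.hom := by
  intro a b h
  have h1 : coindSmFun U.subtype ((coindResUnit U X).hom.hom a) 1 =
      coindSmFun U.subtype ((coindResUnit U X).hom.hom b) 1 := by rw [h]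
  rw [resCoindSm_unit_apply, resCoindSm_unit_apply, map_one] at h1
  exact h1

variable {U X}

/-- if `U` is normal and acts trivially on `X`, the elements of `coInd_U^Γ Res_U X` are right
`U`-invariant functions. -/
lemma coindSmFun_mul_of_trivial [hN : U.Normal] (hX : ∀ u ∈ U, ∀ x : X.obj.V, X.obj.ρ u x = x)
    (f : (coindRes U X).obj.V) (g u : Γ) (hu : u ∈ U) :
    coindSmFun U.subtype f (g * u) = coindSmFun U.subtype f g := by
  have hconj : g * u * g⁻¹ ∈ U := hN.conj_mem u hu g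
  have h1 : g * u = U.subtype ⟨g * u * g⁻¹, hconj⟩ * g := by
    change g * u = g * u * g⁻¹ * g
    group
  rw [h1, coindSmFun_equivariant]
  exact hX _ hconj _

/-- `U` acts trivially on `coInd_U^Γ Res_U X`. -/
lemma coindRes_trivial [hN : U.Normal] (hX : ∀ u ∈ U, ∀ x : X.obj.V, X.obj.ρ u x = x)
    (u : Γ) (hu : u ∈ U) (f : (coindRes U X).obj.V) : (coindRes U X).obj.ρ u f = f := by
  apply coindSmFun_injective
  funext g
  rw [coindSmFun_action]
  exact coindSmFun_mul_of_trivial hX f g u hu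

lemma coindRes_nsmul_eq_zero (n : ℕ) (hX : ∀ x : X.obj.V, n • x = 0) (f : (coindRes U X).obj.V) :
    n • f = 0 := by
  apply coindSmFun_injective
  funext g
  change n • coindSmFun U.subtype f g = 0
  exact hX _

lemma coindRes_finite [hN : U.Normal] [hfi : U.FiniteIndex] [Finite X.obj.V]
    (hX : ∀ u ∈ U, ∀ x : X.obj.V, X.obj.ρ u x = x) : Finite (coindRes U X).obj.V := by
  haveI : Finite (Γ ⧸ U) := Subgroup.finite_quotient_of_finiteIndex
  haveI : Finite (resSub X U).obj.V := inferInstanceAs (Finite X.obj.V)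
  refine Finite.of_injective
    (fun (f : (coindRes U X).obj.V) (q : Γ ⧸ U) => coindSmFun U.subtype f q.out) ?_
  intro f f' h
  apply coindSmFun_injective
  funext g
  have h1 : (((g : Γ ⧸ U).out : Γ) : Γ ⧸ U) = (g : Γ ⧸ U) := QuotientGroup.out_eq' _
  have h2 : ((g : Γ ⧸ U).out)⁻¹ * g ∈ U := QuotientGroup.eq.1 h1
  have h3 : g = (g : Γ ⧸ U).out * (((g : Γ ⧸ U).out)⁻¹ * g) := by group
  rw [h3, coindSmFun_mul_of_trivial hX f _ _ h2, coindSmFun_mul_of_trivial hX f' _ _ h2]
  exact congrFun h (g : Γ ⧸ U)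

end Coind

section Resolution

variable {U : Subgroup Γ}

/-- the class `PU` is stable under quotients. -/
lemma PU.of_surjective {X Y : SmRep ℤ 𝒰} (hX : PU 𝒰 p U X) (π : X ⟶ Y)
    (hπ : Function.Surjective π.hom.hom) : PU 𝒰 p U Y := by
  obtain ⟨hfin, hp, htriv⟩ := hX
  refine ⟨Finite.of_surjective _ hπ, fun y => ?_, fun u hu y => ?_⟩
  · obtain ⟨x, rfl⟩ := hπ y
    rw [← map_nsmul, hp, map_zero]
  · obtain ⟨x, rfl⟩ := hπ y
    rw [← Rep.hom_comm_apply, htriv u hu]

/-- the coinduced module is again in the class. -/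
lemma PU.coindRes (hU : U ∈ 𝒰.sets) {X : SmRep ℤ 𝒰} (hX : PU 𝒰 p U X) :
    PU 𝒰 p U (coindRes U X) := by
  haveI := 𝒰.normal U hU
  haveI := 𝒰.finiteIndex U hU
  obtain ⟨hfin, hp, htriv⟩ := hX
  exact ⟨coindRes_finite htriv, coindRes_nsmul_eq_zero p hp,
    fun u hu f => coindRes_trivial htriv u hu f⟩

/-- **(E-GR)(a)**: every `X` in the class `PU` has a good resolution
`0 → X → coInd_U^Γ Res_U X → N → 0` with `N` again in the class. -/
theorem hasGoodResolution_PU (hU : U ∈ 𝒰.sets) (good : SmRep ℤ 𝒰 → Prop)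
    (hgood : ∀ X : SmRep ℤ 𝒰, PU 𝒰 p U X → good (coindRes U X))
    (X : SmRep ℤ 𝒰) (hX : PU 𝒰 p U X) : HasGoodResolution (PU 𝒰 p U) good X := by
  haveI : Mono (coindResUnit U X) := (mono_iff_injective _).2 (coindResUnit_injective U X)
  let S : ShortComplex (SmRep ℤ 𝒰) :=
    ShortComplex.mk (coindResUnit U X) (cokernel.π (coindResUnit U X))
      (cokernel.condition (coindResUnit U X))
  have hS : S.ShortExact :=
    { exact := ShortComplex.exact_cokernel (coindResUnit U X)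
      mono_f := inferInstanceAs (Mono (coindResUnit U X))
      epi_g := inferInstanceAs (Epi (cokernel.π (coindResUnit U X))) }
  refine ⟨S, hS, rfl, hgood X hX, ?_⟩
  exact (PU.coindRes hU hX).of_surjective (cokernel.π (coindResUnit U X))
    ((epi_iff_surjective _).1 inferInstance)

end Resolution

section Trivial

variable {Γ' : Type} [Group Γ'] {𝒰' : OpenBasis Γ'}

/-- an additive map is linear for any two `ℤ`-module structures. -/
def intLinearMapOfAddHom {M N : Type*} [AddCommGroup M] [AddCommGroup N] (m : Module ℤ M)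
    (n : Module ℤ N) (f : M →+ N) : @LinearMap ℤ ℤ _ _ (RingHom.id ℤ) M N _ _ m n :=
  @LinearMap.mk ℤ ℤ _ _ (RingHom.id ℤ) M N _ _ m n ⟨f, f.map_add⟩ (fun c x => by
    change f (@SMul.smul ℤ M m.toSMul c x) = @SMul.smul ℤ N n.toSMul c (f x)
    rw [int_smul_eq_zsmul m, int_smul_eq_zsmul n, map_zsmul])

/-- a morphism of smooth `ℤ`-representations from an equivariant additive map (robust against the
two `ℤ`-module structures on the carriers). -/
noncomputable def smRepHomOfAddHom {A B : SmRep ℤ 𝒰'} (f : A.obj.V →+ B.obj.V)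
    (hf : ∀ g a, f (A.obj.ρ g a) = B.obj.ρ g (f a)) : A ⟶ B :=
  ObjectProperty.homMk (ConcreteCategory.ofHom (C := Rep.{0} ℤ Γ') (X := A.obj) (Y := B.obj)
    (@Representation.IntertwiningMap.mk ℤ Γ' A.obj.V B.obj.V _ _ _ _ A.obj.hV2 B.obj.hV2
      A.obj.ρ B.obj.ρ (intLinearMapOfAddHom A.obj.hV2 B.obj.hV2 f)
      (fun g => DFunLike.ext _ _ (fun a => hf g a))))

lemma smRepHomOfAddHom_apply {A B : SmRep ℤ 𝒰'} (f : A.obj.V →+ B.obj.V)
    (hf : ∀ g a, f (A.obj.ρ g a) = B.obj.ρ g (f a)) (a : A.obj.V) :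
    (smRepHomOfAddHom f hf).hom.hom a = f a := rfl

/-- a smooth representation with trivial action is the trivial representation on its underlying
group. -/
noncomputable def trivIsoOfTrivial (Y : SmRep ℤ 𝒰')
    (hY : ∀ (g : Γ') (y : Y.obj.V), Y.obj.ρ g y = y) : Y ≅ trivSm ℤ 𝒰' Y.obj.V where
  hom := smRepHomOfAddHom (A := Y) (B := trivSm ℤ 𝒰' Y.obj.V) (AddMonoidHom.id Y.obj.V)
    (fun g a => hY g a)
  inv := smRepHomOfAddHom (A := trivSm ℤ 𝒰' Y.obj.V) (B := Y) (AddMonoidHom.id Y.obj.V)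
    (fun g a => (hY g a).symm)
  hom_inv_id := by
    apply ObjectProperty.hom_ext
    rfl
  inv_hom_id := by
    apply ObjectProperty.hom_ext
    rfl

lemma trivIsoOfTrivial_hom_apply (Y : SmRep ℤ 𝒰')
    (hY : ∀ (g : Γ') (y : Y.obj.V), Y.obj.ρ g y = y) (y : Y.obj.V) :
    (trivIsoOfTrivial Y hY).hom.hom.hom y = y := rfl

/-- **(E-GR)(b1)**: if `U` acts trivially on `X`, then `Res_U X` is the trivial representation on
the underlying group of `X`. -/
noncomputable def resSubTrivIso (U : Subgroup Γ) (X : SmRep ℤ 𝒰)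
    (hX : ∀ u ∈ U, ∀ x : X.obj.V, X.obj.ρ u x = x) :
    resSub X U ≅ trivSm ℤ (𝒰.sub U) X.obj.V :=
  trivIsoOfTrivial (resSub X U) (fun u x => hX u u.2 x)

lemma resSubTrivIso_hom_apply (U : Subgroup Γ) (X : SmRep ℤ 𝒰)
    (hX : ∀ u ∈ U, ∀ x : X.obj.V, X.obj.ρ u x = x) (x : X.obj.V) :
    (resSubTrivIso U X hX).hom.hom.hom x = x := rfl

lemma trivSmMap_comp {M N P : Type} [AddCommGroup M] [AddCommGroup N] [AddCommGroup P]
    (f : M →ₗ[ℤ] N) (g : N →ₗ[ℤ] P) :
    trivSmMap (𝒰 := 𝒰') f ≫ trivSmMap g = trivSmMap (g ∘ₗ f) := rfl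

lemma trivSmMap_id {M : Type} [AddCommGroup M] :
    trivSmMap (𝒰 := 𝒰') (LinearMap.id : M →ₗ[ℤ] M) = 𝟙 _ := rfl

lemma trivSmMap_add {M N : Type} [AddCommGroup M] [AddCommGroup N] (f g : M →ₗ[ℤ] N) :
    trivSmMap (𝒰 := 𝒰') (f + g) = trivSmMap f + trivSmMap g := by
  apply ObjectProperty.hom_ext
  rfl

/-- a linear equivalence induces an isomorphism of trivial representations. -/
noncomputable def trivSmIso {M N : Type} [AddCommGroup M] [AddCommGroup N] (e : M ≃ₗ[ℤ] N) :
    trivSm ℤ 𝒰' M ≅ trivSm ℤ 𝒰' N where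
  hom := trivSmMap e.toLinearMap
  inv := trivSmMap e.symm.toLinearMap
  hom_inv_id := by
    rw [trivSmMap_comp, ← trivSmMap_id]
    congr 1
    exact LinearMap.ext fun x => e.symm_apply_apply x
  inv_hom_id := by
    rw [trivSmMap_comp, ← trivSmMap_id]
    congr 1
    exact LinearMap.ext fun x => e.apply_symm_apply x

/-- the trivial representation on a product is a "sum". -/
lemma trivSm_prod_sum (M N : Type) [AddCommGroup M] [AddCommGroup N] :
    trivSmMap (𝒰 := 𝒰') (LinearMap.fst ℤ M N) ≫ trivSmMap (LinearMap.inl ℤ M N) +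
      trivSmMap (LinearMap.snd ℤ M N) ≫ trivSmMap (LinearMap.inr ℤ M N) =
      𝟙 (trivSm ℤ 𝒰' (M × N)) := by
  rw [trivSmMap_comp, trivSmMap_comp, ← trivSmMap_add, ← trivSmMap_id]
  congr 1
  exact LinearMap.ext fun x => by simp

/-- **(E-GR)(b2)**: induction principle for the trivial representations on finite abelian groups
killed by `p`. -/
theorem trivSm_induction (p : ℕ) [hp : Fact p.Prime] (Q : SmRep ℤ 𝒰' → Prop)
    (hiso : ∀ X Y : SmRep ℤ 𝒰', (X ≅ Y) → Q X → Q Y)
    (hzero : ∀ X : SmRep ℤ 𝒰', Subsingleton X.obj.V → Q X)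
    (hsum : ∀ {A B X : SmRep ℤ 𝒰'} (iA : A ⟶ X) (iB : B ⟶ X) (pA : X ⟶ A) (pB : X ⟶ B),
      pA ≫ iA + pB ≫ iB = 𝟙 X → Q A → Q B → Q X)
    (hbase : Q (trivSm ℤ 𝒰' (ZMod p)))
    (V : Type) [AddCommGroup V] [Finite V] (hV : ∀ v : V, p • v = 0) :
    Q (trivSm ℤ 𝒰' V) := by
  -- the case of `(ZMod p)^n`
  have hn : ∀ n : ℕ, Q (trivSm ℤ 𝒰' (Fin n → ZMod p)) := by
    intro n
    induction n with
    | zero => exact hzero _ (inferInstanceAs (Subsingleton (Fin 0 → ZMod p)))
    | succ n ih =>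
      have h1 : Q (trivSm ℤ 𝒰' (ZMod p × (Fin n → ZMod p))) :=
        hsum _ _ _ _ (trivSm_prod_sum (ZMod p) (Fin n → ZMod p)) hbase ih
      refine hiso _ _ (trivSmIso ?_) h1
      exact Fin.consLinearEquiv ℤ (fun _ : Fin (n + 1) => ZMod p)
  -- the general case
  haveI : Module (ZMod p) V := AddCommGroup.zmodModule hV
  haveI : Module.Finite (ZMod p) V := Module.Finite.of_finite
  have e := (Module.finBasis (ZMod p) V).equivFun
  exact hiso _ _ (trivSmIso e.toAddEquiv.toIntLinearEquiv).symm (hn _)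

/-- **(E-GR)(b2), helper9's shape**: induction principle for finite smooth modules killed by `p`
with trivial action. -/
theorem trivial_induction (p : ℕ) [hp : Fact p.Prime] (P : SmRep ℤ 𝒰' → Prop)
    (hiso : ∀ A B : SmRep ℤ 𝒰', (A ≅ B) → P A → P B)
    (hsum : ∀ (A B Z : SmRep ℤ 𝒰') (iA : A ⟶ Z) (iB : B ⟶ Z) (pA : Z ⟶ A) (pB : Z ⟶ B),
      iA ≫ pA = 𝟙 A → iB ≫ pB = 𝟙 B → pA ≫ iA + pB ≫ iB = 𝟙 Z → P A → P B → P Z)
    (h0 : P (trivSm ℤ 𝒰' PUnit)) (hbase : P (trivSm ℤ 𝒰' (ZMod p)))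
    (Y : SmRep ℤ 𝒰') (hfin : Finite Y.obj.V) (htor : ∀ y : Y.obj.V, p • y = 0)
    (htriv : ∀ (g : Γ') (y : Y.obj.V), Y.obj.ρ g y = y) : P Y := by
  have hn : ∀ n : ℕ, P (trivSm ℤ 𝒰' (Fin n → ZMod p)) := by
    intro n
    induction n with
    | zero =>
      refine hiso _ _ (trivSmIso ?_) h0
      exact
        { toFun := fun _ => 0
          map_add' := fun _ _ => (add_zero _).symm
          map_smul' := fun _ _ => (smul_zero _).symm
          invFun := fun _ => PUnit.unit
          left_inv := fun _ => rfl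
          right_inv := fun _ => Subsingleton.elim _ _ }
    | succ n ih =>
      have h1 : P (trivSm ℤ 𝒰' (ZMod p × (Fin n → ZMod p))) :=
        hsum _ _ _ (trivSmMap (LinearMap.inl ℤ _ _)) (trivSmMap (LinearMap.inr ℤ _ _))
          (trivSmMap (LinearMap.fst ℤ _ _)) (trivSmMap (LinearMap.snd ℤ _ _))
          (by rw [trivSmMap_comp, ← trivSmMap_id]; congr 1)
          (by rw [trivSmMap_comp, ← trivSmMap_id]; congr 1)
          (trivSm_prod_sum (ZMod p) (Fin n → ZMod p)) hbase ih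
      refine hiso _ _ (trivSmIso ?_) h1
      exact Fin.consLinearEquiv ℤ (fun _ : Fin (n + 1) => ZMod p)
  haveI : Module (ZMod p) Y.obj.V := AddCommGroup.zmodModule htor
  haveI : Module.Finite (ZMod p) Y.obj.V := Module.Finite.of_finite
  have e := (Module.finBasis (ZMod p) Y.obj.V).equivFun
  exact hiso _ _ ((trivIsoOfTrivial Y htriv).trans
    (trivSmIso e.toAddEquiv.toIntLinearEquiv)).symm (hn _)

end Trivial

end Fermat.Agent.CFT.Sm
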