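/-
S55 / CFT (P0.6) — helper9.  Pure category theory (Mathlib only).
* `mapExactFunctor_comp_extClass` + three diagram chases; for an exact functor `F` with a right
  adjoint `G` (NOT necessarily exact): `extAdjInv_one_injective`, and, if `0 → A → Q → B → 0` with
  `Q` injective stays exact under `G` ("`R¹G(A) = 0`"): `extAdjInv_one_bijective_of_epi`,
  `extAdjInv_two_injective_of_epi` (inflation-type statements for `Ext`).
* For `R` with a simultaneous left and right adjoint `I` (restriction / induction for a subgroup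
  of finite index): `extCores`, Shapiro is compatible with Yoneda products
  (`extAdjTo_comp_extAdjInv`), `cores ∘ res = index` (`extCores_mapExactFunctor`), transfer of
  the duality pairing (`yPair_extAdj`, `yPair_injective_of_adj`, `yPair_surjective_of_adj`,
  `ext_eq_zero_of_adj`).
* `yPair_congr_of_torsion`, invariance under isomorphisms.
-/
import Fermat.Agent.CFT.Sm.ExtAdj_helper9
import Fermat.Agent.CFT.Sm.Devissage_helper9

set_option autoImplicit false

universe w w' v v' u u'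

open CategoryTheory CategoryTheory.Limits CategoryTheory.Abelian

namespace Fermat.Agent.CFT.Sm

section MapNat

variable {C : Type u} [Category.{v} C] [Abelian C] [HasExt.{w} C]
  {D : Type u'} [Category.{v'} D] [Abelian D] [HasExt.{w'} D]
  (F : C ⥤ D) [F.Additive] [PreservesFiniteLimits F] [PreservesFiniteColimits F]

/-- Compatibility of `Ext.mapExactFunctor` with connecting maps along a morphism of short exact
sequences `F(S) ⟶ S'`. -/
lemma mapExactFunctor_comp_extClass {S : ShortComplex C} (hS : S.ShortExact)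
    {S' : ShortComplex D} (hS' : S'.ShortExact) (φ : S.map F ⟶ S') {X : C} {n : ℕ}
    (e : Ext.{w} X S.X₃ n) :
    ((e.comp hS.extClass rfl).mapExactFunctor F).comp (Ext.mk₀ φ.τ₁) (add_zero (n + 1)) =
      ((e.mapExactFunctor F).comp (Ext.mk₀ φ.τ₃) (add_zero n)).comp hS'.extClass rfl := by
  have h : (hS.map_of_exact F).extClass.comp (Ext.mk₀ φ.τ₁) (add_zero 1) =
      (Ext.mk₀ φ.τ₃).comp hS'.extClass (zero_add 1) :=
    ShortComplex.ShortExact.extClass_naturality (hS.map_of_exact F) hS' φ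
  have h1 : (e.comp hS.extClass rfl).mapExactFunctor F =
      (e.mapExactFunctor F).comp (hS.map_of_exact F).extClass rfl :=
    (Ext.mapExactFunctor_comp F e hS.extClass rfl).trans
      (congrArg (fun t => (e.mapExactFunctor F).comp t (show n + 1 = n + 1 from rfl))
        (Ext.mapExactFunctor_extClass F hS))
  refine (congrArg (fun t => t.comp (Ext.mk₀ φ.τ₁) (add_zero (n + 1))) h1).trans ?_
  refine (Ext.comp_assoc_of_third_deg_zero (e.mapExactFunctor F) (hS.map_of_exact F).extClass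
    (Ext.mk₀ φ.τ₁) rfl).trans ?_
  refine (congrArg (fun t => (e.mapExactFunctor F).comp t (show n + 1 = n + 1 from rfl)) h).trans ?_
  exact (Ext.comp_assoc_of_second_deg_zero _ _ _ _).symm


variable {S : ShortComplex C} (hS : S.ShortExact) {S' : ShortComplex D} (hS' : S'.ShortExact)
  (φ : S.map F ⟶ S') (X : C)

include hS hS' in
/-- Chase 1: injectivity in degree `1` of `x ↦ F(x) ≫ φ.τ₁`. -/
lemma mapExactFunctor_comp_one_injective
    (h2 : ∀ y : Ext.{w} X S.X₂ 1, y = 0)
    (H : ∀ (k : X ⟶ S.X₃) (q : F.obj X ⟶ S'.X₂), F.map k ≫ φ.τ₃ = q ≫ S'.g →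
      ∃ q' : X ⟶ S.X₂, q' ≫ S.g = k)
    (x : Ext.{w} X S.X₁ 1)
    (hx : (x.mapExactFunctor F).comp (Ext.mk₀ φ.τ₁) (add_zero 1) = 0) : x = 0 := by
  obtain ⟨k, rfl⟩ := Ext.covariant_sequence_exact₁ X hS x (h2 _) (zero_add 1)
  obtain ⟨k₀, rfl⟩ := (Ext.mk₀_bijective X S.X₃).2 k
  have h1 := mapExactFunctor_comp_extClass F hS hS' φ (Ext.mk₀ k₀)
  rw [hx] at h1
  obtain ⟨q, hq⟩ := Ext.covariant_sequence_exact₃ (F.obj X) hS' _ (zero_add 1) h1.symm
  obtain ⟨q₀, rfl⟩ := (Ext.mk₀_bijective _ _).2 q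
  rw [Ext.mapExactFunctor_mk₀, Ext.mk₀_comp_mk₀, Ext.mk₀_comp_mk₀] at hq
  obtain ⟨q', rfl⟩ := H k₀ q₀ ((Ext.mk₀_bijective _ _).1 hq).symm
  rw [← Ext.mk₀_comp_mk₀, Ext.comp_assoc_of_second_deg_zero, hS.comp_extClass, Ext.comp_zero]

include hS hS' in
/-- Chase 2: surjectivity in degree `1` of `x ↦ F(x) ≫ φ.τ₁`. -/
lemma mapExactFunctor_comp_one_surjective
    (h2 : ∀ y : Ext.{w'} (F.obj X) S'.X₂ 1, y = 0)
    (H : ∀ b : F.obj X ⟶ S'.X₃, ∃ k : X ⟶ S.X₃, F.map k ≫ φ.τ₃ = b)
    (y : Ext.{w'} (F.obj X) S'.X₁ 1) :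
    ∃ x : Ext.{w} X S.X₁ 1, (x.mapExactFunctor F).comp (Ext.mk₀ φ.τ₁) (add_zero 1) = y := by
  obtain ⟨b, rfl⟩ := Ext.covariant_sequence_exact₁ (F.obj X) hS' y (h2 _) (zero_add 1)
  obtain ⟨b₀, rfl⟩ := (Ext.mk₀_bijective _ _).2 b
  obtain ⟨k, rfl⟩ := H b₀
  refine ⟨(Ext.mk₀ k).comp hS.extClass (zero_add 1), ?_⟩
  rw [mapExactFunctor_comp_extClass F hS hS' φ (Ext.mk₀ k), Ext.mapExactFunctor_mk₀,
    Ext.mk₀_comp_mk₀]

include hS hS' in
/-- Chase 3: injectivity in degree `2` of `x ↦ F(x) ≫ φ.τ₁`. -/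
lemma mapExactFunctor_comp_two_injective
    (h2 : ∀ y : Ext.{w} X S.X₂ 2, y = 0) (h2' : ∀ y : Ext.{w'} (F.obj X) S'.X₂ 1, y = 0)
    (H : ∀ y : Ext.{w} X S.X₃ 1, (y.mapExactFunctor F).comp (Ext.mk₀ φ.τ₃) (add_zero 1) = 0 →
      y = 0)
    (x : Ext.{w} X S.X₁ 2)
    (hx : (x.mapExactFunctor F).comp (Ext.mk₀ φ.τ₁) (add_zero 2) = 0) : x = 0 := by
  obtain ⟨y, rfl⟩ := Ext.covariant_sequence_exact₁ X hS x (h2 _) (show 1 + 1 = 2 from rfl)
  have h1 := mapExactFunctor_comp_extClass F hS hS' φ y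
  rw [hx] at h1
  obtain ⟨z, hz⟩ := Ext.covariant_sequence_exact₃ (F.obj X) hS' _ (show 1 + 1 = 2 from rfl)
    h1.symm
  rw [h2' z, Ext.zero_comp] at hz
  rw [H y hz.symm, Ext.zero_comp]

end MapNat

section Inv

variable {C : Type u} [Category.{v} C] [Abelian C] [HasExt.{w} C]
  {D : Type u'} [Category.{v'} D] [Abelian D] [HasExt.{w'} D]
  {F : C ⥤ D} {G : D ⥤ C} (adj : F ⊣ G)
  [F.Additive] [PreservesFiniteLimits F] [PreservesFiniteColimits F]

lemma extAdjInv_apply' (X : C) (Y : D) (n : ℕ) (e : Ext.{w} X (G.obj Y) n) :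
    extAdjInv adj X Y n e = (e.mapExactFunctor F).comp (Ext.mk₀ (adj.counit.app Y)) (add_zero n) :=
  rfl

lemma extAdjInv_mk₀ {X : C} {Y : D} (f : X ⟶ G.obj Y) :
    extAdjInv adj X Y 0 (Ext.mk₀ f) = Ext.mk₀ ((adj.homEquiv X Y).symm f) := by
  rw [extAdjInv_apply', Ext.mapExactFunctor_mk₀, Ext.mk₀_comp_mk₀, Adjunction.homEquiv_counit]

lemma extAdjInv_zero_bijective (X : C) (Y : D) : Function.Bijective (extAdjInv adj X Y 0) := by
  have h : (extAdjInv adj X Y 0 : Ext.{w} X (G.obj Y) 0 → Ext.{w'} (F.obj X) Y 0) =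
      (Ext.addEquiv₀.symm ∘ (adj.homEquiv X Y).symm) ∘ Ext.addEquiv₀ := by
    funext e
    obtain ⟨f, rfl⟩ := (Ext.mk₀_bijective X (G.obj Y)).2 e
    rw [extAdjInv_mk₀]
    have h2 : Ext.addEquiv₀ (Ext.mk₀ f) = f := Ext.addEquiv₀.apply_symm_apply f
    change _ = Ext.mk₀ ((adj.homEquiv X Y).symm (Ext.addEquiv₀ (Ext.mk₀ f)))
    rw [h2]
  rw [h]
  exact (Ext.addEquiv₀.symm.bijective.comp (adj.homEquiv X Y).symm.bijective).comp
    Ext.addEquiv₀.bijective

/-- naturality of `extAdjInv` in the second variable -/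
lemma extAdjInv_comp_mk₀ {X : C} {Y Y' : D} {n : ℕ} (e : Ext.{w} X (G.obj Y) n) (f : Y ⟶ Y') :
    extAdjInv adj X Y' n (e.comp (Ext.mk₀ (G.map f)) (add_zero n)) =
      (extAdjInv adj X Y n e).comp (Ext.mk₀ f) (add_zero n) := by
  rw [extAdjInv_apply', extAdjInv_apply', Ext.mapExactFunctor_comp, Ext.mapExactFunctor_mk₀,
    Ext.comp_assoc_of_third_deg_zero, Ext.comp_assoc_of_third_deg_zero, Ext.mk₀_comp_mk₀,
    Ext.mk₀_comp_mk₀]
  congr 2
  exact adj.counit_naturality f

/-- naturality of `extAdjInv` in the first variable -/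
lemma extAdjInv_mk₀_comp {X X' : C} {Y : D} {n : ℕ} (g : X' ⟶ X) (e : Ext.{w} X (G.obj Y) n) :
    extAdjInv adj X' Y n ((Ext.mk₀ g).comp e (zero_add n)) =
      (Ext.mk₀ (F.map g)).comp (extAdjInv adj X Y n e) (zero_add n) := by
  rw [extAdjInv_apply', extAdjInv_apply', Ext.mapExactFunctor_comp, Ext.mapExactFunctor_mk₀]
  apply Ext.comp_assoc
  lia


section General

variable [G.Additive] [PreservesFiniteLimits G] [EnoughInjectives D]

/-- For an exact functor `F` with a right adjoint `G` (not necessarily exact), the map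
`Ext¹(X, G Y) → Ext¹(F X, Y)` is injective. -/
theorem extAdjInv_one_injective (X : C) (Y : D) : Function.Injective (extAdjInv adj X Y 1) := by
  rw [injective_iff_map_eq_zero]
  intro x hx
  let ι := Injective.ι Y
  let S' : ShortComplex D := ShortComplex.mk ι (cokernel.π ι) (cokernel.condition ι)
  have hS' : S'.ShortExact :=
    { exact := ShortComplex.exact_cokernel ι
      mono_f := inferInstanceAs (Mono ι)
      epi_g := inferInstanceAs (Epi (cokernel.π ι)) }
  let m := G.map ι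
  let S : ShortComplex C := ShortComplex.mk m (cokernel.π m) (cokernel.condition m)
  have hS : S.ShortExact :=
    { exact := ShortComplex.exact_cokernel m
      mono_f := inferInstanceAs (Mono (G.map ι))
      epi_g := inferInstanceAs (Epi (cokernel.π m)) }
  have hex : (S'.map G).Exact :=
    ((Functor.preservesFiniteLimits_iff_forall_exact_map_and_mono G).1 inferInstance S' hS').1
  have hw : m ≫ G.map (cokernel.π ι) = 0 := by
    rw [← G.map_comp, cokernel.condition, G.map_zero]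
  let desc : cokernel m ⟶ G.obj (cokernel ι) := cokernel.desc m (G.map (cokernel.π ι)) hw
  have hdesc : Mono desc := hex.mono_cokernelDesc
  let φ : S.map F ⟶ S' :=
    { τ₁ := adj.counit.app Y
      τ₂ := adj.counit.app (Injective.under Y)
      τ₃ := F.map desc ≫ adj.counit.app (cokernel ι)
      comm₁₂ := (adj.counit_naturality ι).symm
      comm₂₃ := by
        change adj.counit.app (Injective.under Y) ≫ cokernel.π ι =
          F.map (cokernel.π m) ≫ F.map desc ≫ adj.counit.app (cokernel ι)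
        rw [← F.map_comp_assoc, cokernel.π_desc]
        exact (adj.counit_naturality (cokernel.π ι)).symm }
  have : Injective (G.obj (Injective.under Y)) := Injective.injective_of_adjoint adj _
  refine mapExactFunctor_comp_one_injective F hS hS' φ X
    (fun y => Ext.eq_zero_of_injective (I := G.obj (Injective.under Y)) y) ?_ x hx
  intro k q hkq
  refine ⟨adj.homEquiv X _ q, ?_⟩
  rw [← cancel_mono desc]
  apply (adj.homEquiv X (cokernel ι)).symm.injective
  change (adj.homEquiv X (cokernel ι)).symm ((adj.homEquiv X _ q ≫ cokernel.π m) ≫ desc) =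
    (adj.homEquiv X (cokernel ι)).symm (k ≫ desc)
  rw [Category.assoc, cokernel.π_desc, Adjunction.homEquiv_naturality_right_symm,
    Equiv.symm_apply_apply, Adjunction.homEquiv_counit, F.map_comp, Category.assoc]
  exact hkq.symm


section Acyclic

variable {S' : ShortComplex D} (hS' : S'.ShortExact) [Injective S'.X₂] [Epi (G.map S'.g)]

omit [HasExt.{w} C] [HasExt.{w'} D] [EnoughInjectives D] [Injective S'.X₂] in
include hS' in
lemma map_rightAdjoint_shortExact : (S'.map G).ShortExact :=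
  have h := (Functor.preservesFiniteLimits_iff_forall_exact_map_and_mono G).1 inferInstance S' hS'
  { exact := h.1
    mono_f := h.2
    epi_g := inferInstanceAs (Epi (G.map S'.g)) }

/-- the counit as a morphism of short complexes `F G S' ⟶ S'` -/
def counitShortComplex (S' : ShortComplex D) : (S'.map G).map F ⟶ S' where
  τ₁ := adj.counit.app S'.X₁
  τ₂ := adj.counit.app S'.X₂
  τ₃ := adj.counit.app S'.X₃
  comm₁₂ := (adj.counit_naturality S'.f).symm
  comm₂₃ := (adj.counit_naturality S'.g).symm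

include hS' in
/-- If `0 → A → Q → B → 0` is short exact with `Q` injective and `G Q → G B` is epi
("`R¹G(A) = 0`"), then `Ext¹(X, G A) → Ext¹(F X, A)` is bijective. -/
theorem extAdjInv_one_bijective_of_epi (X : C) :
    Function.Bijective (extAdjInv adj X S'.X₁ 1) := by
  refine ⟨extAdjInv_one_injective adj X S'.X₁, ?_⟩
  intro y
  exact mapExactFunctor_comp_one_surjective F (map_rightAdjoint_shortExact hS') hS'
    (counitShortComplex adj S') X (fun y => Ext.eq_zero_of_injective (I := S'.X₂) y)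
    (fun b => ⟨adj.homEquiv X S'.X₃ b, by
      change F.map (adj.homEquiv X S'.X₃ b) ≫ adj.counit.app S'.X₃ = b
      exact (Adjunction.homEquiv_counit adj X S'.X₃ _).symm.trans
        ((adj.homEquiv X S'.X₃).symm_apply_apply b)⟩) y

include hS' in
/-- Under the same hypotheses, `Ext²(X, G A) → Ext²(F X, A)` is injective. -/
theorem extAdjInv_two_injective_of_epi (X : C) :
    Function.Injective (extAdjInv adj X S'.X₁ 2) := by
  rw [injective_iff_map_eq_zero]
  intro x hx
  have : Injective (G.obj S'.X₂) := Injective.injective_of_adjoint adj _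
  exact mapExactFunctor_comp_two_injective F (map_rightAdjoint_shortExact hS') hS'
    (counitShortComplex adj S') X
    (fun y => Ext.eq_zero_of_injective (I := G.obj S'.X₂) y)
    (fun y => Ext.eq_zero_of_injective (I := S'.X₂) y)
    (fun y hy => (injective_iff_map_eq_zero (extAdjInv adj X S'.X₃ 1)).1
      (extAdjInv_one_injective adj X S'.X₃) y hy) x hx

end Acyclic

end General

end Inv

section Cores

variable {C : Type u} [Category.{v} C] [Abelian C] [HasExt.{w} C]
  {D : Type u'} [Category.{v'} D] [Abelian D] [HasExt.{w'} D]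
  {R : C ⥤ D} {I : D ⥤ C} (adj : R ⊣ I) (adj' : I ⊣ R)
  [R.Additive] [PreservesFiniteLimits R] [PreservesFiniteColimits R]
  [I.Additive] [PreservesFiniteLimits I] [PreservesFiniteColimits I]

/-- Corestriction `Extⁿ(R X, R Y) → Extⁿ(X, Y)`, `z ↦ η_X ≫ I(z) ≫ ε'_Y`, for a functor `R` with
a simultaneous left and right adjoint `I`. -/
noncomputable def extCores (X Y : C) (n : ℕ) :
    Ext.{w'} (R.obj X) (R.obj Y) n →+ Ext.{w} X Y n :=
  ((Ext.mk₀ (adj'.counit.app Y)).postcomp X (add_zero n)).comp (extAdjTo adj X (R.obj Y) n)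

omit [R.Additive] [PreservesFiniteLimits R] [PreservesFiniteColimits R] in
lemma extCores_apply (X Y : C) (n : ℕ) (z : Ext.{w'} (R.obj X) (R.obj Y) n) :
    extCores adj adj' X Y n z =
      ((Ext.mk₀ (adj.unit.app X)).comp (z.mapExactFunctor I) (zero_add n)).comp
        (Ext.mk₀ (adj'.counit.app Y)) (add_zero n) := rfl

omit [R.Additive] [PreservesFiniteLimits R] [PreservesFiniteColimits R] in
/-- Shapiro's lemma is compatible with Yoneda products. -/
lemma extAdjTo_comp_extAdjInv {X Y : C} {X' : D} {s r n : ℕ} (h : s + r = n)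
    (x' : Ext.{w'} (R.obj X) X' s) (e' : Ext.{w'} X' (R.obj Y) r) :
    (extAdjTo adj X X' s x').comp (extAdjInv adj' X' Y r e') h =
      extCores adj adj' X Y n (x'.comp e' h) := by
  rw [extCores_apply, extAdjInv_apply', Ext.mapExactFunctor_comp]
  change ((Ext.mk₀ (adj.unit.app X)).comp (x'.mapExactFunctor I) (zero_add s)).comp
      ((e'.mapExactFunctor I).comp (Ext.mk₀ (adj'.counit.app Y)) (add_zero r)) h = _
  have h1 : ((Ext.mk₀ (adj.unit.app X)).comp (x'.mapExactFunctor I) (zero_add s)).comp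
      ((e'.mapExactFunctor I).comp (Ext.mk₀ (adj'.counit.app Y)) (add_zero r)) h =
      (Ext.mk₀ (adj.unit.app X)).comp ((x'.mapExactFunctor I).comp
        ((e'.mapExactFunctor I).comp (Ext.mk₀ (adj'.counit.app Y)) (add_zero r)) h)
        (zero_add n) := by
    apply Ext.comp_assoc
    lia
  have h2 : (x'.mapExactFunctor I).comp
      ((e'.mapExactFunctor I).comp (Ext.mk₀ (adj'.counit.app Y)) (add_zero r)) h =
      ((x'.mapExactFunctor I).comp (e'.mapExactFunctor I) h).comp
        (Ext.mk₀ (adj'.counit.app Y)) (add_zero n) := by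
    symm
    apply Ext.comp_assoc
    lia
  have h3 : (Ext.mk₀ (adj.unit.app X)).comp
      (((x'.mapExactFunctor I).comp (e'.mapExactFunctor I) h).comp
        (Ext.mk₀ (adj'.counit.app Y)) (add_zero n)) (zero_add n) =
      ((Ext.mk₀ (adj.unit.app X)).comp
        ((x'.mapExactFunctor I).comp (e'.mapExactFunctor I) h) (zero_add n)).comp
        (Ext.mk₀ (adj'.counit.app Y)) (add_zero n) := by
    symm
    apply Ext.comp_assoc
    lia
  rw [h1, h2, h3]

variable [EnoughInjectives C]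

/-- `cores ∘ res = m` if `η ≫ ε' = m`. -/
lemma extCores_mapExactFunctor (m : ℤ) (hm : ∀ X : C, adj.unit.app X ≫ adj'.counit.app X = m • 𝟙 X)
    {X Y : C} {n : ℕ} (z : Ext.{w} X Y n) :
    extCores adj adj' X Y n (z.mapExactFunctor R) = m • z := by
  rw [extCores_apply, mapExactFunctor_comp_functor R I z]
  have h1 := mapExactFunctor_naturality (R ⋙ I) (𝟭 C) adj'.counit z
  rw [mapExactFunctor_id] at h1
  have h2 : ((Ext.mk₀ (adj.unit.app X)).comp (z.mapExactFunctor (R ⋙ I)) (zero_add n)).comp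
      (Ext.mk₀ (adj'.counit.app Y)) (add_zero n) =
      (Ext.mk₀ (adj.unit.app X)).comp ((z.mapExactFunctor (R ⋙ I)).comp
        (Ext.mk₀ (adj'.counit.app Y)) (add_zero n)) (zero_add n) := by
    apply Ext.comp_assoc
    lia
  refine h2.trans ?_
  refine (congrArg (fun t => (Ext.mk₀ (adj.unit.app X)).comp t (zero_add n)) h1).trans ?_
  rw [Ext.mk₀_comp_mk₀_assoc]
  refine (congrArg (fun t => (Ext.mk₀ t).comp z (zero_add n)) (hm X)).trans ?_
  rw [mk₀_zsmul_comp]
  exact congrArg (fun t => m • t) (Ext.mk₀_id_comp z)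


section Pairing

variable [EnoughInjectives D] (U C₀ : C) (t : Ext.{w} U C₀ 2 →+ AddCircle (1 : ℚ))

omit [EnoughInjectives C] [EnoughInjectives D] [R.Additive] [PreservesFiniteLimits R]
  [PreservesFiniteColimits R] in
/-- The Yoneda pairing of an induced object `I X'` is the Yoneda pairing of `X'` with respect to
`t ∘ cores`. -/
lemma yPair_extAdj {r s : ℕ} (h : s + r = 2) (X' : D) (e' : Ext.{w'} X' (R.obj C₀) r)
    (x' : Ext.{w'} (R.obj U) X' s) :
    yPair U C₀ t h (I.obj X') (extAdjInv adj' X' C₀ r e') (extAdjTo adj U X' s x') =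
      yPair (R.obj U) (R.obj C₀) (t.comp (extCores adj adj' U C₀ 2)) h X' e' x' := by
  rw [yPair_apply, yPair_apply, extAdjTo_comp_extAdjInv]
  rfl

lemma yPair_adj_eq {r s : ℕ} (h : s + r = 2) (X' : D) (e : Ext.{w} (I.obj X') C₀ r)
    (x : Ext.{w} U (I.obj X') s) :
    yPair U C₀ t h (I.obj X') e x =
      yPair (R.obj U) (R.obj C₀) (t.comp (extCores adj adj' U C₀ 2)) h X'
        (extAdjEquiv adj' X' C₀ r e) ((extAdjEquiv adj U X' s).symm x) := by
  rw [← yPair_extAdj adj adj' U C₀ t h X']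
  have h1 : extAdjInv adj' X' C₀ r (extAdjEquiv adj' X' C₀ r e) = e :=
    (extAdjEquiv adj' X' C₀ r).symm_apply_apply e
  have h2 : extAdjTo adj U X' s ((extAdjEquiv adj U X' s).symm x) = x :=
    (extAdjEquiv adj U X' s).apply_symm_apply x
  rw [h1, h2]

lemma yPair_injective_of_adj {r s : ℕ} (h : s + r = 2) (X' : D)
    (hX' : Function.Injective
      (yPair (R.obj U) (R.obj C₀) (t.comp (extCores adj adj' U C₀ 2)) h X')) :
    Function.Injective (yPair U C₀ t h (I.obj X')) := by
  rw [injective_iff_map_eq_zero]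
  intro e he
  have h1 : yPair (R.obj U) (R.obj C₀) (t.comp (extCores adj adj' U C₀ 2)) h X'
      (extAdjEquiv adj' X' C₀ r e) = 0 := by
    ext x'
    have := yPair_adj_eq adj adj' U C₀ t h X' e (extAdjEquiv adj U X' s x')
    rw [AddEquiv.symm_apply_apply, he] at this
    exact this.symm
  have h2 := (injective_iff_map_eq_zero _).1 hX' _ h1
  exact (AddEquiv.map_eq_zero_iff _).1 h2

lemma yPair_surjective_of_adj {r s : ℕ} (h : s + r = 2) (X' : D)
    (hX' : Function.Surjective
      (yPair (R.obj U) (R.obj C₀) (t.comp (extCores adj adj' U C₀ 2)) h X')) :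
    Function.Surjective (yPair U C₀ t h (I.obj X')) := by
  intro ψ
  obtain ⟨e', he'⟩ := hX' (ψ.comp (extAdjEquiv adj U X' s).toAddMonoidHom)
  refine ⟨(extAdjEquiv adj' X' C₀ r).symm e', ?_⟩
  ext x
  rw [yPair_adj_eq adj adj' U C₀ t h X', AddEquiv.apply_symm_apply, he']
  change ψ (extAdjEquiv adj U X' s ((extAdjEquiv adj U X' s).symm x)) = ψ x
  rw [AddEquiv.apply_symm_apply]

end Pairing

include adj' in
omit [PreservesFiniteLimits I] [PreservesFiniteColimits I] [I.Additive] in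
/-- vanishing of `Extⁿ(I X', Y)` from vanishing of `Extⁿ(X', R Y)` -/
lemma ext_eq_zero_of_adj [I.Additive] [PreservesFiniteLimits I] [PreservesFiniteColimits I]
    [EnoughInjectives D] {X' : D} {Y : C} {n : ℕ}
    (h0 : ∀ e' : Ext.{w'} X' (R.obj Y) n, e' = 0) (e : Ext.{w} (I.obj X') Y n) : e = 0 :=
  (AddEquiv.map_eq_zero_iff (extAdjEquiv adj' X' Y n)).1 (h0 _)

end Cores

section Misc

variable {𝒞 : Type u} [Category.{v} 𝒞] [Abelian 𝒞] [HasExt.{w} 𝒞] (I C : 𝒞)

/-- If `X` is killed by `m`, the Yoneda pairing only depends on the restriction of `t` to the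
`m`-torsion of `Ext²(I, C)`. -/
lemma yPair_congr_of_torsion (t t' : Ext.{w} I C 2 →+ AddCircle (1 : ℚ)) (m : ℤ)
    (ht : ∀ z : Ext.{w} I C 2, m • z = 0 → t z = t' z) {X : 𝒞} (hX : m • 𝟙 X = 0) {r s : ℕ}
    (h : s + r = 2) : yPair I C t h X = yPair I C t' h X := by
  ext e x
  rw [yPair_apply, yPair_apply]
  apply ht
  have h1 : m • e = 0 := by
    have := mk₀_zsmul_comp m (𝟙 X) e
    rw [hX, Ext.mk₀_zero, Ext.zero_comp, Ext.mk₀_id_comp] at this
    exact this.symm
  have h2 : m • x.comp e h = x.comp (m • e) h :=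
    (map_zsmul (Ext.bilinearComp I X C s r 2 h x) m e).symm
  rw [h2, h1, Ext.comp_zero]

variable (t : Ext.{w} I C 2 →+ AddCircle (1 : ℚ)) {X X' : 𝒞} (φ : X ≅ X')

include φ in
lemma yPair_injective_of_iso {r s : ℕ} (h : s + r = 2)
    (hX' : Function.Injective (yPair I C t h X')) : Function.Injective (yPair I C t h X) := by
  rw [injective_iff_map_eq_zero]
  intro e he
  have h1 : (Ext.mk₀ φ.inv).comp e (zero_add r) = 0 := by
    apply hX'
    rw [map_zero]
    ext x
    rw [yPair_precomp, he]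
    rfl
  have h2 : e = (Ext.mk₀ φ.hom).comp ((Ext.mk₀ φ.inv).comp e (zero_add r)) (zero_add r) := by
    rw [Ext.mk₀_comp_mk₀_assoc, φ.hom_inv_id, Ext.mk₀_id_comp]
  rw [h2, h1, Ext.comp_zero]

include φ in
lemma yPair_surjective_of_iso {r s : ℕ} (h : s + r = 2)
    (hX' : Function.Surjective (yPair I C t h X')) : Function.Surjective (yPair I C t h X) := by
  intro ψ
  obtain ⟨e', he'⟩ := hX' (ψ.comp ((Ext.mk₀ φ.inv).postcomp I (add_zero s)))
  refine ⟨(Ext.mk₀ φ.hom).comp e' (zero_add r), ?_⟩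
  ext x
  rw [yPair_precomp, he']
  change ψ ((x.comp (Ext.mk₀ φ.hom) (add_zero s)).comp (Ext.mk₀ φ.inv) (add_zero s)) = ψ x
  rw [Ext.comp_assoc_of_third_deg_zero, Ext.mk₀_comp_mk₀, φ.hom_inv_id, Ext.comp_mk₀_id]

omit t in
include φ in
lemma ext_eq_zero_of_iso {Y : 𝒞} {n : ℕ} (h0 : ∀ e : Ext.{w} X' Y n, e = 0)
    (e : Ext.{w} X Y n) : e = 0 := by
  have h2 : e = (Ext.mk₀ φ.hom).comp ((Ext.mk₀ φ.inv).comp e (zero_add n)) (zero_add n) := by
    rw [Ext.mk₀_comp_mk₀_assoc, φ.hom_inv_id, Ext.mk₀_id_comp]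
  rw [h2, h0 ((Ext.mk₀ φ.inv).comp e (zero_add n)), Ext.comp_zero]

end Misc

end Fermat.Agent.CFT.Sm
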