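/-
S55 / CFT (E-GR) — helper2.
Consequences of the good resolutions for the Yoneda pairing `yPair`:
* `yPair_injective_trivSm`, `yPair_surjective_trivSm`: from `trivSm (ZMod p)` to `trivSm V` for every
  finite abelian group `V` killed by `p`;
* `yPair_injective_resSub`, `yPair_surjective_resSub`: hence for `Res_U X`, `X` in the class `PU`;
* `yPair_injective_coindRes`, `yPair_surjective_coindRes`: hence (Shapiro transfer of the pairing)
  for the coinduced modules `coInd_U^Γ Res_U X`, i.e. for the good objects of the resolution.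
-/
import Fermat.Agent.CFT.Sm.GoodRes_helper2
import Fermat.Agent.CFT.Sm.Shapiro_helper9
import Fermat.Agent.CFT.Sm.Injectives_helper9

set_option autoImplicit false
set_option linter.unusedSectionVars false
set_option linter.style.haveILetI false

open CategoryTheory CategoryTheory.Limits CategoryTheory.Abelian

namespace Fermat.Agent.CFT.Sm

section Zero

variable {Γ' : Type} [Group Γ'] {𝒰' : OpenBasis Γ'}

lemma smRep_id_eq_zero_of_subsingleton {k : Type} [CommRing k] (X : SmRep k 𝒰')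
    [Subsingleton X.obj.V] : 𝟙 X = 0 := by
  apply ObjectProperty.hom_ext
  apply Rep.hom_ext
  apply Representation.IntertwiningMap.ext
  apply LinearMap.ext
  intro x
  exact Subsingleton.elim _ _

lemma ext_eq_zero_of_subsingleton_left (X Y : SmRep ℤ 𝒰') [Subsingleton X.obj.V] {n : ℕ}
    (e : Ext X Y n) : e = 0 := by
  rw [← Ext.mk₀_id_comp e, smRep_id_eq_zero_of_subsingleton X, Ext.mk₀_zero, Ext.zero_comp]

lemma ext_eq_zero_of_subsingleton_right (X Y : SmRep ℤ 𝒰') [Subsingleton Y.obj.V] {n : ℕ}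
    (e : Ext X Y n) : e = 0 := by
  rw [← Ext.comp_mk₀_id e, smRep_id_eq_zero_of_subsingleton Y, Ext.mk₀_zero, Ext.comp_zero]

end Zero

section Triv

variable {Γ' : Type} [Group Γ'] {𝒰' : OpenBasis Γ'} (p : ℕ) [hp : Fact p.Prime]
  (I C : SmRep ℤ 𝒰') (t : Ext I C 2 →+ AddCircle (1 : ℚ))

/-- injectivity of the Yoneda pairing passes from `ZMod p` to all finite trivial modules killed by
`p`. -/
theorem yPair_injective_trivSm {r s : ℕ} (h : s + r = 2)
    (hbase : Function.Injective (yPair I C t h (trivSm ℤ 𝒰' (ZMod p))))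
    (V : Type) [AddCommGroup V] [Finite V] (hV : ∀ v : V, p • v = 0) :
    Function.Injective (yPair I C t h (trivSm ℤ 𝒰' V)) := by
  refine trivSm_induction p (fun X => Function.Injective (yPair I C t h X))
    (fun X Y φ hX => yPair_injective_of_iso I C t φ.symm h hX)
    (fun X hX => ?_)
    (fun iA iB pA pB hsum hA hB => yPair_injective_of_sum I C t iA iB pA pB hsum h hA hB)
    hbase V hV
  intro e e' _
  rw [ext_eq_zero_of_subsingleton_left X C e, ext_eq_zero_of_subsingleton_left X C e']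

/-- surjectivity of the Yoneda pairing passes from `ZMod p` to all finite trivial modules killed
by `p`. -/
theorem yPair_surjective_trivSm {r s : ℕ} (h : s + r = 2)
    (hbase : Function.Surjective (yPair I C t h (trivSm ℤ 𝒰' (ZMod p))))
    (V : Type) [AddCommGroup V] [Finite V] (hV : ∀ v : V, p • v = 0) :
    Function.Surjective (yPair I C t h (trivSm ℤ 𝒰' V)) := by
  refine trivSm_induction p (fun X => Function.Surjective (yPair I C t h X))
    (fun X Y φ hX => yPair_surjective_of_iso I C t φ.symm h hX)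
    (fun X hX => ?_)
    (fun iA iB pA pB hsum hA hB => yPair_surjective_of_sum I C t iA iB pA pB hsum h hA hB)
    hbase V hV
  intro ψ
  refine ⟨0, ?_⟩
  ext x
  rw [ext_eq_zero_of_subsingleton_right I X x, map_zero, map_zero]

/-- vanishing of `Extⁿ(-, C)` passes from `ZMod p` to all finite trivial modules killed by `p`. -/
theorem ext_eq_zero_trivSm {n : ℕ}
    (hbase : ∀ e : Ext (trivSm ℤ 𝒰' (ZMod p)) C n, e = 0)
    (V : Type) [AddCommGroup V] [Finite V] (hV : ∀ v : V, p • v = 0)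
    (e : Ext (trivSm ℤ 𝒰' V) C n) : e = 0 := by
  refine trivSm_induction p (fun X => ∀ e : Ext X C n, e = 0)
    (fun X Y φ hX => ext_eq_zero_of_iso φ.symm hX)
    (fun X hX e => ext_eq_zero_of_subsingleton_left X C e)
    (fun iA iB pA pB hsum hA hB => ext_eq_zero_of_sum iA iB pA pB hsum hA hB)
    hbase V hV e

end Triv

section ResSub

variable {Γ : Type} [Group Γ] {𝒰 : OpenBasis Γ} (p : ℕ) [hp : Fact p.Prime] {U : Subgroup Γ}
  (I' C' : SmRep ℤ (𝒰.sub U)) (t' : Ext I' C' 2 →+ AddCircle (1 : ℚ))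

theorem yPair_injective_resSub {r s : ℕ} (h : s + r = 2)
    (hbase : Function.Injective (yPair I' C' t' h (trivSm ℤ (𝒰.sub U) (ZMod p))))
    (X : SmRep ℤ 𝒰) (hX : PU 𝒰 p U X) :
    Function.Injective (yPair I' C' t' h (resSub X U)) := by
  obtain ⟨hfin, hpX, htriv⟩ := hX
  exact yPair_injective_of_iso I' C' t' (resSubTrivIso U X htriv) h
    (yPair_injective_trivSm p I' C' t' h hbase X.obj.V hpX)

theorem yPair_surjective_resSub {r s : ℕ} (h : s + r = 2)
    (hbase : Function.Surjective (yPair I' C' t' h (trivSm ℤ (𝒰.sub U) (ZMod p))))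
    (X : SmRep ℤ 𝒰) (hX : PU 𝒰 p U X) :
    Function.Surjective (yPair I' C' t' h (resSub X U)) := by
  obtain ⟨hfin, hpX, htriv⟩ := hX
  exact yPair_surjective_of_iso I' C' t' (resSubTrivIso U X htriv) h
    (yPair_surjective_trivSm p I' C' t' h hbase X.obj.V hpX)

theorem ext_eq_zero_resSub {n : ℕ}
    (hbase : ∀ e : Ext (trivSm ℤ (𝒰.sub U) (ZMod p)) C' n, e = 0)
    (X : SmRep ℤ 𝒰) (hX : PU 𝒰 p U X) (e : Ext (resSub X U) C' n) : e = 0 := by
  obtain ⟨hfin, hpX, htriv⟩ := hX
  exact ext_eq_zero_of_iso (resSubTrivIso U X htriv)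
    (ext_eq_zero_trivSm p C' hbase X.obj.V hpX) e

end ResSub

section CoindRes

variable {Γ : Type} [Group Γ] {𝒰 : OpenBasis Γ} (p : ℕ) [hp : Fact p.Prime] {U : Subgroup Γ}
  (hU : 𝒰.IsOpen U) (I₀ C₀ : SmRep ℤ 𝒰) (t : Ext I₀ C₀ 2 →+ AddCircle (1 : ℚ))

/-- the transferred trace `t ∘ cores : Ext²_U(Res I₀, Res C₀) → ℚ/ℤ`. -/
noncomputable def tCoresGen : Ext (resSub I₀ U) (resSub C₀ U) 2 →+ AddCircle (1 : ℚ) :=
  t.comp (extCores (resCoindSmAdjunction ℤ U.subtype (OpenBasis.Finer.refl (𝒰.sub U)))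
    (coindResSmAdjunction ℤ U hU) I₀ C₀ 2)

/-- **good objects, injectivity**: if the Yoneda pairing (w.r.t. `t ∘ cores`) is injective for
`ZMod p` over `U`, it is injective for `coInd_U^Γ Res_U X` over `Γ`, `X` in the class `PU`. -/
theorem yPair_injective_coindRes {r s : ℕ} (h : s + r = 2)
    (hbase : Function.Injective (yPair (resSub I₀ U) (resSub C₀ U) (tCoresGen hU I₀ C₀ t) h
      (trivSm ℤ (𝒰.sub U) (ZMod p))))
    (X : SmRep ℤ 𝒰) (hX : PU 𝒰 p U X) :
    Function.Injective (yPair I₀ C₀ t h (coindRes U X)) :=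
  yPair_injective_of_adj (resCoindSmAdjunction ℤ U.subtype (OpenBasis.Finer.refl (𝒰.sub U)))
    (coindResSmAdjunction ℤ U hU) I₀ C₀ t h (resSub X U)
    (yPair_injective_resSub p _ _ _ h hbase X hX)

/-- **good objects, surjectivity**. -/
theorem yPair_surjective_coindRes {r s : ℕ} (h : s + r = 2)
    (hbase : Function.Surjective (yPair (resSub I₀ U) (resSub C₀ U) (tCoresGen hU I₀ C₀ t) h
      (trivSm ℤ (𝒰.sub U) (ZMod p))))
    (X : SmRep ℤ 𝒰) (hX : PU 𝒰 p U X) :
    Function.Surjective (yPair I₀ C₀ t h (coindRes U X)) :=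
  yPair_surjective_of_adj (resCoindSmAdjunction ℤ U.subtype (OpenBasis.Finer.refl (𝒰.sub U)))
    (coindResSmAdjunction ℤ U hU) I₀ C₀ t h (resSub X U)
    (yPair_surjective_resSub p _ _ _ h hbase X hX)

include hU in
/-- **good objects, `Ext`-vanishing**: `Extⁿ_Γ(coInd_U^Γ Res_U X, C₀) = 0` if
`Extⁿ_U(ZMod p, Res_U C₀) = 0`. -/
theorem ext_eq_zero_coindRes {n : ℕ}
    (hbase : ∀ e : Ext (trivSm ℤ (𝒰.sub U) (ZMod p)) (resSub C₀ U) n, e = 0)
    (X : SmRep ℤ 𝒰) (hX : PU 𝒰 p U X) (e : Ext (coindRes U X) C₀ n) : e = 0 :=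
  ext_eq_zero_of_adj (coindResSmAdjunction ℤ U hU)
    (fun e' => ext_eq_zero_resSub p _ hbase X hX e') e

end CoindRes

end Fermat.Agent.CFT.Sm
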