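/-
S55 / CFT (O5) — helper5.
Torsion and divisibility on `Ext`: multiplication by `n` on `Ext^r(X, Y)` is induced by `n • 𝟙 X`
and by `n • 𝟙 Y`; hence `Ext^r(X, Y) = 0` if `n` kills `X` and is invertible on `Y`
(`ext_eq_zero_of_nsmul`), and the `SmRep` form `smRep_ext_eq_zero_of_torsion_of_divisible`.
-/
import Fermat.Agent.CFT.Sm.Exact_helper9
import Fermat.Agent.CFT.Sm.Injectives_helper9

set_option autoImplicit false

universe w v u

open CategoryTheory CategoryTheory.Limits CategoryTheory.Abelian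

namespace Fermat.Agent.CFT.Sm

section ExtTorsion

variable {𝒞 : Type u} [Category.{v} 𝒞] [Abelian 𝒞] [HasExt.{w} 𝒞]

lemma ext_mk₀_nsmul {X Y : 𝒞} (n : ℕ) (f : X ⟶ Y) :
    Ext.mk₀.{w} (n • f) = n • Ext.mk₀ f :=
  ((Ext.addEquiv₀ (X := X) (Y := Y)).symm.toAddMonoidHom.map_nsmul n f)

lemma ext_nsmul_comp {X Y Z : 𝒞} {a b c : ℕ} (n : ℕ) (α : Ext.{w} X Y a) (β : Ext.{w} Y Z b)
    (h : a + b = c) : (n • α).comp β h = n • α.comp β h := by
  have := ((Ext.bilinearComp X Y Z a b c h).flip β).map_nsmul n α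
  exact this

lemma ext_comp_nsmul {X Y Z : 𝒞} {a b c : ℕ} (n : ℕ) (α : Ext.{w} X Y a) (β : Ext.{w} Y Z b)
    (h : a + b = c) : α.comp (n • β) h = n • α.comp β h := by
  have := ((Ext.bilinearComp X Y Z a b c h) α).map_nsmul n β
  exact this

/-- Multiplication by `n` on `Ext^r(X, Y)` is induced by `n • 𝟙 X`. -/
lemma ext_mk₀_nsmul_id_comp {X Y : 𝒞} {r : ℕ} (n : ℕ) (e : Ext.{w} X Y r) :
    (Ext.mk₀ (n • 𝟙 X)).comp e (zero_add r) = n • e := by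
  rw [ext_mk₀_nsmul, ext_nsmul_comp, Ext.mk₀_id_comp]

/-- Multiplication by `n` on `Ext^r(X, Y)` is induced by `n • 𝟙 Y`. -/
lemma ext_comp_mk₀_nsmul_id {X Y : 𝒞} {r : ℕ} (n : ℕ) (e : Ext.{w} X Y r) :
    e.comp (Ext.mk₀ (n • 𝟙 Y)) (add_zero r) = n • e := by
  rw [ext_mk₀_nsmul, ext_comp_nsmul, Ext.comp_mk₀_id]

/-- `Ext^r(X, Y)` is killed by `n` if `X` is. -/
lemma ext_nsmul_eq_zero_of_left {X Y : 𝒞} {r : ℕ} (n : ℕ) (hX : n • 𝟙 X = 0)
    (e : Ext.{w} X Y r) : n • e = 0 := by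
  rw [← ext_mk₀_nsmul_id_comp, hX, Ext.mk₀_zero, Ext.zero_comp]

/-- `Ext^r(X, Y)` is killed by `n` if `Y` is. -/
lemma ext_nsmul_eq_zero_of_right {X Y : 𝒞} {r : ℕ} (n : ℕ) (hY : n • 𝟙 Y = 0)
    (e : Ext.{w} X Y r) : n • e = 0 := by
  rw [← ext_comp_mk₀_nsmul_id, hY, Ext.mk₀_zero, Ext.comp_zero]

/-- Multiplication by `n` is injective on `Ext^r(X, Y)` if `n • 𝟙 Y` is an isomorphism. -/
lemma ext_nsmul_injective_of_isIso_right {X Y : 𝒞} {r : ℕ} (n : ℕ) [IsIso (n • 𝟙 Y)] :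
    Function.Injective (fun e : Ext.{w} X Y r => n • e) := by
  intro e e' h
  have h' : n • e = n • e' := h
  rw [← ext_comp_mk₀_nsmul_id, ← ext_comp_mk₀_nsmul_id] at h'
  have h2 := congrArg (fun t => t.comp (Ext.mk₀ (inv (n • 𝟙 Y))) (add_zero r)) h'
  simp only [Ext.comp_assoc_of_third_deg_zero, Ext.mk₀_comp_mk₀, IsIso.hom_inv_id,
    Ext.comp_mk₀_id] at h2
  exact h2

/-- Multiplication by `n` is surjective on `Ext^r(X, Y)` if `n • 𝟙 Y` is an isomorphism. -/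
lemma ext_nsmul_surjective_of_isIso_right {X Y : 𝒞} {r : ℕ} (n : ℕ) [IsIso (n • 𝟙 Y)] :
    Function.Surjective (fun e : Ext.{w} X Y r => n • e) := by
  intro e
  refine ⟨e.comp (Ext.mk₀ (inv (n • 𝟙 Y))) (add_zero r), ?_⟩
  change n • _ = e
  rw [← ext_comp_mk₀_nsmul_id, Ext.comp_assoc_of_third_deg_zero, Ext.mk₀_comp_mk₀,
    IsIso.inv_hom_id, Ext.comp_mk₀_id]

/-- **(O5)** `Ext^r(X, Y) = 0` if `n` kills `X` and is invertible on `Y`. -/
theorem ext_eq_zero_of_nsmul {X Y : 𝒞} {r : ℕ} (n : ℕ) (hX : n • 𝟙 X = 0) [IsIso (n • 𝟙 Y)]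
    (e : Ext.{w} X Y r) : e = 0 := by
  apply ext_nsmul_injective_of_isIso_right (r := r) (X := X) (Y := Y) n
  change n • e = n • 0
  rw [ext_nsmul_eq_zero_of_left n hX, smul_zero]

end ExtTorsion

section SmRep

variable {k Γ : Type} [CommRing k] [Group Γ] {𝒰 : OpenBasis Γ}

lemma smRep_nsmul_hom_apply {X Y : SmRep k 𝒰} (n : ℕ) (f : X ⟶ Y) (x : X.obj.V) :
    (n • f).hom.hom x = n • f.hom.hom x := by
  induction n with
  | zero => simp
  | succ m ih =>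
    rw [succ_nsmul, succ_nsmul, ← ih]
    rfl

lemma smRep_nsmul_id_eq_zero (X : SmRep k 𝒰) (n : ℕ) (h : ∀ x : X.obj.V, n • x = 0) :
    n • 𝟙 X = 0 := by
  apply ObjectProperty.hom_ext
  apply Rep.hom_ext
  apply Representation.IntertwiningMap.ext
  apply LinearMap.ext
  intro x
  have h1 := smRep_nsmul_hom_apply n (𝟙 X) x
  exact h1.trans (h x)

lemma smRep_isIso_of_bijective {X Y : SmRep k 𝒰} (f : X ⟶ Y)
    (h : Function.Bijective f.hom.hom) : IsIso f := by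
  have := (mono_iff_injective f).2 h.1
  have := (epi_iff_surjective f).2 h.2
  exact isIso_of_mono_of_epi f

lemma smRep_isIso_nsmul_id (Y : SmRep k 𝒰) (n : ℕ)
    (h : Function.Bijective (fun y : Y.obj.V => n • y)) : IsIso (n • 𝟙 Y) := by
  apply smRep_isIso_of_bijective
  have h1 : ∀ y : Y.obj.V, (n • 𝟙 Y : Y ⟶ Y).hom.hom y = n • y := fun y =>
    smRep_nsmul_hom_apply n (𝟙 Y) y
  constructor
  · intro y y' hyy'
    rw [h1, h1] at hyy'
    exact h.1 hyy'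
  · intro y
    obtain ⟨z, hz⟩ := h.2 y
    exact ⟨z, (h1 z).trans hz⟩

/-- **(O5)** `Ext^r(X, Y) = 0` in `SmRep k 𝒰` when `n` kills `X` and `Y` is uniquely
`n`-divisible. -/
theorem smRep_ext_eq_zero_of_torsion_of_divisible (X Y : SmRep k 𝒰) (n : ℕ)
    (hX : ∀ x : X.obj.V, n • x = 0) (hY : Function.Bijective (fun y : Y.obj.V => n • y))
    {r : ℕ} (e : Ext.{0} X Y r) : e = 0 := by
  have := smRep_isIso_nsmul_id Y n hY
  exact ext_eq_zero_of_nsmul n (smRep_nsmul_id_eq_zero X n hX) e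

end SmRep

end Fermat.Agent.CFT.Sm
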