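/-
S55 / CFT (engine, E-SA) — helper1.
The SYLOW ANCHOR: vanishing of `Extⁿ(N, C)` for all finite `p`-torsion smooth modules `N` from the
vanishing of `Extⁿ_W(ℤ/p, C)` for the open subgroups `W`.
* `ext_eq_zero_of_pGroup`: the `p`-group step (induction on the cardinality along a nonzero fixed
  vector), over an arbitrary `(Γ, 𝒰, C)`;
* `ext_eq_zero_of_finite_of_torsion`: reduction to a Sylow subgroup by the index argument and
  Shapiro's lemma.
-/
import Fermat.Agent.CFT.Sm.RecKer_helper1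
import Fermat.Agent.CFT.Sm.ExtTorsion_helper5
import Fermat.Agent.CFT.Sm.ExtAdj_helper9
import Fermat.Agent.CFT.Sm.Devissage_helper9

set_option autoImplicit false
set_option linter.style.haveILetI false
set_option linter.unusedSectionVars false

open CategoryTheory CategoryTheory.Limits CategoryTheory.Abelian

namespace Fermat.Agent.CFT.Sm

variable {Γ : Type} [Group Γ] {𝒰 : OpenBasis Γ}

section FixedVector

/-- A group acting linearly on a nontrivial finite abelian group killed by `p`, through a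
`p`-group quotient, has a nonzero fixed vector. -/
theorem exists_ne_zero_fixed (p : ℕ) [hp : Fact p.Prime] (N : SmRep ℤ 𝒰) [Finite N.obj.V]
    (hN : ∀ x : N.obj.V, p • x = 0) (U : Subgroup Γ)
    (hU : ∀ u ∈ U, ∀ x : N.obj.V, N.obj.ρ u x = x) (hpU : ∀ g : Γ, ∃ k : ℕ, g ^ (p ^ k) ∈ U)
    (hne : ∃ x : N.obj.V, x ≠ 0) :
    ∃ v : N.obj.V, v ≠ 0 ∧ ∀ g, N.obj.ρ g v = v := by
  classical
  letI : MulAction Γ N.obj.V :=
    { smul := fun g b => N.obj.ρ g b
      one_smul := fun b => by change N.obj.ρ 1 b = b; simp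
      mul_smul := fun g h b => by change N.obj.ρ (g * h) b = N.obj.ρ g (N.obj.ρ h b); simp }
  have hsmul : ∀ (g : Γ) (x : N.obj.V), g • x = N.obj.ρ g x := fun _ _ => rfl
  -- the image of `Γ` in the permutations of `N` is a `p`-group
  let G' : Subgroup (Equiv.Perm N.obj.V) := (MulAction.toPermHom Γ N.obj.V).range
  have hG' : IsPGroup p G' := by
    rintro ⟨_, g, rfl⟩
    obtain ⟨k, hk⟩ := hpU g
    refine ⟨k, ?_⟩
    apply Subtype.ext
    rw [SubgroupClass.coe_pow, Subgroup.coe_one, ← map_pow]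
    ext x
    change (g ^ p ^ k) • x = x
    rw [hsmul]
    exact hU _ hk x
  -- `p` divides the cardinality
  obtain ⟨x, hx⟩ := hne
  have hdvd : p ∣ Nat.card N.obj.V := by
    have h1 : addOrderOf x = p := by
      have h2 : addOrderOf x ∣ p := addOrderOf_dvd_of_nsmul_eq_zero (hN x)
      rcases (Nat.dvd_prime hp.out).mp h2 with h3 | h3
      · exact (hx (AddMonoid.addOrderOf_eq_one_iff.mp h3)).elim
      · exact h3
    rw [← h1]
    exact addOrderOf_dvd_natCard x
  have h0 : (0 : N.obj.V) ∈ MulAction.fixedPoints G' N.obj.V := by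
    rintro ⟨_, g, rfl⟩
    change g • (0 : N.obj.V) = 0
    rw [hsmul, map_zero]
  obtain ⟨v, hv, hv0⟩ := hG'.exists_fixed_point_of_prime_dvd_card_of_fixed_point N.obj.V hdvd h0
  refine ⟨v, fun h => hv0 h.symm, fun g => ?_⟩
  exact hv ⟨MulAction.toPermHom Γ N.obj.V g, g, rfl⟩

end FixedVector

section Line

lemma ofInvariant_congr {k : Type} [CommRing k] (A : SmRep k 𝒰) {a b : A.obj.V} (h : a = b)
    (ha : ∀ g, A.obj.ρ g a = a) (hb : ∀ g, A.obj.ρ g b = b) :
    ofInvariant A a ha = ofInvariant A b hb := by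
  subst h
  rfl

lemma trivSmMap_smul_comp_ofInvariant {k : Type} [CommRing k] (A : SmRep k 𝒰) (c : k)
    (a : A.obj.V) (ha : ∀ g, A.obj.ρ g a = a) (hca : c • a = 0) :
    trivSmMap (𝒰 := 𝒰) (c • (LinearMap.id : k →ₗ[k] k)) ≫ ofInvariant A a ha = 0 := by
  apply smRep_hom_ext_apply
  intro x
  change (ofInvariant A a ha).hom.hom
    (show (trivSm k 𝒰 k).obj.V from (c • (show k from x))) = 0
  rw [ofInvariant_apply]
  change (c • (show k from x)) • a = 0
  rw [smul_eq_mul, mul_comm, ← smul_smul, hca, smul_zero]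

variable (p : ℕ) [hp : Fact p.Prime]

lemma bockstein_f_comp_ofInvariant (N : SmRep ℤ 𝒰) (v : N.obj.V) (hv : ∀ g, N.obj.ρ g v = v)
    (hpv : p • v = 0) : (bockstein 𝒰 p).f ≫ ofInvariant N v hv = 0 :=
  trivSmMap_smul_comp_ofInvariant (k := ℤ) N (p : ℤ) v hv
    ((@Nat.cast_smul_eq_nsmul ℤ N.obj.V _ _ N.obj.hV2 p v).trans hpv)

/-- the morphism `ℤ/p → N` attached to an invariant vector killed by `p`. -/
noncomputable def ofInvariantZMod (N : SmRep ℤ 𝒰) (v : N.obj.V) (hv : ∀ g, N.obj.ρ g v = v)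
    (hpv : p • v = 0) : trivSm ℤ 𝒰 (ZMod p) ⟶ N :=
  haveI := (bockstein_shortExact 𝒰 p hp.out.ne_zero).epi_g
  (bockstein_shortExact 𝒰 p hp.out.ne_zero).exact.desc (ofInvariant N v hv)
    (bockstein_f_comp_ofInvariant p N v hv hpv)

lemma bockstein_g_comp_ofInvariantZMod (N : SmRep ℤ 𝒰) (v : N.obj.V)
    (hv : ∀ g, N.obj.ρ g v = v) (hpv : p • v = 0) :
    (bockstein 𝒰 p).g ≫ ofInvariantZMod p N v hv hpv = ofInvariant N v hv := by
  haveI := (bockstein_shortExact 𝒰 p hp.out.ne_zero).epi_g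
  exact (bockstein_shortExact 𝒰 p hp.out.ne_zero).exact.g_desc (ofInvariant N v hv)
    (bockstein_f_comp_ofInvariant p N v hv hpv)

lemma ofInvariantZMod_intCast (N : SmRep ℤ 𝒰) (v : N.obj.V) (hv : ∀ g, N.obj.ρ g v = v)
    (hpv : p • v = 0) (x : ℤ) :
    (ofInvariantZMod p N v hv hpv).hom.hom
      (show (trivSm ℤ 𝒰 (ZMod p)).obj.V from ((x : ℤ) : ZMod p)) =
      (ofInvariant N v hv).hom.hom (show (trivSm ℤ 𝒰 ℤ).obj.V from x) := by
  have h1 := bockstein_g_comp_ofInvariantZMod p N v hv hpv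
  exact congrArg (fun t : trivSm ℤ 𝒰 ℤ ⟶ N => t.hom.hom (show (trivSm ℤ 𝒰 ℤ).obj.V from x)) h1

lemma ofInvariantZMod_injective (N : SmRep ℤ 𝒰) (v : N.obj.V) (hv : ∀ g, N.obj.ρ g v = v)
    (hpv : p • v = 0) (hv0 : v ≠ 0) :
    Function.Injective (ofInvariantZMod p N v hv hpv).hom.hom := by
  rw [injective_iff_map_eq_zero]
  intro y hy
  obtain ⟨x, hx⟩ := ZMod.intCast_surjective (show ZMod p from y)
  have hy' : y = (show (trivSm ℤ 𝒰 (ZMod p)).obj.V from ((x : ℤ) : ZMod p)) := hx.symm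
  rw [hy', ofInvariantZMod_intCast, ofInvariant_apply] at hy
  have h2 : x • v = 0 := by
    rw [← int_smul_eq_zsmul N.obj.hV2 x v]
    exact hy
  have h3 : addOrderOf v = p := by
    have h4 : addOrderOf v ∣ p := addOrderOf_dvd_of_nsmul_eq_zero hpv
    rcases (Nat.dvd_prime hp.out).mp h4 with h5 | h5
    · exact (hv0 (AddMonoid.addOrderOf_eq_one_iff.mp h5)).elim
    · exact h5
  have h6 : (addOrderOf v : ℤ) ∣ x := addOrderOf_dvd_iff_zsmul_eq_zero.mpr h2
  rw [h3] at h6
  rw [hy']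
  exact (ZMod.intCast_zmod_eq_zero_iff_dvd x p).mpr h6

end Line

section PGroupStep

variable (p : ℕ) [hp : Fact p.Prime] (C : SmRep ℤ 𝒰) (n : ℕ)

/-- **The `p`-group step.** If `Extⁿ(ℤ/p, C) = 0`, then `Extⁿ(N, C) = 0` for every finite
`p`-torsion smooth module `N` on which the group acts through a `p`-group quotient `Γ/U`. -/
theorem ext_eq_zero_of_pGroup
    (h0 : ∀ e : Ext.{0} (trivSm ℤ 𝒰 (ZMod p)) C n, e = 0)
    (U : Subgroup Γ) (hpU : ∀ g : Γ, ∃ k : ℕ, g ^ (p ^ k) ∈ U)
    (N : SmRep ℤ 𝒰) [hfin : Finite N.obj.V] (hN : ∀ x : N.obj.V, p • x = 0)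
    (hU : ∀ u ∈ U, ∀ x : N.obj.V, N.obj.ρ u x = x) (e : Ext.{0} N C n) : e = 0 := by
  classical
  suffices H : ∀ m : ℕ, ∀ N : SmRep ℤ 𝒰, Finite N.obj.V → Nat.card N.obj.V = m →
      (∀ x : N.obj.V, p • x = 0) → (∀ u ∈ U, ∀ x : N.obj.V, N.obj.ρ u x = x) →
      ∀ e : Ext.{0} N C n, e = 0 from H _ N hfin rfl hN hU e
  intro m
  induction m using Nat.strong_induction_on with
  | _ m ih =>
    intro N hfin hcard hN hU e
    by_cases hne : ∃ x : N.obj.V, x ≠ 0
    · -- a nonzero fixed vector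
      obtain ⟨v, hv0, hv⟩ := exists_ne_zero_fixed p N hN U hU hpU hne
      set i : trivSm ℤ 𝒰 (ZMod p) ⟶ N := ofInvariantZMod p N v hv (hN v) with hi
      have hiinj : Function.Injective i.hom.hom :=
        ofInvariantZMod_injective p N v hv (hN v) hv0
      haveI : Mono i := (mono_iff_injective i).2 hiinj
      let S : ShortComplex (SmRep ℤ 𝒰) :=
        ShortComplex.mk i (cokernel.π i) (cokernel.condition i)
      have hS : S.ShortExact :=
        { exact := ShortComplex.exact_cokernel i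
          mono_f := by change Mono i; infer_instance
          epi_g := by change Epi (cokernel.π i); infer_instance }
      obtain ⟨-, -, hsurj⟩ := (shortExact_iff S).1 hS
      have hsurj' : Function.Surjective (cokernel.π i).hom.hom := hsurj
      haveI hfin' : Finite (cokernel i).obj.V := Finite.of_surjective _ hsurj'
      -- the cokernel is smaller
      have hlt : Nat.card (cokernel i).obj.V < m := by
        rw [← hcard]
        haveI : Fintype N.obj.V := Fintype.ofFinite _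
        haveI : Fintype (cokernel i).obj.V := Fintype.ofFinite _
        rw [Nat.card_eq_fintype_card, Nat.card_eq_fintype_card]
        refine Fintype.card_lt_of_surjective_not_injective _ hsurj' (fun hinj => ?_)
        have h1 : (cokernel.π i).hom.hom (i.hom.hom (show (trivSm ℤ 𝒰 (ZMod p)).obj.V from
            (1 : ZMod p))) = 0 := by
          have h2 := congrArg (fun t : trivSm ℤ 𝒰 (ZMod p) ⟶ cokernel i =>
            t.hom.hom (show (trivSm ℤ 𝒰 (ZMod p)).obj.V from (1 : ZMod p)))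
            (cokernel.condition i)
          exact h2
        have h3 : i.hom.hom (show (trivSm ℤ 𝒰 (ZMod p)).obj.V from (1 : ZMod p)) = 0 :=
          hinj (h1.trans (map_zero _).symm)
        have h4 : (show (trivSm ℤ 𝒰 (ZMod p)).obj.V from (1 : ZMod p)) = 0 :=
          hiinj (h3.trans (map_zero _).symm)
        haveI : Fact (1 < p) := ⟨hp.out.one_lt⟩
        exact one_ne_zero (α := ZMod p) h4
      have hN' : ∀ x : (cokernel i).obj.V, p • x = 0 := by
        intro x'
        obtain ⟨x, rfl⟩ := hsurj' x'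
        rw [← map_nsmul, hN x, map_zero]
      have hU' : ∀ u ∈ U, ∀ x : (cokernel i).obj.V, (cokernel i).obj.ρ u x = x := by
        intro u hu x'
        obtain ⟨x, rfl⟩ := hsurj' x'
        have h1 := Rep.hom_comm_apply (cokernel.π i).hom u x
        rw [← h1, hU u hu x]
      have h1 : (Ext.mk₀ S.f).comp e (zero_add n) = 0 := h0 _
      obtain ⟨e', he'⟩ := Ext.contravariant_sequence_exact₂ hS C e h1
      rw [← he', ih _ hlt (cokernel i) hfin' rfl hN' hU' e', Ext.comp_zero]
    · -- the zero module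
      have hall : ∀ x : N.obj.V, x = 0 := fun x => by
        by_contra hx
        exact hne ⟨x, hx⟩
      have h1 : 𝟙 N = 0 := smRep_hom_ext_apply _ _ (fun x => (hall _).trans (hall _).symm)
      rw [← Ext.mk₀_id_comp e, h1, Ext.mk₀_zero, Ext.zero_comp]

end PGroupStep

section Sylow

variable (p : ℕ) [hp : Fact p.Prime] (C : SmRep ℤ 𝒰) (n : ℕ)

lemma smRep_zsmul_hom_apply {k : Type} [CommRing k] {X Y : SmRep k 𝒰} (m : ℤ) (f : X ⟶ Y)
    (x : X.obj.V) : (m • f).hom.hom x = m • f.hom.hom x := by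
  let φ : (X ⟶ Y) →+ Y.obj.V :=
    { toFun := fun f => f.hom.hom x
      map_zero' := rfl
      map_add' := fun f g => smRep_add_hom_apply f g x }
  exact map_zsmul φ m f

/-- `N → coInd Res N → N` is multiplication by the index (with the `ℤ`-action of the preadditive
structure). -/
lemma unit_comp_counit_eq_zsmul (W : Subgroup Γ) (hW : 𝒰.IsOpen W) (N : SmRep ℤ 𝒰) :
    (resCoindSmAdjunction ℤ W.subtype (OpenBasis.Finer.refl _)).unit.app N ≫
      (coindResSmAdjunction ℤ W hW).counit.app N = (W.index : ℤ) • 𝟙 N := by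
  apply smRep_hom_ext_apply
  intro x
  have h1 := congrArg (fun t : N ⟶ N => t.hom.hom x)
    (resCoindSm_unit_comp_coindResSm_counit W hW N)
  refine h1.trans ?_
  rw [smRep_zsmul_hom_apply]
  exact int_smul_eq_zsmul N.obj.hV2 (W.index : ℤ) x

/-- **Reduction to an open subgroup of index prime to `p`.** If `W` is open of index prime to `p`
and `Extⁿ_W(res N, res C) = 0`, then `Extⁿ(N, C) = 0` for `N` killed by `p`. -/
theorem ext_eq_zero_of_res_eq_zero (W : Subgroup Γ) (hW : 𝒰.IsOpen W) (hidx : ¬ p ∣ W.index)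
    (N : SmRep ℤ 𝒰) (hN : ∀ x : N.obj.V, p • x = 0)
    (hres : ∀ e : Ext.{0} (resSub N W) (resSub C W) n, e = 0) (e : Ext.{0} N C n) : e = 0 := by
  have hmq : IsCoprime (W.index : ℤ) (p : ℤ) :=
    Nat.isCoprime_iff_coprime.2 ((Nat.Prime.coprime_iff_not_dvd hp.out).2 hidx).symm
  have hq : (p : ℤ) • 𝟙 N = 0 := by
    rw [natCast_zsmul]
    exact smRep_nsmul_id_eq_zero N p hN
  refine ext_eq_zero_of_factor
    ((coindResSmAdjunction ℤ W hW).counit.app N)
    ((resCoindSmAdjunction ℤ W.subtype (OpenBasis.Finer.refl _)).unit.app N)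
    (W.index : ℤ) (p : ℤ) hmq (unit_comp_counit_eq_zsmul W hW N) hq ?_ e
  intro e'
  apply (extAdjEquiv (coindResSmAdjunction ℤ W hW) (resSub N W) C n).injective
  rw [map_zero]
  exact hres _

/-- **The Sylow anchor.** If `Extⁿ_W(ℤ/p, C) = 0` for every open subgroup `W`, then
`Extⁿ(N, C) = 0` for every finite smooth module `N` killed by `p`. -/
theorem ext_eq_zero_of_finite_of_torsion
    (h0 : ∀ W : Subgroup Γ, 𝒰.IsOpen W →
      ∀ e : Ext.{0} (trivSm ℤ (𝒰.sub W) (ZMod p)) (resSub C W) n, e = 0)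
    (N : SmRep ℤ 𝒰) [hfin : Finite N.obj.V] (hN : ∀ x : N.obj.V, p • x = 0)
    (e : Ext.{0} N C n) : e = 0 := by
  classical
  -- a basic open subgroup acting trivially
  obtain ⟨U, hU, hUfix⟩ := N.property.exists_mem_forall_fixed (fun x : N.obj.V => x)
  haveI := 𝒰.normal U hU
  haveI := 𝒰.finiteIndex U hU
  haveI : Finite (Γ ⧸ U) := Subgroup.finite_quotient_of_finiteIndex
  -- the preimage of a Sylow subgroup
  obtain ⟨P⟩ : Nonempty (Sylow p (Γ ⧸ U)) := Sylow.nonempty
  set W : Subgroup Γ := (P : Subgroup (Γ ⧸ U)).comap (QuotientGroup.mk' U) with hWdef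
  have hUW : U ≤ W := by
    intro u hu
    rw [hWdef, Subgroup.mem_comap]
    have h1 : QuotientGroup.mk' U u = 1 := (QuotientGroup.eq_one_iff u).mpr hu
    rw [h1]
    exact Subgroup.one_mem _
  have hW : 𝒰.IsOpen W := ⟨U, hU, hUW⟩
  have hidx : ¬ p ∣ W.index := by
    rw [hWdef, Subgroup.index_comap_of_surjective _ (QuotientGroup.mk'_surjective U)]
    exact P.not_dvd_index
  refine ext_eq_zero_of_res_eq_zero p C n W hW hidx N hN (fun e' => ?_) e
  -- the `p`-group step for `W`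
  haveI : Finite (resSub N W).obj.V := hfin
  refine ext_eq_zero_of_pGroup p (resSub C W) n (h0 W hW) (U.comap W.subtype) ?_ (resSub N W)
    hN ?_ e'
  · intro g
    have hg : QuotientGroup.mk' U (g : Γ) ∈ (P : Subgroup (Γ ⧸ U)) := g.2
    obtain ⟨k, hk⟩ := P.isPGroup' ⟨_, hg⟩
    refine ⟨k, ?_⟩
    rw [Subgroup.mem_comap]
    have h1 : (QuotientGroup.mk' U (g : Γ)) ^ (p ^ k) = 1 := by
      have := congrArg Subtype.val hk
      simpa using this
    rw [← map_pow] at h1
    have h2 : ((g ^ (p ^ k) : ↥W) : Γ) = (g : Γ) ^ (p ^ k) := rfl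
    change ((g ^ (p ^ k) : ↥W) : Γ) ∈ U
    rw [h2]
    exact (QuotientGroup.eq_one_iff _).mp h1
  · intro u hu x
    exact hUfix x (u : Γ) hu

end Sylow

end Fermat.Agent.CFT.Sm
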