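/-
S55 / CFT (engine, duality assembly) — helper2.
The duality theorems for a `p`-class formation `(Γ, 𝒰, C)` and the class of finite smooth modules
killed by `p`, assembled from helper9's dévissage (`yPair_surjective_of_resolution`,
`yPair_bijective_of_resolution`), Bockstein layer, transfer along coinduction (`Cores_helper9`),
the good resolutions (E-GR) and helper1's Sylow anchor (E-SA):

* LOCAL (no `H³`, no existence theorem): `α²(X)` and `α¹(X)` are surjective;
* GLOBAL (formation global below an open subgroup `U₀`): `α²(X)` and `α¹(X)` are bijective.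
-/
import Fermat.Agent.CFT.Sm.Cores_helper9
import Fermat.Agent.CFT.Sm.GoodRes_helper2_Pairing
import Fermat.Agent.CFT.Sm.SylowAnchor_helper1

set_option autoImplicit false
set_option linter.unusedSectionVars false

open CategoryTheory CategoryTheory.Limits CategoryTheory.Abelian

namespace Fermat.Agent.CFT.Sm

variable {Γ : Type} [Group Γ] {𝒰 : OpenBasis Γ} {p : ℕ} [hp : Fact p.Prime] {C : SmRep ℤ 𝒰}

namespace PClassFormation

variable (F : PClassFormation 𝒰 p C)

/-- transfer of injectivity of the pairing from `(U, ZMod p)` to the good objects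
`coInd_U^Γ Res_U X`. -/
theorem yPair_injective_good {U : Subgroup Γ} (hU : U ∈ 𝒰.sets) {r s : ℕ} (h : s + r = 2)
    (hbase : Function.Injective (yPair (smUnit ℤ (𝒰.sub U)) (resSub C U)
      (tInv (resSub C U) (F.invU U (𝒰.isOpen_of_mem hU))) h (smFp (𝒰.sub U) p)))
    (X : SmRep ℤ 𝒰) (hX : PU 𝒰 p U X) :
    Function.Injective (yPair (smUnit ℤ 𝒰) C (tInv C F.inv) h (coindRes U X)) :=
  yPair_injective_coind F U (𝒰.isOpen_of_mem hU) h (resSub X U)
    (smRep_nsmul_id_eq_zero (resSub X U) p hX.2.1)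
    (yPair_injective_resSub p _ _ _ h hbase X hX)

/-- transfer of surjectivity of the pairing from `(U, ZMod p)` to the good objects
`coInd_U^Γ Res_U X`. -/
theorem yPair_surjective_good {U : Subgroup Γ} (hU : U ∈ 𝒰.sets) {r s : ℕ} (h : s + r = 2)
    (hbase : Function.Surjective (yPair (smUnit ℤ (𝒰.sub U)) (resSub C U)
      (tInv (resSub C U) (F.invU U (𝒰.isOpen_of_mem hU))) h (smFp (𝒰.sub U) p)))
    (X : SmRep ℤ 𝒰) (hX : PU 𝒰 p U X) :
    Function.Surjective (yPair (smUnit ℤ 𝒰) C (tInv C F.inv) h (coindRes U X)) :=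
  yPair_surjective_coind F U (𝒰.isOpen_of_mem hU) h (resSub X U)
    (smRep_nsmul_id_eq_zero (resSub X U) p hX.2.1)
    (yPair_surjective_resSub p _ _ _ h hbase X hX)

/-- **Local duality, class `PU`**: for a `p`-class formation, `α²` and `α¹` are surjective on the
finite modules killed by `p` on which the basic open subgroup `U` acts trivially. -/
theorem tateDuality_surjective_PU {U : Subgroup Γ} (hU : U ∈ 𝒰.sets) (X : SmRep ℤ 𝒰)
    (hX : PU 𝒰 p U X) :
    Function.Surjective (yPair (smUnit ℤ 𝒰) C (tInv C F.inv) (show 0 + 2 = 2 from rfl) X) ∧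
    Function.Surjective (yPair (smUnit ℤ 𝒰) C (tInv C F.inv) (show 1 + 1 = 2 from rfl) X) := by
  have hb := F.baseU U (𝒰.isOpen_of_mem hU)
  refine yPair_surjective_of_resolution (smUnit ℤ 𝒰) C (tInv C F.inv) (PU 𝒰 p U)
    (fun M hM => hasGoodResolution_PU hU _ (fun Y hY => ⟨⟨?_, ?_⟩, ?_⟩) M hM) X hX
  · exact F.yPair_injective_good hU _ hb.yPair_two_injective_smFp Y hY
  · exact F.yPair_surjective_good hU _ hb.yPair_two_surjective_smFp Y hY
  · exact F.yPair_surjective_good hU _ hb.yPair_one_surjective_smFp Y hY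

/-- **Local duality**: for a `p`-class formation `(Γ, 𝒰, C)` and a finite smooth module `X` killed
by `p`, the Yoneda pairings `α² : Ext²(X, C) → H⁰(X)^∨` and `α¹ : Ext¹(X, C) → H¹(X)^∨` are
surjective.  (No hypothesis on `H³`, no existence theorem.) -/
theorem tateDuality_surjective (X : SmRep ℤ 𝒰) [hfin : Finite X.obj.V]
    (hX : ∀ x : X.obj.V, p • x = 0) :
    Function.Surjective (yPair (smUnit ℤ 𝒰) C (tInv C F.inv) (show 0 + 2 = 2 from rfl) X) ∧
    Function.Surjective (yPair (smUnit ℤ 𝒰) C (tInv C F.inv) (show 1 + 1 = 2 from rfl) X) := by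
  obtain ⟨U, hU, hUfix⟩ := X.property.exists_mem_forall_fixed (fun x : X.obj.V => x)
  exact F.tateDuality_surjective_PU hU X ⟨hfin, hX, fun u hu x => hUfix x u hu⟩

/-- **Local `α¹` surjectivity** (the input `hL` of the Poitou–Tate count). -/
theorem yPair_one_surjective_of_finite (X : SmRep ℤ 𝒰) [Finite X.obj.V]
    (hX : ∀ x : X.obj.V, p • x = 0) :
    Function.Surjective (yPair (smUnit ℤ 𝒰) C (tInv C F.inv) (show 1 + 1 = 2 from rfl) X) :=
  (F.tateDuality_surjective X hX).2

variable {F}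

/-- **Global duality, class `PU`**, for `U ≤ U₀` basic open. -/
theorem IsGlobalBelow.tateDuality_bijective_PU {U₀ : Subgroup Γ} (hG : F.IsGlobalBelow U₀)
    {U : Subgroup Γ} (hU : U ∈ 𝒰.sets) (hUU₀ : U ≤ U₀) (X : SmRep ℤ 𝒰) (hX : PU 𝒰 p U X) :
    Function.Bijective (yPair (smUnit ℤ 𝒰) C (tInv C F.inv) (show 0 + 2 = 2 from rfl) X) ∧
    Function.Bijective (yPair (smUnit ℤ 𝒰) C (tInv C F.inv) (show 1 + 1 = 2 from rfl) X) := by
  have hUo := 𝒰.isOpen_of_mem hU
  have hb := F.baseU U hUo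
  have hg : IsBaseCF.IsGlobal (𝒰.sub U) p (resSub C U) (F.invU U hUo) :=
    ⟨hG.h3U U hUo, hG.rec_kerU U hUo hUU₀⟩
  refine yPair_bijective_of_resolution (smUnit ℤ 𝒰) C (tInv C F.inv) (PU 𝒰 p U)
    (fun M hM => hasGoodResolution_PU hU _ (fun Y hY => ⟨⟨?_, ?_⟩, ⟨?_, ?_⟩⟩) M hM)
    (fun N hN e => ?_) X hX
  · haveI : Finite N.obj.V := hN.1
    exact ext_eq_zero_of_finite_of_torsion p C 3 (fun W hW e' => hG.ext_three_eq_zero W hW e')
      N hN.2.1 e
  · exact F.yPair_injective_good hU _ hb.yPair_two_injective_smFp Y hY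
  · exact F.yPair_surjective_good hU _ hb.yPair_two_surjective_smFp Y hY
  · exact F.yPair_injective_good hU _ (IsBaseCF.IsGlobal.yPair_one_injective_smFp hb hg) Y hY
  · exact F.yPair_surjective_good hU _ hb.yPair_one_surjective_smFp Y hY

/-- **Global duality**: for a `p`-class formation which is global below an open subgroup `U₀` and
a finite smooth module `X` killed by `p`, the Yoneda pairings `α² : Ext²(X, C) → H⁰(X)^∨` and
`α¹ : Ext¹(X, C) → H¹(X)^∨` are bijective. -/
theorem IsGlobalBelow.tateDuality_bijective {U₀ : Subgroup Γ} (hG : F.IsGlobalBelow U₀)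
    (hU₀ : 𝒰.IsOpen U₀) (X : SmRep ℤ 𝒰) [hfin : Finite X.obj.V]
    (hX : ∀ x : X.obj.V, p • x = 0) :
    Function.Bijective (yPair (smUnit ℤ 𝒰) C (tInv C F.inv) (show 0 + 2 = 2 from rfl) X) ∧
    Function.Bijective (yPair (smUnit ℤ 𝒰) C (tInv C F.inv) (show 1 + 1 = 2 from rfl) X) := by
  obtain ⟨U, hU, hUfix⟩ := X.property.exists_mem_forall_fixed (fun x : X.obj.V => x)
  obtain ⟨U₁, hU₁, hU₁U₀⟩ := hU₀
  obtain ⟨W, hW, hWle⟩ := 𝒰.directed U hU U₁ hU₁
  exact hG.tateDuality_bijective_PU hW (fun g hg => hU₁U₀ (hWle hg).2) X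
    ⟨hfin, hX, fun u hu x => hUfix x u (hWle hu).1⟩

/-- **Global `α¹` bijectivity** (the input `hG` of the Poitou–Tate count). -/
theorem IsGlobalBelow.yPair_one_bijective_of_finite {U₀ : Subgroup Γ} (hG : F.IsGlobalBelow U₀)
    (hU₀ : 𝒰.IsOpen U₀) (X : SmRep ℤ 𝒰) [Finite X.obj.V] (hX : ∀ x : X.obj.V, p • x = 0) :
    Function.Bijective (yPair (smUnit ℤ 𝒰) C (tInv C F.inv) (show 1 + 1 = 2 from rfl) X) :=
  (hG.tateDuality_bijective hU₀ X hX).2

end PClassFormation

end Fermat.Agent.CFT.Sm
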