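/-
S55 / CFT (P0.7, Bockstein layer) — helper9.
From the base axioms `IsBaseCF 𝒰 p C inv` of a `p`-class formation to duality for the trivial
module `ZMod p`: with `t = inv ∘ smUnitCompare` on `Ext²(𝟙, C)`,
* `IsBaseCF.yPair_two_injective_smFp`, `IsBaseCF.yPair_two_surjective_smFp` (`α²(ZMod p)` bijective),
* `IsBaseCF.yPair_one_surjective_smFp` (`α¹(ZMod p)` surjective; `yPair_one_bockClass`: on the classes
  `β ≫ c` the pairing is the reciprocity pairing `recMap`),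
* for `IsBaseCF.IsGlobal`: `yPair_one_injective_smFp` (existence theorem), `ext_three_smFp_eq_zero`.
-/
import Fermat.Agent.CFT.Sm.Compare_helper9
import Fermat.Agent.CFT.Sm.Shapiro_helper9
import Fermat.Agent.CFT.Sm.ExtTorsion_helper5

set_option autoImplicit false

open CategoryTheory CategoryTheory.Limits CategoryTheory.Abelian

namespace Fermat.Agent.CFT.Sm

variable {Γ : Type} [Group Γ] (𝒰 : OpenBasis Γ) (p : ℕ) [hp : Fact p.Prime]

section Basic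

/-- The trivial representation `ZMod p`. -/
noncomputable abbrev smFp : SmRep ℤ 𝒰 := trivSm ℤ 𝒰 (ZMod p)

omit hp in
lemma bockstein_f_eq : (bockstein 𝒰 p).f = p • 𝟙 (smUnit ℤ 𝒰) := by
  apply ObjectProperty.hom_ext
  apply Rep.hom_ext
  apply Representation.IntertwiningMap.ext
  apply LinearMap.ext
  intro (x : ℤ)
  refine Eq.trans ?_ (smRep_nsmul_hom_apply p (𝟙 (smUnit ℤ 𝒰)) x).symm
  change (p : ℤ) • x = p • x
  simp

lemma nsmul_id_smFp : p • 𝟙 (smFp 𝒰 p) = 0 := by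
  apply smRep_nsmul_id_eq_zero
  intro x
  change p • (show ZMod p from x) = 0
  simp

/-- every morphism `ℤ ⟶ ZMod p` is a multiple of the projection -/
lemma exists_eq_zsmul_bockstein_g (f : smUnit ℤ 𝒰 ⟶ smFp 𝒰 p) :
    ∃ n : ℤ, f = n • (bockstein 𝒰 p).g := by
  obtain ⟨n, hn⟩ := ZMod.intCast_surjective (show ZMod p from f.hom.hom (1 : ℤ))
  refine ⟨n, ?_⟩
  apply ObjectProperty.hom_ext
  apply Rep.hom_ext
  apply Representation.IntertwiningMap.ext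
  apply LinearMap.ext
  intro (x : ℤ)
  change f.hom.hom x = n • ((x : ℤ) : ZMod p)
  have h1 : f.hom.hom x = x • f.hom.hom (1 : ℤ) := by
    have h2 : x = x • (1 : ℤ) := (mul_one x).symm
    exact (congrArg f.hom.hom h2).trans (map_zsmul f.hom.hom x (1 : ℤ))
  rw [h1]
  change x • (show ZMod p from f.hom.hom (1 : ℤ)) = _
  rw [← hn]
  simp [mul_comm]

end Basic

section Circle

lemma addCircle_exists_zsmul_inv (p : ℕ) (hp : p ≠ 0) (a : AddCircle (1 : ℚ)) (ha : p • a = 0) :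
    ∃ n : ℤ, a = n • (((p : ℚ)⁻¹ : ℚ) : AddCircle (1 : ℚ)) := by
  obtain ⟨q, rfl⟩ := QuotientAddGroup.mk_surjective a
  have h1 : ((p • q : ℚ) : AddCircle (1 : ℚ)) = 0 := ha
  rw [AddCircle.coe_eq_zero_iff] at h1
  obtain ⟨n, hn⟩ := h1
  refine ⟨n, ?_⟩
  have hp' : (p : ℚ) ≠ 0 := by exact_mod_cast hp
  have h2 : q = n • (p : ℚ)⁻¹ := by
    simp only [zsmul_eq_mul, mul_one, nsmul_eq_mul] at hn ⊢
    field_simp
    linarith
  rw [h2]
  rfl

end Circle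

section Duality

variable {𝒰 p} (C : SmRep ℤ 𝒰) (inv : smH 𝒰 C 2 →+ AddCircle (1 : ℚ))

/-- the invariant map on `Ext²(𝟙, C)` -/
noncomputable def tInv : Ext (smUnit ℤ 𝒰) C 2 →+ AddCircle (1 : ℚ) :=
  inv.comp (smUnitCompare C 2).toAddMonoidHom

lemma tInv_apply (y : Ext (smUnit ℤ 𝒰) C 2) : tInv C inv y = inv (smUnitCompare C 2 y) := rfl

variable {C inv}

variable (𝒰 p) in
/-- the projection `ℤ ⟶ ZMod p` -/
noncomputable def bockπ : smUnit ℤ 𝒰 ⟶ smFp 𝒰 p := (bockstein 𝒰 p).g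

/-- the Bockstein class `β ∈ Ext¹(ZMod p, ℤ)` -/
noncomputable def bockClass : Ext (smFp 𝒰 p) (smUnit ℤ 𝒰) 1 :=
  (bockstein_shortExact 𝒰 p hp.out.ne_zero).extClass

omit hp in
lemma mk₀_bockstein_f_comp {Y : SmRep ℤ 𝒰} {n : ℕ} (y : Ext (smUnit ℤ 𝒰) Y n) :
    (Ext.mk₀ (bockstein 𝒰 p).f).comp y (zero_add n) = p • y := by
  have h : (Ext.mk₀ (p • 𝟙 (smUnit ℤ 𝒰))).comp y (zero_add n) = p • y :=
    ext_mk₀_nsmul_id_comp p y
  refine Eq.trans ?_ h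
  exact congrArg (fun f => (Ext.mk₀ f).comp y (zero_add n)) (bockstein_f_eq 𝒰 p)

/-- `Ext^•(ZMod p, Y)` is killed by `p`. -/
lemma nsmul_ext_smFp {Y : SmRep ℤ 𝒰} {n : ℕ} (e : Ext (smFp 𝒰 p) Y n) : p • e = 0 :=
  ext_nsmul_eq_zero_of_left p (nsmul_id_smFp 𝒰 p) e

/-- `Ext^•(Y, ZMod p)` is killed by `p`. -/
lemma nsmul_ext_smFp_right {Y : SmRep ℤ 𝒰} {n : ℕ} (e : Ext Y (smFp 𝒰 p) n) : p • e = 0 :=
  ext_nsmul_eq_zero_of_right p (nsmul_id_smFp 𝒰 p) e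

/-- if `π ≫ e = 0` then `e` comes from `Ext^{n}(𝟙, Y)` via the Bockstein class -/
lemma exists_bockClass_comp {Y : SmRep ℤ 𝒰} {n : ℕ} (e : Ext (smFp 𝒰 p) Y (n + 1))
    (he : (Ext.mk₀ (bockπ 𝒰 p)).comp e (zero_add (n + 1)) = 0) :
    ∃ y : Ext (smUnit ℤ 𝒰) Y n, (bockClass (𝒰 := 𝒰) (p := p)).comp y (add_comm 1 n) = e :=
  Ext.contravariant_sequence_exact₃ (bockstein_shortExact 𝒰 p hp.out.ne_zero) Y e he
    (add_comm 1 n)

/-- `p`-torsion classes of `Extⁿ(𝟙, Y)` come from `Extⁿ(ZMod p, Y)` -/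
lemma exists_mk₀_g_comp {Y : SmRep ℤ 𝒰} {n : ℕ} (y : Ext (smUnit ℤ 𝒰) Y n) (hy : p • y = 0) :
    ∃ e : Ext (smFp 𝒰 p) Y n, (Ext.mk₀ (bockπ 𝒰 p)).comp e (zero_add n) = y :=
  Ext.contravariant_sequence_exact₂ (bockstein_shortExact 𝒰 p hp.out.ne_zero) Y y
    ((mk₀_bockstein_f_comp y).trans hy)

/-- `π ≫ e` is `p`-torsion -/
lemma nsmul_mk₀_g_comp {Y : SmRep ℤ 𝒰} {n : ℕ} (e : Ext (smFp 𝒰 p) Y n) :
    p • (Ext.mk₀ (bockπ 𝒰 p)).comp e (zero_add n) = 0 := by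
  rw [← ext_comp_nsmul, nsmul_ext_smFp, Ext.comp_zero]

/-- `β ≫ (p • y) = 0` -/
lemma bockClass_comp_nsmul {Y : SmRep ℤ 𝒰} {n m : ℕ} (h : 1 + n = m) (y : Ext (smUnit ℤ 𝒰) Y n) :
    (bockClass (𝒰 := 𝒰) (p := p)).comp (p • y) h = 0 := by
  rw [ext_comp_nsmul]
  exact nsmul_ext_smFp _


section Base

variable (hb : IsBaseCF 𝒰 p C inv)

include hb

lemma IsBaseCF.ext_one_nsmul_injective (y : Ext (smUnit ℤ 𝒰) C 1) (hy : p • y = 0) : y = 0 := by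
  have h1 : p • smUnitCompare C 1 y = 0 := by rw [← map_nsmul, hy, map_zero]
  have h2 : smUnitCompare C 1 y = 0 := hb.h1_bij.1 (h1.trans (smul_zero p).symm)
  exact (AddEquiv.map_eq_zero_iff _).1 h2

lemma IsBaseCF.ext_one_nsmul_surjective (y : Ext (smUnit ℤ 𝒰) C 1) :
    ∃ y' : Ext (smUnit ℤ 𝒰) C 1, p • y' = y := by
  obtain ⟨x, hx⟩ := hb.h1_bij.2 (smUnitCompare C 1 y)
  refine ⟨(smUnitCompare C 1).symm x, ?_⟩
  apply (smUnitCompare C 1).injective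
  rw [map_nsmul, AddEquiv.apply_symm_apply]
  exact hx

lemma IsBaseCF.ext_two_eq_zero (y : Ext (smUnit ℤ 𝒰) C 2) (hy : p • y = 0)
    (ht : tInv C inv y = 0) : y = 0 := by
  have h1 : p • smUnitCompare C 2 y = 0 := by rw [← map_nsmul, hy, map_zero]
  exact (AddEquiv.map_eq_zero_iff _).1 (hb.inv_inj _ h1 ht)

lemma IsBaseCF.ext_two_nsmul_surjective (y : Ext (smUnit ℤ 𝒰) C 2) :
    ∃ y' : Ext (smUnit ℤ 𝒰) C 2, p • y' = y := by
  obtain ⟨x, hx⟩ := hb.h2_div (smUnitCompare C 2 y)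
  refine ⟨(smUnitCompare C 2).symm x, ?_⟩
  apply (smUnitCompare C 2).injective
  rw [map_nsmul, AddEquiv.apply_symm_apply]
  exact hx

/-- `α²(ZMod p)` is injective. -/
theorem IsBaseCF.yPair_two_injective_smFp :
    Function.Injective
      (yPair (smUnit ℤ 𝒰) C (tInv C inv) (show 0 + 2 = 2 from rfl) (smFp 𝒰 p)) := by
  rw [injective_iff_map_eq_zero]
  intro e he
  have h1 : tInv C inv ((Ext.mk₀ (bockπ 𝒰 p)).comp e (zero_add 2)) = 0 := by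
    have := DFunLike.congr_fun he (Ext.mk₀ (bockπ 𝒰 p))
    rwa [yPair_apply] at this
  have h2 := hb.ext_two_eq_zero _ (nsmul_mk₀_g_comp e) h1
  obtain ⟨y, rfl⟩ := exists_bockClass_comp e h2
  obtain ⟨y', rfl⟩ := hb.ext_one_nsmul_surjective y
  exact bockClass_comp_nsmul _ y'

/-- `α²(ZMod p)` is surjective. -/
theorem IsBaseCF.yPair_two_surjective_smFp :
    Function.Surjective
      (yPair (smUnit ℤ 𝒰) C (tInv C inv) (show 0 + 2 = 2 from rfl) (smFp 𝒰 p)) := by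
  intro φ
  have ha : p • φ (Ext.mk₀ (bockπ 𝒰 p)) = 0 := by
    rw [← map_nsmul, nsmul_ext_smFp_right, map_zero]
  obtain ⟨n, hn⟩ := addCircle_exists_zsmul_inv p hp.out.ne_zero _ ha
  obtain ⟨x₀, hx₀, hinv⟩ := hb.inv_surj
  let y : Ext (smUnit ℤ 𝒰) C 2 := n • (smUnitCompare C 2).symm x₀
  have hy : p • y = 0 := by
    change p • (n • (smUnitCompare C 2).symm x₀) = 0
    rw [smul_comm, ← map_nsmul, hx₀, map_zero, smul_zero]
  have hty : tInv C inv y = φ (Ext.mk₀ (bockπ 𝒰 p)) := by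
    change tInv C inv (n • (smUnitCompare C 2).symm x₀) = _
    rw [map_zsmul, tInv_apply, AddEquiv.apply_symm_apply, hinv, hn]
  obtain ⟨e, he⟩ := exists_mk₀_g_comp y hy
  refine ⟨e, ?_⟩
  ext x
  obtain ⟨f, rfl⟩ := (Ext.mk₀_bijective _ _).2 x
  obtain ⟨m, rfl⟩ := exists_eq_zsmul_bockstein_g 𝒰 p f
  change tInv C inv ((Ext.mk₀ (m • bockπ 𝒰 p)).comp e (zero_add 2)) = φ (Ext.mk₀ (m • bockπ 𝒰 p))
  rw [mk₀_zsmul_comp, map_zsmul, he, hty]
  have h3 : Ext.mk₀ (m • bockπ 𝒰 p) = m • Ext.mk₀ (bockπ 𝒰 p) :=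
    map_zsmul (Ext.addEquiv₀ (X := smUnit ℤ 𝒰) (Y := smFp 𝒰 p)).symm m (bockπ 𝒰 p)
  rw [h3, map_zsmul]


omit hb in
/-- The pairing `α¹` on the classes `β ≫ c` is the reciprocity pairing `recMap`. -/
lemma yPair_one_bockClass (c : C.obj.V) (hc : ∀ g, C.obj.ρ g c = c)
    (x : Ext (smUnit ℤ 𝒰) (smFp 𝒰 p) 1) :
    yPair (smUnit ℤ 𝒰) C (tInv C inv) (show 1 + 1 = 2 from rfl) (smFp 𝒰 p)
      ((bockClass (𝒰 := 𝒰) (p := p)).comp (Ext.mk₀ (ofInvariant C c hc)) (add_zero 1)) x =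
      recMap 𝒰 p C inv c hc (smUnitCompare (smFp 𝒰 p) 1 x) := by
  rw [yPair_apply]
  have h1 : x.comp ((bockClass (𝒰 := 𝒰) (p := p)).comp (Ext.mk₀ (ofInvariant C c hc))
      (add_zero 1)) (show 1 + 1 = 2 from rfl) =
      (x.comp (bockClass (𝒰 := 𝒰) (p := p)) (show 1 + 1 = 2 from rfl)).comp
        (Ext.mk₀ (ofInvariant C c hc)) (add_zero 2) := by
    symm
    apply Ext.comp_assoc
    lia
  rw [h1, tInv_apply, smUnitCompare_naturality]
  have h2 := smUnitCompare_δ (bockstein_shortExact 𝒰 p hp.out.ne_zero) 1 x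
  change inv (((smHFunctor ℤ 𝒰 2).map (ofInvariant C c hc)).hom
    (smUnitCompare (smUnit ℤ 𝒰) 2 (x.comp (bockClass (𝒰 := 𝒰) (p := p)) rfl))) = _
  rw [show smUnitCompare (smUnit ℤ 𝒰) 2 (x.comp (bockClass (𝒰 := 𝒰) (p := p)) rfl) = _ from h2]
  rfl

omit hb in
/-- every morphism `𝟙 ⟶ C` is `ofInvariant` of an invariant vector -/
lemma exists_ofInvariant_eq (f : smUnit ℤ 𝒰 ⟶ C) :
    ∃ (c : C.obj.V) (hc : ∀ g, C.obj.ρ g c = c), ofInvariant C c hc = f :=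
  ⟨(unitHomEquiv C f).1, (unitHomEquiv C f).2, (unitHomEquiv C).symm_apply_apply f⟩

/-- every class in `Ext¹(ZMod p, C)` is of the form `β ≫ c` -/
lemma IsBaseCF.exists_bockClass_comp_ofInvariant (e : Ext (smFp 𝒰 p) C 1) :
    ∃ (c : C.obj.V) (hc : ∀ g, C.obj.ρ g c = c),
      (bockClass (𝒰 := 𝒰) (p := p)).comp (Ext.mk₀ (ofInvariant C c hc)) (add_zero 1) = e := by
  have h2 := hb.ext_one_nsmul_injective _ (nsmul_mk₀_g_comp e)
  obtain ⟨y, rfl⟩ := exists_bockClass_comp (n := 0) e h2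
  obtain ⟨f, rfl⟩ := (Ext.mk₀_bijective _ _).2 y
  obtain ⟨c, hc, rfl⟩ := exists_ofInvariant_eq f
  exact ⟨c, hc, rfl⟩

/-- `α¹(ZMod p)` is surjective. -/
theorem IsBaseCF.yPair_one_surjective_smFp :
    Function.Surjective
      (yPair (smUnit ℤ 𝒰) C (tInv C inv) (show 1 + 1 = 2 from rfl) (smFp 𝒰 p)) := by
  intro φ
  obtain ⟨c, hc, hrec⟩ := hb.rec_surj (φ.comp (smUnitCompare (smFp 𝒰 p) 1).symm.toAddMonoidHom)
  refine ⟨(bockClass (𝒰 := 𝒰) (p := p)).comp (Ext.mk₀ (ofInvariant C c hc)) (add_zero 1), ?_⟩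
  ext x
  rw [yPair_one_bockClass, hrec]
  change φ ((smUnitCompare (smFp 𝒰 p) 1).symm (smUnitCompare (smFp 𝒰 p) 1 x)) = φ x
  rw [AddEquiv.symm_apply_apply]

end Base


section Global

variable (hb : IsBaseCF 𝒰 p C inv) (hg : IsBaseCF.IsGlobal 𝒰 p C inv)

omit hp in
lemma ofInvariant_nsmul (c' : C.obj.V) (hc' : ∀ g, C.obj.ρ g c' = c') (n : ℕ)
    (hc : ∀ g, C.obj.ρ g (n • c') = n • c') :
    ofInvariant C (n • c') hc = n • ofInvariant C c' hc' := by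
  apply (unitHomEquiv C).injective
  rw [map_nsmul]
  have h1 : unitHomEquiv C (ofInvariant C (n • c') hc) = ⟨n • c', hc⟩ :=
    (unitHomEquiv C).apply_symm_apply ⟨n • c', hc⟩
  have h2 : unitHomEquiv C (ofInvariant C c' hc') = ⟨c', hc'⟩ :=
    (unitHomEquiv C).apply_symm_apply ⟨c', hc'⟩
  rw [h1, h2]
  rfl

include hb hg in
/-- `α¹(ZMod p)` is injective for a global class formation (existence theorem). -/
theorem IsBaseCF.IsGlobal.yPair_one_injective_smFp :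
    Function.Injective
      (yPair (smUnit ℤ 𝒰) C (tInv C inv) (show 1 + 1 = 2 from rfl) (smFp 𝒰 p)) := by
  rw [injective_iff_map_eq_zero]
  intro e he
  obtain ⟨c, hc, rfl⟩ := hb.exists_bockClass_comp_ofInvariant e
  have h1 : recMap 𝒰 p C inv c hc = 0 := by
    ext χ
    have := DFunLike.congr_fun he ((smUnitCompare (smFp 𝒰 p) 1).symm χ)
    rw [yPair_one_bockClass, AddEquiv.apply_symm_apply] at this
    exact this
  obtain ⟨c', hc', rfl⟩ := hg.rec_ker c hc h1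
  rw [ofInvariant_nsmul c' hc' p hc, ext_mk₀_nsmul, ext_comp_nsmul]
  exact nsmul_ext_smFp _

include hb hg in
/-- `Ext³(ZMod p, C) = 0` for a global class formation. -/
theorem IsBaseCF.IsGlobal.ext_three_smFp_eq_zero (e : Ext (smFp 𝒰 p) C 3) : e = 0 := by
  have h1 : (Ext.mk₀ (bockπ 𝒰 p)).comp e (zero_add 3) = 0 := by
    have h2 : p • smUnitCompare C 3 ((Ext.mk₀ (bockπ 𝒰 p)).comp e (zero_add 3)) = 0 := by
      rw [← map_nsmul, nsmul_mk₀_g_comp, map_zero]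
    exact (AddEquiv.map_eq_zero_iff _).1 (hg.h3 _ h2)
  obtain ⟨y, rfl⟩ := exists_bockClass_comp (n := 2) e h1
  obtain ⟨y', rfl⟩ := hb.ext_two_nsmul_surjective y
  exact bockClass_comp_nsmul _ y'

end Global

end Duality

end Fermat.Agent.CFT.Sm
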