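/-
S55 / CFT (PT5, abstract part) — helper4.
Level formations: a cofinal family of levels `V` of `(Γ, 𝒰, C)` with fundamental cocycles
`f_V ∈ Z²(Γ ⧸ V, C^V)` compatible with inflation. The invariant map
`inv : smH 𝒰 C 2 →+ ℚ/ℤ` of a level formation and its basic properties.
-/
import Fermat.Agent.CFT.Sm.FL_helper4_Lift
import Fermat.Agent.CFT.Sm.FL_helper4_Low
import Fermat.Agent.CFT.Coh.FundInv_helper4

set_option autoImplicit false
set_option linter.unusedSectionVars false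
set_option linter.style.haveILetI false

open CategoryTheory CategoryTheory.Limits groupCohomology

namespace Fermat.Agent.CFT.Sm

open Fermat.Agent.CFT.Coh

variable {Γ : Type} [Group Γ] {𝒰 : OpenBasis Γ}

lemma OpenBasis.finite_quotient (𝒰 : OpenBasis Γ) {V : Subgroup Γ} (hV : V ∈ 𝒰.sets) :
    Finite (Γ ⧸ V) := by
  haveI := 𝒰.finiteIndex V hV
  exact Subgroup.finite_quotient_of_finiteIndex

/-- A level formation on `(Γ, 𝒰, C)`: a cofinal family of levels with top-level fundamental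
cocycles, compatible with inflation. -/
structure LevelFormation (𝒰 : OpenBasis Γ) (C : SmRep ℤ 𝒰) extends LevelFamily 𝒰 where
  /-- the fundamental cocycles -/
  f : ∀ (V : Subgroup Γ) [V.Normal], V ∈ lev → cocycles₂ (levelRep C V)
  top : ∀ (V : Subgroup Γ) [V.Normal] [Finite (Γ ⧸ V)] (hV : V ∈ lev),
    IsTopFundamental (levelRep C V) (f V hV)
  infl : ∀ (W V : Subgroup Γ) [W.Normal] [V.Normal] (hW : W ∈ lev) (hV : V ∈ lev) (hWV : W ≤ V),
    (inflTrans C W V hWV 2).hom ((H2π (levelRep C V)).hom (f V hV)) =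
      ((W.index / V.index : ℕ) : ℤ) • (H2π (levelRep C W)).hom (f W hW)

namespace LevelFormation

variable {C : SmRep ℤ 𝒰} (ℱ : LevelFormation 𝒰 C)

lemma finite_quotient {V : Subgroup Γ} (hV : V ∈ ℱ.lev) : Finite (Γ ⧸ V) :=
  𝒰.finite_quotient (ℱ.lev_sub hV)

lemma card_quotient (V : Subgroup Γ) : Nat.card (Γ ⧸ V) = V.index := (Subgroup.index_eq_card V).symm

lemma index_pos {V : Subgroup Γ} (hV : V ∈ ℱ.lev) : 0 < V.index := by
  haveI := 𝒰.finiteIndex V (ℱ.lev_sub hV)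
  exact Nat.pos_of_ne_zero Subgroup.FiniteIndex.index_ne_zero

lemma div_mul_index {W V : Subgroup Γ} (hWV : W ≤ V) : W.index / V.index * V.index = W.index :=
  Nat.div_mul_cancel (Subgroup.index_dvd_of_le hWV)

/-- The invariant map of the level `V`. -/
noncomputable def invLevel (V : Subgroup Γ) [V.Normal] (hV : V ∈ ℱ.lev) :
    groupCohomology (levelRep C V) 2 →+ AddCircle (1 : ℚ) :=
  haveI := ℱ.finite_quotient hV
  fundInv (ℱ.top V hV)

lemma invLevel_zsmul (V : Subgroup Γ) [V.Normal] (hV : V ∈ ℱ.lev) (m : ℤ) :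
    ℱ.invLevel V hV (m • (H2π (levelRep C V)).hom (ℱ.f V hV)) =
      (((m : ℚ) / (V.index : ℚ) : ℚ) : AddCircle (1 : ℚ)) := by
  haveI := ℱ.finite_quotient hV
  rw [invLevel, fundInv_zsmul, card_quotient]

lemma invLevel_injective (V : Subgroup Γ) [V.Normal] (hV : V ∈ ℱ.lev) :
    Function.Injective (ℱ.invLevel V hV) := by
  haveI := ℱ.finite_quotient hV
  exact fundInv_injective (ℱ.top V hV)

lemma exists_zsmul_eq (V : Subgroup Γ) [V.Normal] (hV : V ∈ ℱ.lev)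
    (y : groupCohomology (levelRep C V) 2) :
    ∃ m : ℤ, y = m • (H2π (levelRep C V)).hom (ℱ.f V hV) := by
  haveI := ℱ.finite_quotient hV
  exact (ℱ.top V hV).gen y

lemma zsmul_eq_zero_iff (V : Subgroup Γ) [V.Normal] (hV : V ∈ ℱ.lev) (m : ℤ) :
    m • (H2π (levelRep C V)).hom (ℱ.f V hV) = 0 ↔ (V.index : ℤ) ∣ m := by
  haveI := ℱ.finite_quotient hV
  rw [(ℱ.top V hV).zsmul_eq_zero_iff, card_quotient]

/-- The compatible family of invariant maps. -/
noncomputable def invCocone : LevelCocone ℱ.toLevelFamily C 2 (AddCircle (1 : ℚ)) where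
  φ V _ hV := ℱ.invLevel V hV
  compat W V _ _ hW hV hWV y := by
    obtain ⟨m, rfl⟩ := ℱ.exists_zsmul_eq V hV y
    rw [map_zsmul, ℱ.infl W V hW hV hWV, ← mul_zsmul, invLevel_zsmul, invLevel_zsmul]
    congr 1
    have h1 := div_mul_index hWV
    have hV0 : (V.index : ℚ) ≠ 0 := by exact_mod_cast (ℱ.index_pos hV).ne'
    have hW0 : (W.index : ℚ) ≠ 0 := by exact_mod_cast (ℱ.index_pos hW).ne'
    have h2 : ((W.index / V.index : ℕ) : ℚ) * V.index = W.index := by exact_mod_cast h1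
    have hd0 : ((W.index / V.index : ℕ) : ℚ) ≠ 0 := by
      intro h0
      rw [h0, zero_mul] at h2
      exact hW0 h2.symm
    rw [Int.cast_mul, Int.cast_natCast, ← h2]
    field_simp

/-- **The invariant map** `H²(Γ, C) →+ ℚ/ℤ` of a level formation. -/
noncomputable def inv : smH 𝒰 C 2 →+ AddCircle (1 : ℚ) := ℱ.invCocone.smHLift

lemma inv_inflLevel (V : Subgroup Γ) [V.Normal] (hV : V ∈ ℱ.lev)
    (y : groupCohomology (levelRep C V) 2) :
    ℱ.inv ((inflLevel C V (ℱ.isOpen hV) 2).hom y) = ℱ.invLevel V hV y :=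
  ℱ.invCocone.smHLift_inflLevel hV y

/-- The invariant map is injective. -/
theorem inv_injective : Function.Injective ℱ.inv := by
  rw [injective_iff_map_eq_zero]
  intro x hx
  obtain ⟨V, hV, hex⟩ := ℱ.toLevelFamily.exists_inflLevel_eq C x
  haveI := ℱ.normal hV
  obtain ⟨y, rfl⟩ := hex
  rw [ℱ.inv_inflLevel V hV y] at hx
  have : y = 0 := ℱ.invLevel_injective V hV (by rw [hx, map_zero])
  rw [this, map_zero]

include ℱ in
/-- `H¹(Γ, C) = 0`. -/
theorem isZero_smH_one : IsZero (smH 𝒰 C 1) := by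
  apply isZero_smH_of_cofinal
  intro U hU
  obtain ⟨V, hV, hVU⟩ := ℱ.toLevelFamily.cofinal U hU
  refine ⟨V, ℱ.lev_sub hV, hVU, ?_⟩
  haveI := ℱ.normal hV
  haveI := ℱ.finite_quotient hV
  exact (ℱ.top V hV).h1

/-- The values of the invariant map: `1 / [Γ : V]` for a level `V`. -/
lemma inv_inflLevel_f (V : Subgroup Γ) [V.Normal] (hV : V ∈ ℱ.lev) (m : ℤ) :
    ℱ.inv ((inflLevel C V (ℱ.isOpen hV) 2).hom (m • (H2π (levelRep C V)).hom (ℱ.f V hV))) =
      (((m : ℚ) / (V.index : ℚ) : ℚ) : AddCircle (1 : ℚ)) := by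
  rw [ℱ.inv_inflLevel V hV, invLevel_zsmul]

/-- The degrees of the levels are divisible by arbitrarily high powers of `p`: below every level
there is a level of relative degree divisible by `p`. -/
def IsPCofinal (p : ℕ) : Prop :=
  ∀ V ∈ ℱ.lev, ∃ W ∈ ℱ.lev, W ≤ V ∧ p ∣ W.index / V.index

include ℱ in
lemma exists_mem_lev : ∃ V, V ∈ ℱ.lev := by
  obtain ⟨U, hU⟩ := 𝒰.nonempty
  obtain ⟨V, hV, -⟩ := ℱ.toLevelFamily.cofinal U hU
  exact ⟨V, hV⟩

/-- (CF2b) `1/p` is an invariant. -/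
theorem exists_inv_eq_inv_p {p : ℕ} (hp : p ≠ 0) (hcof : ℱ.IsPCofinal p) :
    ∃ x : smH 𝒰 C 2, p • x = 0 ∧ ℱ.inv x = (((p : ℚ)⁻¹ : ℚ) : AddCircle (1 : ℚ)) := by
  obtain ⟨V, hV⟩ := ℱ.exists_mem_lev
  obtain ⟨W, hW, hWV, hdvd⟩ := hcof V hV
  haveI := ℱ.normal hW
  have hpW : p ∣ W.index := by
    rw [← div_mul_index hWV]
    exact Dvd.dvd.mul_right hdvd _
  obtain ⟨e, he⟩ := hpW
  refine ⟨(inflLevel C W (ℱ.isOpen hW) 2).hom (((e : ℕ) : ℤ) • (H2π (levelRep C W)).hom (ℱ.f W hW)),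
    ?_, ?_⟩
  · rw [← map_nsmul, ← natCast_zsmul, ← mul_zsmul]
    have : ((p : ℤ) * (e : ℤ)) • (H2π (levelRep C W)).hom (ℱ.f W hW) = 0 := by
      rw [ℱ.zsmul_eq_zero_iff W hW]
      exact ⟨1, by rw [he]; push_cast; ring⟩
    rw [this, map_zero]
  · rw [ℱ.inv_inflLevel_f W hW]
    congr 1
    have hp0 : (p : ℚ) ≠ 0 := by exact_mod_cast hp
    have he0 : (e : ℚ) ≠ 0 := by
      intro h0
      have : e = 0 := by exact_mod_cast h0
      rw [this, mul_zero] at he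
      exact (ℱ.index_pos hW).ne' he
    rw [he]
    push_cast
    field_simp

/-- (CF2c) `H²(Γ, C)` is `p`-divisible. -/
theorem exists_nsmul_eq {p : ℕ} (hcof : ℱ.IsPCofinal p) (x : smH 𝒰 C 2) :
    ∃ y : smH 𝒰 C 2, p • y = x := by
  obtain ⟨V, hV, hex⟩ := ℱ.toLevelFamily.exists_inflLevel_eq C x
  haveI := ℱ.normal hV
  obtain ⟨y, rfl⟩ := hex
  obtain ⟨m, rfl⟩ := ℱ.exists_zsmul_eq V hV y
  obtain ⟨W, hW, hWV, hdvd⟩ := hcof V hV
  haveI := ℱ.normal hW
  obtain ⟨e, he⟩ := hdvd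
  refine ⟨(inflLevel C W (ℱ.isOpen hW) 2).hom ((m * (e : ℤ)) • (H2π (levelRep C W)).hom (ℱ.f W hW)),
    ?_⟩
  have h1 : (inflTrans C W V hWV 2).hom (m • (H2π (levelRep C V)).hom (ℱ.f V hV)) =
      (m * ((W.index / V.index : ℕ) : ℤ)) • (H2π (levelRep C W)).hom (ℱ.f W hW) := by
    rw [map_zsmul, ℱ.infl W V hW hV hWV, ← mul_zsmul]
  rw [← inflLevel_inflTrans_apply C W V hWV (ℱ.isOpen hW) (ℱ.isOpen hV) 2, h1, ← map_nsmul,
    ← natCast_zsmul, ← mul_zsmul, he]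
  congr 2
  push_cast
  ring

end LevelFormation

end Fermat.Agent.CFT.Sm
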