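/-
S55 / CFT (E-CF, coarse → fine local comparison) — helper5.
One group `G` with two bases `𝒱` finer than `𝒰`: `refineSm k fine : SmRep k 𝒰 ⥤ SmRep k 𝒱` (same
representation, finer basis; exact), its right adjoint `coarseSm k 𝒰 𝒱` (coarse-smooth vectors),
`refineCoarseAdjunction`. If `H¹(U, B) = 0` for the members `U` of the coarse basis then
`Ext¹_𝒰(X, B^{coarse}) ≃ Ext¹_𝒱(X, B)` and `Ext²_𝒰(X, B^{coarse}) ↪ Ext²_𝒱(X, B)`
(`refineCoarse_extAdjInv_one_bijective`, `refineCoarse_extAdjInv_two_injective`), and for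
`κ : J_v → B` injective with image the coarse-smooth vectors: **(CF0/CF1/CF2)**
`coarseFine_ext_zero_bijective`, `coarseFine_ext_one_bijective`, `coarseFine_ext_two_injective`.
Composite with Shapiro along `ψ : G → Γ` (`𝒰.comap ψ` coarse, `𝒱` fine): `shapiroFineMap`
`Extⁿ_Γ(X, coind J_v) → Extⁿ_{G,𝒱}(res X, B)`, bijective for `n = 0, 1`, injective for `n = 2`.
-/
import Fermat.Agent.CFT.Sm.Shapiro_helper9
import Fermat.Agent.CFT.Sm.Transfer_helper5_Epi
import Fermat.Agent.CFT.Sm.Functors_helper9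
import Fermat.Agent.CFT.Sm.ExtTorsion_helper5

set_option autoImplicit false

open CategoryTheory CategoryTheory.Limits CategoryTheory.Abelian

namespace Fermat.Agent.CFT.Sm

section Refine

variable {k G : Type} [CommRing k] [Group G] {𝒰 𝒱 : OpenBasis G} (fine : 𝒱.Finer 𝒰)

variable (k) in
/-- The same representation, regarded as smooth for a finer basis. -/
noncomputable def refineSm : SmRep k 𝒰 ⥤ SmRep k 𝒱 :=
  ObjectProperty.lift _ (smoothProp k 𝒰).ι (fun A => IsSmooth.of_finer fine A.property)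

lemma refineSm_map_hom_hom {A B : SmRep k 𝒰} (f : A ⟶ B) (a : A.obj.V) :
    ((refineSm k fine).map f).hom.hom a = f.hom.hom a := rfl

instance : (refineSm k fine).Additive where
  map_add {X Y f g} := by
    apply ObjectProperty.hom_ext
    rfl

lemma refineSm_shortExact {X : ShortComplex (SmRep k 𝒰)} (hX : X.ShortExact) :
    (X.map (refineSm k fine)).ShortExact := by
  rw [shortExact_iff] at hX ⊢
  exact hX

instance : PreservesFiniteLimits (refineSm k fine) := by
  have := ((Functor.preservesFiniteLimits_tfae (refineSm k fine)).out 0 3 rfl rfl).1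
  apply this
  intro S hS
  have := refineSm_shortExact fine hS
  exact ⟨this.exact, this.mono_f⟩

instance : PreservesFiniteColimits (refineSm k fine) := by
  have := ((Functor.preservesFiniteColimits_tfae (refineSm k fine)).out 0 3 rfl rfl).1
  apply this
  intro S hS
  have := refineSm_shortExact fine hS
  exact ⟨this.exact, this.epi_g⟩

variable (k 𝒰 𝒱) in
/-- The functor of coarse-smooth vectors. -/
noncomputable def coarseSm : SmRep k 𝒱 ⥤ SmRep k 𝒰 :=
  (smoothProp k 𝒱).ι ⋙ smoothPartFunctor k 𝒰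

variable (k) in
/-- `refineSm ⊣ coarseSm`. -/
noncomputable def refineCoarseAdjunction : refineSm k fine ⊣ coarseSm k 𝒰 𝒱 :=
  Adjunction.restrictFullyFaithful
    (iC := 𝟭 (SmRep k 𝒰)) (iD := (smoothProp k 𝒱).ι)
    (smoothAdjunction k 𝒰)
    (Functor.FullyFaithful.id _) (ObjectProperty.fullyFaithfulι _)
    (Iso.refl _) (Iso.refl _)

lemma refineCoarse_counit_apply (B : SmRep k 𝒱) (x : ((coarseSm k 𝒰 𝒱).obj B).obj.V) :
    ((refineCoarseAdjunction k fine).counit.app B).hom.hom x = (smoothPartι 𝒰 B.obj).hom x := rfl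

lemma refineCoarse_homEquiv_apply (X : SmRep k 𝒰) (B : SmRep k 𝒱)
    (f : (refineSm k fine).obj X ⟶ B) (x : X.obj.V) :
    (smoothPartι 𝒰 B.obj).hom (((refineCoarseAdjunction k fine).homEquiv X B f).hom.hom x) =
      f.hom.hom x := rfl

instance : (coarseSm k 𝒰 𝒱).Additive where
  map_add {X Y f g} := by
    apply ObjectProperty.hom_ext
    ext x
    apply smoothPartι_injective 𝒰
    rfl

include fine in
lemma preservesFiniteLimits_coarseSm : PreservesFiniteLimits (coarseSm k 𝒰 𝒱) := by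
  have := (refineCoarseAdjunction k fine).rightAdjoint_preservesLimits
  infer_instance

section CoarseEpi

variable {S' : ShortComplex (SmRep k 𝒱)} (hS' : S'.ShortExact)

include hS' in
/-- "`R¹(coarse part)(A) = 0`": if `H¹(U, A) = 0` for the members `U` of the coarse basis, then
taking coarse-smooth vectors preserves the surjectivity of `Q → Q/A`. -/
lemma coarseSm_map_g_surjective
    (h90 : ∀ U ∈ 𝒰.sets, ∀ x : smH (𝒱.sub U) (resSub S'.X₁ U) 1, x = 0) :
    Function.Surjective ((coarseSm k 𝒰 𝒱).map S'.g).hom.hom := by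
  intro cbar
  obtain ⟨U, hU, hfix⟩ := smoothPartι_mem 𝒰 S'.X₃.obj cbar
  set d : S'.X₃.obj.V := (smoothPartι 𝒰 S'.X₃.obj).hom cbar with hd
  have hSU := resSm_shortExact U.subtype (OpenBasis.Finer.refl (𝒱.sub U)) hS'
  obtain ⟨c, hc, hcd⟩ := exists_invariant_lift hSU (h90 U hU) d (fun g => hfix g.1 g.2)
  have hcs : (c : S'.X₂.obj.V) ∈ smoothSub 𝒰 S'.X₂.obj := ⟨U, hU, fun g hg => hc ⟨g, hg⟩⟩
  refine ⟨(show ↥(smoothSub 𝒰 S'.X₂.obj) from ⟨c, hcs⟩), ?_⟩
  apply smoothPartι_injective 𝒰 S'.X₃.obj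
  exact hcd

end CoarseEpi

section ExtAdj

variable (B : SmRep k 𝒱)
  (h90 : ∀ U ∈ 𝒰.sets, ∀ x : smH (𝒱.sub U) (resSub B U) 1, x = 0)

/-- the injective presentation `0 → B → Q → Q/B → 0` -/
noncomputable def injSeq : ShortComplex (SmRep k 𝒱) :=
  ShortComplex.mk (Injective.ι B) (cokernel.π (Injective.ι B)) (cokernel.condition _)

lemma injSeq_shortExact : (injSeq B).ShortExact where
  exact := ShortComplex.exact_cokernel _
  mono_f := inferInstanceAs (Mono (Injective.ι B))
  epi_g := inferInstanceAs (Epi (cokernel.π (Injective.ι B)))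

instance : Injective (injSeq B).X₂ := inferInstanceAs (Injective (Injective.under B))

include h90 in
/-- `Ext¹_𝒰(X, B^{coarse}) → Ext¹_𝒱(X, B)` is bijective when `H¹(U, B) = 0` for the members `U`
of the coarse basis. -/
theorem refineCoarse_extAdjInv_one_bijective (X : SmRep k 𝒰) :
    Function.Bijective (extAdjInv (refineCoarseAdjunction k fine) X B 1) := by
  have := preservesFiniteLimits_coarseSm (k := k) fine
  have : Epi ((coarseSm k 𝒰 𝒱).map (injSeq B).g) :=
    (epi_iff_surjective _).2 (coarseSm_map_g_surjective (injSeq_shortExact B) h90)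
  exact extAdjInv_one_bijective_of_epi (refineCoarseAdjunction k fine) (injSeq_shortExact B) X

include h90 in
/-- `Ext²_𝒰(X, B^{coarse}) → Ext²_𝒱(X, B)` is injective when `H¹(U, B) = 0` for the members `U`
of the coarse basis. -/
theorem refineCoarse_extAdjInv_two_injective (X : SmRep k 𝒰) :
    Function.Injective (extAdjInv (refineCoarseAdjunction k fine) X B 2) := by
  have := preservesFiniteLimits_coarseSm (k := k) fine
  have : Epi ((coarseSm k 𝒰 𝒱).map (injSeq B).g) :=
    (epi_iff_surjective _).2 (coarseSm_map_g_surjective (injSeq_shortExact B) h90)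
  exact extAdjInv_two_injective_of_epi (refineCoarseAdjunction k fine) (injSeq_shortExact B) X

end ExtAdj

section Kappa

variable (Jv : SmRep k 𝒰) (B : SmRep k 𝒱) (κ : Jv.obj ⟶ B.obj)

/-- `κ : J_v → B` as a morphism of `𝒱`-smooth representations. -/
noncomputable def refineHom : (refineSm k fine).obj Jv ⟶ B := ObjectProperty.homMk κ

lemma refineHom_apply (j : Jv.obj.V) : (refineHom fine Jv B κ).hom.hom j = κ.hom j := rfl

/-- `κ` as a morphism from `J_v` to the coarse-smooth vectors of `B`. -/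
noncomputable def coarseHom : Jv ⟶ (coarseSm k 𝒰 𝒱).obj B :=
  (refineCoarseAdjunction k fine).homEquiv Jv B (refineHom fine Jv B κ)

lemma coarseHom_apply (j : Jv.obj.V) :
    (smoothPartι 𝒰 B.obj).hom ((coarseHom fine Jv B κ).hom.hom j) = κ.hom j := rfl

lemma refineSm_map_coarseHom_comp_counit :
    (refineSm k fine).map (coarseHom fine Jv B κ) ≫
      (refineCoarseAdjunction k fine).counit.app B = refineHom fine Jv B κ := by
  exact ((refineCoarseAdjunction k fine).homEquiv_counit Jv B _).symm.trans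
    (((refineCoarseAdjunction k fine).homEquiv Jv B).symm_apply_apply _)

variable (κ_inj : Function.Injective κ.hom)
  (κ_range : ∀ b : B.obj.V, (∃ U ∈ 𝒰.sets, ∀ g ∈ U, B.obj.ρ g b = b) → ∃ j : Jv.obj.V, κ.hom j = b)

include κ_inj κ_range in
lemma isIso_coarseHom : IsIso (coarseHom fine Jv B κ) := by
  apply smRep_isIso_of_bijective
  constructor
  · intro j j' hjj'
    apply κ_inj
    have := congrArg (fun t => (smoothPartι 𝒰 B.obj).hom t) hjj'
    exact this
  · intro x
    obtain ⟨j, hj⟩ := κ_range ((smoothPartι 𝒰 B.obj).hom x) (smoothPartι_mem 𝒰 B.obj x)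
    refine ⟨j, ?_⟩
    apply smoothPartι_injective 𝒰 B.obj
    exact hj

/-- The comparison map `Extⁿ_𝒰(X, J_v) → Extⁿ_𝒱(X, B)`, `e ↦ (e regarded over the finer basis) ≫ κ`,
in terms of the adjunction. -/
lemma mapExactFunctor_refineSm_comp_refineHom (X : SmRep k 𝒰) {n : ℕ} (e : Ext X Jv n) :
    (e.mapExactFunctor (refineSm k fine)).comp (Ext.mk₀ (refineHom fine Jv B κ)) (add_zero n) =
      extAdjInv (refineCoarseAdjunction k fine) X B n
        (e.comp (Ext.mk₀ (coarseHom fine Jv B κ)) (add_zero n)) := by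
  rw [extAdjInv_apply', Ext.mapExactFunctor_comp, Ext.mapExactFunctor_mk₀,
    Ext.comp_assoc_of_third_deg_zero, Ext.mk₀_comp_mk₀, refineSm_map_coarseHom_comp_counit]

lemma ext_comp_mk₀_bijective_of_isIso {A A' : SmRep k 𝒰} (f : A ⟶ A') [IsIso f] (X : SmRep k 𝒰)
    (n : ℕ) : Function.Bijective (fun e : Ext X A n => e.comp (Ext.mk₀ f) (add_zero n)) := by
  constructor
  · intro e e' h
    have h2 := congrArg (fun t => t.comp (Ext.mk₀ (inv f)) (add_zero n)) h
    simp only [Ext.comp_assoc_of_third_deg_zero, Ext.mk₀_comp_mk₀, IsIso.hom_inv_id,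
      Ext.comp_mk₀_id] at h2
    exact h2
  · intro e
    refine ⟨e.comp (Ext.mk₀ (inv f)) (add_zero n), ?_⟩
    change (e.comp (Ext.mk₀ (inv f)) (add_zero n)).comp (Ext.mk₀ f) (add_zero n) = e
    rw [Ext.comp_assoc_of_third_deg_zero, Ext.mk₀_comp_mk₀, IsIso.inv_hom_id, Ext.comp_mk₀_id]

variable (h90 : ∀ U ∈ 𝒰.sets, ∀ x : smH (𝒱.sub U) (resSub B U) 1, x = 0)

include κ_inj κ_range h90 in
/-- **(CF1)** coarse → fine comparison in degree `1` is bijective. -/
theorem coarseFine_ext_one_bijective (X : SmRep k 𝒰) :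
    Function.Bijective (fun e : Ext X Jv 1 =>
      (e.mapExactFunctor (refineSm k fine)).comp (Ext.mk₀ (refineHom fine Jv B κ)) (add_zero 1)) := by
  have := isIso_coarseHom fine Jv B κ κ_inj κ_range
  have h : (fun e : Ext X Jv 1 =>
      (e.mapExactFunctor (refineSm k fine)).comp (Ext.mk₀ (refineHom fine Jv B κ)) (add_zero 1)) =
      (extAdjInv (refineCoarseAdjunction k fine) X B 1) ∘
        (fun e : Ext X Jv 1 => e.comp (Ext.mk₀ (coarseHom fine Jv B κ)) (add_zero 1)) := by
    funext e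
    exact mapExactFunctor_refineSm_comp_refineHom fine Jv B κ X e
  rw [h]
  exact (refineCoarse_extAdjInv_one_bijective fine B h90 X).comp
    (ext_comp_mk₀_bijective_of_isIso _ X 1)

include κ_inj κ_range h90 in
/-- **(CF2)** coarse → fine comparison in degree `2` is injective. -/
theorem coarseFine_ext_two_injective (X : SmRep k 𝒰) :
    Function.Injective (fun e : Ext X Jv 2 =>
      (e.mapExactFunctor (refineSm k fine)).comp (Ext.mk₀ (refineHom fine Jv B κ)) (add_zero 2)) := by
  have := isIso_coarseHom fine Jv B κ κ_inj κ_range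
  have h : (fun e : Ext X Jv 2 =>
      (e.mapExactFunctor (refineSm k fine)).comp (Ext.mk₀ (refineHom fine Jv B κ)) (add_zero 2)) =
      (extAdjInv (refineCoarseAdjunction k fine) X B 2) ∘
        (fun e : Ext X Jv 2 => e.comp (Ext.mk₀ (coarseHom fine Jv B κ)) (add_zero 2)) := by
    funext e
    exact mapExactFunctor_refineSm_comp_refineHom fine Jv B κ X e
  rw [h]
  exact (refineCoarse_extAdjInv_two_injective fine B h90 X).comp
    (ext_comp_mk₀_bijective_of_isIso _ X 2).1

include κ_inj κ_range in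
/-- **(CF0)** coarse → fine comparison in degree `0` is bijective. -/
theorem coarseFine_ext_zero_bijective (X : SmRep k 𝒰) :
    Function.Bijective (fun e : Ext X Jv 0 =>
      (e.mapExactFunctor (refineSm k fine)).comp (Ext.mk₀ (refineHom fine Jv B κ)) (add_zero 0)) := by
  have := isIso_coarseHom fine Jv B κ κ_inj κ_range
  have h : (fun e : Ext X Jv 0 =>
      (e.mapExactFunctor (refineSm k fine)).comp (Ext.mk₀ (refineHom fine Jv B κ)) (add_zero 0)) =
      (extAdjInv (refineCoarseAdjunction k fine) X B 0) ∘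
        (fun e : Ext X Jv 0 => e.comp (Ext.mk₀ (coarseHom fine Jv B κ)) (add_zero 0)) := by
    funext e
    exact mapExactFunctor_refineSm_comp_refineHom fine Jv B κ X e
  rw [h]
  exact (extAdjInv_zero_bijective (refineCoarseAdjunction k fine) X B).comp
    (ext_comp_mk₀_bijective_of_isIso _ X 0)

end Kappa

end Refine

section ResCompat

variable {k Γ G : Type} [CommRing k] [Group Γ] [Group G] {𝒰 : OpenBasis Γ} {𝒱 : OpenBasis G}
  (ψ : G →* Γ) (fine : 𝒱.Finer (𝒰.comap ψ))

/-- Restriction to a fine basis factors through restriction to the pulled-back basis. -/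
lemma resSm_comp_refineSm :
    resSm k ψ (OpenBasis.Finer.refl (𝒰.comap ψ)) ⋙ refineSm k fine = resSm k ψ fine := rfl

lemma mapExactFunctor_resSm_refineSm {X A : SmRep k 𝒰} {n : ℕ} (e : Ext X A n) :
    (e.mapExactFunctor (resSm k ψ (OpenBasis.Finer.refl (𝒰.comap ψ)))).mapExactFunctor
      (refineSm k fine) = e.mapExactFunctor (resSm k ψ fine) :=
  mapExactFunctor_comp_functor (resSm k ψ (OpenBasis.Finer.refl (𝒰.comap ψ))) (refineSm k fine) e

end ResCompat

section ShapiroFine

variable {k Γ G : Type} [CommRing k] [Group Γ] [Group G] {𝒰 : OpenBasis Γ} {𝒱 : OpenBasis G}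
  (ψ : G →* Γ) (fine : 𝒱.Finer (𝒰.comap ψ))
  (Jv : SmRep k (𝒰.comap ψ)) (B : SmRep k 𝒱) (κ : Jv.obj ⟶ B.obj)

/-- The map `res (coind J_v) → B`, `f ↦ κ (f 1)`, over the fine basis. -/
noncomputable def shapiroFineHom :
    (resSm k ψ fine).obj ((coindSm k 𝒰 (𝒰.comap ψ) ψ).obj Jv) ⟶ B :=
  (refineSm k fine).map
      ((resCoindSmAdjunction k ψ (OpenBasis.Finer.refl (𝒰.comap ψ))).counit.app Jv) ≫
    refineHom fine Jv B κ

lemma shapiroFineHom_apply (f : ((coindSm k 𝒰 (𝒰.comap ψ) ψ).obj Jv).obj.V) :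
    (shapiroFineHom ψ fine Jv B κ).hom.hom f = κ.hom (coindSmFun ψ f 1) := rfl

/-- The composite of Shapiro's isomorphism with the coarse → fine comparison:
`Extⁿ_Γ(X, coind J_v) → Extⁿ_{G, fine}(res X, B)`. -/
noncomputable def shapiroFineMap (X : SmRep k 𝒰) (n : ℕ) :
    Ext X ((coindSm k 𝒰 (𝒰.comap ψ) ψ).obj Jv) n →+ Ext ((resSm k ψ fine).obj X) B n :=
  ((Ext.mk₀ (shapiroFineHom ψ fine Jv B κ)).postcomp _ (add_zero n)).comp
    ((resSm k ψ fine).mapExtAddHom X _ n)

lemma shapiroFineMap_apply (X : SmRep k 𝒰) (n : ℕ)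
    (y : Ext X ((coindSm k 𝒰 (𝒰.comap ψ) ψ).obj Jv) n) :
    shapiroFineMap ψ fine Jv B κ X n y =
      (y.mapExactFunctor (resSm k ψ fine)).comp (Ext.mk₀ (shapiroFineHom ψ fine Jv B κ))
        (add_zero n) := rfl

/-- `shapiroFineMap` is Shapiro's isomorphism followed by the coarse → fine comparison. -/
lemma shapiroFineMap_eq (X : SmRep k 𝒰) (n : ℕ)
    (y : Ext X ((coindSm k 𝒰 (𝒰.comap ψ) ψ).obj Jv) n) :
    shapiroFineMap ψ fine Jv B κ X n y =
      ((extAdjInv (resCoindSmAdjunction k ψ (OpenBasis.Finer.refl (𝒰.comap ψ))) X Jv n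
        y).mapExactFunctor (refineSm k fine)).comp (Ext.mk₀ (refineHom fine Jv B κ))
          (add_zero n) := by
  rw [shapiroFineMap_apply, extAdjInv_apply', Ext.mapExactFunctor_comp, Ext.mapExactFunctor_mk₀,
    Ext.comp_assoc_of_third_deg_zero, Ext.mk₀_comp_mk₀, mapExactFunctor_resSm_refineSm]
  rfl

variable (κ_inj : Function.Injective κ.hom)
  (κ_range : ∀ b : B.obj.V, (∃ U ∈ (𝒰.comap ψ).sets, ∀ g ∈ U, B.obj.ρ g b = b) →
    ∃ j : Jv.obj.V, κ.hom j = b)

lemma shapiro_extAdjInv_bijective (X : SmRep k 𝒰) (n : ℕ) :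
    Function.Bijective
      (extAdjInv (resCoindSmAdjunction k ψ (OpenBasis.Finer.refl (𝒰.comap ψ))) X Jv n) :=
  (extAdjEquiv (resCoindSmAdjunction k ψ (OpenBasis.Finer.refl (𝒰.comap ψ))) X Jv n).symm.bijective

include κ_inj κ_range in
theorem shapiroFineMap_zero_bijective (X : SmRep k 𝒰) :
    Function.Bijective (shapiroFineMap ψ fine Jv B κ X 0) := by
  have h : (shapiroFineMap ψ fine Jv B κ X 0 : _ → _) =
      (fun e : Ext ((resSm k ψ (OpenBasis.Finer.refl (𝒰.comap ψ))).obj X) Jv 0 =>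
        (e.mapExactFunctor (refineSm k fine)).comp (Ext.mk₀ (refineHom fine Jv B κ)) (add_zero 0)) ∘
      (extAdjInv (resCoindSmAdjunction k ψ (OpenBasis.Finer.refl (𝒰.comap ψ))) X Jv 0) := by
    funext y
    exact shapiroFineMap_eq ψ fine Jv B κ X 0 y
  rw [h]
  exact (coarseFine_ext_zero_bijective fine Jv B κ κ_inj κ_range _).comp
    (shapiro_extAdjInv_bijective ψ Jv X 0)

variable (h90 : ∀ U ∈ (𝒰.comap ψ).sets, ∀ x : smH (𝒱.sub U) (resSub B U) 1, x = 0)

include κ_inj κ_range h90 in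
/-- `Ext¹_Γ(X, coind J_v) ≃ Ext¹_{G, fine}(res X, B)`. -/
theorem shapiroFineMap_one_bijective (X : SmRep k 𝒰) :
    Function.Bijective (shapiroFineMap ψ fine Jv B κ X 1) := by
  have h : (shapiroFineMap ψ fine Jv B κ X 1 : _ → _) =
      (fun e : Ext ((resSm k ψ (OpenBasis.Finer.refl (𝒰.comap ψ))).obj X) Jv 1 =>
        (e.mapExactFunctor (refineSm k fine)).comp (Ext.mk₀ (refineHom fine Jv B κ)) (add_zero 1)) ∘
      (extAdjInv (resCoindSmAdjunction k ψ (OpenBasis.Finer.refl (𝒰.comap ψ))) X Jv 1) := by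
    funext y
    exact shapiroFineMap_eq ψ fine Jv B κ X 1 y
  rw [h]
  exact (coarseFine_ext_one_bijective fine Jv B κ κ_inj κ_range h90 _).comp
    (shapiro_extAdjInv_bijective ψ Jv X 1)

include κ_inj κ_range h90 in
/-- `Ext²_Γ(X, coind J_v) ↪ Ext²_{G, fine}(res X, B)`. -/
theorem shapiroFineMap_two_injective (X : SmRep k 𝒰) :
    Function.Injective (shapiroFineMap ψ fine Jv B κ X 2) := by
  have h : (shapiroFineMap ψ fine Jv B κ X 2 : _ → _) =
      (fun e : Ext ((resSm k ψ (OpenBasis.Finer.refl (𝒰.comap ψ))).obj X) Jv 2 =>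
        (e.mapExactFunctor (refineSm k fine)).comp (Ext.mk₀ (refineHom fine Jv B κ)) (add_zero 2)) ∘
      (extAdjInv (resCoindSmAdjunction k ψ (OpenBasis.Finer.refl (𝒰.comap ψ))) X Jv 2) := by
    funext y
    exact shapiroFineMap_eq ψ fine Jv B κ X 2 y
  rw [h]
  exact (coarseFine_ext_two_injective fine Jv B κ κ_inj κ_range h90 _).comp
    (shapiro_extAdjInv_bijective ψ Jv X 2).1

end ShapiroFine

end Fermat.Agent.CFT.Sm
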