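/-
S55 / CFT — lead.
Definitions for the Poitou–Tate count: for a `PTDatum`, the evaluation morphism
`ev v : Res_v (coInd J_v) ⟶ B_v` and the transfer maps
`tau v X n : Extⁿ(X, coInd J_v) → Extⁿ_{G_v, fine}(Res_v X, B_v)`, together with the formula
`locExt v = tau v ∘ (proj v ∘ i)_*`.
-/
import Fermat.Agent.CFT.Sm.PTDatum_helper9
import Fermat.Agent.CFT.Sm.GoodRes_helper2

set_option autoImplicit false

open CategoryTheory CategoryTheory.Limits CategoryTheory.Abelian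

namespace Fermat.Agent.CFT.Sm

/-- morphisms of smooth representations are determined by their values (stated for a general
coefficient ring, to be robust against the two `ℤ`-module structures) -/
lemma smRep_hom_ext_elt {k Γ' : Type} [CommRing k] [Group Γ'] {𝒰' : OpenBasis Γ'}
    {A B : SmRep k 𝒰'} (f g : A ⟶ B) (h : ∀ a : A.obj.V, f.hom.hom a = g.hom.hom a) : f = g := by
  apply ObjectProperty.hom_ext
  apply Rep.hom_ext
  apply Representation.IntertwiningMap.ext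
  apply LinearMap.ext
  exact h

variable {Γ : Type} [Group Γ] {𝒰 : OpenBasis Γ} {p : ℕ} [hp : Fact p.Prime] {ι : Type} [Fintype ι]
  {G : ι → Type} [∀ v, Group (G v)] {ψ : ∀ v, G v →* Γ} {𝒱 : ∀ v, OpenBasis (G v)}

/-- the `v`-component of the ideles, as a coinduced module -/
noncomputable abbrev PTDatum.Cv (D : PTDatum 𝒰 p ψ 𝒱) (v : ι) : SmRep ℤ 𝒰 :=
  (coindSm ℤ 𝒰 (𝒰.comap (ψ v)) (ψ v)).obj (D.Jv v)

/-- restriction to the `v`-th local group with its fine basis -/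
noncomputable abbrev PTDatum.Rv (D : PTDatum 𝒰 p ψ 𝒱) (v : ι) : SmRep ℤ 𝒰 ⥤ SmRep ℤ (𝒱 v) :=
  resSm ℤ (ψ v) (D.fine v)

/-- evaluation at `1` followed by `κ`: `Res_v (coInd J_v) ⟶ B_v` -/
noncomputable def PTDatum.ev (D : PTDatum 𝒰 p ψ 𝒱) (v : ι) : (D.Rv v).obj (D.Cv v) ⟶ D.B v :=
  smRepHomOfAddHom (A := (D.Rv v).obj (D.Cv v)) (B := D.B v)
    (AddMonoidHom.mk' (fun f : (D.Cv v).obj.V => (D.κ v).hom (coindSmFun (ψ v) f 1))
      (fun f g => map_add (D.κ v).hom (coindSmFun (ψ v) f 1) (coindSmFun (ψ v) g 1)))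
    (fun a f => by
      change (D.κ v).hom (coindSmFun (ψ v) ((D.Cv v).obj.ρ (ψ v a) f) 1) =
        (D.B v).obj.ρ a ((D.κ v).hom (coindSmFun (ψ v) f 1))
      rw [coindSmFun_action, one_mul, ← mul_one (ψ v a), coindSmFun_equivariant]
      exact Rep.hom_comm_apply (D.κ v) a _)

lemma PTDatum.ev_apply (D : PTDatum 𝒰 p ψ 𝒱) (v : ι) (f : (D.Cv v).obj.V) :
    (D.ev v).hom.hom f = (D.κ v).hom (coindSmFun (ψ v) f 1) := rfl

/-- the transfer maps `Extⁿ(X, coInd J_v) → Extⁿ(Res_v X, B_v)` -/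
noncomputable def PTDatum.tau (D : PTDatum 𝒰 p ψ 𝒱) (v : ι) (X : SmRep ℤ 𝒰) (n : ℕ) :
    Ext X (D.Cv v) n →+ Ext ((D.Rv v).obj X) (D.B v) n :=
  ((Ext.mk₀ (D.ev v)).postcomp _ (add_zero n)).comp ((D.Rv v).mapExtAddHom X (D.Cv v) n)

lemma PTDatum.tau_apply (D : PTDatum 𝒰 p ψ 𝒱) (v : ι) (X : SmRep ℤ 𝒰) (n : ℕ)
    (j : Ext X (D.Cv v) n) :
    D.tau v X n j = (j.mapExactFunctor (D.Rv v)).comp (Ext.mk₀ (D.ev v)) (add_zero n) := rfl

/-- `κE v = Res_v (i ≫ proj v) ≫ ev v` -/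
lemma PTDatum.κE_eq (D : PTDatum 𝒰 p ψ 𝒱) (v : ι) :
    D.κE v = (D.Rv v).map (D.i ≫ D.proj v) ≫ D.ev v := by
  apply smRep_hom_ext_elt
  intro e
  exact D.hκE v e

/-- the localisation map factors through the transfer map -/
lemma PTDatum.locExt_eq_tau (D : PTDatum 𝒰 p ψ 𝒱) (v : ι) (X : SmRep ℤ 𝒰) (n : ℕ)
    (e : Ext X D.E n) :
    D.locExt v X n e = D.tau v X n (e.comp (Ext.mk₀ (D.i ≫ D.proj v)) (add_zero n)) := by
  rw [D.locExt_apply, D.tau_apply, D.κE_eq, Ext.mapExactFunctor_comp, Ext.mapExactFunctor_mk₀,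
    Ext.comp_assoc_of_third_deg_zero, Ext.mk₀_comp_mk₀]

/-- Yoneda compatibility of the transfer maps -/
lemma PTDatum.tau_comp (D : PTDatum 𝒰 p ψ 𝒱) (v : ι) {Y X : SmRep ℤ 𝒰} {s r n : ℕ}
    (h : s + r = n) (x : Ext Y X s) (j : Ext X (D.Cv v) r) :
    D.tau v Y n (x.comp j h) = (x.mapExactFunctor (D.Rv v)).comp (D.tau v X r j) h := by
  rw [D.tau_apply, D.tau_apply, Ext.mapExactFunctor_comp]
  apply Ext.comp_assoc
  lia

end Fermat.Agent.CFT.Sm
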