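/-
S55 / CFT (E-TAU) — helper2.
The coarse → fine Shapiro comparison maps of a Poitou–Tate datum, in lead's `PTDatum.tau` shape:
`Ext¹_Γ(X, coind J_v) ≃ Ext¹_{G_v, fine}(res X, B_v)` and
`Ext²_Γ(Y, coind J_v) ↪ Ext²_{G_v, fine}(res Y, B_v)`, from helper5's (E-CF) `shapiroFineMap`.
-/
import Fermat.Agent.CFT.Sm.PTCountDefs_lead
import Fermat.Agent.CFT.Sm.CoarseFine_helper5

set_option autoImplicit false

open CategoryTheory CategoryTheory.Limits CategoryTheory.Abelian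

namespace Fermat.Agent.CFT.Sm

variable {Γ : Type} [Group Γ] {𝒰 : OpenBasis Γ} {p : ℕ} [hp : Fact p.Prime] {ι : Type} [Fintype ι]
  {G : ι → Type} [∀ v, Group (G v)] {ψ : ∀ v, G v →* Γ} {𝒱 : ∀ v, OpenBasis (G v)}

/-- lead's evaluation morphism is helper5's `shapiroFineHom`. -/
lemma PTDatum.ev_eq_shapiroFineHom (D : PTDatum 𝒰 p ψ 𝒱) (v : ι) :
    D.ev v = shapiroFineHom (ψ v) (D.fine v) (D.Jv v) (D.B v) (D.κ v) := by
  apply smRep_hom_ext_elt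
  intro f
  rfl

/-- lead's transfer map is helper5's `shapiroFineMap`. -/
lemma PTDatum.tau_eq_shapiroFineMap (D : PTDatum 𝒰 p ψ 𝒱) (v : ι) (X : SmRep ℤ 𝒰) (n : ℕ) :
    D.tau v X n = shapiroFineMap (ψ v) (D.fine v) (D.Jv v) (D.B v) (D.κ v) X n := by
  ext j
  rw [D.tau_apply, shapiroFineMap_apply, D.ev_eq_shapiroFineHom]

/-- `Ext⁰_Γ(X, coind J_v) ≃ Ext⁰_{G_v, fine}(res X, B_v)`. -/
theorem PTDatum.tau_zero_bijective (D : PTDatum 𝒰 p ψ 𝒱) (v : ι) (X : SmRep ℤ 𝒰) :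
    Function.Bijective (D.tau v X 0) := by
  rw [D.tau_eq_shapiroFineMap]
  exact shapiroFineMap_zero_bijective (ψ v) (D.fine v) (D.Jv v) (D.B v) (D.κ v) (D.κ_inj v)
    (D.κ_range v) X

/-- **(E-TAU), degree 1**: `Ext¹_Γ(X, coind J_v) ≃ Ext¹_{G_v, fine}(res X, B_v)`. -/
theorem PTDatum.tau_one_bijective (D : PTDatum 𝒰 p ψ 𝒱) (v : ι) (X : SmRep ℤ 𝒰) :
    Function.Bijective (D.tau v X 1) := by
  rw [D.tau_eq_shapiroFineMap]
  exact shapiroFineMap_one_bijective (ψ v) (D.fine v) (D.Jv v) (D.B v) (D.κ v) (D.κ_inj v)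
    (D.κ_range v) (fun U hU => D.h90 v U (D.fine v U hU)) X

/-- **(E-TAU), degree 2**: `Ext²_Γ(Y, coind J_v) ↪ Ext²_{G_v, fine}(res Y, B_v)`. -/
theorem PTDatum.tau_two_injective (D : PTDatum 𝒰 p ψ 𝒱) (v : ι) (Y : SmRep ℤ 𝒰) :
    Function.Injective (D.tau v Y 2) := by
  rw [D.tau_eq_shapiroFineMap]
  exact shapiroFineMap_two_injective (ψ v) (D.fine v) (D.Jv v) (D.B v) (D.κ v) (D.κ_inj v)
    (D.κ_range v) (fun U hU => D.h90 v U (D.fine v U hU)) Y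

end Fermat.Agent.CFT.Sm
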