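/-
S56 / CFT (engine) — helper9. **Coarse → fine comparison in degree 2 is surjective** on finite modules
killed by `p`, when both the coarse module `J_v` and the fine module `B` carry `p`-class formations
and the fine pairing `α²` is injective (local duality): the two invariant maps agree up to a
`p`-adic unit, the coarse `α²` is surjective, the fine one injective.
Consequence: the transfer maps `tau v X 2` of a Poitou–Tate datum are bijective.
-/
import Fermat.Agent.CFT.Sm.SelmerCount_helper9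
import Fermat.Agent.CFT.Sm.PTTau_helper2
import Fermat.Agent.CFT.Sm.LocalDuality_helper2

set_option autoImplicit false
set_option linter.unusedSectionVars false

open CategoryTheory CategoryTheory.Limits CategoryTheory.Abelian

namespace Fermat.Agent.CFT.Sm

section CoarseFine

variable {G : Type} [Group G] {𝒰 𝒱 : OpenBasis G} (fine : 𝒱.Finer 𝒰) {p : ℕ} [hp : Fact p.Prime]
  (Jv : SmRep ℤ 𝒰) (B : SmRep ℤ 𝒱) (κ : Jv.obj ⟶ B.obj)

/-- the coarse → fine comparison map `Extⁿ_𝒰(X, J_v) → Extⁿ_𝒱(X, B)` -/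
noncomputable def cfMap (X : SmRep ℤ 𝒰) (n : ℕ) :
    Ext X Jv n →+ Ext ((refineSm ℤ fine).obj X) B n :=
  ((Ext.mk₀ (refineHom fine Jv B κ)).postcomp _ (add_zero n)).comp
    ((refineSm ℤ fine).mapExtAddHom X Jv n)

lemma cfMap_apply (X : SmRep ℤ 𝒰) (n : ℕ) (e : Ext X Jv n) :
    cfMap fine Jv B κ X n e =
      (e.mapExactFunctor (refineSm ℤ fine)).comp (Ext.mk₀ (refineHom fine Jv B κ))
        (add_zero n) := rfl

lemma cfMap_comp {Z X : SmRep ℤ 𝒰} {s r n : ℕ} (h : s + r = n) (x : Ext Z X s)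
    (e : Ext X Jv r) :
    cfMap fine Jv B κ Z n (x.comp e h) =
      (x.mapExactFunctor (refineSm ℤ fine)).comp (cfMap fine Jv B κ X r e) h := by
  rw [cfMap_apply, cfMap_apply, Ext.mapExactFunctor_comp]
  apply Ext.comp_assoc
  lia

/-- the comparison map on `Ext^•(𝟙, -)`, with the unit object of the fine basis as source -/
noncomputable def cfMapU (n : ℕ) : Ext (smUnit ℤ 𝒰) Jv n →+ Ext (smUnit ℤ 𝒱) B n :=
  cfMap fine Jv B κ (smUnit ℤ 𝒰) n

/-- refinement on `Ext^•(𝟙, -)` -/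
noncomputable def refineU (X : SmRep ℤ 𝒰) (n : ℕ) :
    Ext (smUnit ℤ 𝒰) X n →+ Ext (smUnit ℤ 𝒱) ((refineSm ℤ fine).obj X) n :=
  (refineSm ℤ fine).mapExtAddHom (smUnit ℤ 𝒰) X n

lemma cfMapU_comp {X : SmRep ℤ 𝒰} {s r n : ℕ} (h : s + r = n) (x : Ext (smUnit ℤ 𝒰) X s)
    (e : Ext X Jv r) :
    cfMapU fine Jv B κ n (x.comp e h) =
      (refineU fine X s x).comp (cfMap fine Jv B κ X r e) h :=
  cfMap_comp fine Jv B κ h x e

/-- refinement is surjective on `Ext⁰(𝟙, -)` (the functor is fully faithful) -/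
lemma refineU_zero_surjective (X : SmRep ℤ 𝒰) : Function.Surjective (refineU fine X 0) := by
  intro y
  obtain ⟨f, rfl⟩ := (Ext.mk₀_bijective _ _).2 y
  let g : smUnit ℤ 𝒰 ⟶ X := ObjectProperty.homMk f.hom
  refine ⟨Ext.mk₀ g, ?_⟩
  change (Ext.mk₀ g).mapExactFunctor (refineSm ℤ fine) = _
  rw [Ext.mapExactFunctor_mk₀]
  rfl

variable (κ_inj : Function.Injective κ.hom)
  (κ_range : ∀ b : B.obj.V, (∃ U ∈ 𝒰.sets, ∀ g ∈ U, B.obj.ρ g b = b) → ∃ j : Jv.obj.V, κ.hom j = b)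
  (h90 : ∀ U ∈ 𝒰.sets, ∀ x : smH (𝒱.sub U) (resSub B U) 1, x = 0)
  (Fc : PClassFormation 𝒰 p Jv) (Ff : PClassFormation 𝒱 p B)

include κ_inj κ_range h90 in
/-- the coarse and the fine invariant maps agree up to a `p`-adic unit on `p`-torsion classes -/
lemma exists_unit_cfMapU : ∃ u : ℤ, ¬ (p : ℤ) ∣ u ∧ ∀ z : Ext (smUnit ℤ 𝒰) Jv 2, p • z = 0 →
    tInv B Ff.inv (cfMapU fine Jv B κ 2 z) = u • tInv Jv Fc.inv z := by
  refine exists_unit_zsmul_of_injective_on_torsion p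
    ((tInv B Ff.inv).comp (cfMapU fine Jv B κ 2)) (tInv Jv Fc.inv) ?_ ?_
  · intro z hz h
    have h1 : p • cfMapU fine Jv B κ 2 z = 0 := by rw [← map_nsmul, hz, map_zero]
    have h2 := Ff.base.ext_two_eq_zero _ h1 h
    apply coarseFine_ext_two_injective fine Jv B κ κ_inj κ_range h90 (smUnit ℤ 𝒰)
    exact h2.trans (map_zero (cfMapU fine Jv B κ 2)).symm
  · intro z hz h
    exact Fc.base.ext_two_eq_zero _ hz h

include κ_inj κ_range h90 Fc in
/-- **coarse → fine comparison in degree `2` is surjective** on finite modules killed by `p` -/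
theorem cfMap_two_surjective (X : SmRep ℤ 𝒰) [Finite X.obj.V] (hX : ∀ x : X.obj.V, p • x = 0)
    (hinj : Function.Injective (yPair (smUnit ℤ 𝒱) B (tInv B Ff.inv) (show 0 + 2 = 2 from rfl)
      ((refineSm ℤ fine).obj X))) :
    Function.Surjective (cfMap fine Jv B κ X 2) := by
  obtain ⟨u, hu, huz⟩ := exists_unit_cfMapU fine Jv B κ κ_inj κ_range h90 Fc Ff
  obtain ⟨w, hw⟩ := exists_zsmul_inverse (p := p) u hu
  intro χ
  let φ : CharacterModule (Ext (smUnit ℤ 𝒰) X 0) :=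
    (yPair (smUnit ℤ 𝒱) B (tInv B Ff.inv) (show 0 + 2 = 2 from rfl)
      ((refineSm ℤ fine).obj X) χ).comp (refineU fine X 0)
  have hA : ∀ a : Ext (smUnit ℤ 𝒰) X 0, p • a = 0 := fun a => ext_nsmul_eq_zero_of_apply p hX a
  obtain ⟨e, he⟩ := (Fc.tateDuality_surjective X hX).1 (w • φ)
  refine ⟨e, hinj ?_⟩
  apply AddMonoidHom.ext
  intro y'
  obtain ⟨y, rfl⟩ := refineU_zero_surjective fine X y'
  rw [yPair_apply, ← cfMapU_comp, huz _ (by
    rw [← ext_nsmul_comp, hA y, Ext.zero_comp])]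
  have h1 : tInv Jv Fc.inv (y.comp e (show 0 + 2 = 2 from rfl)) =
      yPair (smUnit ℤ 𝒰) Jv (tInv Jv Fc.inv) (show 0 + 2 = 2 from rfl) X e y := rfl
  rw [h1, he]
  have h2 := (hw hA φ).1
  exact congrArg (fun ψ : CharacterModule (Ext (smUnit ℤ 𝒰) X 0) => ψ y) h2

end CoarseFine

section Datum

variable {Γ : Type} [Group Γ] {𝒰 : OpenBasis Γ} {p : ℕ} [hp : Fact p.Prime] {ι : Type} [Fintype ι]
  {G : ι → Type} [∀ v, Group (G v)] {ψ : ∀ v, G v →* Γ} {𝒱 : ∀ v, OpenBasis (G v)}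

/-- **(E-TAU), degree 2, bijectivity**: if the coarse local module `J_v` carries a `p`-class
formation and the fine local pairing `α²` is injective (local duality), the transfer map
`Ext²_Γ(X, coind J_v) → Ext²_{G_v, fine}(res X, B_v)` is bijective for `X` finite killed by `p`. -/
theorem PTDatum.tau_two_bijective (D : PTDatum 𝒰 p ψ 𝒱) (v : ι)
    (Fc : PClassFormation (𝒰.comap (ψ v)) p (D.Jv v))
    (X : SmRep ℤ 𝒰) [hfin : Finite X.obj.V] (hX : ∀ x : X.obj.V, p • x = 0)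
    (hinj : Function.Injective (D.locPairN v X (show 0 + 2 = 2 from rfl))) :
    Function.Bijective (D.tau v X 2) := by
  refine ⟨D.tau_two_injective v X, ?_⟩
  rw [D.tau_eq_shapiroFineMap]
  have h : (shapiroFineMap (ψ v) (D.fine v) (D.Jv v) (D.B v) (D.κ v) X 2 : _ → _) =
      (cfMap (D.fine v) (D.Jv v) (D.B v) (D.κ v)
        ((resSm ℤ (ψ v) (OpenBasis.Finer.refl ((𝒰.comap (ψ v))))).obj X) 2) ∘
      (extAdjInv (resCoindSmAdjunction ℤ (ψ v) (OpenBasis.Finer.refl (𝒰.comap (ψ v)))) X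
        (D.Jv v) 2) := by
    funext y
    exact shapiroFineMap_eq (ψ v) (D.fine v) (D.Jv v) (D.B v) (D.κ v) X 2 y
  rw [h]
  have : Finite ((resSm ℤ (ψ v) (OpenBasis.Finer.refl ((𝒰.comap (ψ v))))).obj X).obj.V := hfin
  exact (cfMap_two_surjective (D.fine v) (D.Jv v) (D.B v) (D.κ v) (D.κ_inj v) (D.κ_range v)
    (fun U hU => D.h90 v U (D.fine v U hU)) Fc (D.locForm v)
    ((resSm ℤ (ψ v) (OpenBasis.Finer.refl ((𝒰.comap (ψ v))))).obj X) hX hinj).comp
    (shapiro_extAdjInv_bijective (ψ v) (D.Jv v) X 2).2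

end Datum

end Fermat.Agent.CFT.Sm
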