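/-
S55 / CFT — helper5.
Corollaries of the coarse → fine comparison for a Poitou–Tate datum: classes of `Ext^n(X, J)` are
determined by their components, and `Ш²` in `Ext`-form is the kernel of `Ext²(X, E) → Ext²(X, J)`.
-/
import Fermat.Agent.CFT.Sm.PTTau_helper2

set_option autoImplicit false

open CategoryTheory CategoryTheory.Limits CategoryTheory.Abelian

namespace Fermat.Agent.CFT.Sm

variable {Γ : Type} [Group Γ] {𝒰 : OpenBasis Γ} {p : ℕ} [hp : Fact p.Prime] {ι : Type} [Fintype ι]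
  {G : ι → Type} [∀ v, Group (G v)] {ψ : ∀ v, G v →* Γ} {𝒱 : ∀ v, OpenBasis (G v)}

namespace PTDatum

variable (D : PTDatum 𝒰 p ψ 𝒱)

/-- A class of `Ext^n(X, J)` is the sum of its components. -/
lemma ext_J_eq_sum (X : SmRep ℤ 𝒰) (n : ℕ) (j : Ext X D.J n) :
    j = ∑ v, (j.comp (Ext.mk₀ (D.proj v)) (add_zero n)).comp (Ext.mk₀ (D.incl v)) (add_zero n) := by
  conv_lhs => rw [← Ext.comp_mk₀_id j, ← D.sum]
  rw [Ext.mk₀_sum, Ext.comp_sum]
  refine Finset.sum_congr rfl fun v _ => ?_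
  rw [Ext.comp_assoc_of_third_deg_zero, Ext.mk₀_comp_mk₀]

/-- A class of `Ext^n(X, J)` all of whose components vanish is zero. -/
lemma ext_J_eq_zero_of_proj (X : SmRep ℤ 𝒰) (n : ℕ) (j : Ext X D.J n)
    (h : ∀ v, j.comp (Ext.mk₀ (D.proj v)) (add_zero n) = 0) : j = 0 := by
  rw [D.ext_J_eq_sum X n j]
  refine Finset.sum_eq_zero fun v _ => ?_
  rw [h v, Ext.zero_comp]

/-- If the transfer maps are injective in degree `n`, the locally trivial classes of
`Ext^n(X, E)` are those which die in `Ext^n(X, J)`. -/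
lemma mem_extSha_iff_of_injective (X : SmRep ℤ 𝒰) (n : ℕ)
    (hinj : ∀ v, Function.Injective (D.tau v X n)) (e : Ext X D.E n) :
    e ∈ D.extSha X n ↔ e.comp (Ext.mk₀ D.i) (add_zero n) = 0 := by
  simp only [extSha, AddSubgroup.mem_iInf, AddMonoidHom.mem_ker]
  constructor
  · intro h
    refine D.ext_J_eq_zero_of_proj X n _ fun v => ?_
    rw [Ext.comp_assoc_of_third_deg_zero, Ext.mk₀_comp_mk₀]
    apply hinj v
    rw [← D.locExt_eq_tau, h v, map_zero]
  · intro h v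
    rw [D.locExt_eq_tau, ← Ext.mk₀_comp_mk₀, ← Ext.comp_assoc_of_third_deg_zero, h, Ext.zero_comp,
      map_zero]

/-- `Ш²` in `Ext`-form is the kernel of `Ext²(X, E) → Ext²(X, J)`. -/
theorem mem_extSha_two_iff (X : SmRep ℤ 𝒰) (e : Ext X D.E 2) :
    e ∈ D.extSha X 2 ↔ e.comp (Ext.mk₀ D.i) (add_zero 2) = 0 :=
  D.mem_extSha_iff_of_injective X 2 (fun v => D.tau_two_injective v X) e

/-- `Ш¹` in `Ext`-form is the kernel of `Ext¹(X, E) → Ext¹(X, J)`. -/
theorem mem_extSha_one_iff (X : SmRep ℤ 𝒰) (e : Ext X D.E 1) :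
    e ∈ D.extSha X 1 ↔ e.comp (Ext.mk₀ D.i) (add_zero 1) = 0 :=
  D.mem_extSha_iff_of_injective X 1 (fun v => (D.tau_one_bijective v X).1) e

end PTDatum

end Fermat.Agent.CFT.Sm
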