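/-
S55 / CFT (P0.4) — helper5.
Abstract dimension shifting for cohomological `δ`-functors with values in abelian groups:
a `δ`-functor `T` with a FUNCTORIAL effacement (`A ↪ I A` natural, `T (n+1) (I A) = 0`) is
universal: every natural transformation `T 0 ⟶ E 0` extends uniquely to a morphism of
`δ`-functors; two functorially effaceable `δ`-functors with isomorphic degree `0` parts are
isomorphic in all degrees.  Pure category theory (Mathlib only).
-/
import Mathlib

set_option autoImplicit false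

universe w v u v' u'

open CategoryTheory CategoryTheory.Limits

namespace Fermat.Agent.CFT.Sm

variable {C : Type u} [Category.{v} C] [Abelian C]

/-- The short exact sequence `0 → A → X → coker → 0` attached to a monomorphism. -/
noncomputable def monoSeq {A X : C} (m : A ⟶ X) : ShortComplex C :=
  ShortComplex.mk m (cokernel.π m) (cokernel.condition m)

theorem monoSeq_shortExact {A X : C} (m : A ⟶ X) [Mono m] : (monoSeq m).ShortExact where
  exact := ShortComplex.exact_cokernel m
  mono_f := by dsimp [monoSeq]; infer_instance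
  epi_g := by dsimp [monoSeq]; infer_instance

/-- morphism between the sequences attached to monomorphisms -/
noncomputable def monoSeqMap {A X A' X' : C} (m : A ⟶ X) (m' : A' ⟶ X') (a : A ⟶ A') (x : X ⟶ X')
    (h : m ≫ x = a ≫ m') : monoSeq m ⟶ monoSeq m' where
  τ₁ := a
  τ₂ := x
  τ₃ := cokernel.map m m' a x h
  comm₁₂ := h.symm
  comm₂₃ := by simp [monoSeq]

/-- Given a surjective additive map `s : Y → X` and `t : Y → Z` killing `ker s`, the induced map
`X → Z`. -/
noncomputable def liftSurj {X Y Z : AddCommGrpCat.{w}} (s : Y ⟶ X) (hs : Function.Surjective s)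
    (t : Y ⟶ Z) (h : ∀ y, s y = 0 → t y = 0) : X ⟶ Z :=
  AddCommGrpCat.ofHom ((s.hom).liftOfRightInverse (Function.surjInv hs)
    (Function.rightInverse_surjInv hs) ⟨t.hom, fun y hy => h y hy⟩)

lemma liftSurj_apply {X Y Z : AddCommGrpCat.{w}} (s : Y ⟶ X) (hs : Function.Surjective s)
    (t : Y ⟶ Z) (h : ∀ y, s y = 0 → t y = 0) (y : Y) : liftSurj s hs t h (s y) = t y :=
  AddMonoidHom.liftOfRightInverse_comp_apply _ _ _ _ _

/-- A cohomological `δ`-functor with values in abelian groups (only the part of the long exact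
sequence that is needed for dimension shifting is recorded). -/
structure DeltaFunctor (C : Type u) [Category.{v} C] [Abelian C] where
  /-- the functors -/
  H : ℕ → C ⥤ AddCommGrpCat.{w}
  /-- the connecting homomorphisms -/
  δ : ∀ {S : ShortComplex C} (_ : S.ShortExact) (n : ℕ),
    (H n).obj S.X₃ ⟶ (H (n + 1)).obj S.X₁
  δ_naturality : ∀ {S S' : ShortComplex C} (hS : S.ShortExact) (hS' : S'.ShortExact)
    (φ : S ⟶ S') (n : ℕ), δ hS n ≫ (H (n + 1)).map φ.τ₁ = (H n).map φ.τ₃ ≫ δ hS' n
  δ_map_g : ∀ {S : ShortComplex C} (hS : S.ShortExact) (n : ℕ) (y : (H n).obj S.X₂),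
    δ hS n ((H n).map S.g y) = 0
  exact₃ : ∀ {S : ShortComplex C} (hS : S.ShortExact) (n : ℕ) (x : (H n).obj S.X₃),
    δ hS n x = 0 → ∃ y, (H n).map S.g y = x
  exact₁ : ∀ {S : ShortComplex C} (hS : S.ShortExact) (n : ℕ) (x : (H (n + 1)).obj S.X₁),
    (H (n + 1)).map S.f x = 0 → ∃ y, δ hS n y = x

namespace DeltaFunctor

variable (T E : DeltaFunctor.{w} C)

lemma δ_naturality_apply {S S' : ShortComplex C} (hS : S.ShortExact) (hS' : S'.ShortExact)
    (φ : S ⟶ S') (n : ℕ) (x : (T.H n).obj S.X₃) :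
    (T.H (n + 1)).map φ.τ₁ (T.δ hS n x) = T.δ hS' n ((T.H n).map φ.τ₃ x) := by
  have := ConcreteCategory.congr_hom (T.δ_naturality hS hS' φ n) x
  simpa using this

/-- A functorial effacement of the positive-degree part of a `δ`-functor. -/
structure Effacement where
  /-- the effacing functor -/
  I : C ⥤ C
  /-- the embedding -/
  ι : 𝟭 C ⟶ I
  mono : ∀ A, Mono (ι.app A)
  vanish : ∀ (A : C) (n : ℕ) (x : (T.H (n + 1)).obj (I.obj A)), x = 0

/-- Morphisms of `δ`-functors. -/
@[ext]
structure Hom where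
  /-- the components -/
  app : ∀ n, T.H n ⟶ E.H n
  comm : ∀ {S : ShortComplex C} (hS : S.ShortExact) (n : ℕ),
    T.δ hS n ≫ (app (n + 1)).app S.X₁ = (app n).app S.X₃ ≫ E.δ hS n

variable {T E}

lemma Hom.comm_apply (φ : Hom T E) {S : ShortComplex C} (hS : S.ShortExact) (n : ℕ)
    (x : (T.H n).obj S.X₃) :
    (φ.app (n + 1)).app S.X₁ (T.δ hS n x) = E.δ hS n ((φ.app n).app S.X₃ x) := by
  have := ConcreteCategory.congr_hom (φ.comm hS n) x
  simpa using this

omit [Abelian C] in
lemma naturality_apply {F G : C ⥤ AddCommGrpCat.{w}} (α : F ⟶ G) {A B : C} (f : A ⟶ B)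
    (x : F.obj A) : α.app B (F.map f x) = G.map f (α.app A x) := by
  have := ConcreteCategory.congr_hom (α.naturality f) x
  simp only [ConcreteCategory.comp_apply] at this
  exact this

omit [Abelian C] in
lemma map_id_apply (F : C ⥤ AddCommGrpCat.{w}) (A : C) (x : F.obj A) : F.map (𝟙 A) x = x := by
  simp

namespace Effacement

variable (e : Effacement T)

/-- the canonical short exact sequence `0 → A → I A → Q A → 0` -/
noncomputable def seq (A : C) : ShortComplex C := monoSeq (e.ι.app A)

lemma seq_shortExact (A : C) : (e.seq A).ShortExact :=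
  have := e.mono A
  monoSeq_shortExact (e.ι.app A)

/-- functoriality of the canonical sequence -/
noncomputable def seqMap {A B : C} (f : A ⟶ B) : e.seq A ⟶ e.seq B :=
  monoSeqMap _ _ f (e.I.map f) (by simpa using (e.ι.naturality f).symm)

@[simp] lemma seqMap_τ₁ {A B : C} (f : A ⟶ B) : (e.seqMap f).τ₁ = f := rfl

lemma δ_surjective (A : C) (n : ℕ) : Function.Surjective (T.δ (e.seq_shortExact A) n) := by
  intro x
  exact T.exact₁ (e.seq_shortExact A) n x (e.vanish A n _)

end Effacement

section Shift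

variable {S : ShortComplex C} (hS : S.ShortExact) {n : ℕ}
  (hv : ∀ x : (T.H (n + 1)).obj S.X₂, x = 0)

include hv in
lemma δ_surjective_of_vanish : Function.Surjective (T.δ hS n) := by
  intro x
  exact T.exact₁ hS n x (hv _)

/-- The dimension-shifting step along a short exact sequence whose middle term is acyclic. -/
noncomputable def shiftApp (φ : T.H n ⟶ E.H n) :
    (T.H (n + 1)).obj S.X₁ ⟶ (E.H (n + 1)).obj S.X₁ :=
  liftSurj (T.δ hS n) (δ_surjective_of_vanish hS hv)
    (φ.app S.X₃ ≫ E.δ hS n) (by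
      intro y hy
      obtain ⟨z, rfl⟩ := T.exact₃ hS n y hy
      rw [ConcreteCategory.comp_apply, naturality_apply, E.δ_map_g])

lemma shiftApp_δ (φ : T.H n ⟶ E.H n) (y : (T.H n).obj S.X₃) :
    shiftApp hS hv φ (T.δ hS n y) = E.δ hS n (φ.app S.X₃ y) := by
  unfold shiftApp
  rw [liftSurj_apply, ConcreteCategory.comp_apply]

/-- `shiftApp` is compatible with morphisms of short exact sequences. -/
lemma shiftApp_naturality {S' : ShortComplex C} (hS' : S'.ShortExact)
    (hv' : ∀ x : (T.H (n + 1)).obj S'.X₂, x = 0) (ψ : S ⟶ S') (φ : T.H n ⟶ E.H n)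
    (x : (T.H (n + 1)).obj S.X₁) :
    shiftApp hS' hv' φ ((T.H (n + 1)).map ψ.τ₁ x) =
      (E.H (n + 1)).map ψ.τ₁ (shiftApp hS hv φ x) := by
  obtain ⟨y, rfl⟩ := δ_surjective_of_vanish hS hv x
  rw [T.δ_naturality_apply hS hS' ψ, shiftApp_δ, shiftApp_δ, E.δ_naturality_apply hS hS' ψ,
    naturality_apply]

end Shift

namespace Effacement

variable (e : Effacement T)

/-- The dimension-shifting step. -/
noncomputable def step {n : ℕ} (φ : T.H n ⟶ E.H n) : T.H (n + 1) ⟶ E.H (n + 1) where
  app A := shiftApp (e.seq_shortExact A) (e.vanish A n) φ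
  naturality A B f := by
    ext x
    rw [ConcreteCategory.comp_apply, ConcreteCategory.comp_apply]
    exact shiftApp_naturality (e.seq_shortExact A) (e.vanish A n) (e.seq_shortExact B)
      (e.vanish B n) (e.seqMap f) φ x

lemma step_app_δ {n : ℕ} (φ : T.H n ⟶ E.H n) (A : C) (y : (T.H n).obj (e.seq A).X₃) :
    (e.step φ).app A (T.δ (e.seq_shortExact A) n y) =
      E.δ (e.seq_shortExact A) n (φ.app (e.seq A).X₃ y) :=
  shiftApp_δ (e.seq_shortExact A) (e.vanish A n) φ y

/-- the auxiliary sequence `0 → S.X₁ → I S.X₂ → coker → 0` -/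
noncomputable def auxSeq (S : ShortComplex C) : ShortComplex C :=
  monoSeq (S.f ≫ e.ι.app S.X₂)

lemma auxSeq_shortExact {S : ShortComplex C} (hS : S.ShortExact) : (e.auxSeq S).ShortExact :=
  have := e.mono S.X₂
  have := hS.mono_f
  have : Mono (S.f ≫ e.ι.app S.X₂) := mono_comp _ _
  monoSeq_shortExact _

/-- the morphism from the canonical sequence of `S.X₁` to the auxiliary sequence -/
noncomputable def seqToAux (S : ShortComplex C) : e.seq S.X₁ ⟶ e.auxSeq S :=
  monoSeqMap _ _ (𝟙 _) (e.I.map S.f) (by simpa using (e.ι.naturality S.f).symm)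

/-- the morphism from a short exact sequence to its auxiliary sequence -/
noncomputable def toAux {S : ShortComplex C} (hS : S.ShortExact) : S ⟶ e.auxSeq S where
  τ₁ := 𝟙 _
  τ₂ := e.ι.app S.X₂
  τ₃ := hS.gIsCokernel.desc (CokernelCofork.ofπ (e.ι.app S.X₂ ≫ cokernel.π (S.f ≫ e.ι.app S.X₂))
    (by rw [← Category.assoc, cokernel.condition]))
  comm₁₂ := by simp [auxSeq, monoSeq]
  comm₂₃ := by
    have := Cofork.IsColimit.π_desc hS.gIsCokernel
      (t := CokernelCofork.ofπ (e.ι.app S.X₂ ≫ cokernel.π (S.f ≫ e.ι.app S.X₂))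
        (by rw [← Category.assoc, cokernel.condition]))
    simpa [auxSeq, monoSeq] using this.symm

lemma step_app_aux_δ {n : ℕ} (φ : T.H n ⟶ E.H n) {S : ShortComplex C} (hS : S.ShortExact)
    (y : (T.H n).obj (e.auxSeq S).X₃) :
    (e.step φ).app S.X₁ (T.δ (e.auxSeq_shortExact hS) n y) =
      E.δ (e.auxSeq_shortExact hS) n (φ.app (e.auxSeq S).X₃ y) := by
  have h : shiftApp (E := E) (e.auxSeq_shortExact hS) (e.vanish S.X₂ n) φ
      ((T.H (n + 1)).map (𝟙 S.X₁) (T.δ (e.auxSeq_shortExact hS) n y)) =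
      (E.H (n + 1)).map (𝟙 S.X₁) ((e.step φ).app S.X₁ (T.δ (e.auxSeq_shortExact hS) n y)) :=
    shiftApp_naturality (E := E) (e.seq_shortExact S.X₁) (e.vanish S.X₁ n)
      (e.auxSeq_shortExact hS) (e.vanish S.X₂ n) (e.seqToAux S) φ
      (T.δ (e.auxSeq_shortExact hS) n y)
  rw [map_id_apply, map_id_apply] at h
  rw [← h]
  exact shiftApp_δ (e.auxSeq_shortExact hS) (e.vanish S.X₂ n) φ y

/-- The dimension-shifting step is compatible with all connecting homomorphisms. -/
lemma step_comm {n : ℕ} (φ : T.H n ⟶ E.H n) {S : ShortComplex C} (hS : S.ShortExact)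
    (x : (T.H n).obj S.X₃) :
    (e.step φ).app S.X₁ (T.δ hS n x) = E.δ hS n (φ.app S.X₃ x) := by
  have h1 : (T.H (n + 1)).map (𝟙 S.X₁) (T.δ hS n x) =
      T.δ (e.auxSeq_shortExact hS) n ((T.H n).map (e.toAux hS).τ₃ x) :=
    T.δ_naturality_apply hS (e.auxSeq_shortExact hS) (e.toAux hS) n x
  have h2 : (E.H (n + 1)).map (𝟙 S.X₁) (E.δ hS n (φ.app S.X₃ x)) =
      E.δ (e.auxSeq_shortExact hS) n ((E.H n).map (e.toAux hS).τ₃ (φ.app S.X₃ x)) :=
    E.δ_naturality_apply hS (e.auxSeq_shortExact hS) (e.toAux hS) n (φ.app S.X₃ x)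
  rw [map_id_apply] at h1 h2
  rw [h1, h2, ← naturality_apply]
  exact e.step_app_aux_δ φ hS _

/-- The components of the lift of a natural transformation in degree `0`. -/
noncomputable def liftApp (φ₀ : T.H 0 ⟶ E.H 0) : ∀ n, T.H n ⟶ E.H n
  | 0 => φ₀
  | n + 1 => e.step (liftApp φ₀ n)

/-- Existence: a natural transformation in degree `0` out of an effaceable `δ`-functor extends
to a morphism of `δ`-functors. -/
noncomputable def lift (φ₀ : T.H 0 ⟶ E.H 0) : Hom T E where
  app := e.liftApp φ₀
  comm {S} hS n := by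
    ext x
    rw [ConcreteCategory.comp_apply, ConcreteCategory.comp_apply]
    exact e.step_comm (e.liftApp φ₀ n) hS x

@[simp] lemma lift_app_zero (φ₀ : T.H 0 ⟶ E.H 0) : (e.lift φ₀).app 0 = φ₀ := rfl

end Effacement

/-- Uniqueness: two morphisms out of an effaceable `δ`-functor which agree in degree `0` agree
in all degrees. -/
theorem Hom.app_eq_of_zero (e : Effacement T) (φ ψ : Hom T E) (h : φ.app 0 = ψ.app 0) (n : ℕ) :
    φ.app n = ψ.app n := by
  induction n with
  | zero => exact h
  | succ n ih =>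
    ext A x
    obtain ⟨y, rfl⟩ := e.δ_surjective A n x
    have h1 := φ.comm_apply (e.seq_shortExact A) n y
    have h2 := ψ.comm_apply (e.seq_shortExact A) n y
    rw [ih] at h1
    exact h1.trans h2.symm

theorem Hom.ext_of_zero (e : Effacement T) (φ ψ : Hom T E) (h : φ.app 0 = ψ.app 0) : φ = ψ := by
  apply Hom.ext
  funext n
  exact Hom.app_eq_of_zero e φ ψ h n

/-- identity morphism of a `δ`-functor -/
def Hom.id (T : DeltaFunctor.{w} C) : Hom T T where
  app n := 𝟙 _
  comm hS n := by simp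

/-- composition of morphisms of `δ`-functors -/
def Hom.comp {T₁ T₂ T₃ : DeltaFunctor.{w} C} (φ : Hom T₁ T₂) (ψ : Hom T₂ T₃) : Hom T₁ T₃ where
  app n := φ.app n ≫ ψ.app n
  comm hS n := by
    rw [NatTrans.comp_app, NatTrans.comp_app, ← Category.assoc, φ.comm hS n, Category.assoc,
      ψ.comm hS n, Category.assoc]

/-- A morphism between effaceable `δ`-functors which is an isomorphism in degree `0` is an
isomorphism in all degrees. -/
theorem Hom.isIso_app (e : Effacement T) (e' : Effacement E) (φ : Hom T E) [IsIso (φ.app 0)]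
    (n : ℕ) : IsIso (φ.app n) := by
  let ψ : Hom E T := e'.lift (inv (φ.app 0))
  have h1 : φ.comp ψ = Hom.id T := Hom.ext_of_zero e _ _ (by
    change φ.app 0 ≫ inv (φ.app 0) = 𝟙 _
    simp)
  have h2 : ψ.comp φ = Hom.id E := Hom.ext_of_zero e' _ _ (by
    change inv (φ.app 0) ≫ φ.app 0 = 𝟙 _
    simp)
  exact ⟨ψ.app n, congrFun (congrArg Hom.app h1) n, congrFun (congrArg Hom.app h2) n⟩

/-- The comparison isomorphism of two effaceable `δ`-functors with isomorphic degree `0` parts. -/
noncomputable def isoOfZero (e : Effacement T) (e' : Effacement E) (i : T.H 0 ≅ E.H 0) (n : ℕ) :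
    T.H n ≅ E.H n :=
  have : IsIso ((e.lift (E := E) i.hom).app 0) := by
    rw [Effacement.lift_app_zero]; infer_instance
  have := Hom.isIso_app e e' (e.lift i.hom) n
  asIso ((e.lift i.hom).app n)

section Comp

variable {D : Type u'} [Category.{v'} D] [Abelian D] (F : D ⥤ C) [F.Additive]
  [PreservesFiniteLimits F] [PreservesFiniteColimits F]

/-- Restriction of a `δ`-functor along an exact functor. -/
def comp (T : DeltaFunctor.{w} C) : DeltaFunctor.{w} D where
  H n := F ⋙ T.H n
  δ hS n := T.δ (hS.map_of_exact F) n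
  δ_naturality hS hS' φ n := T.δ_naturality (hS.map_of_exact F) (hS'.map_of_exact F)
    (F.mapShortComplex.map φ) n
  δ_map_g hS n y := T.δ_map_g (hS.map_of_exact F) n y
  exact₃ hS n x hx := T.exact₃ (hS.map_of_exact F) n x hx
  exact₁ hS n x hx := T.exact₁ (hS.map_of_exact F) n x hx

/-- Restriction of a morphism of `δ`-functors along an exact functor. -/
def Hom.whisker (φ : Hom T E) : Hom (T.comp F) (E.comp F) where
  app n := Functor.whiskerLeft F (φ.app n)
  comm hS n := φ.comm (hS.map_of_exact F) n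

end Comp

end DeltaFunctor

end Fermat.Agent.CFT.Sm
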