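/-
S55 / CFT (I1) — helper1.  The local invariant on the coinduced module.

Raw data (one place `v`): `ψ : G →* Γ`, a basis `𝒰` on `Γ`, a FINE basis `𝒱` on `G`, the coarse
local module `Jv : SmRep ℤ (𝒰.comap ψ)`, the fine local module `B : SmRep ℤ 𝒱`, and a comparison
`κ' : Fid.obj Jv ⟶ B` where `Fid = resSm ℤ (MonoidHom.id G) fine'` (same representation, finer
basis).

* `addCircle_exists_nsmul_of_torsion`, **`exists_unit_of_injective_on_torsion`** (the abstract unit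
  lemma: two maps to `ℚ/ℤ` injective on the `p`-torsion differ there by a unit mod `p`);
* `LocInv.cfExt` (the coarse-to-fine map `Extⁿ(X, Jv) → Extⁿ_fine(X, B)` of (CF0)/(CF1)/(CF2)),
  `LocInv.shapiroExt` (`Extⁿ(X, coind Jv) ≃ Extⁿ(res X, Jv)`), `LocInv.extMap` (their composite),
  all multiplicative for Yoneda products (`cfExt_comp`, `shapiroExt_comp`, `extMap_comp`);
* **`LocInv.extInv`** `= t_v : Ext²(𝟙_Γ, coind Jv) →+ ℚ/ℤ` and **`LocInv.smInv`**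
  `= inv_v : H²(Γ, coind Jv) →+ ℚ/ℤ`, both injective on the `p`-torsion when (CF2) holds at the
  unit object and the fine invariant is injective on `p`-torsion
  (`extInv_injective_on_torsion`, `smInv_injective_on_torsion`);
* `LocInv.exists_unit_extInv`, `LocInv.exists_unit_smInv`: a map `j : coind Jv ⟶ C` which is
  injective on `H²[p]` (LG') into a module `C` with an invariant map injective on `H²(C)[p]`
  satisfies `inv_C ∘ j_* = u • inv_v` on `p`-torsion with `p ∤ u`;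
* the same statements in the literal shape of `PTDatum` (`PTDatum.locSmInv_injective_on_torsion`,
  `PTDatum.exists_unit_locSmInv`, `PTDatum.exists_unit_locExtInv`).
-/
import Fermat.Agent.CFT.Sm.PTDatum_helper9

set_option autoImplicit false

open CategoryTheory CategoryTheory.Limits CategoryTheory.Abelian

namespace Fermat.Agent.CFT.Sm

section UnitLemma

/-- In the circle `ℚ/ℤ`, two elements killed by `p`, the second one nonzero: the first is a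
multiple of the second. -/
lemma addCircle_exists_nsmul_of_torsion (p : ℕ) [hp : Fact p.Prime] (x y : AddCircle (1 : ℚ))
    (hx : p • x = 0) (hy : p • y = 0) (hy0 : y ≠ 0) : ∃ k : ℕ, x = k • y := by
  obtain ⟨n, hn⟩ := addCircle_exists_zsmul_inv p hp.out.ne_zero x hx
  obtain ⟨m, hm⟩ := addCircle_exists_zsmul_inv p hp.out.ne_zero y hy
  set w : AddCircle (1 : ℚ) := (((p : ℚ)⁻¹ : ℚ) : AddCircle (1 : ℚ)) with hw
  have hpw : (p : ℤ) • w = 0 := by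
    rw [hw, natCast_zsmul, ← AddCircle.coe_nsmul]
    have h1 : (p • ((p : ℚ)⁻¹ : ℚ)) = 1 := by
      rw [nsmul_eq_mul]
      exact mul_inv_cancel₀ (by exact_mod_cast hp.out.ne_zero)
    rw [h1]
    exact AddCircle.coe_period 1
  -- `m` is prime to `p`
  have hmp : IsCoprime m (p : ℤ) := by
    rw [isCoprime_comm, Prime.coprime_iff_not_dvd (Nat.prime_iff_prime_int.1 hp.out)]
    rintro ⟨t, rfl⟩
    apply hy0
    rw [hm, mul_comm, mul_smul, hpw, smul_zero]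
  obtain ⟨a, b, hab⟩ := hmp
  -- `w = a • y`
  have hwy : w = a • y := by
    have h1 : w = (a * m + b * (p : ℤ)) • w := by rw [hab, one_smul]
    rw [add_smul, mul_smul, mul_smul, hpw, smul_zero, add_zero] at h1
    rw [h1, hm]
  have hxy : x = (n * a) • y := by rw [hn, hwy, mul_smul]
  have hpy : (p : ℤ) • y = 0 := by rw [natCast_zsmul]; exact hy
  refine ⟨((n * a) % (p : ℤ)).toNat, ?_⟩
  have h2 : (((n * a) % (p : ℤ)).toNat : ℤ) = (n * a) % (p : ℤ) :=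
    Int.toNat_of_nonneg (Int.emod_nonneg _ (by exact_mod_cast hp.out.ne_zero))
  rw [← natCast_zsmul, h2, hxy]
  conv_lhs => rw [← Int.emod_add_mul_ediv (n * a) (p : ℤ)]
  rw [add_smul, mul_smul, smul_comm, hpy, smul_zero, add_zero]

/-- **Abstract unit lemma**: two homomorphisms to `ℚ/ℤ` which are injective on the `p`-torsion
differ on the `p`-torsion by a unit mod `p`. -/
theorem exists_unit_of_injective_on_torsion (p : ℕ) [hp : Fact p.Prime] {A : Type*}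
    [AddCommGroup A] (f g : A →+ AddCircle (1 : ℚ))
    (hf : ∀ a, p • a = 0 → f a = 0 → a = 0) (hg : ∀ a, p • a = 0 → g a = 0 → a = 0) :
    ∃ u : ℕ, ¬ p ∣ u ∧ ∀ a, p • a = 0 → f a = u • g a := by
  by_cases h0 : ∀ a : A, p • a = 0 → a = 0
  · refine ⟨1, fun h => hp.out.one_lt.ne' (Nat.dvd_one.1 h), fun a ha => ?_⟩
    rw [h0 a ha, map_zero, map_zero, smul_zero]
  · push Not at h0
    obtain ⟨a, hpa, ha0⟩ := h0
    have hga : g a ≠ 0 := fun h => ha0 (hg a hpa h)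
    have hfa : f a ≠ 0 := fun h => ha0 (hf a hpa h)
    have hpga : p • g a = 0 := by rw [← map_nsmul, hpa, map_zero]
    have hpfa : p • f a = 0 := by rw [← map_nsmul, hpa, map_zero]
    obtain ⟨u, hu⟩ := addCircle_exists_nsmul_of_torsion p (f a) (g a) hpfa hpga hga
    refine ⟨u, ?_, ?_⟩
    · rintro ⟨t, rfl⟩
      apply hfa
      rw [hu, mul_comm, mul_smul, hpga, smul_zero]
    · intro b hpb
      have hpgb : p • g b = 0 := by rw [← map_nsmul, hpb, map_zero]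
      obtain ⟨k, hk⟩ := addCircle_exists_nsmul_of_torsion p (g b) (g a) hpgb hpga hga
      have hb : b = k • a := by
        have h1 : b - k • a = 0 := by
          apply hg
          · rw [smul_sub, hpb, smul_comm, hpa, smul_zero, sub_zero]
          · rw [map_sub, map_nsmul, hk, sub_self]
        exact sub_eq_zero.1 h1
      rw [hb, map_nsmul, map_nsmul, hu, smul_comm]

end UnitLemma

namespace LocInv

variable {Γ G : Type} [Group Γ] [Group G] (𝒰 : OpenBasis Γ) (ψ : G →* Γ) {𝒱 : OpenBasis G}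
  (fine' : 𝒱.Finer ((𝒰.comap ψ).comap (MonoidHom.id G)))
  (Jv : SmRep ℤ (𝒰.comap ψ)) {B : SmRep ℤ 𝒱}
  (κ' : (resSm ℤ (MonoidHom.id G) fine').obj Jv ⟶ B)

/-- the coarse-to-fine comparison map on `Ext` (the map of (CF0)/(CF1)/(CF2)) -/
noncomputable def cfExt (X : SmRep ℤ (𝒰.comap ψ)) (n : ℕ) :
    Ext X Jv n →+ Ext ((resSm ℤ (MonoidHom.id G) fine').obj X) B n :=
  ((Ext.mk₀ κ').postcomp _ (add_zero n)).comp
    ((resSm ℤ (MonoidHom.id G) fine').mapExtAddHom X Jv n)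

lemma cfExt_apply (X : SmRep ℤ (𝒰.comap ψ)) (n : ℕ) (e : Ext X Jv n) :
    cfExt 𝒰 ψ fine' Jv κ' X n e =
      (e.mapExactFunctor (resSm ℤ (MonoidHom.id G) fine')).comp (Ext.mk₀ κ') (add_zero n) := rfl

/-- `cfExt` is multiplicative for Yoneda products -/
lemma cfExt_comp {X' X : SmRep ℤ (𝒰.comap ψ)} {s r n : ℕ} (h : s + r = n) (x : Ext X' X s)
    (e : Ext X Jv r) :
    cfExt 𝒰 ψ fine' Jv κ' X' n (x.comp e h) =
      (x.mapExactFunctor (resSm ℤ (MonoidHom.id G) fine')).comp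
        (cfExt 𝒰 ψ fine' Jv κ' X r e) h := by
  rw [cfExt_apply, cfExt_apply, Ext.mapExactFunctor_comp]
  apply Ext.comp_assoc
  lia

/-- Shapiro: `Extⁿ(X, coind J_v) ≃ Extⁿ(res X, J_v)` (coarse basis on `G`). -/
noncomputable def shapiroExt (X : SmRep ℤ 𝒰) (n : ℕ) :
    Ext X ((coindSm ℤ 𝒰 (𝒰.comap ψ) ψ).obj Jv) n ≃+
      Ext ((resSm ℤ ψ (OpenBasis.Finer.refl (𝒰.comap ψ))).obj X) Jv n :=
  (extAdjEquiv (resCoindSmAdjunction ℤ ψ (OpenBasis.Finer.refl (𝒰.comap ψ))) X Jv n).symm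

lemma shapiroExt_apply (X : SmRep ℤ 𝒰) (n : ℕ)
    (e : Ext X ((coindSm ℤ 𝒰 (𝒰.comap ψ) ψ).obj Jv) n) :
    shapiroExt 𝒰 ψ Jv X n e =
      (e.mapExactFunctor (resSm ℤ ψ (OpenBasis.Finer.refl (𝒰.comap ψ)))).comp
        (Ext.mk₀ ((resCoindSmAdjunction ℤ ψ (OpenBasis.Finer.refl (𝒰.comap ψ))).counit.app Jv))
        (add_zero n) := rfl

/-- `shapiroExt` is multiplicative for Yoneda products -/
lemma shapiroExt_comp {X' X : SmRep ℤ 𝒰} {s r n : ℕ} (h : s + r = n) (x : Ext X' X s)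
    (e : Ext X ((coindSm ℤ 𝒰 (𝒰.comap ψ) ψ).obj Jv) r) :
    shapiroExt 𝒰 ψ Jv X' n (x.comp e h) =
      (x.mapExactFunctor (resSm ℤ ψ (OpenBasis.Finer.refl (𝒰.comap ψ)))).comp
        (shapiroExt 𝒰 ψ Jv X r e) h := by
  rw [shapiroExt_apply, shapiroExt_apply, Ext.mapExactFunctor_comp]
  apply Ext.comp_assoc
  lia

/-- the composite `Extⁿ(X, coind J_v) ≃ Extⁿ(res X, J_v) → Extⁿ_fine(res X, B)` -/
noncomputable def extMap (X : SmRep ℤ 𝒰) (n : ℕ) :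
    Ext X ((coindSm ℤ 𝒰 (𝒰.comap ψ) ψ).obj Jv) n →+
      Ext ((resSm ℤ (MonoidHom.id G) fine').obj
        ((resSm ℤ ψ (OpenBasis.Finer.refl (𝒰.comap ψ))).obj X)) B n :=
  (cfExt 𝒰 ψ fine' Jv κ' ((resSm ℤ ψ (OpenBasis.Finer.refl (𝒰.comap ψ))).obj X) n).comp
    (shapiroExt 𝒰 ψ Jv X n).toAddMonoidHom

lemma extMap_apply (X : SmRep ℤ 𝒰) (n : ℕ) (e : Ext X ((coindSm ℤ 𝒰 (𝒰.comap ψ) ψ).obj Jv) n) :
    extMap 𝒰 ψ fine' Jv κ' X n e =
      cfExt 𝒰 ψ fine' Jv κ' _ n (shapiroExt 𝒰 ψ Jv X n e) := rfl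

/-- `extMap` is multiplicative for Yoneda products -/
lemma extMap_comp {X' X : SmRep ℤ 𝒰} {s r n : ℕ} (h : s + r = n) (x : Ext X' X s)
    (e : Ext X ((coindSm ℤ 𝒰 (𝒰.comap ψ) ψ).obj Jv) r) :
    extMap 𝒰 ψ fine' Jv κ' X' n (x.comp e h) =
      ((x.mapExactFunctor (resSm ℤ ψ (OpenBasis.Finer.refl (𝒰.comap ψ)))).mapExactFunctor
        (resSm ℤ (MonoidHom.id G) fine')).comp (extMap 𝒰 ψ fine' Jv κ' X r e) h := by
  rw [extMap_apply, extMap_apply, shapiroExt_comp, cfExt_comp]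

/-- the unit case: `Extⁿ(𝟙_Γ, coind J_v) → Extⁿ(𝟙_G, B)` (fine basis on `G`) -/
noncomputable def extMapUnit (n : ℕ) :
    Ext (smUnit ℤ 𝒰) ((coindSm ℤ 𝒰 (𝒰.comap ψ) ψ).obj Jv) n →+ Ext (smUnit ℤ 𝒱) B n :=
  extMap 𝒰 ψ fine' Jv κ' (smUnit ℤ 𝒰) n

variable (inv : smH 𝒱 B 2 →+ AddCircle (1 : ℚ))

/-- the local invariant in `Ext`-form: `t_v : Ext²(𝟙_Γ, coind J_v) → ℚ/ℤ` -/
noncomputable def extInv :
    Ext (smUnit ℤ 𝒰) ((coindSm ℤ 𝒰 (𝒰.comap ψ) ψ).obj Jv) 2 →+ AddCircle (1 : ℚ) :=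
  (tInv B inv).comp (extMapUnit 𝒰 ψ fine' Jv κ' 2)

/-- the local invariant `inv_v : H²(Γ, coind J_v) → ℚ/ℤ` -/
noncomputable def smInv :
    smH 𝒰 ((coindSm ℤ 𝒰 (𝒰.comap ψ) ψ).obj Jv) 2 →+ AddCircle (1 : ℚ) :=
  (extInv 𝒰 ψ fine' Jv κ' inv).comp
    (smUnitCompare ((coindSm ℤ 𝒰 (𝒰.comap ψ) ψ).obj Jv) 2).symm.toAddMonoidHom

lemma extInv_apply (e : Ext (smUnit ℤ 𝒰) ((coindSm ℤ 𝒰 (𝒰.comap ψ) ψ).obj Jv) 2) :
    extInv 𝒰 ψ fine' Jv κ' inv e =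
      inv (smUnitCompare B 2 (extMapUnit 𝒰 ψ fine' Jv κ' 2 e)) := rfl

lemma extInv_eq_tInv (e : Ext (smUnit ℤ 𝒰) ((coindSm ℤ 𝒰 (𝒰.comap ψ) ψ).obj Jv) 2) :
    extInv 𝒰 ψ fine' Jv κ' inv e = tInv B inv (extMapUnit 𝒰 ψ fine' Jv κ' 2 e) := rfl

lemma smInv_apply (z : smH 𝒰 ((coindSm ℤ 𝒰 (𝒰.comap ψ) ψ).obj Jv) 2) :
    smInv 𝒰 ψ fine' Jv κ' inv z =
      extInv 𝒰 ψ fine' Jv κ' inv
        ((smUnitCompare ((coindSm ℤ 𝒰 (𝒰.comap ψ) ψ).obj Jv) 2).symm z) := rfl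

lemma smInv_smUnitCompare (e : Ext (smUnit ℤ 𝒰) ((coindSm ℤ 𝒰 (𝒰.comap ψ) ψ).obj Jv) 2) :
    smInv 𝒰 ψ fine' Jv κ' inv (smUnitCompare _ 2 e) = extInv 𝒰 ψ fine' Jv κ' inv e := by
  rw [smInv_apply, AddEquiv.symm_apply_apply]

variable (p : ℕ)
  (hcf : Function.Injective (fun e : Ext (smUnit ℤ (𝒰.comap ψ)) Jv 2 =>
    (e.mapExactFunctor (resSm ℤ (MonoidHom.id G) fine')).comp (Ext.mk₀ κ') (add_zero 2)))
  (hinv : ∀ x : smH 𝒱 B 2, p • x = 0 → inv x = 0 → x = 0)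

include hcf in
lemma extMapUnit_two_injective : Function.Injective (extMapUnit 𝒰 ψ fine' Jv κ' 2) := by
  intro e e' h
  exact (shapiroExt 𝒰 ψ Jv (smUnit ℤ 𝒰) 2).injective (hcf h)

include hcf hinv in
/-- `t_v` is injective on the `p`-torsion. -/
theorem extInv_injective_on_torsion
    (e : Ext (smUnit ℤ 𝒰) ((coindSm ℤ 𝒰 (𝒰.comap ψ) ψ).obj Jv) 2) (he : p • e = 0)
    (h0 : extInv 𝒰 ψ fine' Jv κ' inv e = 0) : e = 0 := by
  have h1 : smUnitCompare B 2 (extMapUnit 𝒰 ψ fine' Jv κ' 2 e) = 0 := by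
    apply hinv
    · rw [← map_nsmul, ← map_nsmul, he, map_zero, map_zero]
    · exact h0
  have h2 : extMapUnit 𝒰 ψ fine' Jv κ' 2 e = 0 := (AddEquiv.map_eq_zero_iff _).1 h1
  exact (injective_iff_map_eq_zero _).1 (extMapUnit_two_injective 𝒰 ψ fine' Jv κ' hcf) e h2

include hcf hinv in
/-- `inv_v` is injective on the `p`-torsion (= (I1) `hinv` of (LG')). -/
theorem smInv_injective_on_torsion
    (z : smH 𝒰 ((coindSm ℤ 𝒰 (𝒰.comap ψ) ψ).obj Jv) 2) (hz : p • z = 0)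
    (h0 : smInv 𝒰 ψ fine' Jv κ' inv z = 0) : z = 0 := by
  have h1 := extInv_injective_on_torsion 𝒰 ψ fine' Jv κ' inv p hcf hinv
    ((smUnitCompare ((coindSm ℤ 𝒰 (𝒰.comap ψ) ψ).obj Jv) 2).symm z)
    (by rw [← map_nsmul, hz, map_zero]) h0
  exact (AddEquiv.map_eq_zero_iff _).1 h1

section Unit

variable [hp : Fact p.Prime] {C : SmRep ℤ 𝒰} (invC : smH 𝒰 C 2 →+ AddCircle (1 : ℚ))
  (hinvC : ∀ x : smH 𝒰 C 2, p • x = 0 → invC x = 0 → x = 0)
  (j : (coindSm ℤ 𝒰 (𝒰.comap ψ) ψ).obj Jv ⟶ C)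
  (lg : ∀ z : smH 𝒰 ((coindSm ℤ 𝒰 (𝒰.comap ψ) ψ).obj Jv) 2, p • z = 0 →
    ((smHFunctor ℤ 𝒰 2).map j).hom z = 0 → z = 0)

include hcf hinv hinvC lg in
/-- The global invariant restricted along `j : coind J_v ⟶ C` is a unit multiple of the local
invariant, on the `p`-torsion (smooth cohomology form). -/
theorem exists_unit_smInv :
    ∃ u : ℕ, ¬ p ∣ u ∧ ∀ z : smH 𝒰 ((coindSm ℤ 𝒰 (𝒰.comap ψ) ψ).obj Jv) 2, p • z = 0 →
      invC (((smHFunctor ℤ 𝒰 2).map j).hom z) = u • smInv 𝒰 ψ fine' Jv κ' inv z := by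
  let f : smH 𝒰 ((coindSm ℤ 𝒰 (𝒰.comap ψ) ψ).obj Jv) 2 →+ AddCircle (1 : ℚ) :=
    invC.comp ((smHFunctor ℤ 𝒰 2).map j).hom.toAddMonoidHom
  have hf : ∀ z, p • z = 0 → f z = 0 → z = 0 := by
    intro z hz h0
    apply lg z hz
    apply hinvC
    · have h1 : ((smHFunctor ℤ 𝒰 2).map j).hom (p • z) =
          p • ((smHFunctor ℤ 𝒰 2).map j).hom z := map_nsmul _ _ _
      exact h1.symm.trans ((congrArg ((smHFunctor ℤ 𝒰 2).map j).hom hz).trans (map_zero _))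
    · exact h0
  exact exists_unit_of_injective_on_torsion p f (smInv 𝒰 ψ fine' Jv κ' inv) hf
    (smInv_injective_on_torsion 𝒰 ψ fine' Jv κ' inv p hcf hinv)

include hcf hinv hinvC lg in
/-- The global invariant restricted along `j : coind J_v ⟶ C` is a unit multiple of the local
invariant, on the `p`-torsion (`Ext` form). -/
theorem exists_unit_extInv :
    ∃ u : ℕ, ¬ p ∣ u ∧ ∀ e : Ext (smUnit ℤ 𝒰) ((coindSm ℤ 𝒰 (𝒰.comap ψ) ψ).obj Jv) 2,
      p • e = 0 → tInv C invC (e.comp (Ext.mk₀ j) (add_zero 2)) =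
        u • extInv 𝒰 ψ fine' Jv κ' inv e := by
  obtain ⟨u, hu, h⟩ := exists_unit_smInv 𝒰 ψ fine' Jv κ' inv p hcf hinv invC hinvC j lg
  refine ⟨u, hu, fun e he => ?_⟩
  have h1 := h (smUnitCompare _ 2 e) (by rw [← map_nsmul, he, map_zero])
  rw [smInv_smUnitCompare] at h1
  rw [← h1, tInv_apply, smUnitCompare_naturality]

end Unit

end LocInv

section Datum

variable {Γ : Type} [Group Γ] {𝒰 : OpenBasis Γ} {p : ℕ} [hp : Fact p.Prime] {ι : Type} [Fintype ι]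
  {G : ι → Type} [∀ v, Group (G v)] {ψ : ∀ v, G v →* Γ} {𝒱 : ∀ v, OpenBasis (G v)}
  (D : PTDatum 𝒰 p ψ 𝒱) (v : ι)
  (fine' : (𝒱 v).Finer ((𝒰.comap (ψ v)).comap (MonoidHom.id (G v))))
  (κ' : (resSm ℤ (MonoidHom.id (G v)) fine').obj (D.Jv v) ⟶ D.B v)
  (hcf : Function.Injective (fun e : Ext (smUnit ℤ (𝒰.comap (ψ v))) (D.Jv v) 2 =>
    (e.mapExactFunctor (resSm ℤ (MonoidHom.id (G v)) fine')).comp (Ext.mk₀ κ') (add_zero 2)))

/-- the local invariant `inv_v` of a Poitou–Tate datum -/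
noncomputable def PTDatum.locSmInv :
    smH 𝒰 ((coindSm ℤ 𝒰 (𝒰.comap (ψ v)) (ψ v)).obj (D.Jv v)) 2 →+ AddCircle (1 : ℚ) :=
  LocInv.smInv 𝒰 (ψ v) fine' (D.Jv v) κ' (D.locForm v).inv

/-- the local invariant `t_v` of a Poitou–Tate datum (`Ext` form) -/
noncomputable def PTDatum.locExtInv :
    Ext (smUnit ℤ 𝒰) ((coindSm ℤ 𝒰 (𝒰.comap (ψ v)) (ψ v)).obj (D.Jv v)) 2 →+ AddCircle (1 : ℚ) :=
  LocInv.extInv 𝒰 (ψ v) fine' (D.Jv v) κ' (D.locForm v).inv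

include hcf in
theorem PTDatum.locSmInv_injective_on_torsion
    (z : smH 𝒰 ((coindSm ℤ 𝒰 (𝒰.comap (ψ v)) (ψ v)).obj (D.Jv v)) 2) (hz : p • z = 0)
    (h0 : D.locSmInv v fine' κ' z = 0) : z = 0 :=
  LocInv.smInv_injective_on_torsion 𝒰 (ψ v) fine' (D.Jv v) κ' (D.locForm v).inv p hcf
    (D.locForm v).base.inv_inj z hz h0

include hcf in
theorem PTDatum.locExtInv_injective_on_torsion
    (e : Ext (smUnit ℤ 𝒰) ((coindSm ℤ 𝒰 (𝒰.comap (ψ v)) (ψ v)).obj (D.Jv v)) 2) (he : p • e = 0)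
    (h0 : D.locExtInv v fine' κ' e = 0) : e = 0 :=
  LocInv.extInv_injective_on_torsion 𝒰 (ψ v) fine' (D.Jv v) κ' (D.locForm v).inv p hcf
    (D.locForm v).base.inv_inj e he h0

include hcf in
/-- compatibility of the global and the local invariants up to a unit `u_v` (smooth form) -/
theorem PTDatum.exists_unit_locSmInv :
    ∃ u : ℕ, ¬ p ∣ u ∧ ∀ z : smH 𝒰 ((coindSm ℤ 𝒰 (𝒰.comap (ψ v)) (ψ v)).obj (D.Jv v)) 2,
      p • z = 0 → D.form.inv (((smHFunctor ℤ 𝒰 2).map (D.incl v ≫ D.π)).hom z) =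
        u • D.locSmInv v fine' κ' z :=
  LocInv.exists_unit_smInv 𝒰 (ψ v) fine' (D.Jv v) κ' (D.locForm v).inv p hcf
    (D.locForm v).base.inv_inj D.form.inv D.form.base.inv_inj (D.incl v ≫ D.π) (D.lg v)

include hcf in
/-- compatibility of the global and the local invariants up to a unit `u_v` (`Ext` form) -/
theorem PTDatum.exists_unit_locExtInv :
    ∃ u : ℕ, ¬ p ∣ u ∧
      ∀ e : Ext (smUnit ℤ 𝒰) ((coindSm ℤ 𝒰 (𝒰.comap (ψ v)) (ψ v)).obj (D.Jv v)) 2, p • e = 0 →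
        tInv D.C D.form.inv (e.comp (Ext.mk₀ (D.incl v ≫ D.π)) (add_zero 2)) =
          u • D.locExtInv v fine' κ' e :=
  LocInv.exists_unit_extInv 𝒰 (ψ v) fine' (D.Jv v) κ' (D.locForm v).inv p hcf
    (D.locForm v).base.inv_inj D.form.inv D.form.base.inv_inj (D.incl v ≫ D.π) (D.lg v)

end Datum

section Compat

variable {Γ : Type} [Group Γ] {𝒰 : OpenBasis Γ} {p : ℕ} [hp : Fact p.Prime] {ι : Type} [Fintype ι]
  {G : ι → Type} [∀ v, Group (G v)] {ψ : ∀ v, G v →* Γ} {𝒱 : ∀ v, OpenBasis (G v)}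
  (D : PTDatum 𝒰 p ψ 𝒱)
  (fine' : ∀ v, (𝒱 v).Finer ((𝒰.comap (ψ v)).comap (MonoidHom.id (G v))))
  (κ' : ∀ v, (resSm ℤ (MonoidHom.id (G v)) (fine' v)).obj (D.Jv v) ⟶ D.B v)
  (hcf : ∀ v, Function.Injective (fun e : Ext (smUnit ℤ (𝒰.comap (ψ v))) (D.Jv v) 2 =>
    (e.mapExactFunctor (resSm ℤ (MonoidHom.id (G v)) (fine' v))).comp (Ext.mk₀ (κ' v))
      (add_zero 2)))

/-- decomposition of a class with values in `J` along `∑ v, proj v ≫ incl v = 𝟙` -/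
lemma PTDatum.ext_eq_sum_proj_incl {X : SmRep ℤ 𝒰} {n : ℕ} (y : Ext X D.J n) :
    y = ∑ v, (y.comp (Ext.mk₀ (D.proj v)) (add_zero n)).comp (Ext.mk₀ (D.incl v)) (add_zero n) := by
  have h1 : ∀ v, (y.comp (Ext.mk₀ (D.proj v)) (add_zero n)).comp (Ext.mk₀ (D.incl v))
      (add_zero n) = (Ext.mk₀ (D.proj v ≫ D.incl v)).postcomp X (add_zero n) y := by
    intro v
    rw [Ext.comp_assoc_of_third_deg_zero, Ext.mk₀_comp_mk₀]
    rfl
  rw [Finset.sum_congr rfl (fun v _ => h1 v)]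
  have h2 : ∑ v, (Ext.mk₀ (D.proj v ≫ D.incl v)).postcomp X (add_zero n) y =
      (Ext.mk₀ (∑ v, D.proj v ≫ D.incl v)).postcomp X (add_zero n) y := by
    have h3 : Ext.mk₀ (∑ v, D.proj v ≫ D.incl v) = ∑ v, Ext.mk₀ (D.proj v ≫ D.incl v) :=
      map_sum (Ext.addEquiv₀ (X := D.J) (Y := D.J)).symm.toAddMonoidHom _ _
    rw [h3]
    change _ = y.comp (∑ v, Ext.mk₀ (D.proj v ≫ D.incl v)) (add_zero n)
    have h4 : y.comp (∑ v, Ext.mk₀ (D.proj v ≫ D.incl v)) (add_zero n) =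
        ∑ v, y.comp (Ext.mk₀ (D.proj v ≫ D.incl v)) (add_zero n) :=
      map_sum (Ext.bilinearComp X D.J D.J n 0 n (add_zero n) y) _ _
    rw [h4]
    rfl
  rw [h2, D.sum]
  exact (Ext.comp_mk₀_id y).symm

include hcf in
/-- **Global-local compatibility of the pairings up to the units `u_v`**: for `X` killed by `p`,
`x ∈ Ext^s(𝟙, X)` and `j ∈ Ext^r(X, J)`, `s + r = 2`:
`inv_C (x ∪ π_* j) = ∑_v u_v • inv_v (loc_v x ∪ j_v)` where `j_v ∈ Ext^r_fine(res X, B_v)` is the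
`v`-component of `j`. -/
theorem PTDatum.exists_units_tInv_comp :
    ∃ u : ι → ℕ, (∀ v, ¬ p ∣ u v) ∧ ∀ (X : SmRep ℤ 𝒰), (∀ x : X.obj.V, p • x = 0) →
      ∀ {s r : ℕ} (h : s + r = 2) (x : Ext (smUnit ℤ 𝒰) X s) (j : Ext X D.J r),
        tInv D.C D.form.inv (x.comp (j.comp (Ext.mk₀ D.π) (add_zero r)) h) =
          ∑ v, u v • tInv (D.B v) (D.locForm v).inv
            (((x.mapExactFunctor (resSm ℤ (ψ v) (OpenBasis.Finer.refl _))).mapExactFunctor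
              (resSm ℤ (MonoidHom.id (G v)) (fine' v))).comp
              (LocInv.extMap 𝒰 (ψ v) (fine' v) (D.Jv v) (κ' v) X r
                (j.comp (Ext.mk₀ (D.proj v)) (add_zero r))) h) := by
  choose u hu1 hu2 using fun v => D.exists_unit_locExtInv v (fine' v) (κ' v) (hcf v)
  refine ⟨u, hu1, fun X hX s r h x j => ?_⟩
  have hpX : p • 𝟙 X = 0 := smRep_nsmul_id_eq_zero X p hX
  have h1 : x.comp (j.comp (Ext.mk₀ D.π) (add_zero r)) h =
      (x.comp j h).comp (Ext.mk₀ D.π) (add_zero 2) := by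
    symm
    apply Ext.comp_assoc
    lia
  rw [h1]
  conv_lhs => rw [D.ext_eq_sum_proj_incl (x.comp j h)]
  have h2 : (∑ v, ((x.comp j h).comp (Ext.mk₀ (D.proj v)) (add_zero 2)).comp
      (Ext.mk₀ (D.incl v)) (add_zero 2)).comp (Ext.mk₀ D.π) (add_zero 2) =
      ∑ v, ((x.comp j h).comp (Ext.mk₀ (D.proj v)) (add_zero 2)).comp
        (Ext.mk₀ (D.incl v ≫ D.π)) (add_zero 2) := by
    have h3 := map_sum ((Ext.mk₀ D.π).postcomp (smUnit ℤ 𝒰) (add_zero 2))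
      (fun v => ((x.comp j h).comp (Ext.mk₀ (D.proj v)) (add_zero 2)).comp
        (Ext.mk₀ (D.incl v)) (add_zero 2)) Finset.univ
    refine h3.trans (Finset.sum_congr rfl fun v _ => ?_)
    change (((x.comp j h).comp (Ext.mk₀ (D.proj v)) (add_zero 2)).comp
      (Ext.mk₀ (D.incl v)) (add_zero 2)).comp (Ext.mk₀ D.π) (add_zero 2) = _
    rw [Ext.comp_assoc_of_third_deg_zero, Ext.mk₀_comp_mk₀]
  rw [h2, map_sum]
  refine Finset.sum_congr rfl fun v _ => ?_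
  have hy : p • ((x.comp j h).comp (Ext.mk₀ (D.proj v)) (add_zero 2)) = 0 := by
    have h3 : p • j = 0 := ext_nsmul_eq_zero_of_left p hpX j
    have h4 : p • x.comp j h = 0 := by
      rw [← ext_comp_nsmul p x j h, h3, Ext.comp_zero]
    rw [← ext_nsmul_comp p _ _ (add_zero 2), h4, Ext.zero_comp]
  rw [hu2 v _ hy]
  congr 1
  have h5 : (x.comp j h).comp (Ext.mk₀ (D.proj v)) (add_zero 2) =
      x.comp (j.comp (Ext.mk₀ (D.proj v)) (add_zero r)) h := by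
    apply Ext.comp_assoc
    lia
  change tInv (D.B v) (D.locForm v).inv (LocInv.extMap 𝒰 (ψ v) (fine' v) (D.Jv v) (κ' v)
    (smUnit ℤ 𝒰) 2 _) = _
  rw [h5, LocInv.extMap_comp]

end Compat

end Fermat.Agent.CFT.Sm
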