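/-
S55 / CFT — helper1.  Global-local compatibility of the invariants / Yoneda pairings of a
Poitou–Tate datum, up to units `u_v` prime to `p`, in the language of `PTDatum.tau`
(lead's `PTCountDefs`):

* `PTDatum.tInvGlob v`, `PTDatum.tInvLoc v : Ext²(𝟙, coind J_v) →+ ℚ/ℤ` (global invariant along
  `incl v ≫ π`, local invariant along `tau v`), both injective on the `p`-torsion;
* **`PTDatum.exists_units_tau`**: there are `u_v` prime to `p` with
  `tInvGlob v = u_v • tInvLoc v` on `p`-torsion and, for `X` killed by `p`,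
  `inv_C (x ∪ π_* j) = ∑_v u_v • inv_v (res_v x ∪ tau_v (proj_v ∘ j))`;
* `PTDatum.exists_units_yPair`: the same formula for the Yoneda pairings `yPair`.
-/
import Fermat.Agent.CFT.Sm.CoarseFine_helper5_Datum
import Fermat.Agent.CFT.Sm.LocalInv_helper1

set_option autoImplicit false

open CategoryTheory CategoryTheory.Limits CategoryTheory.Abelian

namespace Fermat.Agent.CFT.Sm

variable {Γ : Type} [Group Γ] {𝒰 : OpenBasis Γ} {p : ℕ} [hp : Fact p.Prime] {ι : Type} [Fintype ι]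
  {G : ι → Type} [∀ v, Group (G v)] {ψ : ∀ v, G v →* Γ} {𝒱 : ∀ v, OpenBasis (G v)}

namespace PTDatum

variable (D : PTDatum 𝒰 p ψ 𝒱)

/-- the global invariant on the `v`-component: `e ↦ inv_C ((incl v ≫ π)_* e)` -/
noncomputable def tInvGlob (v : ι) : Ext (smUnit ℤ 𝒰) (D.Cv v) 2 →+ AddCircle (1 : ℚ) :=
  (tInv D.C D.form.inv).comp
    ((Ext.mk₀ (D.incl v ≫ D.π)).postcomp (smUnit ℤ 𝒰) (add_zero 2))

lemma tInvGlob_apply (v : ι) (e : Ext (smUnit ℤ 𝒰) (D.Cv v) 2) :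
    D.tInvGlob v e =
      tInv D.C D.form.inv (e.comp (Ext.mk₀ (D.incl v ≫ D.π)) (add_zero 2)) := rfl

/-- the transfer map at the unit object, with values in `Extⁿ(𝟙_{G_v}, B_v)` -/
noncomputable def tauUnit (v : ι) (n : ℕ) :
    Ext (smUnit ℤ 𝒰) (D.Cv v) n →+ Ext (smUnit ℤ (𝒱 v)) (D.B v) n :=
  D.tau v (smUnit ℤ 𝒰) n

lemma tauUnit_apply (v : ι) (n : ℕ) (e : Ext (smUnit ℤ 𝒰) (D.Cv v) n) :
    D.tauUnit v n e = D.tau v (smUnit ℤ 𝒰) n e := rfl

lemma tauUnit_two_injective (v : ι) : Function.Injective (D.tauUnit v 2) :=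
  D.tau_two_injective v (smUnit ℤ 𝒰)

/-- the local invariant on the `v`-component: `e ↦ inv_v (tau_v e)` -/
noncomputable def tInvLoc (v : ι) : Ext (smUnit ℤ 𝒰) (D.Cv v) 2 →+ AddCircle (1 : ℚ) :=
  (tInv (D.B v) (D.locForm v).inv).comp (D.tauUnit v 2)

lemma tInvLoc_apply (v : ι) (e : Ext (smUnit ℤ 𝒰) (D.Cv v) 2) :
    D.tInvLoc v e = tInv (D.B v) (D.locForm v).inv (D.tau v (smUnit ℤ 𝒰) 2 e) := rfl

/-- the global invariant is injective on the `p`-torsion of the `v`-component (LG') -/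
lemma tInvGlob_injective_on_torsion (v : ι) (e : Ext (smUnit ℤ 𝒰) (D.Cv v) 2) (he : p • e = 0)
    (h0 : D.tInvGlob v e = 0) : e = 0 := by
  rw [tInvGlob_apply, tInv_apply, smUnitCompare_naturality] at h0
  have hz : p • smUnitCompare (D.Cv v) 2 e = 0 := by rw [← map_nsmul, he, map_zero]
  have h1 : ((smHFunctor ℤ 𝒰 2).map (D.incl v ≫ D.π)).hom (smUnitCompare (D.Cv v) 2 e) = 0 := by
    apply D.form.base.inv_inj _ _ h0
    have h2 : ((smHFunctor ℤ 𝒰 2).map (D.incl v ≫ D.π)).hom (p • smUnitCompare (D.Cv v) 2 e) =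
        p • ((smHFunctor ℤ 𝒰 2).map (D.incl v ≫ D.π)).hom (smUnitCompare (D.Cv v) 2 e) :=
      map_nsmul _ _ _
    exact h2.symm.trans ((congrArg ((smHFunctor ℤ 𝒰 2).map (D.incl v ≫ D.π)).hom hz).trans
      (map_zero _))
  exact (AddEquiv.map_eq_zero_iff _).1 (D.lg v _ hz h1)

/-- the local invariant is injective on the `p`-torsion of the `v`-component -/
lemma tInvLoc_injective_on_torsion (v : ι) (e : Ext (smUnit ℤ 𝒰) (D.Cv v) 2) (he : p • e = 0)
    (h0 : D.tInvLoc v e = 0) : e = 0 := by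
  have h0' : (D.locForm v).inv (smUnitCompare (D.B v) 2 (D.tauUnit v 2 e)) = 0 := h0
  have h1 : smUnitCompare (D.B v) 2 (D.tauUnit v 2 e) = 0 := by
    apply (D.locForm v).base.inv_inj _ _ h0'
    rw [← map_nsmul, ← map_nsmul, he, map_zero, map_zero]
  have h2 : D.tauUnit v 2 e = 0 := (AddEquiv.map_eq_zero_iff _).1 h1
  exact (injective_iff_map_eq_zero _).1 (D.tauUnit_two_injective v) e h2

/-- **Global-local compatibility up to units.** There are units `u_v` (prime to `p`) such that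
the global invariant on the `v`-component is `u_v` times the local invariant (on `p`-torsion),
and, for `X` killed by `p`, `x ∈ Ext^s(𝟙, X)`, `j ∈ Ext^r(X, J)`, `s + r = 2`:
`inv_C (x ∪ π_* j) = ∑_v u_v • inv_v (res_v x ∪ tau_v (proj_v ∘ j))`. -/
theorem exists_units_tau :
    ∃ u : ι → ℕ, (∀ v, ¬ p ∣ u v) ∧
      (∀ (v : ι) (e : Ext (smUnit ℤ 𝒰) (D.Cv v) 2), p • e = 0 →
        tInv D.C D.form.inv (e.comp (Ext.mk₀ (D.incl v ≫ D.π)) (add_zero 2)) =
          u v • tInv (D.B v) (D.locForm v).inv (D.tau v (smUnit ℤ 𝒰) 2 e)) ∧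
      ∀ (X : SmRep ℤ 𝒰), (∀ x : X.obj.V, p • x = 0) →
        ∀ {s r : ℕ} (h : s + r = 2) (x : Ext (smUnit ℤ 𝒰) X s) (j : Ext X D.J r),
          tInv D.C D.form.inv (x.comp (j.comp (Ext.mk₀ D.π) (add_zero r)) h) =
            ∑ v, u v • tInv (D.B v) (D.locForm v).inv
              ((x.mapExactFunctor (D.Rv v)).comp
                (D.tau v X r (j.comp (Ext.mk₀ (D.proj v)) (add_zero r))) h) := by
  choose u hu1 hu2 using fun v => exists_unit_of_injective_on_torsion p (D.tInvGlob v)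
    (D.tInvLoc v) (D.tInvGlob_injective_on_torsion v) (D.tInvLoc_injective_on_torsion v)
  refine ⟨u, hu1, hu2, fun X hX s r h x j => ?_⟩
  have hpX : p • 𝟙 X = 0 := smRep_nsmul_id_eq_zero X p hX
  have h1 : x.comp (j.comp (Ext.mk₀ D.π) (add_zero r)) h =
      (x.comp j h).comp (Ext.mk₀ D.π) (add_zero 2) := by
    symm
    apply Ext.comp_assoc
    lia
  rw [h1]
  conv_lhs => rw [D.ext_J_eq_sum (smUnit ℤ 𝒰) 2 (x.comp j h)]
  rw [Ext.sum_comp, map_sum]
  refine Finset.sum_congr rfl fun v _ => ?_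
  rw [Ext.comp_assoc_of_third_deg_zero, Ext.mk₀_comp_mk₀]
  have hy : p • ((x.comp j h).comp (Ext.mk₀ (D.proj v)) (add_zero 2)) = 0 := by
    have h3 : p • j = 0 := ext_nsmul_eq_zero_of_left p hpX j
    have h4 : p • x.comp j h = 0 := by
      rw [← ext_comp_nsmul p x j h, h3, Ext.comp_zero]
    rw [← ext_nsmul_comp p _ _ (add_zero 2), h4, Ext.zero_comp]
  refine (hu2 v _ hy).trans ?_
  congr 1
  have h5 : (x.comp j h).comp (Ext.mk₀ (D.proj v)) (add_zero 2) =
      x.comp (j.comp (Ext.mk₀ (D.proj v)) (add_zero r)) h := by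
    apply Ext.comp_assoc
    lia
  rw [tInvLoc_apply, h5, D.tau_comp]

/-- The compatibility formula for the Yoneda pairings: `α_glob(π_* j)(x) =
∑_v u_v • α_v(tau_v (proj_v ∘ j))(res_v x)`. -/
theorem exists_units_yPair :
    ∃ u : ι → ℕ, (∀ v, ¬ p ∣ u v) ∧
      ∀ (X : SmRep ℤ 𝒰), (∀ x : X.obj.V, p • x = 0) →
        ∀ {s r : ℕ} (h : s + r = 2) (j : Ext X D.J r) (x : Ext (smUnit ℤ 𝒰) X s),
          yPair (smUnit ℤ 𝒰) D.C (tInv D.C D.form.inv) h X
              (j.comp (Ext.mk₀ D.π) (add_zero r)) x =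
            ∑ v, u v • yPair (smUnit ℤ (𝒱 v)) (D.B v) (tInv (D.B v) (D.locForm v).inv) h
              ((D.Rv v).obj X) (D.tau v X r (j.comp (Ext.mk₀ (D.proj v)) (add_zero r)))
              (x.mapExactFunctor (D.Rv v)) := by
  obtain ⟨u, hu1, _, hu3⟩ := D.exists_units_tau
  exact ⟨u, hu1, fun X hX s r h j x => hu3 X hX h x j⟩

end PTDatum

end Fermat.Agent.CFT.Sm
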