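/-
S55 / CFT (E-LES) — lead.
The `Ext` long exact sequence layer of the Poitou–Tate count, on raw data:
`i : E ⟶ J`, `π : J ⟶ C` in `SmRep ℤ 𝒰` with `i` injective, `ker π = im i`, and the cokernel of
`π` uniquely `p`-divisible.  For `X` killed by `p` we produce a connecting map
`δ : Ext¹(X, C) →+ Ext²(X, E)` with
`Ext¹(X, J) → Ext¹(X, C) → Ext²(X, E) → Ext²(X, J)` exact.
-/
import Fermat.Agent.CFT.Sm.ExtTorsion_helper5

set_option autoImplicit false

open CategoryTheory CategoryTheory.Limits CategoryTheory.Abelian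

namespace Fermat.Agent.CFT.Sm

variable {k Γ : Type} [CommRing k] [Group Γ] {𝒰 : OpenBasis Γ}

section Les

variable {E J C : SmRep k 𝒰} (i : E ⟶ J) (π : J ⟶ C) (p : ℕ)

lemma comp_eq_zero_of_apply (comp_zero : ∀ e : E.obj.V, π.hom.hom (i.hom.hom e) = 0) :
    i ≫ π = 0 := by
  apply ObjectProperty.hom_ext
  apply Rep.hom_ext
  apply Representation.IntertwiningMap.ext
  apply LinearMap.ext
  intro x
  exact comp_zero x

lemma smRep_comp_apply {A B D : SmRep k 𝒰} (f : A ⟶ B) (g : B ⟶ D) (a : A.obj.V) :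
    (f ≫ g).hom.hom a = g.hom.hom (f.hom.hom a) := rfl

lemma smRep_zero_apply {A B : SmRep k 𝒰} (a : A.obj.V) :
    (0 : A ⟶ B).hom.hom a = 0 := rfl

variable (i_inj : Function.Injective i.hom.hom)
  (comp_zero : ∀ e : E.obj.V, π.hom.hom (i.hom.hom e) = 0)
  (exact : ∀ j : J.obj.V, π.hom.hom j = 0 → ∃ e : E.obj.V, i.hom.hom e = j)
  (coker_div : ∀ c : C.obj.V, ∃ (j : J.obj.V) (c' : C.obj.V), c = π.hom.hom j + p • c')
  (coker_tor : ∀ c : C.obj.V, (∃ j : J.obj.V, π.hom.hom j = p • c) →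
    ∃ j' : J.obj.V, π.hom.hom j' = c)

include i_inj comp_zero exact coker_div coker_tor in
/-- **(E-LES)** the exact sequence
`Ext¹(X, J) → Ext¹(X, C) → Ext²(X, E) → Ext²(X, J)` for `X` killed by `p`. -/
theorem exists_ext_connecting (X : SmRep k 𝒰) (hX : ∀ x : X.obj.V, p • x = 0) :
    ∃ δ : Ext.{0} X C 1 →+ Ext.{0} X E 2,
      (∀ c, δ c = 0 ↔ ∃ j : Ext.{0} X J 1, j.comp (Ext.mk₀ π) (add_zero 1) = c) ∧
      (∀ e : Ext.{0} X E 2, e.comp (Ext.mk₀ i) (add_zero 2) = 0 ↔ ∃ c, δ c = e) := by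
  have w : i ≫ π = 0 := comp_eq_zero_of_apply i π comp_zero
  -- the image `K` of `π`, as the cokernel of `i`
  let q : J ⟶ cokernel i := cokernel.π i
  let m : cokernel i ⟶ C := cokernel.desc i π w
  have hqm : q ≫ m = π := cokernel.π_desc i π w
  have hS₀ : (ShortComplex.mk i π w).Exact := (exact_iff _).2 exact
  have hm : Mono m := (ShortComplex.exact_iff_mono_cokernel_desc _).1 hS₀
  have hi : Mono i := (mono_iff_injective i).2 i_inj
  let S₁ : ShortComplex (SmRep k 𝒰) := ShortComplex.mk i q (cokernel.condition i)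
  have hS₁ : S₁.ShortExact :=
    { exact := ShortComplex.exact_cokernel i
      mono_f := hi
      epi_g := by change Epi (cokernel.π i); infer_instance }
  let r : C ⟶ cokernel m := cokernel.π m
  let S₂ : ShortComplex (SmRep k 𝒰) := ShortComplex.mk m r (cokernel.condition m)
  have hS₂ : S₂.ShortExact :=
    { exact := ShortComplex.exact_cokernel m
      mono_f := hm
      epi_g := by change Epi (cokernel.π m); infer_instance }
  -- elementwise facts
  have hq_surj : Function.Surjective q.hom.hom := (epi_iff_surjective q).1 hS₁.epi_g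
  obtain ⟨-, hS₂ex, hr_surj⟩ := (shortExact_iff S₂).1 hS₂
  have hrm : ∀ k, r.hom.hom (m.hom.hom k) = 0 := fun k => by
    have h := congrArg (fun f => f.hom.hom k) (cokernel.condition m)
    exact h
  have hrπ : ∀ j, r.hom.hom (π.hom.hom j) = 0 := fun j => by
    have h1 : π.hom.hom j = m.hom.hom (q.hom.hom j) := by
      have h := congrArg (fun f => f.hom.hom j) hqm
      exact h.symm
    rw [h1, hrm]
  have hker : ∀ c, r.hom.hom c = 0 → ∃ j, π.hom.hom j = c := fun c hc => by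
    obtain ⟨k, hk⟩ := hS₂ex c hc
    obtain ⟨j, rfl⟩ := hq_surj k
    refine ⟨j, ?_⟩
    have h := congrArg (fun f => f.hom.hom j) hqm
    exact h.symm.trans hk
  -- `p` is bijective on the cokernel `Q`
  have hQ : Function.Bijective (fun y : (cokernel m).obj.V => p • y) := by
    constructor
    · intro y y' hyy'
      have hyy'' : p • y = p • y' := hyy'
      obtain ⟨c, hc⟩ := hr_surj (y - y')
      have h1 : r.hom.hom (p • c) = 0 := by
        rw [map_nsmul, hc, smul_sub, hyy'', sub_self]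
      obtain ⟨j, hj⟩ := hker _ h1
      obtain ⟨j', hj'⟩ := coker_tor c ⟨j, hj⟩
      have h2 : y - y' = 0 := by rw [← hc, ← hj', hrπ]
      exact sub_eq_zero.1 h2
    · intro y
      obtain ⟨c, rfl⟩ := hr_surj y
      obtain ⟨j, c', hc⟩ := coker_div c
      refine ⟨r.hom.hom c', ?_⟩
      change p • r.hom.hom c' = r.hom.hom c
      rw [hc, map_add, hrπ, zero_add, map_nsmul]
  have hExtQ : ∀ (n : ℕ) (e : Ext.{0} X (cokernel m) n), e = 0 := fun n e =>
    smRep_ext_eq_zero_of_torsion_of_divisible X (cokernel m) p hX hQ e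
  -- `Ext¹(X, K) ≃ Ext¹(X, C)`
  have hinj : Function.Injective ((Ext.mk₀ m).postcomp X (add_zero 1)) := by
    rw [injective_iff_map_eq_zero]
    intro x hx
    obtain ⟨x₃, rfl⟩ := Ext.covariant_sequence_exact₁ X hS₂ x hx (zero_add 1)
    rw [hExtQ 0 x₃, Ext.zero_comp]
  have hsurj : Function.Surjective ((Ext.mk₀ m).postcomp X (add_zero 1)) := by
    intro c
    exact Ext.covariant_sequence_exact₂ X hS₂ c (hExtQ 1 _)
  let φ : Ext.{0} X (cokernel i) 1 ≃+ Ext.{0} X C 1 :=
    AddEquiv.ofBijective ((Ext.mk₀ m).postcomp X (add_zero 1)) ⟨hinj, hsurj⟩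
  have hφ : ∀ k, φ k = k.comp (Ext.mk₀ m) (add_zero 1) := fun k => rfl
  let δ : Ext.{0} X C 1 →+ Ext.{0} X E 2 :=
    (hS₁.extClass.postcomp X (show 1 + 1 = 2 from rfl)).comp φ.symm.toAddMonoidHom
  have hδ : ∀ k : Ext.{0} X (cokernel i) 1,
      δ (k.comp (Ext.mk₀ m) (add_zero 1)) = k.comp hS₁.extClass (show 1 + 1 = 2 from rfl) := by
    intro k
    change (φ.symm (φ k)).comp hS₁.extClass (show 1 + 1 = 2 from rfl) = _
    rw [AddEquiv.symm_apply_apply]
  have hπ : ∀ j : Ext.{0} X J 1, j.comp (Ext.mk₀ π) (add_zero 1) =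
      (j.comp (Ext.mk₀ q) (add_zero 1)).comp (Ext.mk₀ m) (add_zero 1) := by
    intro j
    rw [Ext.comp_assoc_of_third_deg_zero, Ext.mk₀_comp_mk₀, hqm]
  refine ⟨δ, ?_, ?_⟩
  · intro c
    obtain ⟨k, rfl⟩ := φ.surjective c
    rw [hφ, hδ]
    constructor
    · intro h
      obtain ⟨j, hj⟩ := Ext.covariant_sequence_exact₃ X hS₁ k (show 1 + 1 = 2 from rfl) h
      exact ⟨j, by rw [hπ, hj]⟩
    · rintro ⟨j, hj⟩
      rw [hπ] at hj
      have hk : j.comp (Ext.mk₀ q) (add_zero 1) = k := hinj hj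
      rw [← hk, Ext.comp_assoc_of_second_deg_zero, hS₁.comp_extClass, Ext.comp_zero]
  · intro e
    constructor
    · intro h
      obtain ⟨k, hk⟩ := Ext.covariant_sequence_exact₁ X hS₁ e h (show 1 + 1 = 2 from rfl)
      exact ⟨k.comp (Ext.mk₀ m) (add_zero 1), by rw [hδ, hk]⟩
    · rintro ⟨c, rfl⟩
      obtain ⟨k, rfl⟩ := φ.surjective c
      rw [hφ, hδ, Ext.comp_assoc_of_third_deg_zero, hS₁.extClass_comp, Ext.comp_zero]

end Les

end Fermat.Agent.CFT.Sm
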