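/-
S55 / CFT — lead.
The Poitou–Tate count: for a `PTDatum` and a module `X` killed by `p`, global duality in degree one,
local surjectivity in degree one and the coarse→fine comparison give
`Ш²(X, E) ≃ (Ш¹(X))^∨`.
-/
import Fermat.Agent.CFT.Sm.PTCountDefs_lead
import Fermat.Agent.CFT.Sm.PTLes_lead
import Fermat.Agent.CFT.Bridge.Count_helper6

set_option autoImplicit false

open CategoryTheory CategoryTheory.Limits CategoryTheory.Abelian

namespace Fermat.Agent.CFT.Sm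

section UnitLemma

/-- in the `p`-torsion of `ℚ/ℤ`, every element is a multiple of any nonzero element -/
lemma addCircle_exists_zsmul_of_ne_zero (p : ℕ) [hp : Fact p.Prime] (x y : AddCircle (1 : ℚ))
    (hx : p • x = 0) (hy : p • y = 0) (hy0 : y ≠ 0) : ∃ k : ℤ, x = k • y := by
  obtain ⟨m, rfl⟩ := addCircle_exists_zsmul_inv p hp.out.ne_zero x hx
  obtain ⟨n, rfl⟩ := addCircle_exists_zsmul_inv p hp.out.ne_zero y hy
  set ε : AddCircle (1 : ℚ) := (((p : ℚ)⁻¹ : ℚ) : AddCircle (1 : ℚ)) with hε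
  have hpε : (p : ℤ) • ε = 0 := by
    rw [natCast_zsmul, hε, ← AddCircle.coe_nsmul, nsmul_eq_mul,
      mul_inv_cancel₀ (by exact_mod_cast hp.out.ne_zero)]
    exact (AddCircle.coe_eq_zero_iff (1 : ℚ)).2 ⟨1, by simp⟩
  have hn : ¬ (p : ℤ) ∣ n := by
    rintro ⟨n', rfl⟩
    apply hy0
    rw [mul_comm, mul_smul, hpε, smul_zero]
  have hcop : IsCoprime n (p : ℤ) :=
    (Int.isCoprime_iff_gcd_eq_one.2 (by
      have := (Nat.Prime.coprime_iff_not_dvd hp.out).2 (fun h => hn (by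
        have h2 : (p : ℤ) ∣ (n.natAbs : ℤ) := by exact_mod_cast h
        exact (Int.dvd_natAbs.1 h2)))
      rw [Int.gcd_comm]
      exact this))
  obtain ⟨a, b, hab⟩ := hcop
  refine ⟨m * a, ?_⟩
  have h1 : ε = a • (n • ε) := by
    have h2 : (a * n + b * p) • ε = ε := by rw [hab, one_smul]
    rw [add_smul, mul_smul, mul_smul b, hpε, smul_zero, add_zero] at h2
    exact h2.symm
  rw [mul_smul, ← h1]

/-- two characters which are injective on the `p`-torsion agree on the `p`-torsion up to a unit -/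
theorem exists_unit_zsmul_of_injective_on_torsion (p : ℕ) [hp : Fact p.Prime] {A : Type*}
    [AddCommGroup A] (f g : A →+ AddCircle (1 : ℚ))
    (hf : ∀ a, p • a = 0 → f a = 0 → a = 0) (hg : ∀ a, p • a = 0 → g a = 0 → a = 0) :
    ∃ u : ℤ, ¬ (p : ℤ) ∣ u ∧ ∀ a, p • a = 0 → f a = u • g a := by
  by_cases h0 : ∀ a : A, p • a = 0 → a = 0
  · refine ⟨1, ?_, fun a ha => ?_⟩
    · intro h
      have := Int.eq_one_of_dvd_one (by positivity) h
      have h2 : p = 1 := by exact_mod_cast this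
      exact hp.out.one_lt.ne' h2
    · rw [h0 a ha, map_zero, map_zero, smul_zero]
  · obtain ⟨a₀, h0'⟩ := not_forall.1 h0
    obtain ⟨ha₀, hne⟩ := Classical.not_imp.1 h0'
    have hg0 : g a₀ ≠ 0 := fun h => hne (hg a₀ ha₀ h)
    have hf0 : f a₀ ≠ 0 := fun h => hne (hf a₀ ha₀ h)
    have hpg : p • g a₀ = 0 := by rw [← map_nsmul, ha₀, map_zero]
    have hpf : p • f a₀ = 0 := by rw [← map_nsmul, ha₀, map_zero]
    obtain ⟨u, hu⟩ := addCircle_exists_zsmul_of_ne_zero p (f a₀) (g a₀) hpf hpg hg0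
    refine ⟨u, ?_, fun a ha => ?_⟩
    · rintro ⟨u', rfl⟩
      apply hf0
      rw [hu, mul_comm, mul_smul, natCast_zsmul, hpg, smul_zero]
    · have hpga : p • g a = 0 := by rw [← map_nsmul, ha, map_zero]
      obtain ⟨k, hk⟩ := addCircle_exists_zsmul_of_ne_zero p (g a) (g a₀) hpga hpg hg0
      have h1 : a = k • a₀ := by
        have h2 : a - k • a₀ = 0 := by
          apply hg
          · rw [smul_sub, ha, smul_comm, ha₀, smul_zero, sub_zero]
          · rw [map_sub, map_zsmul, hk, sub_self]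
        exact sub_eq_zero.1 h2
      rw [h1, map_zsmul, map_zsmul, hu, smul_comm]

end UnitLemma

section Count

variable {Γ : Type} [Group Γ] {𝒰 : OpenBasis Γ} {p : ℕ} [hp : Fact p.Prime] {ι : Type} [Fintype ι]
  {G : ι → Type} [∀ v, Group (G v)] {ψ : ∀ v, G v →* Γ} {𝒱 : ∀ v, OpenBasis (G v)}

/-- `Ext^•(Y, X)` is killed by `p` if `X` is. -/
lemma ext_nsmul_eq_zero_of_apply {Γ' : Type} [Group Γ'] {𝒰' : OpenBasis Γ'} (p : ℕ)
    {Y X : SmRep ℤ 𝒰'} (hX : ∀ x : X.obj.V, p • x = 0) {n : ℕ} (e : Ext Y X n) : p • e = 0 :=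
  ext_nsmul_eq_zero_of_right p (smRep_nsmul_id_eq_zero X p hX) e

variable (D : PTDatum 𝒰 p ψ 𝒱)

/-- the transfer map on `Ext^•(𝟙, -)`, with the unit object of the local group as source -/
noncomputable def PTDatum.tauU (v : ι) (n : ℕ) :
    Ext (smUnit ℤ 𝒰) (D.Cv v) n →+ Ext (smUnit ℤ (𝒱 v)) (D.B v) n :=
  D.tau v (smUnit ℤ 𝒰) n

/-- restriction on `Ext^•(𝟙, -)`, with the unit object of the local group as source -/
noncomputable def PTDatum.resU (v : ι) (X : SmRep ℤ 𝒰) (n : ℕ) :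
    Ext (smUnit ℤ 𝒰) X n →+ Ext (smUnit ℤ (𝒱 v)) ((D.Rv v).obj X) n :=
  (D.Rv v).mapExtAddHom (smUnit ℤ 𝒰) X n

lemma PTDatum.resU_apply (v : ι) (X : SmRep ℤ 𝒰) (n : ℕ) (x : Ext (smUnit ℤ 𝒰) X n) :
    D.resU v X n x = extUnitRes (ψ v) (D.fine v) X n x := rfl

lemma PTDatum.tauU_comp (v : ι) {X : SmRep ℤ 𝒰} {s r n : ℕ} (h : s + r = n)
    (x : Ext (smUnit ℤ 𝒰) X s) (j : Ext X (D.Cv v) r) :
    D.tauU v n (x.comp j h) = (D.resU v X s x).comp (D.tau v X r j) h :=
  D.tau_comp v h x j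

/-- the global invariant of the image of a local class -/
noncomputable def PTDatum.fInv (v : ι) : Ext (smUnit ℤ 𝒰) (D.Cv v) 2 →+ AddCircle (1 : ℚ) :=
  (tInv D.C D.form.inv).comp ((Ext.mk₀ (D.incl v ≫ D.π)).postcomp (smUnit ℤ 𝒰) (add_zero 2))

lemma PTDatum.fInv_apply (v : ι) (z : Ext (smUnit ℤ 𝒰) (D.Cv v) 2) :
    D.fInv v z = tInv D.C D.form.inv (z.comp (Ext.mk₀ (D.incl v ≫ D.π)) (add_zero 2)) := rfl

/-- the local invariant of a local class -/
noncomputable def PTDatum.gInv (v : ι) : Ext (smUnit ℤ 𝒰) (D.Cv v) 2 →+ AddCircle (1 : ℚ) :=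
  (tInv (D.B v) (D.locForm v).inv).comp (D.tauU v 2)

lemma PTDatum.gInv_apply (v : ι) (z : Ext (smUnit ℤ 𝒰) (D.Cv v) 2) :
    D.gInv v z = tInv (D.B v) (D.locForm v).inv (D.tauU v 2 z) := rfl

lemma PTDatum.fInv_injective (v : ι) (z : Ext (smUnit ℤ 𝒰) (D.Cv v) 2) (hz : p • z = 0)
    (h : D.fInv v z = 0) : z = 0 := by
  have h1 : D.form.inv (smUnitCompare D.C 2 (z.comp (Ext.mk₀ (D.incl v ≫ D.π)) (add_zero 2))) = 0 := h
  rw [smUnitCompare_naturality] at h1
  have h2 : p • smUnitCompare (D.Cv v) 2 z = 0 := by rw [← map_nsmul, hz, map_zero]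
  have h4 : p • ((smHFunctor ℤ 𝒰 2).map (D.incl v ≫ D.π)).hom (smUnitCompare (D.Cv v) 2 z) = 0 :=
    (map_nsmul ((smHFunctor ℤ 𝒰 2).map (D.incl v ≫ D.π)).hom p _).symm.trans
      ((congrArg _ h2).trans (map_zero _))
  have h3 := D.form.base.inv_inj _ h4 h1
  exact (AddEquiv.map_eq_zero_iff _).1 (D.lg v _ h2 h3)

lemma PTDatum.gInv_injective (hCF2 : ∀ v, Function.Injective (D.tau v (smUnit ℤ 𝒰) 2))
    (v : ι) (z : Ext (smUnit ℤ 𝒰) (D.Cv v) 2) (hz : p • z = 0)
    (h : D.gInv v z = 0) : z = 0 := by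
  apply hCF2 v
  rw [map_zero]
  have h1 : p • D.tauU v 2 z = 0 := by rw [← map_nsmul, hz, map_zero]
  exact (D.locForm v).base.ext_two_eq_zero _ h1 h

/-- the units comparing the global and the local invariants of local classes -/
theorem PTDatum.exists_units (hCF2 : ∀ v, Function.Injective (D.tau v (smUnit ℤ 𝒰) 2)) :
    ∃ u : ι → ℤ, (∀ v, ¬ (p : ℤ) ∣ u v) ∧
      ∀ (v : ι) (z : Ext (smUnit ℤ 𝒰) (D.Cv v) 2), p • z = 0 → D.fInv v z = u v • D.gInv v z := by
  have h : ∀ v, ∃ u : ℤ, ¬ (p : ℤ) ∣ u ∧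
      ∀ z : Ext (smUnit ℤ 𝒰) (D.Cv v) 2, p • z = 0 → D.fInv v z = u • D.gInv v z := fun v =>
    exists_unit_zsmul_of_injective_on_torsion p (D.fInv v) (D.gInv v) (D.fInv_injective v)
      (D.gInv_injective hCF2 v)
  choose u hu1 hu2 using h
  exact ⟨u, hu1, hu2⟩

/-- the local pairing in degree one -/
noncomputable def PTDatum.locPair (v : ι) (X : SmRep ℤ 𝒰) :
    Ext ((D.Rv v).obj X) (D.B v) 1 →+ CharacterModule (Ext (smUnit ℤ (𝒱 v)) ((D.Rv v).obj X) 1) :=
  yPair (smUnit ℤ (𝒱 v)) (D.B v) (tInv (D.B v) (D.locForm v).inv) (show 1 + 1 = 2 from rfl)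
    ((D.Rv v).obj X)

/-- the global pairing in degree one -/
noncomputable def PTDatum.globPair (X : SmRep ℤ 𝒰) :
    Ext X D.C 1 →+ CharacterModule (Ext (smUnit ℤ 𝒰) X 1) :=
  yPair (smUnit ℤ 𝒰) D.C (tInv D.C D.form.inv) (show 1 + 1 = 2 from rfl) X

lemma PTDatum.locPair_apply (v : ι) (X : SmRep ℤ 𝒰) (e : Ext ((D.Rv v).obj X) (D.B v) 1)
    (y : Ext (smUnit ℤ (𝒱 v)) ((D.Rv v).obj X) 1) :
    D.locPair v X e y = tInv (D.B v) (D.locForm v).inv (y.comp e (show 1 + 1 = 2 from rfl)) := rfl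

lemma PTDatum.globPair_apply (X : SmRep ℤ 𝒰) (c : Ext X D.C 1) (x : Ext (smUnit ℤ 𝒰) X 1) :
    D.globPair X c x = tInv D.C D.form.inv (x.comp c (show 1 + 1 = 2 from rfl)) := rfl

/-- the key compatibility: the global pairing with the image of a local class is the local pairing
with the localisation, up to the unit `u v`. -/
lemma PTDatum.globPair_incl (u : ι → ℤ)
    (hu : ∀ (v : ι) (z : Ext (smUnit ℤ 𝒰) (D.Cv v) 2), p • z = 0 →
      D.fInv v z = u v • D.gInv v z)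
    (X : SmRep ℤ 𝒰) (hX : ∀ x : X.obj.V, p • x = 0) (v : ι) (j : Ext X (D.Cv v) 1)
    (x : Ext (smUnit ℤ 𝒰) X 1) :
    D.globPair X (j.comp (Ext.mk₀ (D.incl v ≫ D.π)) (add_zero 1)) x =
      u v • D.locPair v X (D.tau v X 1 j) (D.resU v X 1 x) := by
  rw [D.globPair_apply, D.locPair_apply, ← D.tauU_comp, ← D.gInv_apply, ← hu, D.fInv_apply]
  · congr 1
    symm
    exact Ext.comp_assoc_of_third_deg_zero _ _ _ _
  · rw [← ext_nsmul_comp, ext_nsmul_eq_zero_of_apply p hX x, Ext.zero_comp]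

/-- the identification of the kernel of `Ext²(X, E) → Ext²(X, J)` with `Ш²` -/
lemma PTDatum.mem_extSha_iff (hCF2 : ∀ v (Y : SmRep ℤ 𝒰), Function.Injective (D.tau v Y 2))
    (X : SmRep ℤ 𝒰) (e : Ext X D.E 2) :
    e ∈ D.extSha X 2 ↔ e.comp (Ext.mk₀ D.i) (add_zero 2) = 0 := by
  have h1 : e ∈ D.extSha X 2 ↔ ∀ v, D.locExt v X 2 e = 0 := by
    unfold PTDatum.extSha
    rw [AddSubgroup.mem_iInf]
    exact forall_congr' fun v => AddMonoidHom.mem_ker
  rw [h1]
  have h2 : ∀ v, D.locExt v X 2 e = 0 ↔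
      (e.comp (Ext.mk₀ D.i) (add_zero 2)).comp (Ext.mk₀ (D.proj v)) (add_zero 2) = 0 := by
    intro v
    rw [D.locExt_eq_tau, Ext.comp_assoc_of_third_deg_zero, Ext.mk₀_comp_mk₀]
    constructor
    · intro h
      apply hCF2 v X
      rw [h, map_zero]
    · intro h
      rw [h, map_zero]
  constructor
  · intro h
    have h3 : e.comp (Ext.mk₀ D.i) (add_zero 2) =
        (e.comp (Ext.mk₀ D.i) (add_zero 2)).comp (Ext.mk₀ (∑ v, D.proj v ≫ D.incl v))
          (add_zero 2) := by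
      rw [D.sum, Ext.comp_mk₀_id]
    rw [h3, Ext.mk₀_sum, Ext.comp_sum]
    apply Finset.sum_eq_zero
    intro v _
    rw [← Ext.mk₀_comp_mk₀, ← Ext.comp_assoc_of_third_deg_zero, (h2 v).1 (h v), Ext.zero_comp]
  · intro h v
    rw [h2 v, h, Ext.zero_comp]

/-- the identification of the kernel of the localisation maps on `Ext¹(𝟙, X)` with `Ш¹` -/
lemma PTDatum.mem_shaOne_iff (X : SmRep ℤ 𝒰) (x : Ext (smUnit ℤ 𝒰) X 1) :
    smUnitCompare X 1 x ∈ D.shaOne X ↔ ∀ v, D.resU v X 1 x = 0 := by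
  unfold PTDatum.shaOne
  rw [AddSubgroup.mem_iInf]
  refine forall_congr' fun v => ?_
  rw [AddMonoidHom.mem_ker, D.resU_apply]
  have h := smUnitCompare_res (ψ v) (D.fine v) X 1 x
  constructor
  · intro h1
    have h2 : smUnitCompare ((resSm ℤ (ψ v) (D.fine v)).obj X) 1
        (extUnitRes (ψ v) (D.fine v) X 1 x) = 0 := h.trans h1
    exact (AddEquiv.map_eq_zero_iff _).1 h2
  · intro h1
    rw [h1, map_zero] at h
    exact h.symm

lemma characterModule_sum_apply {A κ : Type*} [AddCommGroup A] [Fintype κ]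
    (χ : κ → CharacterModule A) (x : A) : (∑ v, χ v) x = ∑ v, χ v x :=
  AddMonoidHom.finsetSum_apply (fun v => (χ v : A →+ AddCircle (1 : ℚ))) Finset.univ x

/-- **The Poitou–Tate count.** -/
theorem PTDatum.main_of (X : SmRep ℤ 𝒰) (hX : ∀ x : X.obj.V, p • x = 0)
    (hG : Function.Bijective (yPair (smUnit ℤ 𝒰) D.C (tInv D.C D.form.inv)
      (show 1 + 1 = 2 from rfl) X))
    (hL : ∀ v, Function.Surjective (yPair (smUnit ℤ (𝒱 v)) (D.B v)
      (tInv (D.B v) (D.locForm v).inv) (show 1 + 1 = 2 from rfl) ((D.Rv v).obj X)))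
    (hCF1 : ∀ v, Function.Surjective (D.tau v X 1))
    (hCF2 : ∀ v (Y : SmRep ℤ 𝒰), Function.Injective (D.tau v Y 2)) :
    Nonempty (D.extSha X 2 ≃+ CharacterModule (D.shaOne X)) := by
  classical
  obtain ⟨u, hu, huv⟩ := D.exists_units (fun v => hCF2 v _)
  obtain ⟨δ, hδ1, hδ2⟩ := exists_ext_connecting D.i D.π p D.i_inj D.comp_zero D.exact D.coker_div
    D.coker_tor X hX
  -- the maps of the count
  let b' : (∀ v, Ext X (D.Cv v) 1) →+ Ext X D.C 1 :=
    AddMonoidHom.mk' (fun j => ∑ v, (j v).comp (Ext.mk₀ (D.incl v ≫ D.π)) (add_zero 1))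
      (fun j j' => by
        rw [← Finset.sum_add_distrib]
        exact Finset.sum_congr rfl fun v _ => Ext.add_comp _ _ _ _)
  have hb' : ∀ j, b' j = ∑ v, (j v).comp (Ext.mk₀ (D.incl v ≫ D.π)) (add_zero 1) := fun j => rfl
  let a : Ext X D.E 2 →+ Ext X D.J 2 := (Ext.mk₀ D.i).postcomp X (add_zero 2)
  have ha : ∀ e, a e = e.comp (Ext.mk₀ D.i) (add_zero 2) := fun e => rfl
  let loc : Ext (smUnit ℤ 𝒰) X 1 →+ (∀ v, Ext (smUnit ℤ (𝒱 v)) ((D.Rv v).obj X) 1) :=
    AddMonoidHom.pi (fun v => D.resU v X 1)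
  have hloc : ∀ x v, loc x v = D.resU v X 1 x := fun x v => rfl
  let φC : Ext X D.C 1 ≃+ CharacterModule (Ext (smUnit ℤ 𝒰) X 1) :=
    AddEquiv.ofBijective (D.globPair X) hG
  have hφC : ∀ c x, φC c x = D.globPair X c x := fun c x => rfl
  let φJ : (∀ v, Ext X (D.Cv v) 1) →
      CharacterModule (∀ v, Ext (smUnit ℤ (𝒱 v)) ((D.Rv v).obj X) 1) :=
    fun j => Bridge.sumCharacter (fun v => u v • D.locPair v X (D.tau v X 1 (j v)))
  -- exactness
  have hbδ : ∀ c, δ c = 0 ↔ ∃ j, b' j = c := by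
    intro c
    rw [hδ1]
    constructor
    · rintro ⟨j, rfl⟩
      refine ⟨fun v => j.comp (Ext.mk₀ (D.proj v)) (add_zero 1), ?_⟩
      rw [hb']
      have h1 : ∀ v, (j.comp (Ext.mk₀ (D.proj v)) (add_zero 1)).comp
          (Ext.mk₀ (D.incl v ≫ D.π)) (add_zero 1) =
          j.comp (Ext.mk₀ ((D.proj v ≫ D.incl v) ≫ D.π)) (add_zero 1) := by
        intro v
        rw [Ext.comp_assoc_of_third_deg_zero, Ext.mk₀_comp_mk₀, Category.assoc]
      rw [Finset.sum_congr rfl fun v _ => h1 v, ← Ext.comp_sum, ← Ext.mk₀_sum,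
        ← Preadditive.sum_comp, D.sum, Category.id_comp]
    · rintro ⟨j, rfl⟩
      refine ⟨∑ v, (j v).comp (Ext.mk₀ (D.incl v)) (add_zero 1), ?_⟩
      rw [hb', Ext.sum_comp]
      refine Finset.sum_congr rfl fun v _ => ?_
      rw [Ext.comp_assoc_of_third_deg_zero, Ext.mk₀_comp_mk₀]
  have hδa : ∀ e, a e = 0 ↔ ∃ c, δ c = e := fun e => by rw [ha, hδ2]
  -- surjectivity of the local side
  have hφJ : Function.Surjective φJ := by
    intro χ
    obtain ⟨χv, rfl⟩ := Bridge.sumCharacter_surjective χ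
    have hv : ∀ v, ∃ j : Ext X (D.Cv v) 1, u v • D.locPair v X (D.tau v X 1 j) = χv v := by
      intro v
      have hcop : IsCoprime (u v) (p : ℤ) :=
        (((Nat.prime_iff_prime_int.1 hp.out).coprime_iff_not_dvd).2 (hu v)).symm
      obtain ⟨w, t, hwt⟩ := hcop
      obtain ⟨e, he⟩ := hL v (w • χv v)
      obtain ⟨j, hj⟩ := hCF1 v e
      refine ⟨j, ?_⟩
      have he' : D.locPair v X e = w • χv v := he
      rw [hj, he']
      apply CharacterModule.ext
      intro y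
      have h1 : (p : ℤ) • (χv v) y = 0 := by
        rw [natCast_zsmul, ← map_nsmul,
          ext_nsmul_eq_zero_of_apply (X := (D.Rv v).obj X) p hX y, map_zero]
      have h2 : (u v • w • χv v) y = (w * u v) • (χv v) y := by
        rw [mul_smul, smul_comm]
        rfl
      rw [h2]
      have h3 : w * u v = 1 - t * p := by linarith
      rw [h3, sub_smul, one_smul, mul_smul, h1, smul_zero, sub_zero]
    choose j hj using hv
    refine ⟨j, ?_⟩
    change Bridge.sumCharacter (fun v => u v • D.locPair v X (D.tau v X 1 (j v))) = _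
    congr 1
    funext v
    exact hj v
  -- commutativity
  have hcomm : ∀ j x, φC (b' j) x = φJ j (loc x) := by
    intro j x
    rw [hφC, hb', map_sum]
    change (∑ v, D.globPair X ((j v).comp (Ext.mk₀ (D.incl v ≫ D.π)) (add_zero 1))) x = _
    rw [characterModule_sum_apply]
    change _ = ∑ v, (u v • D.locPair v X (D.tau v X 1 (j v))) (loc x v)
    refine Finset.sum_congr rfl fun v _ => ?_
    rw [D.globPair_incl u huv X hX v (j v) x, hloc]
    rfl
  obtain ⟨Φ⟩ := Bridge.nonempty_ker_addEquiv_character_ker b' δ a hbδ hδa loc φC φJ hφJ hcomm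
  -- identification of the two kernels
  have hker : a.ker = D.extSha X 2 := by
    ext e
    rw [AddMonoidHom.mem_ker, ha, D.mem_extSha_iff hCF2]
  let e1 : D.extSha X 2 ≃+ a.ker := AddEquiv.addSubgroupCongr hker.symm
  let e2 : loc.ker ≃+ D.shaOne X :=
    { toFun := fun x => ⟨smUnitCompare X 1 x.1, (D.mem_shaOne_iff X x.1).2 (fun v => by
        have := x.2
        rw [AddMonoidHom.mem_ker] at this
        exact congrFun this v)⟩
      invFun := fun y => ⟨(smUnitCompare X 1).symm y.1, by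
        rw [AddMonoidHom.mem_ker]
        funext v
        have h1 : smUnitCompare X 1 ((smUnitCompare X 1).symm y.1) ∈ D.shaOne X := by
          rw [AddEquiv.apply_symm_apply]
          exact y.2
        exact (D.mem_shaOne_iff X _).1 h1 v⟩
      left_inv := fun x => Subtype.ext ((smUnitCompare X 1).symm_apply_apply x.1)
      right_inv := fun y => Subtype.ext ((smUnitCompare X 1).apply_symm_apply y.1)
      map_add' := fun x y => Subtype.ext (map_add (smUnitCompare X 1) x.1 y.1) }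
  let e3 : CharacterModule loc.ker ≃+ CharacterModule (D.shaOne X) :=
    AddEquiv.addMonoidHomCongrLeft e2
  exact ⟨(e1.trans Φ).trans e3⟩

end Count

end Fermat.Agent.CFT.Sm
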