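/-
S55 / CFT (engine, MAIN THEOREM) — helper2.
`PTDatum.main`: for a Poitou–Tate datum `D` and a finite smooth module `X` killed by `p`,
`Ш²(X, E) ≃ Ш¹(X)^∨`, i.e. `D.extSha X 2 ≃+ CharacterModule (D.shaOne X)`.
Assembly of lead's count (`PTDatum.main_of`), the duality theorems (`LocalDuality_helper2`) and the
coarse → fine comparison (`PTTau_helper2`, helper5's (E-CF)).
-/
import Fermat.Agent.CFT.Sm.PTCount_lead
import Fermat.Agent.CFT.Sm.PTTau_helper2
import Fermat.Agent.CFT.Sm.LocalDuality_helper2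

set_option autoImplicit false

open CategoryTheory CategoryTheory.Limits CategoryTheory.Abelian

namespace Fermat.Agent.CFT.Sm

variable {Γ : Type} [Group Γ] {𝒰 : OpenBasis Γ} {p : ℕ} [hp : Fact p.Prime] {ι : Type} [Fintype ι]
  {G : ι → Type} [∀ v, Group (G v)] {ψ : ∀ v, G v →* Γ} {𝒱 : ∀ v, OpenBasis (G v)}

/-- **The main theorem of the Poitou–Tate engine**: `Ш²(X, E) ≃ Ш¹(X)^∨` for every finite smooth
module `X` killed by `p`. -/
theorem PTDatum.main (D : PTDatum 𝒰 p ψ 𝒱) (X : SmRep ℤ 𝒰) [hfin : Finite X.obj.V]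
    (hX : ∀ x : X.obj.V, p • x = 0) :
    Nonempty (D.extSha X 2 ≃+ CharacterModule (D.shaOne X)) := by
  refine D.main_of X hX (D.glob.yPair_one_bijective_of_finite D.hU₀ X hX) (fun v => ?_)
    (fun v => (D.tau_one_bijective v X).2) (fun v Y => D.tau_two_injective v Y)
  haveI : Finite ((D.Rv v).obj X).obj.V := hfin
  exact (D.locForm v).yPair_one_surjective_of_finite ((D.Rv v).obj X) hX

/-- A finitely generated `ℤ`-module killed by `p` is finite (for the module structure carried by a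
smooth representation). -/
lemma smRep_finite_of_moduleFinite_of_torsion (X : SmRep ℤ 𝒰)
    [hf : @Module.Finite ℤ X.obj.V _ _ X.obj.hV2] (hX : ∀ x : X.obj.V, p • x = 0) :
    Finite X.obj.V := by
  have h1 : X.obj.hV2 = AddCommGroup.toIntModule X.obj.V := Subsingleton.elim _ _
  have h2 : Module.Finite ℤ X.obj.V := h1 ▸ hf
  haveI : AddGroup.FG X.obj.V := Module.Finite.iff_addGroup_fg.1 h2
  apply AddCommGroup.finite_of_fg_torsion
  intro x
  exact isOfFinAddOrder_iff_nsmul_eq_zero.2 ⟨p, hp.out.pos, hX x⟩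

/-- The main theorem, for `X` finitely generated over `ℤ` (helper6's consumer shape). -/
theorem PTDatum.main' (D : PTDatum 𝒰 p ψ 𝒱) (X : SmRep ℤ 𝒰)
    [@Module.Finite ℤ X.obj.V _ _ X.obj.hV2] (hX : ∀ x : X.obj.V, p • x = 0) :
    Nonempty (D.extSha X 2 ≃+ CharacterModule (D.shaOne X)) := by
  haveI : Finite X.obj.V := smRep_finite_of_moduleFinite_of_torsion X hX
  exact D.main X hX

end Fermat.Agent.CFT.Sm
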