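/-
S56 / CFT — helper9.
More of the `Ext` long exact sequence of `0 → E → J → C` (cokernel of `J → C` uniquely
`p`-divisible), for `X` killed by `p`: exactness at `Extⁿ(X, J)`, `n ≥ 1`.
-/
import Fermat.Agent.CFT.Sm.PTLes_lead

set_option autoImplicit false

open CategoryTheory CategoryTheory.Limits CategoryTheory.Abelian

namespace Fermat.Agent.CFT.Sm

variable {k Γ : Type} [CommRing k] [Group Γ] {𝒰 : OpenBasis Γ}

section Les

variable {E J C : SmRep k 𝒰} (i : E ⟶ J) (π : J ⟶ C) (p : ℕ)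

variable (i_inj : Function.Injective i.hom.hom)
  (comp_zero : ∀ e : E.obj.V, π.hom.hom (i.hom.hom e) = 0)
  (exact : ∀ j : J.obj.V, π.hom.hom j = 0 → ∃ e : E.obj.V, i.hom.hom e = j)
  (coker_div : ∀ c : C.obj.V, ∃ (j : J.obj.V) (c' : C.obj.V), c = π.hom.hom j + p • c')
  (coker_tor : ∀ c : C.obj.V, (∃ j : J.obj.V, π.hom.hom j = p • c) →
    ∃ j' : J.obj.V, π.hom.hom j' = c)

include i_inj comp_zero exact coker_div coker_tor in
/-- exactness of `Extⁿ⁺¹(X, E) → Extⁿ⁺¹(X, J) → Extⁿ⁺¹(X, C)` for `X` killed by `p`. -/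
theorem ext_exact_at_middle (X : SmRep k 𝒰) (hX : ∀ x : X.obj.V, p • x = 0) (n : ℕ)
    (j : Ext.{0} X J (n + 1)) :
    j.comp (Ext.mk₀ π) (add_zero (n + 1)) = 0 ↔
      ∃ e : Ext.{0} X E (n + 1), e.comp (Ext.mk₀ i) (add_zero (n + 1)) = j := by
  have w : i ≫ π = 0 := comp_eq_zero_of_apply i π comp_zero
  let q : J ⟶ cokernel i := cokernel.π i
  let m : cokernel i ⟶ C := cokernel.desc i π w
  have hqm : q ≫ m = π := cokernel.π_desc i π w
  have hS₀ : (ShortComplex.mk i π w).Exact := (exact_iff _).2 exact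
  have hm : Mono m := (ShortComplex.exact_iff_mono_cokernel_desc _).1 hS₀
  have hi : Mono i := (mono_iff_injective i).2 i_inj
  let S₁ : ShortComplex (SmRep k 𝒰) := ShortComplex.mk i q (cokernel.condition i)
  have hS₁ : S₁.ShortExact :=
    { exact := ShortComplex.exact_cokernel i
      mono_f := hi
      epi_g := by change Epi (cokernel.π i); infer_instance }
  let r : C ⟶ cokernel m := cokernel.π m
  let S₂ : ShortComplex (SmRep k 𝒰) := ShortComplex.mk m r (cokernel.condition m)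
  have hS₂ : S₂.ShortExact :=
    { exact := ShortComplex.exact_cokernel m
      mono_f := hm
      epi_g := by change Epi (cokernel.π m); infer_instance }
  have hq_surj : Function.Surjective q.hom.hom := (epi_iff_surjective q).1 hS₁.epi_g
  obtain ⟨-, hS₂ex, hr_surj⟩ := (shortExact_iff S₂).1 hS₂
  have hrm : ∀ k, r.hom.hom (m.hom.hom k) = 0 := fun k => by
    have h := congrArg (fun f => f.hom.hom k) (cokernel.condition m)
    exact h
  have hrπ : ∀ j, r.hom.hom (π.hom.hom j) = 0 := fun j => by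
    have h1 : π.hom.hom j = m.hom.hom (q.hom.hom j) := by
      have h := congrArg (fun f => f.hom.hom j) hqm
      exact h.symm
    rw [h1, hrm]
  have hker : ∀ c, r.hom.hom c = 0 → ∃ j, π.hom.hom j = c := fun c hc => by
    obtain ⟨k, hk⟩ := hS₂ex c hc
    obtain ⟨j, rfl⟩ := hq_surj k
    refine ⟨j, ?_⟩
    have h := congrArg (fun f => f.hom.hom j) hqm
    exact h.symm.trans hk
  have hQ : Function.Bijective (fun y : (cokernel m).obj.V => p • y) := by
    constructor
    · intro y y' hyy'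
      have hyy'' : p • y = p • y' := hyy'
      obtain ⟨c, hc⟩ := hr_surj (y - y')
      have h1 : r.hom.hom (p • c) = 0 := by
        rw [map_nsmul, hc, smul_sub, hyy'', sub_self]
      obtain ⟨j, hj⟩ := hker _ h1
      obtain ⟨j', hj'⟩ := coker_tor c ⟨j, hj⟩
      have h2 : y - y' = 0 := by rw [← hc, ← hj', hrπ]
      exact sub_eq_zero.1 h2
    · intro y
      obtain ⟨c, rfl⟩ := hr_surj y
      obtain ⟨j, c', hc⟩ := coker_div c
      refine ⟨r.hom.hom c', ?_⟩
      change p • r.hom.hom c' = r.hom.hom c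
      rw [hc, map_add, hrπ, zero_add, map_nsmul]
  have hExtQ : ∀ (n : ℕ) (e : Ext.{0} X (cokernel m) n), e = 0 := fun n e =>
    smRep_ext_eq_zero_of_torsion_of_divisible X (cokernel m) p hX hQ e
  have hinj : Function.Injective ((Ext.mk₀ m).postcomp X (add_zero (n + 1))) := by
    rw [injective_iff_map_eq_zero]
    intro x hx
    obtain ⟨x₃, rfl⟩ := Ext.covariant_sequence_exact₁ X hS₂ x hx rfl
    rw [hExtQ n x₃, Ext.zero_comp]
  have hπ : j.comp (Ext.mk₀ π) (add_zero (n + 1)) =
      (j.comp (Ext.mk₀ q) (add_zero (n + 1))).comp (Ext.mk₀ m) (add_zero (n + 1)) := by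
    rw [Ext.comp_assoc_of_third_deg_zero, Ext.mk₀_comp_mk₀, hqm]
  constructor
  · intro h
    rw [hπ] at h
    have h1 : j.comp (Ext.mk₀ q) (add_zero (n + 1)) = 0 := by
      apply hinj
      rw [map_zero]
      exact h
    exact Ext.covariant_sequence_exact₂ X hS₁ j h1
  · rintro ⟨e, rfl⟩
    rw [Ext.comp_assoc_of_third_deg_zero, Ext.mk₀_comp_mk₀, w, Ext.mk₀_zero, Ext.comp_zero]

end Les

end Fermat.Agent.CFT.Sm
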