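/-
S56 / CFT (engine) — helper9. **Vanishing of `Ext³(X, E)`** for a Poitou–Tate datum whose coarse
local modules carry `p`-class formations with `H³ = 0`:
`Ext³(X, coind J_v) = 0` (Shapiro + Sylow anchor), `Ext³(X, J) = 0`, and, using the surjectivity of
`Ext²(X, J) → Ext²(X, C)`, `Ext³(X, E) = 0`, for `X` finite killed by `p`.
-/
import Fermat.Agent.CFT.Sm.CoarseFineSurj_helper9
import Fermat.Agent.CFT.Sm.PTLesDeg_helper9

set_option autoImplicit false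
set_option linter.unusedSectionVars false

open CategoryTheory CategoryTheory.Limits CategoryTheory.Abelian

namespace Fermat.Agent.CFT.Sm

variable {Γ : Type} [Group Γ] {𝒰 : OpenBasis Γ} {p : ℕ} [hp : Fact p.Prime] {ι : Type} [Fintype ι]
  {G : ι → Type} [∀ v, Group (G v)] {ψ : ∀ v, G v →* Γ} {𝒱 : ∀ v, OpenBasis (G v)}

variable (D : PTDatum 𝒰 p ψ 𝒱)

/-- `Ext³(X, coind J_v) = 0` -/
theorem PTDatum.ext_Cv_three_eq_zero (v : ι) (Fc : PClassFormation (𝒰.comap (ψ v)) p (D.Jv v))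
    (hc3 : ∀ (W : Subgroup (G v)) (_ : (𝒰.comap (ψ v)).IsOpen W)
      (x : smH ((𝒰.comap (ψ v)).sub W) (resSub (D.Jv v) W) 3), x = 0)
    (X : SmRep ℤ 𝒰) [hfin : Finite X.obj.V] (hX : ∀ x : X.obj.V, p • x = 0)
    (e : Ext X (D.Cv v) 3) : e = 0 := by
  apply (shapiro_extAdjInv_bijective (ψ v) (D.Jv v) X 3).1
  rw [map_zero]
  have : Finite ((resSm ℤ (ψ v) (OpenBasis.Finer.refl ((𝒰.comap (ψ v))))).obj X).obj.V := hfin
  exact ext_eq_zero_of_finite_of_torsion p (D.Jv v) 3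
    (fun W hW e' => ext_three_smFp_eq_zero_of (fun x _ => hc3 W hW x) (Fc.baseU W hW).h2_div e')
    ((resSm ℤ (ψ v) (OpenBasis.Finer.refl ((𝒰.comap (ψ v))))).obj X) hX _

/-- `Ext³(X, J) = 0` -/
theorem PTDatum.ext_J_three_eq_zero
    (Fc : ∀ v, PClassFormation (𝒰.comap (ψ v)) p (D.Jv v))
    (hc3 : ∀ (v : ι) (W : Subgroup (G v)) (_ : (𝒰.comap (ψ v)).IsOpen W)
      (x : smH ((𝒰.comap (ψ v)).sub W) (resSub (D.Jv v) W) 3), x = 0)
    (X : SmRep ℤ 𝒰) [hfin : Finite X.obj.V] (hX : ∀ x : X.obj.V, p • x = 0)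
    (e : Ext X D.J 3) : e = 0 := by
  rw [D.ext_J_eq_sum_proj_incl X e]
  apply Finset.sum_eq_zero
  intro v _
  rw [D.ext_Cv_three_eq_zero v (Fc v) (hc3 v) X hX (e.comp (Ext.mk₀ (D.proj v)) (add_zero 3)),
    Ext.zero_comp]

/-- **`Ext³(X, E) = 0`** for `X` finite killed by `p` -/
theorem PTDatum.ext_E_three_eq_zero
    (Fc : ∀ v, PClassFormation (𝒰.comap (ψ v)) p (D.Jv v))
    (hc3 : ∀ (v : ι) (W : Subgroup (G v)) (_ : (𝒰.comap (ψ v)).IsOpen W)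
      (x : smH ((𝒰.comap (ψ v)).sub W) (resSub (D.Jv v) W) 3), x = 0)
    (X : SmRep ℤ 𝒰) [hfin : Finite X.obj.V] (hX : ∀ x : X.obj.V, p • x = 0)
    (hsurj : Function.Surjective ((Ext.mk₀ D.π).postcomp X (add_zero 2)))
    (e : Ext X D.E 3) : e = 0 := by
  obtain ⟨δ, hδ1, hδ2⟩ := exists_ext_connecting_deg D.i D.π p D.i_inj D.comp_zero D.exact
    D.coker_div D.coker_tor X hX 2
  obtain ⟨c, rfl⟩ := (hδ2 e).1 (D.ext_J_three_eq_zero Fc hc3 X hX _)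
  obtain ⟨j, rfl⟩ := hsurj c
  exact (hδ1 _).2 ⟨j, rfl⟩

end Fermat.Agent.CFT.Sm
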