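/-
S56 / CFT — helper9.
Pure abelian-group form of the Greenberg–Wiles count.  Given the tail
`E1 → J1 → C1 → E2 → J2 → C2 → 0` of the Poitou–Tate `Ext`-sequence (exact at `J1, C1, E2, J2, C2`),
the dualities `C1 ↪ H1^∨`, `J1 ↠ L1^∨` making `J1 → C1` the dual of the localisation
`loc : H1 → L1`, and a family of local conditions `A ≤ L1` whose dual Selmer group vanishes:
* `H1 → L1 / A` is surjective;
* `#Sel · #E1 · #J2 = #A · #E2 · #C2`, where `Sel = loc⁻¹(A)`.
-/
import Mathlib

set_option autoImplicit false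

namespace Fermat.Agent.CFT.Sm

section SelmerAbs

variable {E1 J1 C1 E2 J2 C2 H1 L1 : Type*} [AddCommGroup E1] [AddCommGroup J1] [AddCommGroup C1]
  [AddCommGroup E2] [AddCommGroup J2] [AddCommGroup C2] [AddCommGroup H1] [AddCommGroup L1]

/-- a subgroup on which every character of the ambient group that kills it is zero is everything -/
lemma addSubgroup_eq_top_of_characters {L : Type*} [AddCommGroup L] (B : AddSubgroup L)
    (h : ∀ χ : CharacterModule L, (∀ y ∈ B, χ y = 0) → χ = 0) : B = ⊤ := by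
  rw [eq_top_iff]
  intro y _
  have h1 : (QuotientAddGroup.mk' B) y = 0 := by
    apply CharacterModule.eq_zero_of_character_apply
    intro c
    let χ : CharacterModule L := (c : L ⧸ B →+ AddCircle (1 : ℚ)).comp (QuotientAddGroup.mk' B)
    have hχ : χ = 0 := h χ (fun z hz => by
      change c ((QuotientAddGroup.mk' B) z) = 0
      have h3 : (QuotientAddGroup.mk' B) z = 0 := (QuotientAddGroup.eq_zero_iff z).2 hz
      rw [h3]
      exact map_zero c)
    have h2 : χ y = 0 := by rw [hχ]; rfl
    exact h2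
  exact (QuotientAddGroup.eq_zero_iff y).1 h1

variable (a1 : E1 →+ J1) (b1 : J1 →+ C1) (δ : C1 →+ E2) (a2 : E2 →+ J2) (b2 : J2 →+ C2)
  (loc : H1 →+ L1) (φC : C1 →+ CharacterModule H1) (φJ : J1 →+ CharacterModule L1)
  (A : AddSubgroup L1)

include a1 b1 loc φC φJ A in
/-- **Poitou–Tate, middle exactness with local conditions**: if the dual Selmer group vanishes then
`H1 → L1 / A` is surjective. -/
theorem exists_loc_sub_mem_of_dualSelmer_eq_zero
    (hJ1 : ∀ j, b1 j = 0 → ∃ e, a1 e = j)
    (hφC : Function.Injective φC) (hφJ : Function.Surjective φJ)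
    (hcomm : ∀ j x, φC (b1 j) x = φJ j (loc x))
    (hdual : ∀ e : E1, (∀ y ∈ A, φJ (a1 e) y = 0) → e = 0) (y : L1) :
    ∃ x : H1, loc x - y ∈ A := by
  have htop : A ⊔ loc.range = ⊤ := by
    apply addSubgroup_eq_top_of_characters
    intro χ hχ
    obtain ⟨j, rfl⟩ := hφJ χ
    have hb : b1 j = 0 := by
      apply hφC
      rw [map_zero]
      apply CharacterModule.ext
      intro x
      rw [hcomm]
      exact hχ _ (AddSubgroup.mem_sup_right ⟨x, rfl⟩)
    obtain ⟨e, rfl⟩ := hJ1 j hb
    have he : e = 0 := hdual e (fun y hy => hχ y (AddSubgroup.mem_sup_left hy))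
    rw [he, map_zero, map_zero]
  have hy : y ∈ A ⊔ loc.range := by rw [htop]; exact AddSubgroup.mem_top y
  obtain ⟨a, ha, z, ⟨x, rfl⟩, rfl⟩ := AddSubgroup.mem_sup.1 hy
  refine ⟨x, ?_⟩
  have h1 : loc x - (a + loc x) = -a := by abel
  rw [h1]
  exact A.neg_mem ha

/-- `#G = #ker · #range` -/
lemma card_eq_card_ker_mul_card_range {G H : Type*} [AddCommGroup G] [AddCommGroup H]
    (f : G →+ H) : Nat.card G = Nat.card f.ker * Nat.card f.range := by
  rw [← AddSubgroup.index_ker, AddSubgroup.card_mul_index]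

include a1 b1 δ a2 b2 loc φC φJ A in
/-- **The Greenberg–Wiles count, abstract form**: if the dual Selmer group vanishes then
`#Sel · #E1 · #J2 = #A · #E2 · #C2`. -/
theorem card_selmer_mul_eq [Finite E1] [Finite J1] [Finite C1] [Finite E2] [Finite J2] [Finite C2]
    [Finite H1] [Finite L1]
    (hJ1 : ∀ j, b1 j = 0 ↔ ∃ e, a1 e = j) (hC1 : ∀ c, δ c = 0 ↔ ∃ j, b1 j = c)
    (hE2 : ∀ e, a2 e = 0 ↔ ∃ c, δ c = e) (hJ2 : ∀ j, b2 j = 0 ↔ ∃ e, a2 e = j)
    (hC2 : Function.Surjective b2)
    (hφC : Function.Injective φC) (hφJ : Function.Surjective φJ)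
    (hcomm : ∀ j x, φC (b1 j) x = φJ j (loc x))
    (hdual : ∀ e : E1, (∀ y ∈ A, φJ (a1 e) y = 0) → e = 0)
    (hcardC : Nat.card C1 = Nat.card H1) (hcardJ : Nat.card J1 = Nat.card L1) :
    Nat.card (A.comap loc) * Nat.card E1 * Nat.card J2 =
      Nat.card A * Nat.card E2 * Nat.card C2 := by
  -- `a1` is injective
  have ha1 : Function.Injective a1 := by
    rw [injective_iff_map_eq_zero]
    intro e he
    apply hdual
    intro y _
    rw [he, map_zero]
    rfl
  -- the surjection `H1 → L1 / A`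
  let q : H1 →+ L1 ⧸ A := (QuotientAddGroup.mk' A).comp loc
  have hq : Function.Surjective q := by
    intro z
    obtain ⟨y, rfl⟩ := QuotientAddGroup.mk'_surjective A z
    obtain ⟨x, hx⟩ := exists_loc_sub_mem_of_dualSelmer_eq_zero a1 b1 loc φC φJ A
      (fun j hj => (hJ1 j).1 hj) hφC hφJ hcomm hdual y
    refine ⟨x, ?_⟩
    change (QuotientAddGroup.mk' A) (loc x) = (QuotientAddGroup.mk' A) y
    rw [← sub_eq_zero, ← map_sub]
    exact (QuotientAddGroup.eq_zero_iff _).2 hx
  have hqker : q.ker = A.comap loc := by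
    ext x
    rw [AddMonoidHom.mem_ker, AddSubgroup.mem_comap]
    exact QuotientAddGroup.eq_zero_iff (loc x)
  have hqrange : q.range = ⊤ := AddMonoidHom.range_eq_top.2 hq
  have h1 : Nat.card H1 = Nat.card (A.comap loc) * Nat.card (L1 ⧸ A) := by
    rw [card_eq_card_ker_mul_card_range q, hqker, hqrange]
    congr 1
    exact Nat.card_congr AddSubgroup.topEquiv.toEquiv
  have h2 : Nat.card L1 = Nat.card (L1 ⧸ A) * Nat.card A :=
    AddSubgroup.card_eq_card_quotient_mul_card_addSubgroup A
  -- the exact sequence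
  have hb1ker : Nat.card b1.ker = Nat.card E1 := by
    have h3 : b1.ker = a1.range := by
      ext j
      rw [AddMonoidHom.mem_ker, AddMonoidHom.mem_range, hJ1]
    rw [h3]
    exact (Nat.card_congr (AddMonoidHom.ofInjective ha1).toEquiv).symm
  have hδker : Nat.card δ.ker = Nat.card b1.range := by
    have h3 : δ.ker = b1.range := by
      ext c
      rw [AddMonoidHom.mem_ker, AddMonoidHom.mem_range, hC1]
    rw [h3]
  have hδrange : Nat.card δ.range = Nat.card a2.ker := by
    have h3 : δ.range = a2.ker := by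
      ext e
      rw [AddMonoidHom.mem_ker, AddMonoidHom.mem_range, hE2]
    rw [h3]
  have ha2range : Nat.card a2.range = Nat.card b2.ker := by
    have h3 : a2.range = b2.ker := by
      ext j
      rw [AddMonoidHom.mem_ker, AddMonoidHom.mem_range, hJ2]
    rw [h3]
  have hb2range : Nat.card b2.range = Nat.card C2 := by
    rw [AddMonoidHom.range_eq_top.2 hC2]
    exact Nat.card_congr AddSubgroup.topEquiv.toEquiv
  have hJ1c := card_eq_card_ker_mul_card_range b1
  have hC1c := card_eq_card_ker_mul_card_range δ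
  have hE2c := card_eq_card_ker_mul_card_range a2
  have hJ2c := card_eq_card_ker_mul_card_range b2
  rw [hb1ker] at hJ1c
  rw [hδker, hδrange] at hC1c
  rw [ha2range] at hE2c
  rw [hb2range] at hJ2c
  have hrb : 0 < Nat.card b1.range := Nat.card_pos
  have hq0 : 0 < Nat.card (L1 ⧸ A) := Nat.card_pos
  -- arithmetic
  set s := Nat.card (A.comap loc)
  set e1 := Nat.card E1
  set rb := Nat.card b1.range
  set ka := Nat.card a2.ker
  set kb := Nat.card b2.ker
  set c2 := Nat.card C2
  set qa := Nat.card (L1 ⧸ A)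
  set ca := Nat.card A
  -- `rb * ka = s * qa`, `e1 * rb = qa * ca`
  have h3 : rb * ka = s * qa := by rw [← hC1c, hcardC, h1]
  have h4 : e1 * rb = qa * ca := by rw [← hJ1c, hcardJ, h2]
  have h5 : ka * ca = s * e1 := by
    apply Nat.eq_of_mul_eq_mul_left (Nat.mul_pos hrb hq0)
    calc rb * qa * (ka * ca) = (rb * ka) * (qa * ca) := by ring
      _ = (s * qa) * (e1 * rb) := by rw [h3, h4]
      _ = rb * qa * (s * e1) := by ring
  rw [hE2c, hJ2c]
  calc s * e1 * (kb * c2) = (s * e1) * (kb * c2) := by ring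
    _ = (ka * ca) * (kb * c2) := by rw [h5]
    _ = ca * (ka * kb) * c2 := by ring

end SelmerAbs

end Fermat.Agent.CFT.Sm
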