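/-
S56 / CFT — helper9.
The Greenberg–Wiles count for a `PTDatum`: for `X` killed by `p` and local conditions
`L v ≤ H¹(G_v, X)` whose dual Selmer group (inside `Ext¹(X, E)`) vanishes,
* `H¹(Γ, X) → ⊕ H¹(G_v, X) / L v` is surjective, and
* `#Sel_L(X) · #Ext¹(X, E) · ∏ #H⁰(G_v, X) = ∏ #L v · #Ext²(X, E) · #H⁰(Γ, X)`.
-/
import Fermat.Agent.CFT.Sm.PTCount_lead
import Fermat.Agent.CFT.Sm.PTSeq_helper9
import Fermat.Agent.CFT.Sm.SelmerAbs_helper9
import Fermat.Agent.CFT.Sm.RecKer_helper1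

set_option autoImplicit false

open CategoryTheory CategoryTheory.Limits CategoryTheory.Abelian

namespace Fermat.Agent.CFT.Sm

section Selmer

variable {Γ : Type} [Group Γ] {𝒰 : OpenBasis Γ} {p : ℕ} [hp : Fact p.Prime] {ι : Type} [Fintype ι]
  {G : ι → Type} [∀ v, Group (G v)] {ψ : ∀ v, G v →* Γ} {𝒱 : ∀ v, OpenBasis (G v)}

variable (D : PTDatum 𝒰 p ψ 𝒱)

/-- the local pairing `Ext^r(Res_v X, B_v) × Ext^s(𝟙, Res_v X) → ℚ/ℤ`, `s + r = 2` -/
noncomputable def PTDatum.locPairN (v : ι) (X : SmRep ℤ 𝒰) {r s : ℕ} (h : s + r = 2) :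
    Ext ((D.Rv v).obj X) (D.B v) r →+
      CharacterModule (Ext (smUnit ℤ (𝒱 v)) ((D.Rv v).obj X) s) :=
  yPair (smUnit ℤ (𝒱 v)) (D.B v) (tInv (D.B v) (D.locForm v).inv) h ((D.Rv v).obj X)

/-- the global pairing `Ext^r(X, C) × Ext^s(𝟙, X) → ℚ/ℤ`, `s + r = 2` -/
noncomputable def PTDatum.globPairN (X : SmRep ℤ 𝒰) {r s : ℕ} (h : s + r = 2) :
    Ext X D.C r →+ CharacterModule (Ext (smUnit ℤ 𝒰) X s) :=
  yPair (smUnit ℤ 𝒰) D.C (tInv D.C D.form.inv) h X

lemma PTDatum.locPairN_apply (v : ι) (X : SmRep ℤ 𝒰) {r s : ℕ} (h : s + r = 2)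
    (e : Ext ((D.Rv v).obj X) (D.B v) r) (y : Ext (smUnit ℤ (𝒱 v)) ((D.Rv v).obj X) s) :
    D.locPairN v X h e y = tInv (D.B v) (D.locForm v).inv (y.comp e h) := rfl

lemma PTDatum.globPairN_apply (X : SmRep ℤ 𝒰) {r s : ℕ} (h : s + r = 2) (c : Ext X D.C r)
    (x : Ext (smUnit ℤ 𝒰) X s) :
    D.globPairN X h c x = tInv D.C D.form.inv (x.comp c h) := rfl

/-- the key compatibility in all degrees -/
lemma PTDatum.globPairN_incl (u : ι → ℤ)
    (hu : ∀ (v : ι) (z : Ext (smUnit ℤ 𝒰) (D.Cv v) 2), p • z = 0 →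
      D.fInv v z = u v • D.gInv v z)
    (X : SmRep ℤ 𝒰) (hX : ∀ x : X.obj.V, p • x = 0) (v : ι) {r s : ℕ} (h : s + r = 2)
    (j : Ext X (D.Cv v) r) (x : Ext (smUnit ℤ 𝒰) X s) :
    D.globPairN X h (j.comp (Ext.mk₀ (D.incl v ≫ D.π)) (add_zero r)) x =
      u v • D.locPairN v X h (D.tau v X r j) (D.resU v X s x) := by
  rw [D.globPairN_apply, D.locPairN_apply, ← D.tauU_comp, ← D.gInv_apply, ← hu, D.fInv_apply]
  · congr 1
    symm
    exact Ext.comp_assoc_of_third_deg_zero _ _ _ _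
  · rw [← ext_nsmul_comp, ext_nsmul_eq_zero_of_apply p hX x, Ext.zero_comp]

/-- the localisation maps on `Ext^s(𝟙, X)` -/
noncomputable def PTDatum.locN (X : SmRep ℤ 𝒰) (s : ℕ) :
    Ext (smUnit ℤ 𝒰) X s →+ (∀ v, Ext (smUnit ℤ (𝒱 v)) ((D.Rv v).obj X) s) :=
  AddMonoidHom.pi (fun v => D.resU v X s)

lemma PTDatum.locN_apply (X : SmRep ℤ 𝒰) (s : ℕ) (x : Ext (smUnit ℤ 𝒰) X s) (v : ι) :
    D.locN X s x v = D.resU v X s x := rfl

/-- the Selmer group of the local conditions `L` -/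
noncomputable def PTDatum.selmer (X : SmRep ℤ 𝒰)
    (L : ∀ v, AddSubgroup (Ext (smUnit ℤ (𝒱 v)) ((D.Rv v).obj X) 1)) :
    AddSubgroup (Ext (smUnit ℤ 𝒰) X 1) :=
  (AddSubgroup.pi Set.univ L).comap (D.locN X 1)

lemma PTDatum.mem_selmer (X : SmRep ℤ 𝒰)
    (L : ∀ v, AddSubgroup (Ext (smUnit ℤ (𝒱 v)) ((D.Rv v).obj X) 1))
    (x : Ext (smUnit ℤ 𝒰) X 1) : x ∈ D.selmer X L ↔ ∀ v, D.resU v X 1 x ∈ L v := by
  unfold PTDatum.selmer
  rw [AddSubgroup.mem_comap, AddSubgroup.mem_pi]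
  exact ⟨fun h v => h v (Set.mem_univ v), fun h v _ => h v⟩

/-- the dual Selmer group, inside `Ext¹(X, E)` -/
noncomputable def PTDatum.dualSelmer (X : SmRep ℤ 𝒰)
    (L : ∀ v, AddSubgroup (Ext (smUnit ℤ (𝒱 v)) ((D.Rv v).obj X) 1)) :
    AddSubgroup (Ext X D.E 1) where
  carrier := {e | ∀ v, ∀ y ∈ L v, D.locPair v X (D.locExt v X 1 e) y = 0}
  zero_mem' := fun v y _ => by
    rw [map_zero, map_zero]
    rfl
  add_mem' := fun {a b} ha hb v y hy => by
    rw [map_add, map_add]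
    change D.locPair v X (D.locExt v X 1 a) y + D.locPair v X (D.locExt v X 1 b) y = 0
    rw [ha v y hy, hb v y hy, add_zero]
  neg_mem' := fun {a} ha v y hy => by
    rw [map_neg, map_neg]
    change -(D.locPair v X (D.locExt v X 1 a) y) = 0
    rw [ha v y hy, neg_zero]

lemma PTDatum.mem_dualSelmer (X : SmRep ℤ 𝒰)
    (L : ∀ v, AddSubgroup (Ext (smUnit ℤ (𝒱 v)) ((D.Rv v).obj X) 1)) (e : Ext X D.E 1) :
    e ∈ D.dualSelmer X L ↔ ∀ v, ∀ y ∈ L v, D.locPair v X (D.locExt v X 1 e) y = 0 := Iff.rfl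

end Selmer

section Units

variable {p : ℕ} [hp : Fact p.Prime]

/-- on characters of a group killed by `p`, multiplication by a `p`-adic unit is invertible -/
lemma exists_zsmul_inverse (u : ℤ) (hu : ¬ (p : ℤ) ∣ u) :
    ∃ w : ℤ, ∀ {A : Type} [AddCommGroup A] (_ : ∀ a : A, p • a = 0) (χ : CharacterModule A),
      u • (w • χ) = χ ∧ w • (u • χ) = χ := by
  have hcop : IsCoprime u (p : ℤ) :=
    (((Nat.prime_iff_prime_int.1 hp.out).coprime_iff_not_dvd).2 hu).symm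
  obtain ⟨w, t, hwt⟩ := hcop
  refine ⟨w, ?_⟩
  intro A _ hA χ
  have key : (w * u) • χ = χ := by
    apply CharacterModule.ext
    intro y
    have h1 : (p : ℤ) • χ y = 0 := by
      rw [natCast_zsmul, ← map_nsmul, hA y, map_zero]
    have h2 : ((w * u) • χ) y = (w * u) • χ y := rfl
    rw [h2]
    have h3 : w * u = 1 - t * p := by linarith
    rw [h3, sub_smul, one_smul, mul_smul, h1, smul_zero, sub_zero]
  constructor
  · rw [← mul_smul, mul_comm]
    exact key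
  · rw [← mul_smul]
    exact key

end Units

section Dual

variable {Γ : Type} [Group Γ] {𝒰 : OpenBasis Γ} {p : ℕ} [hp : Fact p.Prime] {ι : Type} [Fintype ι]
  {G : ι → Type} [∀ v, Group (G v)] {ψ : ∀ v, G v →* Γ} {𝒱 : ∀ v, OpenBasis (G v)}

variable (D : PTDatum 𝒰 p ψ 𝒱)

open scoped Classical in
/-- the dual of the localisation map: `Ext^r(X, J) → (⊕_v Ext^s(𝟙, Res_v X))^∨` -/
noncomputable def PTDatum.phiJ (u : ι → ℤ) (X : SmRep ℤ 𝒰) {r s : ℕ} (h : s + r = 2) :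
    Ext X D.J r →+ CharacterModule (∀ v, Ext (smUnit ℤ (𝒱 v)) ((D.Rv v).obj X) s) :=
  AddMonoidHom.mk' (fun j => Bridge.sumCharacter (fun v => u v • D.locPairN v X h
      (D.tau v X r (j.comp (Ext.mk₀ (D.proj v)) (add_zero r)))))
    (fun j j' => by
      apply CharacterModule.ext
      intro y
      change Bridge.sumCharacter _ y = Bridge.sumCharacter _ y + Bridge.sumCharacter _ y
      rw [Bridge.sumCharacter_apply, Bridge.sumCharacter_apply, Bridge.sumCharacter_apply,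
        ← Finset.sum_add_distrib]
      refine Finset.sum_congr rfl fun v _ => ?_
      rw [Ext.add_comp, map_add, map_add, smul_add]
      rfl)

lemma PTDatum.phiJ_apply (u : ι → ℤ) (X : SmRep ℤ 𝒰) {r s : ℕ} (h : s + r = 2) (j : Ext X D.J r)
    (y : ∀ v, Ext (smUnit ℤ (𝒱 v)) ((D.Rv v).obj X) s) :
    D.phiJ u X h j y = ∑ v, u v • D.locPairN v X h
      (D.tau v X r (j.comp (Ext.mk₀ (D.proj v)) (add_zero r))) (y v) := by
  classical
  change Bridge.sumCharacter _ y = _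
  rw [Bridge.sumCharacter_apply]
  rfl

/-- `j = ∑_v (proj_v)_* j` composed with the inclusions -/
lemma PTDatum.ext_J_eq_sum_proj_incl (X : SmRep ℤ 𝒰) {r : ℕ} (j : Ext X D.J r) :
    j = ∑ v, (j.comp (Ext.mk₀ (D.proj v)) (add_zero r)).comp (Ext.mk₀ (D.incl v)) (add_zero r) := by
  have h1 : j = j.comp (Ext.mk₀ (∑ v, D.proj v ≫ D.incl v)) (add_zero r) := by
    rw [D.sum, Ext.comp_mk₀_id]
  have h2 : ∀ v, (j.comp (Ext.mk₀ (D.proj v)) (add_zero r)).comp (Ext.mk₀ (D.incl v)) (add_zero r) =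
      j.comp (Ext.mk₀ (D.proj v ≫ D.incl v)) (add_zero r) := by
    intro v
    rw [Ext.comp_assoc_of_third_deg_zero, Ext.mk₀_comp_mk₀]
  rw [Finset.sum_congr rfl fun v _ => h2 v, ← Ext.comp_sum, ← Ext.mk₀_sum]
  exact h1

/-- the commutativity: `Ext^r(X, J) → Ext^r(X, C)` is dual to localisation -/
lemma PTDatum.globPairN_comp_π (u : ι → ℤ)
    (hu : ∀ (v : ι) (z : Ext (smUnit ℤ 𝒰) (D.Cv v) 2), p • z = 0 →
      D.fInv v z = u v • D.gInv v z)
    (X : SmRep ℤ 𝒰) (hX : ∀ x : X.obj.V, p • x = 0) {r s : ℕ} (h : s + r = 2)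
    (j : Ext X D.J r) (x : Ext (smUnit ℤ 𝒰) X s) :
    D.globPairN X h (j.comp (Ext.mk₀ D.π) (add_zero r)) x = D.phiJ u X h j (D.locN X s x) := by
  have h1 : j.comp (Ext.mk₀ D.π) (add_zero r) =
      ∑ v, (j.comp (Ext.mk₀ (D.proj v)) (add_zero r)).comp (Ext.mk₀ (D.incl v ≫ D.π))
        (add_zero r) := by
    conv_lhs => rw [D.ext_J_eq_sum_proj_incl X j]
    rw [Ext.sum_comp]
    refine Finset.sum_congr rfl fun v _ => ?_
    rw [Ext.comp_assoc_of_third_deg_zero, Ext.mk₀_comp_mk₀]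
  rw [h1, map_sum, D.phiJ_apply]
  have h2 : (∑ v, D.globPairN X h ((j.comp (Ext.mk₀ (D.proj v)) (add_zero r)).comp
      (Ext.mk₀ (D.incl v ≫ D.π)) (add_zero r))) x =
      ∑ v, D.globPairN X h ((j.comp (Ext.mk₀ (D.proj v)) (add_zero r)).comp
        (Ext.mk₀ (D.incl v ≫ D.π)) (add_zero r)) x := characterModule_sum_apply _ x
  rw [h2]
  refine Finset.sum_congr rfl fun v _ => ?_
  rw [D.globPairN_incl u hu X hX v h, D.locN_apply]

/-- evaluation of `phiJ` at a vector supported at `v` -/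
lemma PTDatum.phiJ_apply_single (u : ι → ℤ) (X : SmRep ℤ 𝒰) {r s : ℕ} (h : s + r = 2)
    (j : Ext X D.J r) (v : ι) (y : Ext (smUnit ℤ (𝒱 v)) ((D.Rv v).obj X) s) :
    D.phiJ u X h j (by classical exact Pi.single v y) = u v • D.locPairN v X h
      (D.tau v X r (j.comp (Ext.mk₀ (D.proj v)) (add_zero r))) y := by
  classical
  rw [D.phiJ_apply]
  rw [Finset.sum_eq_single v]
  · rw [Pi.single_eq_same]
  · intro w _ hw
    rw [Pi.single_eq_of_ne hw, map_zero, smul_zero]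
  · intro hv
    exact absurd (Finset.mem_univ v) hv

include hp in
lemma PTDatum.phiJ_injective (u : ι → ℤ) (hu' : ∀ v, ¬ (p : ℤ) ∣ u v)
    (X : SmRep ℤ 𝒰) (hX : ∀ x : X.obj.V, p • x = 0) {r s : ℕ} (h : s + r = 2)
    (hLinj : ∀ v, Function.Injective (D.locPairN v X h))
    (hτinj : ∀ v, Function.Injective (D.tau v X r)) :
    Function.Injective (D.phiJ u X h) := by
  classical
  rw [injective_iff_map_eq_zero]
  intro j hj
  have h1 : ∀ v, j.comp (Ext.mk₀ (D.proj v)) (add_zero r) = 0 := by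
    intro v
    apply hτinj v
    rw [map_zero]
    apply hLinj v
    rw [map_zero]
    obtain ⟨w, hw⟩ := exists_zsmul_inverse (p := p) (u v) (hu' v)
    have hA : ∀ a : Ext (smUnit ℤ (𝒱 v)) ((D.Rv v).obj X) s, p • a = 0 := fun a =>
      ext_nsmul_eq_zero_of_apply (X := (D.Rv v).obj X) p hX a
    have h2 : u v • D.locPairN v X h
        (D.tau v X r (j.comp (Ext.mk₀ (D.proj v)) (add_zero r))) = 0 := by
      apply CharacterModule.ext
      intro y
      have h3 := D.phiJ_apply_single u X h j v y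
      rw [hj] at h3
      exact h3.symm
    have h4 := (hw hA (D.locPairN v X h
      (D.tau v X r (j.comp (Ext.mk₀ (D.proj v)) (add_zero r))))).2
    rw [h2, smul_zero] at h4
    exact h4.symm
  rw [D.ext_J_eq_sum_proj_incl X j]
  apply Finset.sum_eq_zero
  intro v _
  rw [h1 v, Ext.zero_comp]

include hp in
lemma PTDatum.phiJ_surjective (u : ι → ℤ) (hu' : ∀ v, ¬ (p : ℤ) ∣ u v)
    (horth1 : ∀ v, D.incl v ≫ D.proj v = 𝟙 _)
    (horth2 : ∀ v w, v ≠ w → D.incl v ≫ D.proj w = 0)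
    (X : SmRep ℤ 𝒰) (hX : ∀ x : X.obj.V, p • x = 0) {r s : ℕ} (h : s + r = 2)
    (hLsurj : ∀ v, Function.Surjective (D.locPairN v X h))
    (hτsurj : ∀ v, Function.Surjective (D.tau v X r)) :
    Function.Surjective (D.phiJ u X h) := by
  classical
  intro χ
  obtain ⟨χv, rfl⟩ := Bridge.sumCharacter_surjective χ
  have hv : ∀ v, ∃ j : Ext X (D.Cv v) r, u v • D.locPairN v X h (D.tau v X r j) = χv v := by
    intro v
    obtain ⟨w, hw⟩ := exists_zsmul_inverse (p := p) (u v) (hu' v)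
    have hA : ∀ a : Ext (smUnit ℤ (𝒱 v)) ((D.Rv v).obj X) s, p • a = 0 := fun a =>
      ext_nsmul_eq_zero_of_apply (X := (D.Rv v).obj X) p hX a
    obtain ⟨e, he⟩ := hLsurj v (w • χv v)
    obtain ⟨j, hj⟩ := hτsurj v e
    refine ⟨j, ?_⟩
    rw [hj, he]
    exact (hw hA _).1
  choose jv hjv using hv
  refine ⟨∑ w, (jv w).comp (Ext.mk₀ (D.incl w)) (add_zero r), ?_⟩
  have h1 : ∀ v, (∑ w, (jv w).comp (Ext.mk₀ (D.incl w)) (add_zero r)).comp
      (Ext.mk₀ (D.proj v)) (add_zero r) = jv v := by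
    intro v
    rw [Ext.sum_comp, Finset.sum_eq_single v]
    · rw [Ext.comp_assoc_of_third_deg_zero, Ext.mk₀_comp_mk₀, horth1, Ext.comp_mk₀_id]
    · intro w _ hw
      rw [Ext.comp_assoc_of_third_deg_zero, Ext.mk₀_comp_mk₀, horth2 w v hw, Ext.mk₀_zero,
        Ext.comp_zero]
    · intro hv
      exact absurd (Finset.mem_univ v) hv
  apply CharacterModule.ext
  intro y
  rw [D.phiJ_apply, Bridge.sumCharacter_apply]
  refine Finset.sum_congr rfl fun v _ => ?_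
  rw [h1 v, ← hjv v]
  rfl

/-- restriction is injective on `Ext⁰(𝟙, X) = X^Γ` -/
lemma PTDatum.resU_zero_injective (v : ι) (X : SmRep ℤ 𝒰) :
    Function.Injective (D.resU v X 0) := by
  rw [injective_iff_map_eq_zero]
  intro x hx
  obtain ⟨f, rfl⟩ := Ext.addEquiv₀.symm.surjective x
  change ((Ext.mk₀ f).mapExactFunctor (D.Rv v)) = 0 at hx
  rw [Ext.mapExactFunctor_mk₀, Ext.mk₀_eq_zero_iff] at hx
  have h1 : f = 0 := (D.Rv v).map_injective (hx.trans ((D.Rv v).map_zero _ _).symm)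
  change Ext.mk₀ f = 0
  rw [h1, Ext.mk₀_zero]

end Dual

section Main

variable {Γ : Type} [Group Γ] {𝒰 : OpenBasis Γ} {p : ℕ} [hp : Fact p.Prime] {ι : Type} [Fintype ι]
  {G : ι → Type} [∀ v, Group (G v)] {ψ : ∀ v, G v →* Γ} {𝒱 : ∀ v, OpenBasis (G v)}

variable (D : PTDatum 𝒰 p ψ 𝒱)

/-- the vanishing of the dual Selmer group in the form used by the abstract count -/
lemma PTDatum.eq_zero_of_phiJ_vanishes (u : ι → ℤ) (hu' : ∀ v, ¬ (p : ℤ) ∣ u v)
    (X : SmRep ℤ 𝒰) (hX : ∀ x : X.obj.V, p • x = 0)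
    (L : ∀ v, AddSubgroup (Ext (smUnit ℤ (𝒱 v)) ((D.Rv v).obj X) 1))
    (hdual : D.dualSelmer X L = ⊥) (e : Ext X D.E 1)
    (he : ∀ y ∈ AddSubgroup.pi Set.univ L,
      D.phiJ u X (show 1 + 1 = 2 from rfl) (e.comp (Ext.mk₀ D.i) (add_zero 1)) y = 0) : e = 0 := by
  classical
  have h1 : e ∈ D.dualSelmer X L := by
    rw [D.mem_dualSelmer]
    intro v y hy
    have h2 : (Pi.single v y : ∀ w, Ext (smUnit ℤ (𝒱 w)) ((D.Rv w).obj X) 1) ∈
        AddSubgroup.pi Set.univ L := by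
      rw [AddSubgroup.mem_pi]
      intro w _
      by_cases hw : w = v
      · subst hw
        rw [Pi.single_eq_same]
        exact hy
      · rw [Pi.single_eq_of_ne hw]
        exact (L w).zero_mem
    have h3 := he _ h2
    have h3' := D.phiJ_apply_single u X (show 1 + 1 = 2 from rfl)
      (e.comp (Ext.mk₀ D.i) (add_zero 1)) v y
    have h3'' : D.phiJ u X (show 1 + 1 = 2 from rfl) (e.comp (Ext.mk₀ D.i) (add_zero 1))
        (Pi.single v y) = 0 := h3
    rw [Ext.comp_assoc_of_third_deg_zero, Ext.mk₀_comp_mk₀, ← D.locExt_eq_tau] at h3'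
    obtain ⟨w, hw⟩ := exists_zsmul_inverse (p := p) (u v) (hu' v)
    have hA : ∀ a : Ext (smUnit ℤ (𝒱 v)) ((D.Rv v).obj X) 1, p • a = 0 := fun a =>
      ext_nsmul_eq_zero_of_apply (X := (D.Rv v).obj X) p hX a
    have h4 := (hw hA (D.locPairN v X (show 1 + 1 = 2 from rfl) (D.locExt v X 1 e))).2
    have h5 : (u v • D.locPairN v X (show 1 + 1 = 2 from rfl) (D.locExt v X 1 e)) y = 0 := by
      refine Eq.trans ?_ h3''
      refine Eq.trans ?_ h3'.symm
      rfl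
    have h6 : D.locPairN v X (show 1 + 1 = 2 from rfl) (D.locExt v X 1 e) y =
        (w • (u v • D.locPairN v X (show 1 + 1 = 2 from rfl) (D.locExt v X 1 e))) y := by
      rw [h4]
    have h7 : (w • (u v • D.locPairN v X (show 1 + 1 = 2 from rfl) (D.locExt v X 1 e))) y =
        w • (u v • D.locPairN v X (show 1 + 1 = 2 from rfl) (D.locExt v X 1 e)) y := rfl
    change D.locPairN v X (show 1 + 1 = 2 from rfl) (D.locExt v X 1 e) y = 0
    rw [h6, h7, h5, smul_zero]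
  rw [hdual] at h1
  exact (AddSubgroup.mem_bot).1 h1

/-- **Poitou–Tate with local conditions**: if the dual Selmer group vanishes, every family of
local classes is, modulo the local conditions, the localisation of a global class. -/
theorem PTDatum.exists_global_class (X : SmRep ℤ 𝒰) (hX : ∀ x : X.obj.V, p • x = 0)
    (L : ∀ v, AddSubgroup (Ext (smUnit ℤ (𝒱 v)) ((D.Rv v).obj X) 1))
    (horth1 : ∀ v, D.incl v ≫ D.proj v = 𝟙 _)
    (horth2 : ∀ v w, v ≠ w → D.incl v ≫ D.proj w = 0)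
    (hG1 : Function.Injective (D.globPairN X (show 1 + 1 = 2 from rfl)))
    (hL1 : ∀ v, Function.Surjective (D.locPairN v X (show 1 + 1 = 2 from rfl)))
    (hCF1 : ∀ v, Function.Surjective (D.tau v X 1))
    (hCF2 : ∀ v, Function.Injective (D.tau v (smUnit ℤ 𝒰) 2))
    (hdual : D.dualSelmer X L = ⊥)
    (y : ∀ v, Ext (smUnit ℤ (𝒱 v)) ((D.Rv v).obj X) 1) :
    ∃ x : Ext (smUnit ℤ 𝒰) X 1, ∀ v, D.resU v X 1 x - y v ∈ L v := by
  obtain ⟨u, hu', hu⟩ := D.exists_units hCF2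
  obtain ⟨x, hx⟩ := exists_loc_sub_mem_of_dualSelmer_eq_zero
    ((Ext.mk₀ D.i).postcomp X (add_zero 1)) ((Ext.mk₀ D.π).postcomp X (add_zero 1))
    (D.locN X 1) (D.globPairN X (show 1 + 1 = 2 from rfl))
    (D.phiJ u X (show 1 + 1 = 2 from rfl)) (AddSubgroup.pi Set.univ L)
    (fun j hj => (ext_exact_at_middle D.i D.π p D.i_inj D.comp_zero D.exact D.coker_div
      D.coker_tor X hX 0 j).1 hj)
    hG1 (D.phiJ_surjective u hu' horth1 horth2 X hX _ hL1 hCF1)
    (fun j x => D.globPairN_comp_π u hu X hX _ j x)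
    (fun e he => D.eq_zero_of_phiJ_vanishes u hu' X hX L hdual e he) y
  refine ⟨x, fun v => ?_⟩
  rw [AddSubgroup.mem_pi] at hx
  exact hx v (Set.mem_univ v)

include hp in
/-- `Ext²(X, J) → Ext²(X, C)` is surjective (dual to the injection `X^Γ → ⊕ X^{G_v}`). -/
theorem PTDatum.postcomp_π_two_surjective [Nonempty ι] (X : SmRep ℤ 𝒰)
    (hX : ∀ x : X.obj.V, p • x = 0)
    (horth1 : ∀ v, D.incl v ≫ D.proj v = 𝟙 _)
    (horth2 : ∀ v w, v ≠ w → D.incl v ≫ D.proj w = 0)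
    (hG2 : Function.Injective (D.globPairN X (show 0 + 2 = 2 from rfl)))
    (hL2 : ∀ v, Function.Surjective (D.locPairN v X (show 0 + 2 = 2 from rfl)))
    (hCF2s : ∀ v, Function.Surjective (D.tau v X 2))
    (hCF2 : ∀ v, Function.Injective (D.tau v (smUnit ℤ 𝒰) 2)) :
    Function.Surjective ((Ext.mk₀ D.π).postcomp X (add_zero 2)) := by
  obtain ⟨u, hu', hu⟩ := D.exists_units hCF2
  intro c
  have hloc0 : ∀ x, D.locN X 0 x = 0 → x = 0 := by
    intro x hx
    obtain ⟨v⟩ := (inferInstance : Nonempty ι)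
    apply D.resU_zero_injective v X
    rw [map_zero]
    exact congrFun hx v
  obtain ⟨χ, hχ⟩ := Bridge.exists_character_comp_eq (D.locN X 0)
    (D.globPairN X (show 0 + 2 = 2 from rfl) c) (fun x hx => by
      rw [hloc0 x hx, map_zero])
  obtain ⟨j, hj⟩ := D.phiJ_surjective u hu' horth1 horth2 X hX (show 0 + 2 = 2 from rfl) hL2 hCF2s χ
  refine ⟨j, ?_⟩
  apply hG2
  apply CharacterModule.ext
  intro x
  change D.globPairN X (show 0 + 2 = 2 from rfl) (j.comp (Ext.mk₀ D.π) (add_zero 2)) x = _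
  rw [D.globPairN_comp_π u hu X hX, hj, hχ]

/-- finiteness of the character module of a finite group killed by `p` -/
lemma finite_characterModule_of_nsmul_eq_zero (p : ℕ) [hp : Fact p.Prime] {V : Type*}
    [AddCommGroup V] [Finite V] (h : ∀ v : V, p • v = 0) : Finite (CharacterModule V) := by
  apply Nat.finite_of_card_ne_zero
  rw [card_characterModule_of_nsmul_eq_zero h]
  exact Nat.card_pos.ne'

lemma card_addSubgroup_pi {κ : Type} [Fintype κ] {M : κ → Type*} [∀ i, AddCommGroup (M i)]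
    (L : ∀ i, AddSubgroup (M i)) :
    Nat.card (AddSubgroup.pi Set.univ L) = ∏ i, Nat.card (L i) := by
  rw [← Nat.card_pi]
  apply Nat.card_congr
  exact
    { toFun := fun f i => ⟨f.1 i, (AddSubgroup.mem_pi _).1 f.2 i (Set.mem_univ i)⟩
      invFun := fun g => ⟨fun i => (g i).1, (AddSubgroup.mem_pi _).2 fun i _ => (g i).2⟩
      left_inv := fun f => rfl
      right_inv := fun g => rfl }

/-- **The Greenberg–Wiles count for a Poitou–Tate datum.** -/
theorem PTDatum.card_selmer_formula [Nonempty ι] (X : SmRep ℤ 𝒰) (hX : ∀ x : X.obj.V, p • x = 0)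
    (L : ∀ v, AddSubgroup (Ext (smUnit ℤ (𝒱 v)) ((D.Rv v).obj X) 1))
    [Finite (Ext (smUnit ℤ 𝒰) X 1)] [Finite (Ext (smUnit ℤ 𝒰) X 0)]
    [∀ v, Finite (Ext (smUnit ℤ (𝒱 v)) ((D.Rv v).obj X) 1)]
    [∀ v, Finite (Ext (smUnit ℤ (𝒱 v)) ((D.Rv v).obj X) 0)]
    [Finite (Ext X D.E 1)] [Finite (Ext X D.E 2)]
    (horth1 : ∀ v, D.incl v ≫ D.proj v = 𝟙 _)
    (horth2 : ∀ v w, v ≠ w → D.incl v ≫ D.proj w = 0)
    (hG1 : Function.Bijective (D.globPairN X (show 1 + 1 = 2 from rfl)))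
    (hG2 : Function.Bijective (D.globPairN X (show 0 + 2 = 2 from rfl)))
    (hL1 : ∀ v, Function.Bijective (D.locPairN v X (show 1 + 1 = 2 from rfl)))
    (hL2 : ∀ v, Function.Bijective (D.locPairN v X (show 0 + 2 = 2 from rfl)))
    (hCF1 : ∀ v, Function.Bijective (D.tau v X 1))
    (hCF2b : ∀ v, Function.Bijective (D.tau v X 2))
    (hCF2 : ∀ v (Y : SmRep ℤ 𝒰), Function.Injective (D.tau v Y 2))
    (hdual : D.dualSelmer X L = ⊥) :
    Nat.card (D.selmer X L) * Nat.card (Ext X D.E 1) *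
        ∏ v, Nat.card (Ext (smUnit ℤ (𝒱 v)) ((D.Rv v).obj X) 0) =
      (∏ v, Nat.card (L v)) * Nat.card (Ext X D.E 2) * Nat.card (Ext (smUnit ℤ 𝒰) X 0) := by
  classical
  obtain ⟨u, hu', hu⟩ := D.exists_units (fun v => hCF2 v _)
  obtain ⟨δ, hδ1, hδ2⟩ := exists_ext_connecting D.i D.π p D.i_inj D.comp_zero D.exact D.coker_div
    D.coker_tor X hX
  -- torsion
  have hH1 : ∀ a : Ext (smUnit ℤ 𝒰) X 1, p • a = 0 := fun a => ext_nsmul_eq_zero_of_apply p hX a
  have hH0 : ∀ a : Ext (smUnit ℤ 𝒰) X 0, p • a = 0 := fun a => ext_nsmul_eq_zero_of_apply p hX a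
  have hL1t : ∀ a : (∀ v, Ext (smUnit ℤ (𝒱 v)) ((D.Rv v).obj X) 1), p • a = 0 := fun a => by
    funext v
    exact ext_nsmul_eq_zero_of_apply (X := (D.Rv v).obj X) p hX (a v)
  have hL0t : ∀ a : (∀ v, Ext (smUnit ℤ (𝒱 v)) ((D.Rv v).obj X) 0), p • a = 0 := fun a => by
    funext v
    exact ext_nsmul_eq_zero_of_apply (X := (D.Rv v).obj X) p hX (a v)
  -- the dual maps
  have hφJ1 : Function.Bijective (D.phiJ u X (show 1 + 1 = 2 from rfl)) :=
    ⟨D.phiJ_injective u hu' X hX _ (fun v => (hL1 v).1) (fun v => (hCF1 v).1),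
      D.phiJ_surjective u hu' horth1 horth2 X hX _ (fun v => (hL1 v).2) (fun v => (hCF1 v).2)⟩
  have hφJ2 : Function.Bijective (D.phiJ u X (show 0 + 2 = 2 from rfl)) :=
    ⟨D.phiJ_injective u hu' X hX _ (fun v => (hL2 v).1) (fun v => (hCF2b v).1),
      D.phiJ_surjective u hu' horth1 horth2 X hX _ (fun v => (hL2 v).2) (fun v => (hCF2b v).2)⟩
  -- finiteness
  have : Finite (CharacterModule (Ext (smUnit ℤ 𝒰) X 1)) :=
    finite_characterModule_of_nsmul_eq_zero p hH1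
  have : Finite (CharacterModule (Ext (smUnit ℤ 𝒰) X 0)) :=
    finite_characterModule_of_nsmul_eq_zero p hH0
  have : Finite (CharacterModule (∀ v, Ext (smUnit ℤ (𝒱 v)) ((D.Rv v).obj X) 1)) :=
    finite_characterModule_of_nsmul_eq_zero p hL1t
  have : Finite (CharacterModule (∀ v, Ext (smUnit ℤ (𝒱 v)) ((D.Rv v).obj X) 0)) :=
    finite_characterModule_of_nsmul_eq_zero p hL0t
  have : Finite (Ext X D.C 1) := Finite.of_injective _ hG1.1
  have : Finite (Ext X D.C 2) := Finite.of_injective _ hG2.1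
  have : Finite (Ext X D.J 1) := Finite.of_injective _ hφJ1.1
  have : Finite (Ext X D.J 2) := Finite.of_injective _ hφJ2.1
  -- cardinalities
  have hcardC1 : Nat.card (Ext X D.C 1) = Nat.card (Ext (smUnit ℤ 𝒰) X 1) := by
    rw [Nat.card_congr (Equiv.ofBijective _ hG1), card_characterModule_of_nsmul_eq_zero hH1]
  have hcardC2 : Nat.card (Ext X D.C 2) = Nat.card (Ext (smUnit ℤ 𝒰) X 0) := by
    rw [Nat.card_congr (Equiv.ofBijective _ hG2), card_characterModule_of_nsmul_eq_zero hH0]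
  have hcardJ1 : Nat.card (Ext X D.J 1) =
      Nat.card (∀ v, Ext (smUnit ℤ (𝒱 v)) ((D.Rv v).obj X) 1) := by
    rw [Nat.card_congr (Equiv.ofBijective _ hφJ1), card_characterModule_of_nsmul_eq_zero hL1t]
  have hcardJ2 : Nat.card (Ext X D.J 2) =
      ∏ v, Nat.card (Ext (smUnit ℤ (𝒱 v)) ((D.Rv v).obj X) 0) := by
    rw [Nat.card_congr (Equiv.ofBijective _ hφJ2), card_characterModule_of_nsmul_eq_zero hL0t,
      Nat.card_pi]
  have hmain := card_selmer_mul_eq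
    ((Ext.mk₀ D.i).postcomp X (add_zero 1)) ((Ext.mk₀ D.π).postcomp X (add_zero 1)) δ
    ((Ext.mk₀ D.i).postcomp X (add_zero 2)) ((Ext.mk₀ D.π).postcomp X (add_zero 2))
    (D.locN X 1) (D.globPairN X (show 1 + 1 = 2 from rfl))
    (D.phiJ u X (show 1 + 1 = 2 from rfl)) (AddSubgroup.pi Set.univ L)
    (fun j => ext_exact_at_middle D.i D.π p D.i_inj D.comp_zero D.exact D.coker_div
      D.coker_tor X hX 0 j)
    hδ1 hδ2
    (fun j => ext_exact_at_middle D.i D.π p D.i_inj D.comp_zero D.exact D.coker_div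
      D.coker_tor X hX 1 j)
    (D.postcomp_π_two_surjective X hX horth1 horth2 hG2.1 (fun v => (hL2 v).2)
      (fun v => (hCF2b v).2) (fun v => hCF2 v _))
    hG1.1 hφJ1.2 (fun j x => D.globPairN_comp_π u hu X hX _ j x)
    (fun e he => D.eq_zero_of_phiJ_vanishes u hu' X hX L hdual e he)
    hcardC1 hcardJ1
  rw [hcardJ2, hcardC2, card_addSubgroup_pi] at hmain
  exact hmain

end Main

end Fermat.Agent.CFT.Sm
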